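/-
S37 helper (helper65): "BOUNDED ⇒ MULTIPLE OF DEGREE".

`F/K` a function field in the Prelude `Place`/`Divisor` language, all places of degree `1`, principal
divisors exist, and every divisor of degree `≥ g` has a nonzero section (Riemann's inequality).

* `apply_single_eq` : an additive functional `μ : Divisor K F →+ ℤ` which kills principal divisors
  and is bounded on places takes the same value on all places;
* `eq_mul_degree`  : hence `μ D = μ P₀ * deg D`;
* `map_eq_zero_of_degree_eq_zero` : an additive map `δ : Divisor K F →+ (ι →₀ ℤ)` (e.g. into the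
  divisors of another function field) which kills principal divisors and has uniformly bounded
  coefficients on places vanishes on divisors of degree `0`.

Intended use (S37): `δ = r_* ∘ τ - r_*`, `δ = r_* ∘ s - Φ ∘ r_*`, `δ = r_* ∘ T_ℓ - (Φ + ℓ Φ⁻¹) ∘ r_*`:
the conservation law on PRINCIPAL divisors gives inertia-invariance, Frobenius-equivariance and the
Eichler–Shimura congruence of the reduction map on all of `Pic⁰`.
-/
import Mathlib
import Fermat.Prelude.Def_AlgebraicCurve_Repartitions

set_option autoImplicit false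

open AlgebraicCurve

namespace Fermat.Agent.S37.Bounded65

variable {K F : Type*} [Field K] [Field F] [Algebra K F]

/-- Every divisor of degree `≥ g` has a nonzero section (consequence of Riemann's inequality). -/
def HasSections (K F : Type*) [Field K] [Field F] [Algebra K F] (g : ℕ) : Prop :=
  ∀ G : Divisor K F, (g : ℤ) ≤ Divisor.degree G →
    ∃ f : F, f ≠ 0 ∧ ∀ v : Place K F, -G v ≤ v.ord f

/-- Riemann's inequality (in `finrank` form) gives `HasSections`. -/
theorem hasSections_of_riemann (g : ℕ)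
    (h : ∀ G : Divisor K F,
      Divisor.degree G + 1 - (g : ℤ) ≤ (Module.finrank K (riemannRochSpace G) : ℤ)) :
    HasSections K F g := by
  intro G hG
  have hpos : 0 < Module.finrank K (riemannRochSpace G) := by
    have := h G
    have h1 : (1 : ℤ) ≤ (Module.finrank K (riemannRochSpace G) : ℤ) := by linarith
    exact_mod_cast h1
  have : Nontrivial (riemannRochSpace G) := Module.nontrivial_of_finrank_pos hpos
  obtain ⟨⟨f, hf⟩, hf0⟩ := exists_ne (0 : riemannRochSpace G)
  have hf0' : f ≠ 0 := fun h0 => hf0 (Subtype.ext h0)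
  refine ⟨f, hf0', fun v => ?_⟩
  rcases (mem_riemannRochSpace_iff.mp hf) v with h0 | h0
  · exact absurd h0 hf0'
  · exact h0

/-- An additive functional on divisors as a finite sum over places. -/
theorem map_eq_sum (μ : Divisor K F →+ ℤ) (D : Divisor K F) :
    μ D = D.sum fun v n => n * μ (Finsupp.single v 1) := by
  conv_lhs => rw [← Finsupp.sum_single D]
  rw [map_finsuppSum]
  refine Finsupp.sum_congr fun v _ => ?_
  have h1 : (Finsupp.single v (D v) : Divisor K F) = (D v) • Finsupp.single v (1 : ℤ) := by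
    rw [Finsupp.smul_single, smul_eq_mul, mul_one]
  rw [h1, map_zsmul, smul_eq_mul]

theorem degree_eq_sum (D : Divisor K F) :
    Divisor.degree D = D.sum fun v n => n * (v.deg : ℤ) := by
  simp [Divisor.degree, Finsupp.liftAddHom_apply]

theorem degree_eq_sum_of_deg_one (hdeg : ∀ v : Place K F, v.deg = 1) (D : Divisor K F) :
    Divisor.degree D = D.sum fun _ n => n := by
  rw [degree_eq_sum]
  refine Finsupp.sum_congr fun v _ => ?_
  rw [hdeg v]; simp

/-- Bound of a bounded functional on an effective divisor. -/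
theorem abs_map_le (hdeg : ∀ v : Place K F, v.deg = 1) (μ : Divisor K F →+ ℤ) (C : ℤ)
    (hC : ∀ v : Place K F, |μ (Finsupp.single v 1)| ≤ C) (R : Divisor K F)
    (hR : ∀ v, 0 ≤ R v) : |μ R| ≤ C * Divisor.degree R := by
  rw [map_eq_sum μ R, degree_eq_sum_of_deg_one hdeg R, Finsupp.sum, Finsupp.sum, Finset.mul_sum]
  refine (Finset.abs_sum_le_sum_abs _ _).trans (Finset.sum_le_sum fun v _ => ?_)
  rw [abs_mul, abs_of_nonneg (hR v), mul_comm C]
  exact mul_le_mul_of_nonneg_left (hC v) (hR v)

/-- **Lemma B.** A bounded additive functional on divisors which kills principal divisors takes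
the same value on all places. -/
theorem apply_single_eq [HasPrincipalDivisors K F] (g : ℕ) (hsec : HasSections K F g)
    (hdeg : ∀ v : Place K F, v.deg = 1)
    (μ : Divisor K F →+ ℤ) (hμ : ∀ D ∈ Divisor.principal (K := K) (F := F), μ D = 0)
    (C : ℤ) (hC : ∀ v : Place K F, |μ (Finsupp.single v 1)| ≤ C) (P₀ P : Place K F) :
    μ (Finsupp.single P 1) = μ (Finsupp.single P₀ 1) := by
  by_contra hne
  set a := μ (Finsupp.single P 1) with ha
  set a₀ := μ (Finsupp.single P₀ 1) with ha₀
  have hC0 : 0 ≤ C := (abs_nonneg _).trans (hC P)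
  -- a large `n`
  obtain ⟨N, hN⟩ : ∃ N : ℕ, C * g + g * |a| < (N : ℤ) := by
    refine ⟨(C * g + g * |a| + 1).toNat, ?_⟩
    have : 0 ≤ C * g + g * |a| + 1 := by positivity
    rw [Int.toNat_of_nonneg this]; linarith
  set n : ℕ := g + N with hn
  -- the divisor `G = n P₀ - (n - g) P`
  set G : Divisor K F := Finsupp.single P₀ (n : ℤ) - Finsupp.single P ((n : ℤ) - g) with hG
  have hGdeg : Divisor.degree G = g := by
    rw [hG, map_sub, Divisor.degree_single, Divisor.degree_single, hdeg, hdeg]
    push_cast; ring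
  obtain ⟨f, hf0, hf⟩ := hsec G (le_of_eq hGdeg.symm)
  obtain ⟨Df, hDf, hDfdeg⟩ := HasPrincipalDivisors.exists_divisor (K := K) f hf0
  have hDfprin : Df ∈ Divisor.principal (K := K) (F := F) := ⟨f, hf0, hDf⟩
  set R : Divisor K F := Df + G with hR
  have hRnonneg : ∀ v, 0 ≤ R v := by
    intro v
    rw [hR, Finsupp.add_apply, hDf v]
    have := hf v
    linarith
  have hRdeg : Divisor.degree R = g := by rw [hR, map_add, hDfdeg, hGdeg, zero_add]
  have hμR : μ R = (n : ℤ) * a₀ - ((n : ℤ) - g) * a := by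
    rw [hR, map_add, hμ Df hDfprin, zero_add, hG, map_sub]
    have e1 : (Finsupp.single P₀ (n : ℤ) : Divisor K F) = (n : ℤ) • Finsupp.single P₀ (1 : ℤ) := by
      rw [Finsupp.smul_single, smul_eq_mul, mul_one]
    have e2 : (Finsupp.single P ((n : ℤ) - g) : Divisor K F)
        = ((n : ℤ) - g) • Finsupp.single P (1 : ℤ) := by
      rw [Finsupp.smul_single, smul_eq_mul, mul_one]
    rw [e1, e2, map_zsmul, map_zsmul, smul_eq_mul, smul_eq_mul]
  have hbound := abs_map_le hdeg μ C hC R hRnonneg
  rw [hRdeg, hμR] at hbound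
  -- `|n (a₀ - a) + g a| ≤ C g`, `|a₀ - a| ≥ 1`, `n > C g + g |a|`
  have h1 : (1 : ℤ) ≤ |a₀ - a| := by
    have : a₀ - a ≠ 0 := fun h => hne (by linarith)
    exact Int.one_le_abs this
  have h2 : (n : ℤ) * |a₀ - a| ≤ C * g + g * |a| := by
    have e : (n : ℤ) * (a₀ - a) = ((n : ℤ) * a₀ - ((n : ℤ) - g) * a) - g * a := by ring
    have h3 : |(n : ℤ) * (a₀ - a)| ≤ C * g + g * |a| := by
      rw [e]
      refine (abs_sub _ _).trans ?_
      have : |(g : ℤ) * a| = g * |a| := by rw [abs_mul, abs_of_nonneg (by positivity : (0:ℤ) ≤ g)]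
      rw [this]; linarith
    rwa [abs_mul, abs_of_nonneg (by positivity : (0:ℤ) ≤ n)] at h3
  have h4 : (n : ℤ) ≤ (n : ℤ) * |a₀ - a| := by
    have : (0 : ℤ) ≤ n := by positivity
    nlinarith
  have h5 : (N : ℤ) ≤ n := by rw [hn]; push_cast; linarith [(by positivity : (0:ℤ) ≤ g)]
  linarith

/-- **Lemma B, degree form.** -/
theorem eq_mul_degree [HasPrincipalDivisors K F] (g : ℕ) (hsec : HasSections K F g)
    (hdeg : ∀ v : Place K F, v.deg = 1)
    (μ : Divisor K F →+ ℤ) (hμ : ∀ D ∈ Divisor.principal (K := K) (F := F), μ D = 0)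
    (C : ℤ) (hC : ∀ v : Place K F, |μ (Finsupp.single v 1)| ≤ C) (P₀ : Place K F)
    (D : Divisor K F) : μ D = μ (Finsupp.single P₀ 1) * Divisor.degree D := by
  rw [map_eq_sum μ D, degree_eq_sum_of_deg_one hdeg D, Finsupp.sum, Finsupp.sum, Finset.mul_sum]
  refine Finset.sum_congr rfl fun v _ => ?_
  rw [apply_single_eq g hsec hdeg μ hμ C hC P₀ v, mul_comm]

/-- A bounded additive functional killing principal divisors vanishes in degree `0`. -/
theorem eq_zero_of_degree_eq_zero [HasPrincipalDivisors K F] (g : ℕ) (hsec : HasSections K F g)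
    (hdeg : ∀ v : Place K F, v.deg = 1)
    (μ : Divisor K F →+ ℤ) (hμ : ∀ D ∈ Divisor.principal (K := K) (F := F), μ D = 0)
    (C : ℤ) (hC : ∀ v : Place K F, |μ (Finsupp.single v 1)| ≤ C)
    (D : Divisor K F) (hD : Divisor.degree D = 0) : μ D = 0 := by
  by_cases hne : Nonempty (Place K F)
  · obtain ⟨P₀⟩ := hne
    rw [eq_mul_degree g hsec hdeg μ hμ C hC P₀ D, hD, mul_zero]
  · have : D = 0 := by
      ext v; exact absurd ⟨v⟩ hne
    rw [this, map_zero]

/-- **Corollary B'.** An additive map from divisors to finitely supported integer functions (e.g. the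
divisors of another function field) which kills principal divisors and has uniformly bounded
coefficients on places vanishes on divisors of degree `0`. -/
theorem map_eq_zero_of_degree_eq_zero [HasPrincipalDivisors K F] {ι : Type*}
    (g : ℕ) (hsec : HasSections K F g) (hdeg : ∀ v : Place K F, v.deg = 1)
    (δ : Divisor K F →+ (ι →₀ ℤ))
    (hδ : ∀ D ∈ Divisor.principal (K := K) (F := F), δ D = 0)
    (C : ℤ) (hC : ∀ (v : Place K F) (i : ι), |δ (Finsupp.single v 1) i| ≤ C)
    (D : Divisor K F) (hD : Divisor.degree D = 0) : δ D = 0 := by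
  ext i
  rw [Finsupp.zero_apply]
  have := eq_zero_of_degree_eq_zero g hsec hdeg ((Finsupp.applyAddHom i).comp δ)
    (fun E hE => by simp [hδ E hE]) C (fun v => by simpa using hC v i) D hD
  simpa using this

/-- Two additive maps on divisors with bounded coefficients on places which agree on principal
divisors agree on all divisors of degree `0`. -/
theorem eq_of_eqOn_principal [HasPrincipalDivisors K F] {ι : Type*}
    (g : ℕ) (hsec : HasSections K F g) (hdeg : ∀ v : Place K F, v.deg = 1)
    (δ₁ δ₂ : Divisor K F →+ (ι →₀ ℤ))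
    (h : ∀ D ∈ Divisor.principal (K := K) (F := F), δ₁ D = δ₂ D)
    (C₁ C₂ : ℤ) (hC₁ : ∀ (v : Place K F) (i : ι), |δ₁ (Finsupp.single v 1) i| ≤ C₁)
    (hC₂ : ∀ (v : Place K F) (i : ι), |δ₂ (Finsupp.single v 1) i| ≤ C₂)
    (D : Divisor K F) (hD : Divisor.degree D = 0) : δ₁ D = δ₂ D := by
  have := map_eq_zero_of_degree_eq_zero g hsec hdeg (δ₁ - δ₂)
    (fun E hE => by rw [AddMonoidHom.sub_apply, h E hE, sub_self]) (C₁ + C₂)
    (fun v i => by
      rw [AddMonoidHom.sub_apply, Finsupp.sub_apply]
      exact (abs_sub _ _).trans (add_le_add (hC₁ v i) (hC₂ v i))) D hD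
  rwa [AddMonoidHom.sub_apply, sub_eq_zero] at this

end Fermat.Agent.S37.Bounded65
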