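/-
S37 ASSEMBLY, generic half (helper52).

Abstract function fields `F, F', F₁ / K` and `Fb / k` in the Prelude `Place`/`Divisor`/`Pic0` language.

* `α β : F →ₐ[K] F'`   the two degeneracy maps, `T = α_* β^*` (Prelude `Divisor.correspondence β α`);
* `σ : F →ₐ[K] F₁`     the level-raising embedding (`q ↦ q^s`), `π^* = ` pull-back of divisors;
* `r : Place K F₁ → Place k Fb` a degree preserving place map sending principal divisors to principal
  divisors (the reduction at the good level).

`R := r_* ∘ σ^* : Div F →+ Div Fb` and `ρ : Pic⁰ F →+ Pic⁰ Fb` the induced map.  Using the BOUNDED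
lemma (`Bounded65`) we prove: an identity `R ∘ Λ = Ψ ∘ R` between POSITIVE, degree-bounded operators
which holds on PRINCIPAL divisors of `F` holds on all divisors of degree `0`, hence on `Pic⁰`:

* `rho_galois` : `ρ (g • x) = gb • ρ x`     from `R (g • div y) = gb • R (div y)`;
* `rho_hecke`  : `ρ (T x) = gb • ρ x + ℓ • gb⁻¹ • ρ x` from the same identity on principal divisors;
* `rho_eichlerShimura` : `ρ (φ • φ • x - T (φ • x) + ℓ • x) = 0`.
-/
import Mathlib
import Fermat.Prelude.Def_AlgebraicCurve_Correspondence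
import Fermat.Agent.S37.Bounded65

set_option autoImplicit false

noncomputable section

namespace Fermat.Agent.S37.Assembly52

open AlgebraicCurve

/-! ### effective divisors -/

section Eff

variable {K F : Type*} [Field K] [Field F] [Algebra K F]

/-- effective divisor -/
def Eff (D : Divisor K F) : Prop := ∀ v : Place K F, 0 ≤ D v

theorem eff_zero : Eff (0 : Divisor K F) := fun _ => le_rfl

theorem Eff.add {D E : Divisor K F} (hD : Eff D) (hE : Eff E) : Eff (D + E) := fun v => by
  rw [Finsupp.add_apply]; exact add_nonneg (hD v) (hE v)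

theorem Eff.nsmul {D : Divisor K F} (hD : Eff D) (n : ℕ) : Eff (n • D) := fun v => by
  rw [Finsupp.smul_apply]; exact nsmul_nonneg (hD v) n

theorem eff_single (v : Place K F) {n : ℤ} (hn : 0 ≤ n) : Eff (Finsupp.single v n) := fun w => by
  classical
  rw [Finsupp.single_apply]; split_ifs <;> simp [hn]

theorem eff_sum {ι : Type*} (s : Finset ι) (f : ι → Divisor K F) (h : ∀ i ∈ s, Eff (f i)) :
    Eff (∑ i ∈ s, f i) := by
  classical
  induction s using Finset.induction_on with
  | empty => simpa using eff_zero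
  | insert a s ha ih =>
    rw [Finset.sum_insert ha]
    exact (h a (Finset.mem_insert_self a s)).add
      (ih fun i hi => h i (Finset.mem_insert_of_mem hi))

/-- an effective divisor is a sum of nonnegative multiples of places -/
theorem Eff.induction {P : Divisor K F → Prop} (h0 : P 0)
    (hadd : ∀ (v : Place K F) (n : ℤ) (D : Divisor K F), 0 ≤ n → Eff D → P D →
      P (Finsupp.single v n + D)) {D : Divisor K F} (hD : Eff D) : P D := by
  classical
  induction D using Finsupp.induction with
  | zero => exact h0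
  | single_add v n D hv hn ih =>
    have hD' : Eff D := fun w => by
      by_cases hw : w = v
      · subst hw; rw [Finsupp.notMem_support_iff.mp hv]
      · have := hD w
        rwa [Finsupp.add_apply, Finsupp.single_apply, if_neg (Ne.symm hw), zero_add] at this
    have hn0 : 0 ≤ n := by
      have := hD v
      rwa [Finsupp.add_apply, Finsupp.single_eq_same, Finsupp.notMem_support_iff.mp hv,
        add_zero] at this
    exact hadd v n D hn0 hD' (ih hD')

theorem eff_mapDomain {k Fb : Type*} [Field k] [Field Fb] [Algebra k Fb]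
    (r : Place K F → Place k Fb) {D : Divisor K F} (hD : Eff D) :
    Eff (Finsupp.mapDomain r D : Divisor k Fb) := by
  refine hD.induction (P := fun D => Eff (Finsupp.mapDomain r D : Divisor k Fb)) ?_ ?_
  · show Eff (Finsupp.mapDomain r (0 : Divisor K F) : Divisor k Fb)
    rw [Finsupp.mapDomain_zero]; exact eff_zero
  · intro v n D hn _ ih
    show Eff (Finsupp.mapDomain r (Finsupp.single v n + D) : Divisor k Fb)
    rw [Finsupp.mapDomain_add, Finsupp.mapDomain_single]
    exact (eff_single _ hn).add ih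

theorem eff_semilinear_smul (g : SemilinearAut K F) {D : Divisor K F} (hD : Eff D) :
    Eff (g • D) := fun w => by
  rw [SemilinearAut.divisor_smul_apply]; exact hD _

/-- a coefficient of an effective divisor is bounded by the degree -/
theorem Eff.apply_le_degree (hdeg : ∀ v : Place K F, 0 < v.deg) {D : Divisor K F} (hD : Eff D)
    (w : Place K F) : D w ≤ Divisor.degree D := by
  classical
  refine hD.induction (P := fun D => Eff D ∧ D w ≤ Divisor.degree D) ?_ ?_ |>.2
  · exact ⟨eff_zero, by simp⟩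
  · intro v n D hn hDeff ih
    refine ⟨(eff_single v hn).add hDeff, ?_⟩
    rw [Finsupp.add_apply, map_add, Divisor.degree_single]
    refine add_le_add ?_ ih.2
    rw [Finsupp.single_apply]
    have h1 : (1 : ℤ) ≤ (v.deg : ℤ) := by exact_mod_cast hdeg v
    split_ifs
    · nlinarith
    · nlinarith

theorem Eff.degree_nonneg {D : Divisor K F} (hD : Eff D) : 0 ≤ Divisor.degree D := by
  refine hD.induction (P := fun D => 0 ≤ Divisor.degree D) (by simp) ?_
  intro v n D hn _ ih
  rw [map_add, Divisor.degree_single]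
  have : (0 : ℤ) ≤ (v.deg : ℤ) := by positivity
  nlinarith

theorem degree_mapDomain {k Fb : Type*} [Field k] [Field Fb] [Algebra k Fb]
    (r : Place K F → Place k Fb) (hdeg : ∀ P, (r P).deg = P.deg) (D : Divisor K F) :
    Divisor.degree (Finsupp.mapDomain r D : Divisor k Fb) = Divisor.degree D := by
  induction D using Finsupp.induction with
  | zero => simp
  | single_add P n D _ _ ih =>
    rw [Finsupp.mapDomain_add, map_add, map_add, ih, Finsupp.mapDomain_single,
      Divisor.degree_single, Divisor.degree_single, hdeg]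

end Eff

section PushPullEff

variable {K F F' : Type*} [Field K] [Field F] [Field F'] [Algebra K F] [Algebra K F']

theorem eff_pullbackAlong [HasPrincipalDivisors K F'] (φ : F →ₐ[K] F')
    (hφ : φ.toRingHom.IsIntegral) {D : Divisor K F} (hD : Eff D) :
    Eff (Divisor.pullbackAlong φ hφ D) := fun w => by
  rw [Divisor.pullbackAlong_apply]
  exact mul_nonneg (by positivity) (hD _)

theorem eff_pushforwardAlong (φ : F →ₐ[K] F') (hφ : φ.toRingHom.IsIntegral)
    {D : Divisor K F'} (hD : Eff D) : Eff (Divisor.pushforwardAlong φ hφ D) := by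
  refine hD.induction (P := fun D => Eff (Divisor.pushforwardAlong φ hφ D)) ?_ ?_
  · show Eff (Divisor.pushforwardAlong φ hφ 0)
    rw [map_zero]; exact eff_zero
  · intro v n D hn _ ih
    show Eff (Divisor.pushforwardAlong φ hφ (Finsupp.single v n + D))
    rw [map_add, Divisor.pushforwardAlong_single]
    exact (eff_single _ (mul_nonneg hn (by positivity))).add ih

theorem eff_correspondence [HasPrincipalDivisors K F'] (φ ψ : F →ₐ[K] F')
    (hφ : φ.toRingHom.IsIntegral) (hψ : ψ.toRingHom.IsIntegral) {D : Divisor K F} (hD : Eff D) :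
    Eff (Divisor.correspondence φ ψ hφ hψ D) :=
  eff_pushforwardAlong ψ hψ (eff_pullbackAlong φ hφ hD)

end PushPullEff

/-! ### the operator `R = r_* ∘ σ^*` and the bounded-rigidity transfer -/

section Core

variable {K F F₁ : Type*} [Field K] [Field F] [Field F₁] [Algebra K F] [Algebra K F₁]
variable {k Fb : Type*} [Field k] [Field Fb] [Algebra k Fb]

/-- positive operator on divisors with a degree bound on places -/
def PosBdd (Λ : Divisor K F →+ Divisor k Fb) (c : ℤ) : Prop :=
  ∀ v : Place K F, Eff (Λ (Finsupp.single v 1)) ∧ Divisor.degree (Λ (Finsupp.single v 1)) ≤ c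

theorem PosBdd.abs_le (hdegb : ∀ Q : Place k Fb, 0 < Q.deg) {Λ : Divisor K F →+ Divisor k Fb}
    {c : ℤ} (h : PosBdd Λ c) (v : Place K F) (Q : Place k Fb) :
    |Λ (Finsupp.single v 1) Q| ≤ c := by
  rw [abs_of_nonneg ((h v).1 Q)]
  exact ((h v).1.apply_le_degree hdegb Q).trans (h v).2

/-- **Transfer.** Two positive bounded operators `Div F → Div Fb` which agree on principal divisors
agree on divisors of degree `0`. -/
theorem eq_of_posBdd [HasPrincipalDivisors K F] (g : ℕ) (hsec : Bounded65.HasSections K F g)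
    (hdeg1 : ∀ v : Place K F, v.deg = 1) (hdegb : ∀ Q : Place k Fb, 0 < Q.deg)
    (Λ₁ Λ₂ : Divisor K F →+ Divisor k Fb) (c₁ c₂ : ℤ) (h₁ : PosBdd Λ₁ c₁) (h₂ : PosBdd Λ₂ c₂)
    (h : ∀ D ∈ Divisor.principal (K := K) (F := F), Λ₁ D = Λ₂ D)
    (D : Divisor K F) (hD : Divisor.degree D = 0) : Λ₁ D = Λ₂ D :=
  Bounded65.eq_of_eqOn_principal (ι := Place k Fb) g hsec hdeg1 Λ₁ Λ₂ h c₁ c₂
    (fun v Q => h₁.abs_le hdegb v Q) (fun v Q => h₂.abs_le hdegb v Q) D hD

variable [HasPrincipalDivisors K F₁]
variable (σ : F →ₐ[K] F₁) (hσ : σ.toRingHom.IsIntegral)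
variable (r : Place K F₁ → Place k Fb)

/-- `R = r_* ∘ σ^*` on divisors -/
def redPull : Divisor K F →+ Divisor k Fb :=
  (Finsupp.mapDomain.addMonoidHom r).comp (Divisor.pullbackAlong σ hσ)

theorem redPull_apply (D : Divisor K F) :
    redPull σ hσ r D = Finsupp.mapDomain r (Divisor.pullbackAlong σ hσ D) := rfl

theorem eff_redPull {D : Divisor K F} (hD : Eff D) : Eff (redPull σ hσ r D) :=
  eff_mapDomain r (eff_pullbackAlong σ hσ hD)

theorem degree_redPull (hFI : FundamentalIdentityAlong K σ hσ) (hdeg : ∀ P, (r P).deg = P.deg)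
    (D : Divisor K F) :
    Divisor.degree (redPull σ hσ r D) = (finrankAlong K σ : ℤ) * Divisor.degree D := by
  rw [redPull_apply, degree_mapDomain r hdeg, Divisor.degree_pullbackAlong σ hσ hFI]

theorem redPull_mem_principal
    (hprin : ∀ D ∈ Divisor.principal (K := K) (F := F₁),
      (Finsupp.mapDomain r D : Divisor k Fb) ∈ Divisor.principal (K := k) (F := Fb))
    {D : Divisor K F} (hD : D ∈ Divisor.principal (K := K) (F := F)) :
    redPull σ hσ r D ∈ Divisor.principal (K := k) (F := Fb) :=
  hprin _ (Divisor.isPrincipal_pullbackAlong σ hσ hD)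

variable (hFI : FundamentalIdentityAlong K σ hσ) (hdeg : ∀ P, (r P).deg = P.deg)
variable (hprin : ∀ D ∈ Divisor.principal (K := K) (F := F₁),
      (Finsupp.mapDomain r D : Divisor k Fb) ∈ Divisor.principal (K := k) (F := Fb))

/-- `R` on divisors of degree zero -/
def redPullDegZero :
    Divisor.degZero (K := K) (F := F) →+ Divisor.degZero (K := k) (F := Fb) :=
  ((redPull σ hσ r).domRestrict _).codRestrict _ fun D => by
    rw [Divisor.mem_degZero]
    show Divisor.degree (redPull σ hσ r (D : Divisor K F)) = 0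
    rw [degree_redPull σ hσ r hFI hdeg, Divisor.mem_degZero.mp D.2, mul_zero]

@[simp]
theorem coe_redPullDegZero (D : Divisor.degZero (K := K) (F := F)) :
    (redPullDegZero σ hσ r hFI hdeg D : Divisor k Fb) = redPull σ hσ r (D : Divisor K F) := rfl

/-- the induced map `ρ : Pic⁰ F → Pic⁰ Fb` -/
def rho : Pic0 K F →+ Pic0 k Fb :=
  QuotientAddGroup.map _ _ (redPullDegZero σ hσ r hFI hdeg) (by
    rintro ⟨D, hD0⟩ hD
    simp only [AddSubgroup.mem_addSubgroupOf] at hD ⊢
    exact redPull_mem_principal σ hσ r hprin hD)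

theorem rho_mk (D : Divisor.degZero (K := K) (F := F)) :
    rho σ hσ r hFI hdeg hprin (Pic0.mk D) = Pic0.mk (redPullDegZero σ hσ r hFI hdeg D) := rfl

/-- `D ↦ g • D` as an additive map -/
def smulHom {K F : Type*} [Field K] [Field F] [Algebra K F] (g : SemilinearAut K F) :
    Divisor K F →+ Divisor K F where
  toFun D := g • D
  map_zero' := smul_zero g
  map_add' := smul_add g

@[simp]
theorem smulHom_apply {K F : Type*} [Field K] [Field F] [Algebra K F] (g : SemilinearAut K F)
    (D : Divisor K F) : smulHom g D = g • D := rfl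

include hFI hdeg in
theorem degree_redPull_single (hdeg1 : ∀ v : Place K F, v.deg = 1) (v : Place K F) :
    Divisor.degree (redPull σ hσ r (Finsupp.single v 1)) = (finrankAlong K σ : ℤ) := by
  rw [degree_redPull σ hσ r hFI hdeg, Divisor.degree_single, hdeg1 v]; simp

include hFI hdeg in
theorem posBdd_redPull_smul (hdeg1 : ∀ v : Place K F, v.deg = 1) (g : SemilinearAut K F) :
    PosBdd ((redPull σ hσ r).comp (smulHom g)) (finrankAlong K σ) := by
  intro v
  rw [AddMonoidHom.comp_apply, smulHom_apply, SemilinearAut.smul_single]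
  exact ⟨eff_redPull σ hσ r (eff_single _ zero_le_one),
    (degree_redPull_single σ hσ r hFI hdeg hdeg1 _).le⟩

include hFI hdeg in
theorem posBdd_smul_redPull (hdeg1 : ∀ v : Place K F, v.deg = 1) (gb : SemilinearAut k Fb) :
    PosBdd ((smulHom gb).comp (redPull σ hσ r)) (finrankAlong K σ) := by
  intro v
  rw [AddMonoidHom.comp_apply, smulHom_apply, SemilinearAut.degree_smul]
  exact ⟨eff_semilinear_smul gb (eff_redPull σ hσ r (eff_single _ zero_le_one)),
    (degree_redPull_single σ hσ r hFI hdeg hdeg1 _).le⟩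

section Galois

variable [HasPrincipalDivisors K F] (gn : ℕ) (hsec : Bounded65.HasSections K F gn)
  (hdeg1 : ∀ v : Place K F, v.deg = 1) (hdegb : ∀ Q : Place k Fb, 0 < Q.deg)

include hFI hdeg hsec hdeg1 hdegb in
/-- divisor-level Galois equivariance in degree `0` from the principal case -/
theorem redPull_smul (g : SemilinearAut K F) (gb : SemilinearAut k Fb)
    (hG : ∀ D ∈ Divisor.principal (K := K) (F := F),
      redPull σ hσ r (g • D) = gb • redPull σ hσ r D)
    (D : Divisor K F) (hD : Divisor.degree D = 0) :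
    redPull σ hσ r (g • D) = gb • redPull σ hσ r D :=
  eq_of_posBdd gn hsec hdeg1 hdegb
    ((redPull σ hσ r).comp (smulHom g)) ((smulHom gb).comp (redPull σ hσ r))
    (finrankAlong K σ) (finrankAlong K σ) (posBdd_redPull_smul σ hσ r hFI hdeg hdeg1 g)
    (posBdd_smul_redPull σ hσ r hFI hdeg hdeg1 gb) hG D hD

include hsec hdeg1 hdegb in
/-- **Galois equivariance of `ρ`** from the principal-divisor case. -/
theorem rho_galois (g : SemilinearAut K F) (gb : SemilinearAut k Fb)
    (hG : ∀ D ∈ Divisor.principal (K := K) (F := F),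
      redPull σ hσ r (g • D) = gb • redPull σ hσ r D)
    (x : Pic0 K F) :
    rho σ hσ r hFI hdeg hprin (g • x) = gb • rho σ hσ r hFI hdeg hprin x := by
  obtain ⟨D, rfl⟩ := Pic0.mk_surjective x
  rw [SemilinearAut.pic0_smul_mk, rho_mk, rho_mk, SemilinearAut.pic0_smul_mk]
  refine congrArg Pic0.mk (Subtype.ext ?_)
  rw [SemilinearAut.coe_degZeroSMulHom, coe_redPullDegZero, coe_redPullDegZero,
    SemilinearAut.coe_degZeroSMulHom]
  exact redPull_smul σ hσ r hFI hdeg gn hsec hdeg1 hdegb g gb hG _ (Divisor.mem_degZero.mp D.2)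

end Galois

section Hecke

variable {F' : Type*} [Field F'] [Algebra K F'] [HasPrincipalDivisors K F']
variable (α β : F →ₐ[K] F') (hα : α.toRingHom.IsIntegral) (hβ : β.toRingHom.IsIntegral)
variable (hFIβ : FundamentalIdentityAlong K β hβ)

include hFI hdeg hFIβ in
theorem posBdd_redPull_correspondence (hdeg1 : ∀ v : Place K F, v.deg = 1) :
    PosBdd ((redPull σ hσ r).comp (Divisor.correspondence β α hβ hα))
      ((finrankAlong K σ : ℤ) * (finrankAlong K β : ℤ)) := by
  intro v
  rw [AddMonoidHom.comp_apply]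
  refine ⟨eff_redPull σ hσ r (eff_correspondence β α hβ hα (eff_single _ zero_le_one)), ?_⟩
  rw [degree_redPull σ hσ r hFI hdeg, Divisor.degree_correspondence β α hβ hα hFIβ,
    Divisor.degree_single, hdeg1 v]
  simp

/-- the operator `Ψ = gb + ℓ gb⁻¹` on divisors of the special fibre -/
def frobVer (gb : SemilinearAut k Fb) (ℓ : ℕ) : Divisor k Fb →+ Divisor k Fb :=
  smulHom gb + ℓ • smulHom gb⁻¹

theorem frobVer_apply (gb : SemilinearAut k Fb) (ℓ : ℕ) (E : Divisor k Fb) :
    frobVer gb ℓ E = gb • E + ℓ • gb⁻¹ • E := rfl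

include hFI hdeg in
theorem posBdd_frobVer_redPull (hdeg1 : ∀ v : Place K F, v.deg = 1) (gb : SemilinearAut k Fb)
    (ℓ : ℕ) :
    PosBdd ((frobVer gb ℓ).comp (redPull σ hσ r)) ((1 + (ℓ : ℤ)) * (finrankAlong K σ : ℤ)) := by
  intro v
  rw [AddMonoidHom.comp_apply, frobVer_apply]
  have hE := eff_redPull σ hσ r (eff_single v (zero_le_one (α := ℤ)))
  refine ⟨(eff_semilinear_smul gb hE).add ((eff_semilinear_smul gb⁻¹ hE).nsmul ℓ), ?_⟩
  rw [map_add, map_nsmul, SemilinearAut.degree_smul, SemilinearAut.degree_smul,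
    degree_redPull_single σ hσ r hFI hdeg hdeg1 v, nsmul_eq_mul]
  exact le_of_eq (by ring)

variable [HasPrincipalDivisors K F] (gn : ℕ) (hsec : Bounded65.HasSections K F gn)
  (hdeg1 : ∀ v : Place K F, v.deg = 1) (hdegb : ∀ Q : Place k Fb, 0 < Q.deg)

include hFI hdeg hFIβ hsec hdeg1 hdegb in
/-- divisor-level Eichler–Shimura congruence in degree `0` from the principal case -/
theorem redPull_correspondence (gb : SemilinearAut k Fb) (ℓ : ℕ)
    (hT : ∀ D ∈ Divisor.principal (K := K) (F := F),
      redPull σ hσ r (Divisor.correspondence β α hβ hα D)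
        = gb • redPull σ hσ r D + ℓ • gb⁻¹ • redPull σ hσ r D)
    (D : Divisor K F) (hD : Divisor.degree D = 0) :
    redPull σ hσ r (Divisor.correspondence β α hβ hα D)
      = gb • redPull σ hσ r D + ℓ • gb⁻¹ • redPull σ hσ r D :=
  eq_of_posBdd gn hsec hdeg1 hdegb
    ((redPull σ hσ r).comp (Divisor.correspondence β α hβ hα))
    ((frobVer gb ℓ).comp (redPull σ hσ r)) _ _
    (posBdd_redPull_correspondence σ hσ r hFI hdeg α β hα hβ hFIβ hdeg1)
    (posBdd_frobVer_redPull σ hσ r hFI hdeg hdeg1 gb ℓ) hT D hD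

variable (hfin : FiniteAlong K α) (hN : NormFormulaAlong K α hfin)

include hsec hdeg1 hdegb in
/-- **Eichler–Shimura congruence for `ρ`** from the principal-divisor case. -/
theorem rho_hecke (gb : SemilinearAut k Fb) (ℓ : ℕ)
    (hT : ∀ D ∈ Divisor.principal (K := K) (F := F),
      redPull σ hσ r (Divisor.correspondence β α hβ hα D)
        = gb • redPull σ hσ r D + ℓ • gb⁻¹ • redPull σ hσ r D)
    (x : Pic0 K F) :
    rho σ hσ r hFI hdeg hprin (Pic0.correspondence β α hβ hα hFIβ hfin hN x)
      = gb • rho σ hσ r hFI hdeg hprin x + ℓ • gb⁻¹ • rho σ hσ r hFI hdeg hprin x := by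
  obtain ⟨D, rfl⟩ := Pic0.mk_surjective x
  have hns : ∀ (n : ℕ) (E : Divisor.degZero (K := k) (F := Fb)),
      n • Pic0.mk E = Pic0.mk (n • E) := fun n E => rfl
  rw [Pic0.correspondence_mk, rho_mk, rho_mk, SemilinearAut.pic0_smul_mk,
    SemilinearAut.pic0_smul_mk, hns, ← Pic0.mk_add]
  refine congrArg Pic0.mk (Subtype.ext ?_)
  rw [coe_redPullDegZero, Pic0.coe_degZeroCorrespondence, AddSubgroup.coe_add,
    AddSubgroup.coe_nsmul, SemilinearAut.coe_degZeroSMulHom, SemilinearAut.coe_degZeroSMulHom,
    coe_redPullDegZero]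
  exact redPull_correspondence σ hσ r hFI hdeg α β hα hβ hFIβ gn hsec hdeg1 hdegb gb ℓ hT _
    (Divisor.mem_degZero.mp D.2)

end Hecke

end Core

/-! ### divisors of functions -/

section DivOf

variable {K F : Type*} [Field K] [Field F] [Algebra K F]

/-- `D` is the divisor of `f` -/
def IsDivOf (D : Divisor K F) (f : F) : Prop := ∀ v : Place K F, D v = v.ord f

theorem IsDivOf.eq {D E : Divisor K F} {f : F} (hD : IsDivOf D f) (hE : IsDivOf E f) : D = E :=
  Finsupp.ext fun v => (hD v).trans (hE v).symm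

theorem IsDivOf.mem_principal {D : Divisor K F} {f : F} (hD : IsDivOf D f) (hf : f ≠ 0) :
    D ∈ Divisor.principal (K := K) (F := F) := ⟨f, hf, hD⟩

theorem exists_isDivOf_of_mem_principal {D : Divisor K F}
    (hD : D ∈ Divisor.principal (K := K) (F := F)) : ∃ f : F, f ≠ 0 ∧ IsDivOf D f := hD

theorem IsDivOf.mul {D E : Divisor K F} {f g : F} (hD : IsDivOf D f) (hE : IsDivOf E g)
    (hf : f ≠ 0) (hg : g ≠ 0) : IsDivOf (D + E) (f * g) := fun v => by
  rw [Finsupp.add_apply, hD v, hE v, v.ord_mul hf hg]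

theorem IsDivOf.pow {D : Divisor K F} {f : F} (hD : IsDivOf D f) (n : ℕ) :
    IsDivOf (n • D) (f ^ n) := fun v => by
  rw [Finsupp.smul_apply, hD v, ← zpow_natCast, v.ord_zpow, nsmul_eq_mul]

theorem IsDivOf.smul {D : Divisor K F} {f : F} (hD : IsDivOf D f) (g : SemilinearAut K F) :
    IsDivOf (g • D) (g • f) := fun w => by
  rw [SemilinearAut.divisor_smul_apply, hD]
  have h := SemilinearAut.ord_smul g (g⁻¹ • w) f
  rw [smul_inv_smul] at h
  exact h.symm

theorem isDivOf_pullbackAlong {F' : Type*} [Field F'] [Algebra K F'] [HasPrincipalDivisors K F']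
    (φ : F →ₐ[K] F') (hφ : φ.toRingHom.IsIntegral) {D : Divisor K F} {f : F}
    (hD : IsDivOf D f) : IsDivOf (Divisor.pullbackAlong φ hφ D) (φ f) := fun w => by
  rw [Divisor.pullbackAlong_apply, hD, ← Place.ord_restrictAlong]

theorem isDivOf_pushforwardAlong {F' : Type*} [Field F'] [Algebra K F']
    (φ : F →ₐ[K] F') (hφ : φ.toRingHom.IsIntegral) (hfin : FiniteAlong K φ)
    (hN : NormFormulaAlong K φ hfin) {D : Divisor K F'} {f : F'} (hf : f ≠ 0)
    (hD : IsDivOf D f) :
    IsDivOf (Divisor.pushforwardAlong φ hφ D)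
      (letI := algebraAlong φ; Algebra.norm F f) := fun v => by
  letI := algebraAlong φ
  haveI := isScalarTower_along φ
  haveI := isIntegral_along φ hφ
  haveI : Module.Finite F F' := hfin
  exact hN f hf D hD v

end DivOf

/-! ### the Eichler–Shimura relation -/

section ES

variable {J G : Type*} [AddCommGroup J] [AddCommGroup G]

/-- pure algebra: Frobenius equivariance + the congruence give the Eichler–Shimura relation -/
theorem eichlerShimura_of_congruence (ρ : J →+ G) (φ : J → J) (T : J →+ J) (Φ Φi : G →+ G)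
    (hΦ : ∀ y, Φi (Φ y) = y) (ℓ : ℕ)
    (hφ : ∀ x, ρ (φ x) = Φ (ρ x)) (hT : ∀ x, ρ (T x) = Φ (ρ x) + ℓ • Φi (ρ x)) (x : J) :
    ρ (φ (φ x) - T (φ x) + ℓ • x) = 0 := by
  rw [map_add, map_sub, hφ, hφ, hT, hφ, hΦ, map_nsmul]
  abel

end ES

end Fermat.Agent.S37.Assembly52
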