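/-
S37 / [S37-GALRED] (helper42): Galois-compatibility of the reduction map `ρ : 𝒪_A → k((q))`.

`L` a field, `A : ValuationSubring L`, `k = A / 𝔪_A`, `K ⊆ L` a base field (for S37: `K = ℚ`,
`L = ℚ̄`).  `σ ∈ D_A := A.decompositionSubgroup K` acts on `A`, on `k` (`resAut`), coefficientwise on
`A((q))`, `L((q))`, `k((q))`.

* (G1) `actA`, `resAut`, `residue_actA`.
* (G2) `coeffMap σ` preserves `incl (A((q)))` and `Bridge28.O A`; `rho_coeffMap`:
       `ρ (σ x) = σ̄ (ρ x)`.
* (G3) inertia: `resAut = refl`, `ρ (τ x) = ρ x`; Frobenius: `resAut = x ↦ x ^ ℓ`,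
       `ρ (σ x) = φ (ρ x)`, `φ` the coefficientwise Frobenius.
* (G4) special fibre: a field automorphism `θ` of `k` acts coefficientwise on
       `modularFunctionFieldFullC k N`; `barAut : (k ≃+* k) →* SemilinearAut k F̄_N`.
* (G5) `qExpand k ℓ (coeffMap (frobenius k ℓ) x) = x ^ ℓ` in characteristic `ℓ`.
-/
import Mathlib
import Fermat.Prelude.Def_ModularCurve_ArithmeticGalois
import Fermat.Prelude.Def_ModularCurve_X0ModL
import Fermat.Prelude.Def_EllipticCurve_FrobeniusTrace
import Fermat.Prelude.Def_FLTPrelim_Ramification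
import Fermat.Agent.S18.Bridge28.ORingA

set_option autoImplicit false

noncomputable section

namespace Fermat.Agent.S37.GalRed42

open ModularCurve HahnSeries AlgebraicCurve Fermat.Agent.S18.Bridge28

/-! ### generalities on `coeffMap` -/

section CoeffMapGeneral

variable {R S : Type*} [CommRing R] [CommRing S]

theorem coeffMap_injective {f : R →+* S} (hf : Function.Injective f) :
    Function.Injective (coeffMap f) := by
  intro x y h
  ext n
  apply hf
  have := congrArg (fun z => z.coeff n) h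
  simpa only [coeffMap_coeff] using this

theorem coeffMap_ne_zero {f : R →+* S} (hf : Function.Injective f) {x : LaurentSeries R}
    (hx : x ≠ 0) : coeffMap f x ≠ 0 := fun h =>
  hx (coeffMap_injective hf (by rw [h, map_zero]))

end CoeffMapGeneral

/-! ### (G1) the action of the decomposition group on `A` and on the residue field -/

section Decomposition

variable {K L : Type*} [Field K] [Field L] [Algebra K L] (A : ValuationSubring L)

/-- `σ ∈ D_A` restricted to `A`. -/
def actA (σ : A.decompositionSubgroup K) : A →+* A :=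
  MulSemiringAction.toRingHom (A.decompositionSubgroup K) A σ

theorem coe_actA (σ : A.decompositionSubgroup K) (a : A) :
    ((actA A σ a : A) : L) = (σ : L ≃ₐ[K] L) (a : L) := rfl

/-- the automorphism of the residue field induced by `σ ∈ D_A`. -/
def resAut (σ : A.decompositionSubgroup K) :
    IsLocalRing.ResidueField A ≃+* IsLocalRing.ResidueField A :=
  MulSemiringAction.toRingAut (A.decompositionSubgroup K) (IsLocalRing.ResidueField A) σ

theorem resAut_apply (σ : A.decompositionSubgroup K) (x : IsLocalRing.ResidueField A) :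
    resAut A σ x = σ • x := rfl

theorem residue_actA (σ : A.decompositionSubgroup K) (a : A) :
    IsLocalRing.residue A (actA A σ a) = resAut A σ (IsLocalRing.residue A a) := rfl

theorem resAut_mul (σ τ : A.decompositionSubgroup K) :
    resAut A (σ * τ) = resAut A σ * resAut A τ :=
  map_mul (MulSemiringAction.toRingAut (A.decompositionSubgroup K) (IsLocalRing.ResidueField A)) σ τ

theorem resAut_one : resAut A (1 : A.decompositionSubgroup K) = 1 :=
  map_one (MulSemiringAction.toRingAut (A.decompositionSubgroup K) (IsLocalRing.ResidueField A))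

/-- the action of `σ ∈ D_A` on `A((q))` -/
def actSeries (σ : A.decompositionSubgroup K) : LaurentSeries A →+* LaurentSeries A :=
  coeffMap (actA A σ)

theorem incl_actSeries (σ : A.decompositionSubgroup K) (a : LaurentSeries A) :
    incl A (actSeries A σ a) =
      coeffMap (((σ : L ≃ₐ[K] L) : L ≃+* L) : L →+* L) (incl A a) := by
  show coeffMap A.subtype (coeffMap (actA A σ) a) = coeffMap _ (coeffMap A.subtype a)
  rw [coeffMap_coeffMap, coeffMap_coeffMap]
  exact coeffMap_congr (RingHom.ext fun _ => rfl) a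

theorem red_actSeries (σ : A.decompositionSubgroup K) (a : LaurentSeries A) :
    red A (actSeries A σ a) =
      coeffMap ((resAut A σ : IsLocalRing.ResidueField A ≃+* IsLocalRing.ResidueField A) :
        IsLocalRing.ResidueField A →+* IsLocalRing.ResidueField A) (red A a) := by
  show coeffMap (IsLocalRing.residue A) (coeffMap (actA A σ) a) =
    coeffMap _ (coeffMap (IsLocalRing.residue A) a)
  rw [coeffMap_coeffMap, coeffMap_coeffMap]
  exact coeffMap_congr (RingHom.ext fun _ => rfl) a

/-! ### (G2) `𝒪_A` is stable and `ρ` is equivariant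

All statements take an arbitrary ring hom `f : L →+* L` with `hf : ∀ a, f a = σ a`, so that they apply
verbatim to every coercion form of `σ` (e.g. the Prelude's `(σ : L →+* L)` for `σ : L ≃ₐ[ℚ] L`). -/

theorem incl_actSeries' (σ : A.decompositionSubgroup K) {f : L →+* L}
    (hf : ∀ a, f a = (σ : L ≃ₐ[K] L) a) (a : LaurentSeries A) :
    incl A (actSeries A σ a) = coeffMap f (incl A a) := by
  rw [incl_actSeries]
  exact coeffMap_congr (RingHom.ext fun a => (hf a).symm) _

theorem coeffMap_mem_O (σ : A.decompositionSubgroup K) {f : L →+* L}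
    (hf : ∀ a, f a = (σ : L ≃ₐ[K] L) a) {x : LaurentSeries L} (hx : x ∈ O A) :
    coeffMap f x ∈ O A := by
  obtain ⟨a, b, hb, h⟩ := hx
  refine ⟨actSeries A σ a, actSeries A σ b, ?_, ?_⟩
  · rw [red_actSeries]
    exact coeffMap_ne_zero (resAut A σ).injective hb
  · rw [incl_actSeries' A σ hf, incl_actSeries' A σ hf, ← map_mul, h]

/-- **`ρ ∘ σ = σ̄ ∘ ρ`** for `σ` in the decomposition group. -/
theorem rho_coeffMap (σ : A.decompositionSubgroup K) {f : L →+* L}
    (hf : ∀ a, f a = (σ : L ≃ₐ[K] L) a) (x : O A) :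
    rho A ⟨coeffMap f (x : LaurentSeries L), coeffMap_mem_O A σ hf x.2⟩ =
      coeffMap ((resAut A σ : IsLocalRing.ResidueField A ≃+* IsLocalRing.ResidueField A) :
        IsLocalRing.ResidueField A →+* IsLocalRing.ResidueField A) (rho A x) := by
  obtain ⟨a, b, hb, h⟩ := x.2
  have hb' : red A (actSeries A σ b) ≠ 0 := by
    rw [red_actSeries]
    exact coeffMap_ne_zero (resAut A σ).injective hb
  rw [rho_eq A _ (actSeries A σ a) (actSeries A σ b) hb'
      (by rw [incl_actSeries' A σ hf, incl_actSeries' A σ hf, ← map_mul, h]),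
    rho_eq A x a b hb h, red_actSeries, red_actSeries, map_div₀]

/-- the same for elements given with a membership proof -/
theorem rho_coeffMap' (σ : A.decompositionSubgroup K) {f : L →+* L}
    (hf : ∀ a, f a = (σ : L ≃ₐ[K] L) a) {x : LaurentSeries L} (hx : x ∈ O A)
    (hx' : coeffMap f x ∈ O A) :
    rho A ⟨coeffMap f x, hx'⟩ =
      coeffMap ((resAut A σ : IsLocalRing.ResidueField A ≃+* IsLocalRing.ResidueField A) :
        IsLocalRing.ResidueField A →+* IsLocalRing.ResidueField A) (rho A ⟨x, hx⟩) :=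
  rho_coeffMap A σ hf ⟨x, hx⟩

/-! ### (G3) inertia and Frobenius -/

theorem resAut_eq_one_of_mem_inertiaSubgroup {σ : A.decompositionSubgroup K}
    (hσ : σ ∈ A.inertiaSubgroup K) : resAut A σ = 1 :=
  hσ

/-- an element of `A.inertiaSubgroupIn K` comes from the decomposition group and acts trivially on
the residue field -/
theorem exists_of_mem_inertiaSubgroupIn {τ : L ≃ₐ[K] L} (hτ : τ ∈ A.inertiaSubgroupIn K) :
    ∃ hD : τ ∈ A.decompositionSubgroup K, resAut A ⟨τ, hD⟩ = 1 := by
  obtain ⟨σ, hσ, rfl⟩ := hτ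
  exact ⟨σ.2, hσ⟩

theorem coeffMap_mem_O_of_mem_inertiaSubgroupIn {τ : L ≃ₐ[K] L} (hτ : τ ∈ A.inertiaSubgroupIn K)
    {f : L →+* L} (hf : ∀ a, f a = τ a) {x : LaurentSeries L} (hx : x ∈ O A) :
    coeffMap f x ∈ O A := by
  obtain ⟨hD, -⟩ := exists_of_mem_inertiaSubgroupIn A hτ
  exact coeffMap_mem_O A ⟨τ, hD⟩ hf hx

/-- **inertia acts trivially after reduction** -/
theorem rho_coeffMap_of_mem_inertiaSubgroupIn {τ : L ≃ₐ[K] L} (hτ : τ ∈ A.inertiaSubgroupIn K)
    {f : L →+* L} (hf : ∀ a, f a = τ a) (x : O A) :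
    rho A ⟨coeffMap f (x : LaurentSeries L),
        coeffMap_mem_O_of_mem_inertiaSubgroupIn A hτ hf x.2⟩ = rho A x := by
  obtain ⟨hD, h1⟩ := exists_of_mem_inertiaSubgroupIn A hτ
  have := rho_coeffMap A ⟨τ, hD⟩ hf x
  rw [h1] at this
  rw [this]
  exact coeffMap_id _

/-- the coefficientwise Frobenius of `k((q))` -/
def coeffFrob (k : Type*) [CommRing k] (ℓ : ℕ) [Fact ℓ.Prime] [CharP k ℓ] :
    LaurentSeries k →+* LaurentSeries k :=
  coeffMap (frobenius k ℓ)

theorem coeffFrob_coeff (k : Type*) [CommRing k] (ℓ : ℕ) [Fact ℓ.Prime] [CharP k ℓ]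
    (x : LaurentSeries k) (n : ℤ) : (coeffFrob k ℓ x).coeff n = x.coeff n ^ ℓ := by
  rw [coeffFrob, coeffMap_coeff, frobenius_def]

theorem resAut_of_isFrobeniusAt {σ : L ≃ₐ[K] L} {ℓ : ℕ} (h : A.IsFrobeniusAt σ ℓ)
    (x : IsLocalRing.ResidueField A) :
    resAut A ⟨σ, h.mem_decompositionSubgroup⟩ x = x ^ ℓ :=
  h.smul_residue_eq x

theorem coeffMap_mem_O_of_isFrobeniusAt {σ : L ≃ₐ[K] L} {ℓ : ℕ} (h : A.IsFrobeniusAt σ ℓ)
    {f : L →+* L} (hf : ∀ a, f a = σ a) {x : LaurentSeries L} (hx : x ∈ O A) :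
    coeffMap f x ∈ O A :=
  coeffMap_mem_O A ⟨σ, h.mem_decompositionSubgroup⟩ hf hx

/-- **a Frobenius element acts as the coefficientwise Frobenius after reduction** -/
theorem rho_coeffMap_of_isFrobeniusAt {σ : L ≃ₐ[K] L} {ℓ : ℕ} [Fact ℓ.Prime]
    [CharP (IsLocalRing.ResidueField A) ℓ] (h : A.IsFrobeniusAt σ ℓ)
    {f : L →+* L} (hf : ∀ a, f a = σ a) (x : O A) :
    rho A ⟨coeffMap f (x : LaurentSeries L), coeffMap_mem_O_of_isFrobeniusAt A h hf x.2⟩ =
      coeffFrob (IsLocalRing.ResidueField A) ℓ (rho A x) := by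
  rw [rho_coeffMap A ⟨σ, h.mem_decompositionSubgroup⟩ hf x]
  ext n
  rw [coeffMap_coeff, coeffFrob_coeff]
  exact resAut_of_isFrobeniusAt A h _

end Decomposition

/-! ### Prelude form: the `arithmeticGalois` action on `laurentBaseChange L F₀` (e.g. `F_N`) -/

section PreludeForm

variable {L : Type*} [Field L] [Algebra ℚ L] (A : ValuationSubring L)
variable (F₀ : IntermediateField ℚ (LaurentSeries ℚ))

/-- `σ ∈ D_A` preserves `𝒪_A ∩ F` (Prelude action on `F = laurentBaseChange L F₀`). -/
theorem arithmeticGalois_smul_mem_O (σ : A.decompositionSubgroup ℚ) {x : laurentBaseChange L F₀}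
    (hx : (x : LaurentSeries L) ∈ O A) :
    ((arithmeticGalois F₀ (σ : L ≃ₐ[ℚ] L) • x : laurentBaseChange L F₀) : LaurentSeries L) ∈ O A := by
  rw [coe_arithmeticGalois_smul]
  exact coeffMap_mem_O A σ (fun _ => rfl) hx

/-- reduction commutes with the Prelude Galois action of the decomposition group. -/
theorem rho_arithmeticGalois_smul (σ : A.decompositionSubgroup ℚ) {x : laurentBaseChange L F₀}
    (hx : (x : LaurentSeries L) ∈ O A) :
    rho A ⟨((arithmeticGalois F₀ (σ : L ≃ₐ[ℚ] L) • x : laurentBaseChange L F₀) : LaurentSeries L),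
        arithmeticGalois_smul_mem_O A F₀ σ hx⟩ =
      coeffMap ((resAut A σ : IsLocalRing.ResidueField A ≃+* IsLocalRing.ResidueField A) :
        IsLocalRing.ResidueField A →+* IsLocalRing.ResidueField A) (rho A ⟨_, hx⟩) :=
  rho_coeffMap A σ (f := ((σ : L ≃ₐ[ℚ] L) : L →+* L)) (fun _ => rfl) ⟨_, hx⟩

theorem arithmeticGalois_smul_mem_O_of_inertia {τ : L ≃ₐ[ℚ] L} (hτ : τ ∈ A.inertiaSubgroupIn ℚ)
    {x : laurentBaseChange L F₀} (hx : (x : LaurentSeries L) ∈ O A) :
    ((arithmeticGalois F₀ τ • x : laurentBaseChange L F₀) : LaurentSeries L) ∈ O A := by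
  rw [coe_arithmeticGalois_smul]
  exact coeffMap_mem_O_of_mem_inertiaSubgroupIn A hτ (fun _ => rfl) hx

/-- **inertia**: `ρ (τ • x) = ρ x`. -/
theorem rho_arithmeticGalois_smul_of_inertia {τ : L ≃ₐ[ℚ] L} (hτ : τ ∈ A.inertiaSubgroupIn ℚ)
    {x : laurentBaseChange L F₀} (hx : (x : LaurentSeries L) ∈ O A) :
    rho A ⟨((arithmeticGalois F₀ τ • x : laurentBaseChange L F₀) : LaurentSeries L),
        arithmeticGalois_smul_mem_O_of_inertia A F₀ hτ hx⟩ = rho A ⟨_, hx⟩ :=
  rho_coeffMap_of_mem_inertiaSubgroupIn A hτ (f := (τ : L →+* L)) (fun _ => rfl) ⟨_, hx⟩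

theorem arithmeticGalois_smul_mem_O_of_frobenius {σ : L ≃ₐ[ℚ] L} {ℓ : ℕ}
    (h : A.IsFrobeniusAt σ ℓ) {x : laurentBaseChange L F₀} (hx : (x : LaurentSeries L) ∈ O A) :
    ((arithmeticGalois F₀ σ • x : laurentBaseChange L F₀) : LaurentSeries L) ∈ O A := by
  rw [coe_arithmeticGalois_smul]
  exact coeffMap_mem_O_of_isFrobeniusAt A h (fun _ => rfl) hx

/-- **Frobenius**: `ρ (σ • x) = φ (ρ x)`, `φ` the coefficientwise Frobenius of `k((q))`. -/
theorem rho_arithmeticGalois_smul_of_frobenius {σ : L ≃ₐ[ℚ] L} {ℓ : ℕ} [Fact ℓ.Prime]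
    [CharP (IsLocalRing.ResidueField A) ℓ] (h : A.IsFrobeniusAt σ ℓ)
    {x : laurentBaseChange L F₀} (hx : (x : LaurentSeries L) ∈ O A) :
    rho A ⟨((arithmeticGalois F₀ σ • x : laurentBaseChange L F₀) : LaurentSeries L),
        arithmeticGalois_smul_mem_O_of_frobenius A F₀ h hx⟩ =
      coeffFrob (IsLocalRing.ResidueField A) ℓ (rho A ⟨_, hx⟩) :=
  rho_coeffMap_of_isFrobeniusAt A h (f := (σ : L →+* L)) (fun _ => rfl) ⟨_, hx⟩

end PreludeForm

/-! ### (G5) Kronecker helper: `(φ x)(q^ℓ) = x ^ ℓ` in characteristic `ℓ` -/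

section Kronecker

theorem qExpand_ofPowerSeries {R : Type*} [CommRing R] (N : ℕ) [NeZero N] (r : PowerSeries R) :
    qExpand R N (HahnSeries.ofPowerSeries ℤ R r) =
      HahnSeries.ofPowerSeries ℤ R (r.expand N (NeZero.ne N)) := by
  ext m
  by_cases hm : (N : ℤ) ∣ m
  · obtain ⟨j, rfl⟩ := hm
    rw [qExpand_coeff_mul]
    rcases le_or_gt 0 j with hj | hj
    · lift j to ℕ using hj
      rw [HahnSeries.ofPowerSeries_apply_coeff,
        show ((N : ℤ) * (j : ℤ)) = ((N * j : ℕ) : ℤ) by push_cast; rfl,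
        HahnSeries.ofPowerSeries_apply_coeff, PowerSeries.coeff_expand_mul]
    · rw [ofPowerSeries_coeff_of_neg _ hj, ofPowerSeries_coeff_of_neg]
      exact mul_neg_of_pos_of_neg (by exact_mod_cast Nat.pos_of_ne_zero (NeZero.ne N)) hj
  · rw [qExpand_coeff_of_not_dvd N _ hm]
    rcases le_or_gt 0 m with h0 | h0
    · lift m to ℕ using h0
      rw [HahnSeries.ofPowerSeries_apply_coeff, PowerSeries.coeff_expand_of_not_dvd]
      intro h
      exact hm (by exact_mod_cast h)
    · rw [ofPowerSeries_coeff_of_neg _ h0]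

variable (k : Type*) [CommRing k] (ℓ : ℕ) [Fact ℓ.Prime] [CharP k ℓ]

theorem powerSeries_map_frobenius_expand (p : PowerSeries k) :
    (p.expand ℓ (Fact.out : ℓ.Prime).ne_zero).map (frobenius k ℓ) = p ^ ℓ := by
  have : ExpChar k ℓ := ExpChar.prime Fact.out
  exact MvPowerSeries.map_frobenius_expand ℓ (Fact.out : ℓ.Prime).ne_zero

/-- **Kronecker helper**: in characteristic `ℓ`, `(φ x)(q^ℓ) = x(q)^ℓ`. -/
theorem qExpand_coeffFrob [NeZero ℓ] (x : LaurentSeries k) :
    qExpand k ℓ (coeffFrob k ℓ x) = x ^ ℓ := by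
  set n := x.order with hn
  set p := x.powerSeriesPart with hp
  have hx : x = HahnSeries.single n 1 * HahnSeries.ofPowerSeries ℤ k p :=
    (LaurentSeries.single_order_mul_powerSeriesPart x).symm
  have h1 : coeffFrob k ℓ (HahnSeries.single n (1 : k)) = HahnSeries.single n 1 := by
    rw [coeffFrob, coeffMap_single, map_one]
  have h2 : coeffFrob k ℓ (HahnSeries.ofPowerSeries ℤ k p) =
      HahnSeries.ofPowerSeries ℤ k (p.map (frobenius k ℓ)) := coeffMap_ofPowerSeries _ _
  have h3 : (HahnSeries.single n (1 : k)) ^ ℓ = HahnSeries.single ((ℓ : ℤ) * n) 1 := by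
    rw [HahnSeries.single_pow, one_pow, nsmul_eq_mul]
  have h4 : (HahnSeries.ofPowerSeries ℤ k p) ^ ℓ =
      HahnSeries.ofPowerSeries ℤ k ((p.map (frobenius k ℓ)).expand ℓ (NeZero.ne ℓ)) := by
    rw [← map_pow, ← powerSeries_map_frobenius_expand, PowerSeries.map_expand]
  rw [hx, map_mul, map_mul, h1, h2, qExpand_single, qExpand_ofPowerSeries, mul_pow, h3, h4]

end Kronecker

/-! ### (G4) field automorphisms of `k` act on the special fibre `F̄_N = k(t_d : d ∣ N)` -/

section SpecialFibre

variable (k : Type*) [Field k] (N : ℕ)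

theorem coeffMap_algebraMap' (θ : k →+* k) (c : k) :
    coeffMap θ (algebraMap k (LaurentSeries k) c) = algebraMap k (LaurentSeries k) (θ c) := by
  rw [algebraMap_laurentSeries_eq_single, algebraMap_laurentSeries_eq_single, coeffMap_single]

theorem mem_modularFunctionFieldFullC_iff {x : LaurentSeries k} :
    x ∈ modularFunctionFieldFullC k N ↔
      x ∈ Subfield.closure
        (Set.range (algebraMap k (LaurentSeries k)) ∪ divisorExpansionsC k N) :=
  Iff.rfl

/-- `F̄_N` is stable under every coefficientwise ring endomorphism of `k((q))`. -/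
theorem coeffMap_mem_fullC (θ : k →+* k) {x : LaurentSeries k}
    (hx : x ∈ modularFunctionFieldFullC k N) :
    coeffMap θ x ∈ modularFunctionFieldFullC k N := by
  rw [mem_modularFunctionFieldFullC_iff] at hx
  induction hx using Subfield.closure_induction with
  | mem y hy =>
      rcases hy with ⟨a, rfl⟩ | ⟨d, hd, hdN, rfl⟩
      · rw [coeffMap_algebraMap']
        exact (modularFunctionFieldFullC k N).algebraMap_mem _
      · have := hd
        rw [coeffMap_qExpand, coeffMap_jqModC]
        exact jqModCd_mem_full k N hdN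
  | one => simp
  | add x y _ _ hx hy => simpa using add_mem hx hy
  | neg x _ hx => simpa using neg_mem hx
  | inv x _ hx => simpa using inv_mem hx
  | mul x y _ _ hx hy => simpa using mul_mem hx hy

/-- the ring automorphism of `F̄_N` induced by `θ ∈ Aut(k)` acting on coefficients -/
def barRingAut (θ : k ≃+* k) :
    (modularFunctionFieldFullC k N) ≃+* (modularFunctionFieldFullC k N) where
  toFun x := ⟨coeffMap (θ : k →+* k) (x : LaurentSeries k), coeffMap_mem_fullC k N _ x.2⟩
  invFun x := ⟨coeffMap (θ.symm : k →+* k) (x : LaurentSeries k), coeffMap_mem_fullC k N _ x.2⟩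
  left_inv x := Subtype.ext <| by
    show coeffMap (θ.symm : k →+* k) (coeffMap (θ : k →+* k) (x : LaurentSeries k))
      = (x : LaurentSeries k)
    rw [coeffMap_coeffMap,
      coeffMap_congr (g := RingHom.id k) (RingHom.ext fun a => θ.symm_apply_apply a)
        (x : LaurentSeries k),
      coeffMap_id]
  right_inv x := Subtype.ext <| by
    show coeffMap (θ : k →+* k) (coeffMap (θ.symm : k →+* k) (x : LaurentSeries k))
      = (x : LaurentSeries k)
    rw [coeffMap_coeffMap,
      coeffMap_congr (g := RingHom.id k) (RingHom.ext fun a => θ.apply_symm_apply a)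
        (x : LaurentSeries k),
      coeffMap_id]
  map_mul' x y :=
    Subtype.ext (map_mul (coeffMap (θ : k →+* k)) (x : LaurentSeries k) (y : LaurentSeries k))
  map_add' x y :=
    Subtype.ext (map_add (coeffMap (θ : k →+* k)) (x : LaurentSeries k) (y : LaurentSeries k))

@[simp]
theorem coe_barRingAut_apply (θ : k ≃+* k) (x : modularFunctionFieldFullC k N) :
    (barRingAut k N θ x : LaurentSeries k) = coeffMap (θ : k →+* k) (x : LaurentSeries k) :=
  rfl

theorem barRingAut_algebraMap (θ : k ≃+* k) (a : k) :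
    barRingAut k N θ (algebraMap k (modularFunctionFieldFullC k N) a)
      = algebraMap k (modularFunctionFieldFullC k N) (θ a) :=
  Subtype.ext (coeffMap_algebraMap' k (θ : k →+* k) a)

/-- `Aut(k) → SemilinearAut k F̄_N` (coefficientwise action); the Prelude then provides the induced
actions on `Place k F̄_N`, `Divisor k F̄_N`, `Pic0 k F̄_N = JZeroC k N`. -/
def barAut : (k ≃+* k) →* SemilinearAut k (modularFunctionFieldFullC k N) where
  toFun θ := ⟨(barRingAut k N θ, θ), fun a => barRingAut_algebraMap k N θ a⟩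
  map_one' := by
    refine Subtype.ext (Prod.ext (RingEquiv.ext fun x => Subtype.ext ?_) rfl)
    show coeffMap ((1 : k ≃+* k) : k →+* k) (x : LaurentSeries k) = (x : LaurentSeries k)
    rw [show ((1 : k ≃+* k) : k →+* k) = RingHom.id k from RingHom.ext fun _ => rfl,
      coeffMap_id]
  map_mul' θ η := by
    refine Subtype.ext (Prod.ext (RingEquiv.ext fun x => Subtype.ext ?_) rfl)
    show coeffMap ((θ * η : k ≃+* k) : k →+* k) (x : LaurentSeries k)
      = coeffMap (θ : k →+* k) (coeffMap (η : k →+* k) (x : LaurentSeries k))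
    rw [coeffMap_coeffMap]
    exact coeffMap_congr (RingHom.ext fun _ => rfl) _

@[simp]
theorem toRingAut_barAut (θ : k ≃+* k) :
    SemilinearAut.toRingAut (barAut k N θ) = barRingAut k N θ :=
  rfl

@[simp]
theorem baseAut_barAut (θ : k ≃+* k) :
    SemilinearAut.baseAut (barAut k N θ) = θ :=
  rfl

theorem coe_barAut_smul (θ : k ≃+* k) (x : modularFunctionFieldFullC k N) :
    ((barAut k N θ • x : modularFunctionFieldFullC k N) : LaurentSeries k)
      = coeffMap (θ : k →+* k) (x : LaurentSeries k) :=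
  rfl

/-- the Frobenius automorphism of a perfect field of characteristic `ℓ` -/
def frobAut (ℓ : ℕ) [Fact ℓ.Prime] [CharP k ℓ] [PerfectRing k ℓ] : k ≃+* k :=
  frobeniusEquiv k ℓ

theorem coe_barAut_frobAut_smul (ℓ : ℕ) [Fact ℓ.Prime] [CharP k ℓ] [PerfectRing k ℓ]
    (x : modularFunctionFieldFullC k N) :
    ((barAut k N (frobAut k ℓ) • x : modularFunctionFieldFullC k N) : LaurentSeries k)
      = coeffFrob k ℓ (x : LaurentSeries k) := by
  rw [coe_barAut_smul]
  exact coeffMap_congr (RingHom.ext fun a => by simp [frobAut]) _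

end SpecialFibre

end Fermat.Agent.S37.GalRed42
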