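/-
S37, package [S37-RHO+TM] (helper77).

For `M = s * N` (the good auxiliary level of `Spine33.exists_aux`) and ANY place map
`r : Place ℚ̄ F_M → Place k F̄_M` we define

  `rhoDiv N s r : Div(F_N) →+ Div(F̄_M)`,   `D ↦ r_* (σ_s^* D)`     (`σ_s : f(q) ↦ f(q^s)`)
  `rho N s r hprin : JZero N →+ Pic k F̄_M`   (the class of `rhoDiv`; needs only that `r_*` maps
                                               principal divisors to principal divisors)

and prove clause (T) of `Reduce52.RhoStmt` for it (`rho_torsion_injective`):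
`m • x = 0`, `ℓ ∤ m`, `rho x = 0` imply `x = 0`, from the S18 spine statements
(`LevelStatement`, `DescentStatement`, `CuspInftyStatement`) and `Normalize96.normalize` run at
level `M` (inputs `H1 H2 H3` at level `M`).  The target is `Pic` (not `Pic0`), so no degree
bookkeeping (fundamental identity) for `σ_s` is needed.
-/
import Fermat.Agent.S18.Spine33
import Fermat.Agent.S18.Normalize96
import Fermat.Agent.S18.NormFrac20
import Fermat.Agent.S18.Transfer87

set_option autoImplicit false

open ModularCurve AlgebraicCurve HahnSeries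

noncomputable section

namespace Fermat.Agent.S37.RhoTM77

open Fermat.Agent.S18 Fermat.Agent.S18.Spine33

/-- The function field of `X₀(M)` in characteristic `ℓ` (Prelude), as a type. -/
abbrev Fk (k : Type*) [Field k] (M : ℕ) : Type _ := ↥(modularFunctionFieldFullC k M)

section Pull

variable (N s : ℕ) [NeZero N] [NeZero s]

/-- integrality of `σ_s`, in the `toRingHom` form the Prelude `…Along` API wants -/
theorem sigma_int : (Transfer87.sigma N s).toRingHom.IsIntegral :=
  Transfer87.sigma_isIntegral N s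

/-- `σ_s^*` on divisors. -/
def pull : Divisor Kb (FK N) →+ Divisor Kb (FK (s * N)) :=
  have := NormFrac20.hasPrincipalDivisors_bar (s * N)
  Divisor.pullbackAlong (Transfer87.sigma N s) (sigma_int N s)

theorem pull_apply (D : Divisor Kb (FK N)) (P' : Place Kb (FK (s * N))) :
    pull N s D P' = Place.ramificationIndexAlong (Transfer87.sigma N s) P' *
      D (P'.restrictAlong (Transfer87.sigma N s) (sigma_int N s)) := by
  have := NormFrac20.hasPrincipalDivisors_bar (s * N)
  exact Divisor.pullbackAlong_apply _ _ D P'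

/-- `σ_s^* (div f) = div (σ_s f)`. -/
theorem pull_apply_of_ord {D : Divisor Kb (FK N)} {f : FK N}
    (hD : ∀ P : Place Kb (FK N), D P = P.ord f) (P' : Place Kb (FK (s * N))) :
    pull N s D P' = P'.ord (Transfer87.sigma N s f) := by
  rw [pull_apply, hD, ← Place.ord_restrictAlong]

theorem pull_mem_principal {D : Divisor Kb (FK N)}
    (hD : D ∈ Divisor.principal (K := Kb) (F := FK N)) :
    pull N s D ∈ Divisor.principal (K := Kb) (F := FK (s * N)) := by
  obtain ⟨f, hf0, hf⟩ := hD
  refine ⟨Transfer87.sigma N s f, ?_, fun P' => pull_apply_of_ord N s hf P'⟩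
  exact (map_ne_zero_iff _ (Transfer87.sigma N s).toRingHom.injective).mpr hf0

end Pull

section Rho

variable (N s : ℕ) [NeZero N] [NeZero s] {k : Type*} [Field k]
variable (r : Place Kb (FK (s * N)) → Place k (Fk k (s * N)))

/-- `D ↦ r_* (σ_s^* D)`. -/
def rhoDiv : Divisor Kb (FK N) →+ Divisor k (Fk k (s * N)) :=
  (Finsupp.mapDomain.addMonoidHom r).comp (pull N s)

theorem rhoDiv_apply (D : Divisor Kb (FK N)) :
    rhoDiv N s r D = Finsupp.mapDomain r (pull N s D) := rfl

variable (hprin : ∀ D ∈ Divisor.principal (K := Kb) (F := FK (s * N)),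
  Finsupp.mapDomain r D ∈ Divisor.principal (K := k) (F := Fk k (s * N)))

/-- The reduction map `ρ = [r_* ∘ σ_s^*] : J₀(N) → Pic(F̄_M)`. -/
def rho : JZero N →+ Pic k (Fk k (s * N)) :=
  QuotientAddGroup.lift _
    ((QuotientAddGroup.mk' (Divisor.principal (K := k) (F := Fk k (s * N)))).comp
      ((rhoDiv N s r).comp (Divisor.degZero (K := Kb) (F := FK N)).subtype))
    (by
      rintro ⟨D, hD0⟩ hD
      rw [AddSubgroup.mem_addSubgroupOf] at hD
      rw [AddMonoidHom.mem_ker]
      show (QuotientAddGroup.mk (rhoDiv N s r D) : Pic k (Fk k (s * N))) = 0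
      rw [QuotientAddGroup.eq_zero_iff]
      exact hprin _ (pull_mem_principal N s hD))

theorem rho_mk (D : Divisor.degZero (K := Kb) (F := FK N)) :
    rho N s r hprin (Pic0.mk D) =
      (QuotientAddGroup.mk (rhoDiv N s r (D : Divisor Kb (FK N))) : Pic k (Fk k (s * N))) :=
  rfl

theorem rho_mk_eq_zero_iff (D : Divisor.degZero (K := Kb) (F := FK N)) :
    rho N s r hprin (Pic0.mk D) = 0 ↔
      Finsupp.mapDomain r (pull N s (D : Divisor Kb (FK N))) ∈
        Divisor.principal (K := k) (F := Fk k (s * N)) := by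
  rw [rho_mk, QuotientAddGroup.eq_zero_iff]
  rfl

end Rho

section Torsion

set_option synthInstance.maxHeartbeats 400000

/-- principal divisors have degree zero -/
theorem degree_eq_zero_of_mem_principal {K F : Type*} [Field K] [Field F] [Algebra K F]
    [HasPrincipalDivisors K F] {D : Divisor K F}
    (hD : D ∈ Divisor.principal (K := K) (F := F)) : Divisor.degree D = 0 := by
  obtain ⟨f, hf0, hf⟩ := hD
  obtain ⟨D', hD', hdeg⟩ := HasPrincipalDivisors.exists_divisor (K := K) f hf0
  have : D = D' := by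
    ext v
    rw [hf v, hD' v]
  rw [this, hdeg]

variable (N s : ℕ) [NeZero N] [NeZero s]

set_option maxHeartbeats 800000 in
/-- **Clause (T), divisor form** (independent of how `ρ` is packaged: target `Pic` or `Pic0`):
if `m • [D] = 0`, `ℓ ∤ m` and `r_* (σ_s^* D)` is principal on the special fibre of level `M = s N`,
then `[D] = 0` in `J₀(N)`. -/
theorem mk_eq_zero_of_mapDomain_pull_mem_principal
    (hLevel : LevelStatement) (hDesc : DescentStatement) (hCusp : CuspInftyStatement)
    {ℓ : ℕ} [Fact ℓ.Prime] (A : ValuationSubring Kb) (hA : A.LiesOverPrime ℓ)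
    (hpair : DescentPair s N) (hgood : GoodLevel ℓ (s * N)) (hℓM : ¬ ℓ ∣ s * N)
    (r : Place Kb (FK (s * N)) → Place (kA A) (Fk (kA A) (s * N)))
    (hr : IsPlaceReductionAlong A (IsLocalRing.residue A) (s * N) r)
    (H1 : Normalize96.HasIntegralFractions A (IsLocalRing.residue A) (s * N))
    (H2 : Normalize96.ReductionSurjective A (IsLocalRing.residue A) (s * N))
    (H3 : Normalize96.ConstOfOrdZero (kA A) (s * N))
    (m : ℕ) (hm : ¬ ℓ ∣ m) (D : Divisor.degZero (K := Kb) (F := FK N))
    (hmx : m • (Pic0.mk D : JZero N) = 0)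
    (hred : Finsupp.mapDomain r (pull N s (D : Divisor Kb (FK N))) ∈
      Divisor.principal (K := kA A) (F := Fk (kA A) (s * N))) :
    (Pic0.mk D : JZero N) = 0 := by
  classical
  have hm0 : 0 < m := Nat.pos_of_ne_zero (by rintro rfl; exact hm (dvd_zero ℓ))
  have hmZ : (m : ℤ) ≠ 0 := by exact_mod_cast hm0.ne'
  have hPDM := NormFrac20.hasPrincipalDivisors_bar (s * N)
  -- `m D = div f`
  have hmD : (m • (D : Divisor Kb (FK N))) ∈ Divisor.principal (K := Kb) (F := FK N) := by
    have h0 : (QuotientAddGroup.mk (m • D) : Pic0 Kb (FK N)) = 0 := by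
      rw [QuotientAddGroup.mk_nsmul]; exact hmx
    have h1 := (QuotientAddGroup.eq_zero_iff (m • D)).mp h0
    rw [AddSubgroup.mem_addSubgroupOf] at h1
    simpa using h1
  obtain ⟨f, hf0, hf⟩ := hmD
  -- the pulled back divisor
  set DM : Divisor Kb (FK (s * N)) := pull N s (D : Divisor Kb (FK N)) with hDM
  have hσf0 : Transfer87.sigma N s f ≠ 0 :=
    (map_ne_zero_iff _ (Transfer87.sigma N s).toRingHom.injective).mpr hf0
  have hmDM : ∀ P' : Place Kb (FK (s * N)), (m • DM) P' = P'.ord (Transfer87.sigma N s f) := by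
    intro P'
    rw [hDM, ← map_nsmul]
    exact pull_apply_of_ord N s hf P'
  have hmDMprin : (m • DM) ∈ Divisor.principal (K := Kb) (F := FK (s * N)) :=
    ⟨Transfer87.sigma N s f, hσf0, hmDM⟩
  have hDM0 : Divisor.degree DM = 0 := by
    have h := degree_eq_zero_of_mem_principal hmDMprin
    rw [map_nsmul, smul_eq_zero] at h
    rcases h with h | h
    · exact absurd h hm0.ne'
    · exact h
  -- NORMALIZE at level `M`
  obtain ⟨D', a, b, hDD', -, hmD', hab⟩ :=
    Normalize96.normalize (A := A) (π := IsLocalRing.residue A) (N := s * N) hr H1 H2 H3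
      IsLocalRing.residue_surjective
      (fun a ha => isUnit_of_map_unit (IsLocalRing.residue A) a ha) m DM hDM0 hmDMprin hred
  set f' : FK (s * N) := a.toF / b.toF with hf'
  have hf'0 : f' ≠ 0 := div_ne_zero a.toF_ne_zero b.toF_ne_zero
  have hloc : LocallyPower (s * N) m f' := fun P =>
    ⟨D' P, by rw [← hmD' P, Finsupp.smul_apply, nsmul_eq_mul]⟩
  have hunit : IsOneUnit A (s * N) (f' : LaurentSeries Kb) := by
    refine ⟨a.y, b.y, a.mem, b.mem, a.memk, a.ne, congrArg Subtype.val hab, ?_⟩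
    have hb0 : coeffMap A.subtype b.y ≠ 0 := fun h => b.toF_ne_zero (Subtype.ext h)
    show ((a.toF / b.toF : FK (s * N)) : LaurentSeries Kb) * coeffMap A.subtype b.y
      = coeffMap A.subtype a.y
    have : ((a.toF / b.toF : FK (s * N)) : LaurentSeries Kb)
        = coeffMap A.subtype a.y / coeffMap A.subtype b.y := rfl
    rw [this, div_mul_cancel₀ _ hb0]
  obtain ⟨u, hu⟩ := hLevel (s * N) ℓ hℓM hgood A hA m hm f' hf'0 hloc hunit
  have hu0 : u ≠ 0 := by
    rintro rfl
    rw [zero_pow hm0.ne'] at hu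
    exact hf'0 hu.symm
  have hD'u : ∀ P : Place Kb (FK (s * N)), D' P = P.ord u := by
    intro P
    have h1 : P.ord f' = (m : ℤ) * P.ord u := by
      rw [← hu, ← zpow_natCast, P.ord_zpow]
    have h2 := hmD' P
    rw [Finsupp.smul_apply, nsmul_eq_mul, h1] at h2
    exact mul_left_cancel₀ hmZ h2
  -- `DM = div g`
  obtain ⟨g₀, hg₀0, hg₀⟩ := hDD'
  set g : FK (s * N) := g₀ * u with hg
  have hg0 : g ≠ 0 := mul_ne_zero hg₀0 hu0
  have hDMg : ∀ P : Place Kb (FK (s * N)), DM P = P.ord g := by
    intro P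
    have h := hg₀ P
    rw [Finsupp.sub_apply, hD'u P] at h
    rw [hg, P.ord_mul hg₀0 hu0]
    omega
  -- `σ_s f = c g^m`
  have hquot0 : Transfer87.sigma N s f / g ^ m ≠ 0 := div_ne_zero hσf0 (pow_ne_zero _ hg0)
  have hord0 : ∀ P : Place Kb (FK (s * N)), P.ord (Transfer87.sigma N s f / g ^ m) = 0 := by
    intro P
    rw [div_eq_mul_inv, P.ord_mul hσf0 (inv_ne_zero (pow_ne_zero _ hg0)), P.ord_inv,
      ← zpow_natCast, P.ord_zpow, ← hmDM P, Finsupp.smul_apply, nsmul_eq_mul, hDMg P]
    ring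
  obtain ⟨c, hc⟩ := NormFrac20.const_of_ord_zero_bar (s * N) _ hord0
  have hc0 : c ≠ 0 := by
    rintro rfl
    rw [map_zero] at hc
    exact hquot0 hc
  obtain ⟨c₀, hc₀⟩ := IsAlgClosed.exists_pow_nat_eq c hm0
  set w : FK (s * N) := algebraMap Kb (FK (s * N)) c₀ * g with hw
  have hwpow : w ^ m = Transfer87.sigma N s f := by
    rw [hw, mul_pow, ← map_pow, hc₀, ← hc, div_mul_cancel₀ _ (pow_ne_zero _ hg0)]
  -- order divisibility at the cusp `∞`
  obtain ⟨Pinf, hPinf⟩ := hCusp N f hf0
  have hordf : (m : ℤ) ∣ (f : LaurentSeries Kb).order := by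
    rw [← hPinf, ← hf Pinf, Finsupp.smul_apply, nsmul_eq_mul]
    exact Dvd.intro _ rfl
  obtain ⟨v, hv⟩ := hDesc N s hpair m hm0 f hf0 hordf
    ⟨(w : LaurentSeries Kb), w.2, by
      have := congrArg Subtype.val hwpow
      simpa using this⟩
  have hv0 : v ≠ 0 := by
    rintro rfl
    rw [zero_pow hm0.ne'] at hv
    exact hf0 hv.symm
  have hDv : ∀ P : Place Kb (FK N), (D : Divisor Kb (FK N)) P = P.ord v := by
    intro P
    have h1 : P.ord f = (m : ℤ) * P.ord v := by
      rw [← hv, ← zpow_natCast, P.ord_zpow]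
    have h2 := hf P
    rw [Finsupp.smul_apply, nsmul_eq_mul, h1] at h2
    exact mul_left_cancel₀ hmZ h2
  have hprinD : (D : Divisor Kb (FK N)) ∈ Divisor.principal (K := Kb) (F := FK N) :=
    ⟨v, hv0, hDv⟩
  exact (QuotientAddGroup.eq_zero_iff D).mpr hprinD

/-- **Clause (T)** for `ρ = [r_* ∘ σ_s^*]`: prime-to-`ℓ` torsion of `J₀(N)` injects. -/
theorem rho_torsion_injective
    (hLevel : LevelStatement) (hDesc : DescentStatement) (hCusp : CuspInftyStatement)
    {ℓ : ℕ} [Fact ℓ.Prime] (A : ValuationSubring Kb) (hA : A.LiesOverPrime ℓ)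
    (hpair : DescentPair s N) (hgood : GoodLevel ℓ (s * N)) (hℓM : ¬ ℓ ∣ s * N)
    (r : Place Kb (FK (s * N)) → Place (kA A) (Fk (kA A) (s * N)))
    (hr : IsPlaceReductionAlong A (IsLocalRing.residue A) (s * N) r)
    (hprin : ∀ D ∈ Divisor.principal (K := Kb) (F := FK (s * N)),
      Finsupp.mapDomain r D ∈ Divisor.principal (K := kA A) (F := Fk (kA A) (s * N)))
    (H1 : Normalize96.HasIntegralFractions A (IsLocalRing.residue A) (s * N))
    (H2 : Normalize96.ReductionSurjective A (IsLocalRing.residue A) (s * N))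
    (H3 : Normalize96.ConstOfOrdZero (kA A) (s * N))
    (m : ℕ) (hm : ¬ ℓ ∣ m) (x : JZero N) (hmx : m • x = 0)
    (hx : rho N s r hprin x = 0) : x = 0 := by
  obtain ⟨D, rfl⟩ := Pic0.mk_surjective x
  exact mk_eq_zero_of_mapDomain_pull_mem_principal N s hLevel hDesc hCusp A hA hpair hgood hℓM r hr
    H1 H2 H3 m hm D hmx ((rho_mk_eq_zero_iff N s r hprin D).mp hx)

/-- **Clause (T)** in the `p`-power torsion form of `Reduce52.RhoStmt` / `IsSpecialization`. -/
theorem rho_ptorsion_injective
    (hLevel : LevelStatement) (hDesc : DescentStatement) (hCusp : CuspInftyStatement)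
    {ℓ : ℕ} [Fact ℓ.Prime] (A : ValuationSubring Kb) (hA : A.LiesOverPrime ℓ)
    (hpair : DescentPair s N) (hgood : GoodLevel ℓ (s * N)) (hℓM : ¬ ℓ ∣ s * N)
    (r : Place Kb (FK (s * N)) → Place (kA A) (Fk (kA A) (s * N)))
    (hr : IsPlaceReductionAlong A (IsLocalRing.residue A) (s * N) r)
    (hprin : ∀ D ∈ Divisor.principal (K := Kb) (F := FK (s * N)),
      Finsupp.mapDomain r D ∈ Divisor.principal (K := kA A) (F := Fk (kA A) (s * N)))
    (H1 : Normalize96.HasIntegralFractions A (IsLocalRing.residue A) (s * N))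
    (H2 : Normalize96.ReductionSurjective A (IsLocalRing.residue A) (s * N))
    (H3 : Normalize96.ConstOfOrdZero (kA A) (s * N))
    (p : ℕ) (hp : ¬ ℓ ∣ p) (x : JZero N) (hpx : ∃ n : ℕ, p ^ n • x = 0)
    (hx : rho N s r hprin x = 0) : x = 0 := by
  obtain ⟨n, hn⟩ := hpx
  refine rho_torsion_injective N s hLevel hDesc hCusp A hA hpair hgood hℓM r hr hprin H1 H2 H3
    (p ^ n) (fun h => hp ((Fact.out : ℓ.Prime).dvd_of_dvd_pow h)) x hn hx

end Torsion

end Fermat.Agent.S37.RhoTM77
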