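/-
S37, leaf [15-ES-FN] (helper77): the Eichler–Shimura congruence ON PRINCIPAL DIVISORS, i.e. the
hypothesis `hT` of `Assembly52.rho_hecke`, at
`(K, F, F', F₁, k, Fb) = (ℚ̄, F_N, F_{Nℓ}, F_{sN}, k_A, F̄_{sN})`:

  `redPull (T_ℓ D) = Φ • redPull D + ℓ • Φ⁻¹ • redPull D`   for `D` principal on `F_N`,

`redPull = r_* ∘ σ_s^*`, `T_ℓ = α_* β^*` the Prelude correspondence, `Φ` the coefficientwise Frobenius
of `F̄_{sN}`.  Inputs (all hypotheses, each a landed or claimed S37 leaf):
* `hr`    : conservation law for `r` at level `s N`                         ([R])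
* `H1N`   : `Normalize96.HasIntegralFractions` at level `N`                 (IntFracInst57)
* `hKron` : `KronRedStatement N ℓ A`  (Kronecker congruence for norms)     ([KRON-RED], helper17)
* `hfin`, `hNorm` : finiteness + norm formula for `α`                      (HeckeInputsFinal85)
-/
import Fermat.Agent.S37.RhoTM77
import Fermat.Agent.S37.Assembly52
import Fermat.Agent.S37.GalRed42

set_option autoImplicit false

open ModularCurve AlgebraicCurve HahnSeries

noncomputable section

namespace Fermat.Agent.S37.EsFn77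

open Fermat.Agent.S18 Fermat.Agent.S18.Spine33 Fermat.Agent.S37.RhoTM77
open Fermat.Agent.S37.Assembly52 Fermat.Agent.S18.Normalize96

set_option synthInstance.maxHeartbeats 400000

/-- **[KRON-RED]**, the exact shape consumed here: the norm `N_α(β y)` of an `A`-integral `y ∈ F_N`
is `A`-integral with reduction `ȳ(q^ℓ) · Frob(ȳ)`. -/
def KronRedStatement (N ℓ : ℕ) [NeZero N] [NeZero ℓ] [Fact ℓ.Prime] (A : ValuationSubring Kb)
    [CharP (kA A) ℓ] : Prop :=
  ∀ (U : LaurentSeries A) (hU : incl A U ∈ modularFunctionFieldBar N),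
    ∃ V : LaurentSeries A,
      incl A V = ((letI := algebraAlong (heckeAlphaBar Kb N ℓ)
        Algebra.norm (FK N) (heckeBetaBar Kb N ℓ ⟨incl A U, hU⟩) : FK N) : LaurentSeries Kb) ∧
      red A V = qExpand (kA A) ℓ (red A U) * GalRed42.coeffFrob (kA A) ℓ (red A U)

section Lift

variable (N s : ℕ) [NeZero N] [NeZero s] (A : ValuationSubring Kb)

/-- transfer of an integral element along `σ_s` -/
def liftElt (V : LaurentSeries A) (z : FK N) (hz : incl A V = (z : LaurentSeries Kb))
    (hk : red A V ∈ modularFunctionFieldFullC (kA A) N) (h0 : red A V ≠ 0) :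
    IntElt A (IsLocalRing.residue A) (s * N) where
  y := qExpand A s V
  mem := by
    have h1 : coeffMap A.subtype (qExpand A s V) = qExpand Kb s (z : LaurentSeries Kb) := by
      rw [coeffMap_qExpand]; exact congrArg _ hz
    rw [h1]
    exact Transfer87.qExpand_mem N s z
  memk := by
    rw [coeffMap_qExpand]
    exact Transfer87.qExpand_memC N s (kA A) hk
  ne := by
    rw [coeffMap_qExpand]
    intro h
    apply h0
    apply qExpand_injective (R := kA A) s
    rw [map_zero]
    exact h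

omit [NeZero N] in
theorem liftElt_toF (V : LaurentSeries A) (z : FK N) (hz : incl A V = (z : LaurentSeries Kb))
    (hk : red A V ∈ modularFunctionFieldFullC (kA A) N) (h0 : red A V ≠ 0) :
    (liftElt N s A V z hz hk h0).toF = Transfer87.sigma N s z := by
  apply Subtype.ext
  show coeffMap A.subtype (qExpand A s V) = qExpand Kb s (z : LaurentSeries Kb)
  rw [coeffMap_qExpand]; exact congrArg _ hz

omit [NeZero N] in
theorem liftElt_red_coe (V : LaurentSeries A) (z : FK N) (hz : incl A V = (z : LaurentSeries Kb))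
    (hk : red A V ∈ modularFunctionFieldFullC (kA A) N) (h0 : red A V ≠ 0) :
    ((liftElt N s A V z hz hk h0).red : LaurentSeries (kA A)) = qExpand (kA A) s (red A V) := by
  show coeffMap (IsLocalRing.residue A) (qExpand A s V) = _
  rw [coeffMap_qExpand]; rfl

end Lift

section Frob

variable (k : Type*) [Field k] (ℓ : ℕ) [Fact ℓ.Prime] [CharP k ℓ] [PerfectRing k ℓ] (M : ℕ)

omit [PerfectRing k ℓ] in
theorem coeffFrob_mem {x : LaurentSeries k} (hx : x ∈ modularFunctionFieldFullC k M) :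
    GalRed42.coeffFrob k ℓ x ∈ modularFunctionFieldFullC k M :=
  GalRed42.coeffMap_mem_fullC k M (frobenius k ℓ) hx

omit [PerfectRing k ℓ] in
theorem coeffFrob_injective : Function.Injective (GalRed42.coeffFrob k ℓ) :=
  GalRed42.coeffMap_injective (frobenius_inj k ℓ)

/-- the coefficientwise inverse Frobenius -/
def coeffFrobInv : LaurentSeries k →+* LaurentSeries k :=
  coeffMap ((frobeniusEquiv k ℓ).symm : k →+* k)

theorem coeffFrob_coeffFrobInv (x : LaurentSeries k) :
    GalRed42.coeffFrob k ℓ (coeffFrobInv k ℓ x) = x := by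
  rw [GalRed42.coeffFrob, coeffFrobInv, coeffMap_coeffMap]
  have : (frobenius k ℓ).comp ((frobeniusEquiv k ℓ).symm : k →+* k) = RingHom.id k := by
    ext a
    simp
  rw [this, coeffMap_id]

/-- in characteristic `ℓ`, `x(q^ℓ) = (Frob⁻¹ x)^ℓ`. -/
theorem qExpand_eq_pow [NeZero ℓ] (x : LaurentSeries k) :
    qExpand k ℓ x = (coeffFrobInv k ℓ x) ^ ℓ := by
  rw [← GalRed42.qExpand_coeffFrob, coeffFrob_coeffFrobInv]

theorem qExpand_mem [NeZero ℓ] {x : LaurentSeries k} (hx : x ∈ modularFunctionFieldFullC k M) :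
    qExpand k ℓ x ∈ modularFunctionFieldFullC k M := by
  rw [qExpand_eq_pow]
  exact pow_mem (GalRed42.coeffMap_mem_fullC k M _ hx) ℓ

end Frob

section Main

variable (N s ℓ : ℕ) [NeZero N] [NeZero s] [NeZero ℓ] [Fact ℓ.Prime]
variable (A : ValuationSubring Kb) [CharP (kA A) ℓ] [PerfectRing (kA A) ℓ]

/-- the coefficientwise Frobenius as a semilinear automorphism of `F̄_M` -/
abbrev Phi (M : ℕ) : SemilinearAut (kA A) (Fk (kA A) M) :=
  GalRed42.barAut (kA A) M (GalRed42.frobAut (kA A) ℓ)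

omit [NeZero N] in
/-- the reduction of the Kronecker norm lies in `F̄_N` and is nonzero -/
theorem kron_red_mem_ne {x : LaurentSeries (kA A)} (hx : x ∈ modularFunctionFieldFullC (kA A) N)
    (hx0 : x ≠ 0) :
    qExpand (kA A) ℓ x * GalRed42.coeffFrob (kA A) ℓ x ∈ modularFunctionFieldFullC (kA A) N ∧
      qExpand (kA A) ℓ x * GalRed42.coeffFrob (kA A) ℓ x ≠ 0 := by
  refine ⟨mul_mem (qExpand_mem (kA A) ℓ N hx) (coeffFrob_mem (kA A) ℓ N hx), mul_ne_zero ?_ ?_⟩
  · intro h
    apply hx0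
    apply qExpand_injective (R := kA A) ℓ
    rw [map_zero]; exact h
  · intro h
    apply hx0
    apply coeffFrob_injective (kA A) ℓ
    rw [map_zero]; exact h

/-- the function identity behind the congruence:
`σ̄_s(x(q^ℓ) Frob x) / σ̄_s(y(q^ℓ) Frob y) = Φ(u) (Φ⁻¹ u)^ℓ` for `u = σ̄_s x / σ̄_s y`. -/
theorem frob_identity (M : ℕ) (u v : Fk (kA A) M) (x y : LaurentSeries (kA A))
    (hu : (u : LaurentSeries (kA A)) = qExpand (kA A) s x / qExpand (kA A) s y)
    (hv : (v : LaurentSeries (kA A)) =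
      qExpand (kA A) s (qExpand (kA A) ℓ x * GalRed42.coeffFrob (kA A) ℓ x) /
        qExpand (kA A) s (qExpand (kA A) ℓ y * GalRed42.coeffFrob (kA A) ℓ y)) :
    v = (Phi ℓ A M • u) * ((Phi ℓ A M)⁻¹ • u) ^ ℓ := by
  apply Subtype.ext
  set w : Fk (kA A) M := (Phi ℓ A M)⁻¹ • u with hw
  have hΦw : Phi ℓ A M • w = u := by rw [hw, smul_inv_smul]
  have h1 : ((Phi ℓ A M • u : Fk (kA A) M) : LaurentSeries (kA A))
      = GalRed42.coeffFrob (kA A) ℓ (u : LaurentSeries (kA A)) :=
    GalRed42.coe_barAut_frobAut_smul (kA A) M ℓ u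
  have h2 : GalRed42.coeffFrob (kA A) ℓ (w : LaurentSeries (kA A)) = (u : LaurentSeries (kA A)) := by
    rw [← GalRed42.coe_barAut_frobAut_smul (kA A) M ℓ w]
    exact congrArg Subtype.val hΦw
  have h3 : (w : LaurentSeries (kA A)) ^ ℓ = qExpand (kA A) ℓ (u : LaurentSeries (kA A)) := by
    rw [← h2, GalRed42.qExpand_coeffFrob]
  have hcomm : ∀ t : LaurentSeries (kA A),
      qExpand (kA A) s (qExpand (kA A) ℓ t) = qExpand (kA A) ℓ (qExpand (kA A) s t) := by
    intro t
    rw [qExpand_qExpand, qExpand_qExpand]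
    exact qExpand_congr (Nat.mul_comm s ℓ) t
  have hfrob : ∀ t : LaurentSeries (kA A),
      qExpand (kA A) s (GalRed42.coeffFrob (kA A) ℓ t)
        = GalRed42.coeffFrob (kA A) ℓ (qExpand (kA A) s t) := by
    intro t
    rw [GalRed42.coeffFrob, coeffMap_qExpand]
  show (v : LaurentSeries (kA A)) =
    ((Phi ℓ A M • u : Fk (kA A) M) : LaurentSeries (kA A)) * (w : LaurentSeries (kA A)) ^ ℓ
  rw [hv, h1, h3, hu, map_mul, map_mul, hcomm, hcomm, hfrob, hfrob, map_div₀, map_div₀,
    div_mul_div_comm]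
  ring

/-- conservation for `redPull` in `IsDivOf` form: if `x = c a / b` at level `N` with `a b` integral,
then `redPull (div x) = div (σ̄_s ā / σ̄_s b̄)`. -/
theorem isDivOf_redPull [HasPrincipalDivisors Kb (FK (s * N))]
    (r : Place Kb (FK (s * N)) → Place (kA A) (Fk (kA A) (s * N)))
    (hr : IsPlaceReductionAlong A (IsLocalRing.residue A) (s * N) r)
    (x : FK N) (c : Kb) (hc : c ≠ 0)
    (Va Vb : LaurentSeries A) (za zb : FK N)
    (hza : incl A Va = (za : LaurentSeries Kb)) (hzb : incl A Vb = (zb : LaurentSeries Kb))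
    (hka : red A Va ∈ modularFunctionFieldFullC (kA A) N) (h0a : red A Va ≠ 0)
    (hkb : red A Vb ∈ modularFunctionFieldFullC (kA A) N) (h0b : red A Vb ≠ 0)
    (hx : x * zb = algebraMap Kb (FK N) c * za)
    (D : Divisor Kb (FK N)) (hD : IsDivOf D x) :
    IsDivOf (redPull (Transfer87.sigma N s) (sigma_int N s) r D)
      ((liftElt N s A Va za hza hka h0a).red / (liftElt N s A Vb zb hzb hkb h0b).red) := by
  intro Q
  rw [redPull_apply]
  have hpull : ∀ P, Divisor.pullbackAlong (Transfer87.sigma N s) (sigma_int N s) D P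
      = P.ord (Transfer87.sigma N s x) :=
    isDivOf_pullbackAlong (Transfer87.sigma N s) (sigma_int N s) hD
  have hx' : Transfer87.sigma N s x * (liftElt N s A Vb zb hzb hkb h0b).toF
      = algebraMap Kb (FK (s * N)) c * (liftElt N s A Va za hza hka h0a).toF := by
    rw [liftElt_toF, liftElt_toF, ← map_mul, hx, map_mul, AlgHom.commutes]
  exact conservation hr (Transfer87.sigma N s x) c hc _ _ hx' _ hpull Q

set_option maxHeartbeats 1000000 in
/-- **(ES-fn)**: the Eichler–Shimura congruence on principal divisors of `F_N`, i.e. hypothesis `hT`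
of `Assembly52.rho_hecke`. -/
theorem es_fn [HasPrincipalDivisors Kb (FK (s * N))] [HasPrincipalDivisors Kb (FK (N * ℓ))]
    (r : Place Kb (FK (s * N)) → Place (kA A) (Fk (kA A) (s * N)))
    (hr : IsPlaceReductionAlong A (IsLocalRing.residue A) (s * N) r)
    (H1N : HasIntegralFractions A (IsLocalRing.residue A) N)
    (hKron : KronRedStatement N ℓ A)
    (hα : (heckeAlphaBar Kb N ℓ).toRingHom.IsIntegral)
    (hβ : (heckeBetaBar Kb N ℓ).toRingHom.IsIntegral)
    (hfin : FiniteAlong Kb (heckeAlphaBar Kb N ℓ))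
    (hNorm : NormFormulaAlong Kb (heckeAlphaBar Kb N ℓ) hfin)
    (D : Divisor Kb (FK N)) (hD : D ∈ Divisor.principal (K := Kb) (F := FK N)) :
    redPull (Transfer87.sigma N s) (sigma_int N s) r
        (Divisor.correspondence (heckeBetaBar Kb N ℓ) (heckeAlphaBar Kb N ℓ) hβ hα D)
      = Phi ℓ A (s * N) • redPull (Transfer87.sigma N s) (sigma_int N s) r D
        + ℓ • (Phi ℓ A (s * N))⁻¹ • redPull (Transfer87.sigma N s) (sigma_int N s) r D := by
  classical
  obtain ⟨y, hy0, hDy⟩ := hD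
  obtain ⟨c, a, b, hc, hyab⟩ := H1N y hy0
  let algα : Algebra (FK N) (FK (N * ℓ)) := algebraAlong (heckeAlphaBar Kb N ℓ)
  have towα : IsScalarTower Kb (FK N) (FK (N * ℓ)) := isScalarTower_along (heckeAlphaBar Kb N ℓ)
  have finα : Module.Finite (FK N) (FK (N * ℓ)) := hfin
  set β := heckeBetaBar Kb N ℓ with hβdef
  set n := Module.finrank (FK N) (FK (N * ℓ)) with hn
  -- the norms
  set z : FK N := Algebra.norm (FK N) (β y) with hz
  set za : FK N := Algebra.norm (FK N) (β a.toF) with hzadef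
  set zb : FK N := Algebra.norm (FK N) (β b.toF) with hzbdef
  have hβy0 : β y ≠ 0 := (map_ne_zero_iff _ β.toRingHom.injective).mpr hy0
  -- `z * zb = c^n * za`
  have hnormc : Algebra.norm (FK N) (algebraMap Kb (FK (N * ℓ)) c)
      = algebraMap Kb (FK N) (c ^ n) := by
    rw [IsScalarTower.algebraMap_apply Kb (FK N) (FK (N * ℓ)), Algebra.norm_algebraMap, map_pow]
  have hrel : z * zb = algebraMap Kb (FK N) (c ^ n) * za := by
    rw [hz, hzbdef, hzadef, ← map_mul, ← map_mul, hyab, map_mul, AlgHom.commutes, map_mul, hnormc]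
  -- `T D = div z`
  have hTD : IsDivOf (Divisor.correspondence β (heckeAlphaBar Kb N ℓ) hβ hα D) z := by
    rw [Divisor.correspondence_apply]
    exact isDivOf_pushforwardAlong (heckeAlphaBar Kb N ℓ) hα hfin hNorm hβy0
      (isDivOf_pullbackAlong β hβ hDy)
  -- Kronecker
  obtain ⟨Va, hVa, hVared⟩ := hKron a.y a.mem
  obtain ⟨Vb, hVb, hVbred⟩ := hKron b.y b.mem
  have hVa' : incl A Va = (za : LaurentSeries Kb) := hVa
  have hVb' : incl A Vb = (zb : LaurentSeries Kb) := hVb
  obtain ⟨hka, h0a⟩ := kron_red_mem_ne N ℓ A a.memk a.ne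
  obtain ⟨hkb, h0b⟩ := kron_red_mem_ne N ℓ A b.memk b.ne
  have hka' : red A Va ∈ modularFunctionFieldFullC (kA A) N := by rw [hVared]; exact hka
  have h0a' : red A Va ≠ 0 := by rw [hVared]; exact h0a
  have hkb' : red A Vb ∈ modularFunctionFieldFullC (kA A) N := by rw [hVbred]; exact hkb
  have h0b' : red A Vb ≠ 0 := by rw [hVbred]; exact h0b
  -- the two conservation statements
  have hL := isDivOf_redPull N s A r hr z (c ^ n) (pow_ne_zero _ hc) Va Vb za zb hVa' hVb'
    hka' h0a' hkb' h0b' hrel _ hTD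
  have hR := isDivOf_redPull N s A r hr y c hc a.y b.y a.toF b.toF rfl rfl a.memk a.ne b.memk b.ne
    hyab D hDy
  set v : Fk (kA A) (s * N) :=
    (liftElt N s A Va za hVa' hka' h0a').red / (liftElt N s A Vb zb hVb' hkb' h0b').red with hv
  set u : Fk (kA A) (s * N) :=
    (liftElt N s A a.y a.toF rfl a.memk a.ne).red / (liftElt N s A b.y b.toF rfl b.memk b.ne).red
    with hu
  have hu0 : u ≠ 0 := div_ne_zero (IntElt.red_ne_zero _) (IntElt.red_ne_zero _)
  -- the function identity
  have hid : v = (Phi ℓ A (s * N) • u) * ((Phi ℓ A (s * N))⁻¹ • u) ^ ℓ := by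
    refine frob_identity s ℓ A (s * N) u v (red A a.y) (red A b.y) ?_ ?_
    · have e1 := liftElt_red_coe N s A a.y a.toF rfl a.memk a.ne
      have e2 := liftElt_red_coe N s A b.y b.toF rfl b.memk b.ne
      rw [hu, ← e1, ← e2]
      rfl
    · have e1 := liftElt_red_coe N s A Va za hVa' hka' h0a'
      have e2 := liftElt_red_coe N s A Vb zb hVb' hkb' h0b'
      rw [hVared] at e1
      rw [hVbred] at e2
      rw [hv, ← e1, ← e2]
      rfl
  -- conclude
  have hΦu0 : Phi ℓ A (s * N) • u ≠ 0 := by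
    intro h
    apply hu0
    have := congrArg (fun t => (Phi ℓ A (s * N))⁻¹ • t) h
    simpa using this
  have hΦiu0 : (Phi ℓ A (s * N))⁻¹ • u ≠ 0 := by
    intro h
    apply hu0
    have := congrArg (fun t => (Phi ℓ A (s * N)) • t) h
    simpa using this
  have hRHS : IsDivOf
      (Phi ℓ A (s * N) • redPull (Transfer87.sigma N s) (sigma_int N s) r D
        + ℓ • (Phi ℓ A (s * N))⁻¹ • redPull (Transfer87.sigma N s) (sigma_int N s) r D)
      ((Phi ℓ A (s * N) • u) * ((Phi ℓ A (s * N))⁻¹ • u) ^ ℓ) :=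
    (hR.smul (Phi ℓ A (s * N))).mul ((hR.smul (Phi ℓ A (s * N))⁻¹).pow ℓ) hΦu0
      (pow_ne_zero _ hΦiu0)
  rw [← hid] at hRHS
  exact hL.eq hRHS

end Main

end Fermat.Agent.S37.EsFn77
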