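/-
S37 package [HECKE-INPUTS], generic part (helper16).

For a finite extension `F'/F` of fields over an algebraically closed field `K` of characteristic
zero, on the Prelude `Place / Divisor` API, assuming all places of `F` and `F'` have degree one and
`F'` has principal divisors:

* `sumRamificationInertia : SumRamificationInertia K F F'`  (hence `FundamentalIdentity K F F'`),
* `pushforwardNormFormula : Divisor.PushforwardNormFormula K F F'`.

Proof: localise at the discrete valuation ring `O_v` of a place `v` of `F`, let `B` be its integral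
closure in `F'` (a semilocal Dedekind domain, finite free over `O_v`); places of `F'` over `v`
correspond to the height one primes of `B` (S24/FF/PlaceDedekind); then use Mathlib's
`Ideal.sum_ramification_inertia_eq_finrank` and `Ideal.relNorm`.
-/
import Mathlib
import Fermat.Prelude.Def_AlgebraicCurve_Correspondence
import Fermat.Agent.S24.FF.PlaceDedekind

set_option autoImplicit false
set_option linter.unusedSectionVars false
set_option linter.style.haveILetI false

namespace Fermat.Agent.S37.FibreNorm16

open AlgebraicCurve IsDedekindDomain WithZero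
open Fermat.Agent.S24.FF

/-! ## Part 0: the local rings attached to a place -/

section Local

variable {K F F' : Type*} [Field K] [Field F] [Field F']
  [Algebra K F] [Algebra K F'] [Algebra F F'] [IsScalarTower K F F']
  [FiniteDimensional F F'] [CharZero F]

variable (v : Place K F)

/-- the integral closure of `O_v` in `F'` -/
abbrev Bv (F' : Type*) [Field F'] [Algebra F F'] : Subalgebra v.toValuationSubring F' :=
  integralClosure v.toValuationSubring F'

local instance instDedekindBv : IsDedekindDomain (Bv v F') :=
  integralClosure.isDedekindDomain v.toValuationSubring F F'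

local instance instFiniteBv : Module.Finite v.toValuationSubring (Bv v F') :=
  IsIntegralClosure.finite v.toValuationSubring F F' (Bv v F')

local instance instFracBv : IsFractionRing (Bv v F') F' :=
  IsIntegralClosure.isFractionRing_of_finite_extension v.toValuationSubring F F' (Bv v F')

theorem algebraMap_Av_apply (a : v.toValuationSubring) :
    algebraMap v.toValuationSubring F' a = algebraMap F F' (a : F) := rfl

local instance instTorsionFreeAv : Module.IsTorsionFree v.toValuationSubring F' := by
  rw [Module.isTorsionFree_iff_algebraMap_injective]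
  intro a b hab
  rw [algebraMap_Av_apply, algebraMap_Av_apply] at hab
  exact Subtype.ext ((algebraMap F F').injective hab)

local instance instTorsionFreeBv : Module.IsTorsionFree v.toValuationSubring (Bv v F') :=
  Subalgebra.instIsTorsionFree _

/-- the `K`-algebra structure on `B_v` -/
local instance instAlgebraKBv : Algebra K (Bv v F') :=
  ((algebraMap v.toValuationSubring (Bv v F')).comp (algebraMap K v.toValuationSubring)).toAlgebra

local instance instTowerKAB : IsScalarTower K v.toValuationSubring (Bv v F') :=
  IsScalarTower.of_algebraMap_eq fun _ => rfl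

local instance instTowerKBF : IsScalarTower K (Bv v F') F' :=
  IsScalarTower.of_algebraMap_eq fun c => by
    show algebraMap K F' c = algebraMap F F' (algebraMap K F c)
    rw [← IsScalarTower.algebraMap_apply]

/-! ## Part 1: places over `v` and the integral closure -/

theorem coe_algebraMap_Av_Bv (a : v.toValuationSubring) :
    ((algebraMap v.toValuationSubring (Bv v F') a : Bv v F') : F') = algebraMap F F' (a : F) := rfl

/-- A place `w` of `F'` lies over `v` iff its valuation ring contains `B_v`. -/
theorem restrict_eq_iff (w : Place K F') :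
    w.restrict F = v ↔ ∀ b : Bv v F', (b : F') ∈ w.toValuationSubring := by
  constructor
  · intro h b
    have hA : ∀ a : v.toValuationSubring,
        algebraMap v.toValuationSubring F' a ∈ w.toValuationSubring := by
      intro a
      have ha : (a : F) ∈ (w.restrict F).toValuationSubring := by rw [h]; exact a.2
      exact (Place.mem_restrict_iff w).mp ha
    exact mem_of_isIntegral w hA b.2
  · intro h
    apply Place.ext
    symm
    refine ValuationSubring.eq_of_le_of_ne_top _ ?_ (w.restrict F).ne_top'
    intro a ha
    rw [Place.mem_restrict_iff]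
    exact h (algebraMap v.toValuationSubring (Bv v F') ⟨a, ha⟩)

/-- the place of `F'` attached to a height one prime of `B_v` -/
noncomputable abbrev plc (P : HeightOneSpectrum (Bv v F')) : Place K F' :=
  Place.ofHeightOneSpectrum (K := K) (F := F') P

theorem restrict_plc (P : HeightOneSpectrum (Bv v F')) : (plc v P).restrict F = v :=
  (restrict_eq_iff v _).mpr fun b => algebraMap_mem_ofHeightOneSpectrum P b

theorem exists_plc_eq (w : Place K F') (h : w.restrict F = v) :
    ∃ P : HeightOneSpectrum (Bv v F'), plc v P = w :=
  exists_heightOneSpectrum_of_le (R := Bv v F') w ((restrict_eq_iff v w).mp h)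

theorem plc_injective : Function.Injective (plc (F' := F') v) :=
  ofHeightOneSpectrum_injective

/-- the residue field of `v` is `K` when `deg v = 1` -/
theorem exists_algebraMap_sub_mem (hv : v.deg = 1) (x : v.toValuationSubring) :
    ∃ c : K, x - algebraMap K v.toValuationSubring c ∈
      IsLocalRing.maximalIdeal v.toValuationSubring := by
  have h1 : Module.finrank K v.ResidueField = 1 := hv
  obtain ⟨c, hc⟩ := (finrank_eq_one_iff_of_nonzero' (1 : v.ResidueField) one_ne_zero).mp h1
    (IsLocalRing.residue _ x)
  refine ⟨c, ?_⟩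
  rw [← Ideal.Quotient.eq_zero_iff_mem, map_sub, sub_eq_zero]
  have : (Ideal.Quotient.mk (IsLocalRing.maximalIdeal v.toValuationSubring))
      (algebraMap K v.toValuationSubring c) = c • (1 : v.ResidueField) := by
    rw [Algebra.smul_def, mul_one]
    rfl
  rw [this, hc]
  rfl

/-! ## Part 2: the fundamental identity -/

section Fundamental

variable [IsAlgClosed K] [HasPrincipalDivisors K F']

theorem ord_algebraMap_uniformizer {π : v.toValuationSubring} (hπ : Irreducible π)
    (w : Place K F') (hw : w.restrict F = v) :
    w.ord (algebraMap F F' (π : F)) = (w.ramificationIndex F : ℤ) := by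
  rw [Place.ord_restrict, hw, v.ord_coe_irreducible hπ, mul_one]

/-- `∑_{w ∣ v} e(w ∣ v) = [F' : F]` -/
theorem sum_ramificationIndex (hv : v.deg = 1) :
    ∑ w ∈ v.fiber F', (w.ramificationIndex F : ℤ) = (Module.finrank F F' : ℤ) := by
  classical
  obtain ⟨π, hπ⟩ := IsDiscreteValuationRing.exists_irreducible v.toValuationSubring
  have hπ0 : π ≠ 0 := hπ.ne_zero
  have hmaxeq : IsLocalRing.maximalIdeal v.toValuationSubring = Ideal.span {π} :=
    hπ.maximalIdeal_eq
  have hmax : (Ideal.span {π}).IsMaximal := hmaxeq ▸ IsLocalRing.maximalIdeal.isMaximal _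
  have hK : Function.Surjective (fun c : K =>
      Ideal.Quotient.mk (Ideal.span {π}) (algebraMap K v.toValuationSubring c)) := by
    intro z
    obtain ⟨x, rfl⟩ := Ideal.Quotient.mk_surjective z
    obtain ⟨c, hc⟩ := exists_algebraMap_sub_mem v hv x
    refine ⟨c, ?_⟩
    symm
    rw [Ideal.Quotient.eq, ← hmaxeq]
    exact hc
  obtain ⟨s, hs, hsum⟩ := exists_finset_sum_ord_eq_finrank (K := K) (F := F')
    (A := v.toValuationSubring) (B := Bv v F') π hπ0 hmax hK
  have hsfib : s = v.fiber F' := by
    ext w
    rw [hs, Place.mem_fiber, restrict_eq_iff]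
    constructor
    · exact fun h => h.1
    · intro h
      refine ⟨h, ?_⟩
      have hw : w.restrict F = v := (restrict_eq_iff v w).mpr h
      rw [algebraMap_Av_apply, ord_algebraMap_uniformizer v hπ w hw]
      exact_mod_cast w.ramificationIndex_pos (F := F)
  rw [← IsFractionRing.finrank_eq v.toValuationSubring F (Bv v F') F'] at hsum
  rw [← hsum, hsfib]
  refine Finset.sum_congr rfl fun w hw => ?_
  rw [algebraMap_Av_apply, ord_algebraMap_uniformizer v hπ w (Place.mem_fiber.mp hw)]

theorem inertiaDeg_eq_one (hF : ∀ v : Place K F, v.deg = 1) (hF' : ∀ w : Place K F', w.deg = 1)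
    (w : Place K F') : w.inertiaDeg F = 1 := by
  have h := w.deg_restrict_mul_inertiaDeg (F := F)
  rw [hF, hF', one_mul] at h
  exact h

/-- **Fundamental identity** `∑_{w ∣ v} e(w ∣ v) f(w ∣ v) = [F' : F]`. -/
theorem sumRamificationInertia (hF : ∀ v : Place K F, v.deg = 1)
    (hF' : ∀ w : Place K F', w.deg = 1) : SumRamificationInertia K F F' where
  sum_ramificationIndex_mul_inertiaDeg v := by
    rw [← sum_ramificationIndex v (hF v)]
    refine Finset.sum_congr rfl fun w _ => ?_
    rw [inertiaDeg_eq_one hF hF' w, Nat.cast_one, mul_one]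

theorem fundamentalIdentity (hF : ∀ v : Place K F, v.deg = 1)
    (hF' : ∀ w : Place K F', w.deg = 1) : FundamentalIdentity K F F' :=
  haveI := sumRamificationInertia hF hF'
  inferInstance

end Fundamental

/-! ## Part 3: the norm formula -/

section Norm

variable [IsAlgClosed K] [HasPrincipalDivisors K F']

/-- the height one primes of `B_v` correspond to the places over `v` -/
noncomputable def primeEquivFiber :
    HeightOneSpectrum (Bv v F') ≃ {w : Place K F' // w ∈ v.fiber F'} :=
  Equiv.ofBijective
    (fun P => ⟨plc v P, Place.mem_fiber.mpr (restrict_plc v P)⟩)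
    ⟨fun P Q h => plc_injective v (congrArg Subtype.val h), fun ⟨w, hw⟩ => by
      obtain ⟨P, hP⟩ := exists_plc_eq v w (Place.mem_fiber.mp hw)
      exact ⟨P, Subtype.ext hP⟩⟩

noncomputable local instance instFintypePrimes : Fintype (HeightOneSpectrum (Bv v F')) :=
  Fintype.ofEquiv _ (primeEquivFiber v).symm

theorem sum_fiber_eq_sum_primes (g : Place K F' → ℤ) :
    ∑ w ∈ v.fiber F', g w = ∑ P : HeightOneSpectrum (Bv v F'), g (plc v P) := by
  rw [← Finset.sum_coe_sort (v.fiber F') g]
  exact (Equiv.sum_comp (primeEquivFiber v) (fun x => g x.1)).symm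

/-- the exponent of `P` in the factorisation of `(b)` -/
noncomputable def cnt (P : HeightOneSpectrum (Bv v F')) (b : Bv v F') : ℕ :=
  (Associates.mk P.asIdeal).count (Associates.mk (Ideal.span {b} : Ideal (Bv v F'))).factors

theorem ord_plc (P : HeightOneSpectrum (Bv v F')) {b : Bv v F'} (hb : b ≠ 0) :
    (plc v P).ord (b : F') = (cnt v P b : ℤ) := by
  have h1 : (b : F') = algebraMap (Bv v F') F' b := rfl
  rw [h1, ord_ofHeightOneSpectrum, HeightOneSpectrum.valuation_of_algebraMap,
    P.intValuation_if_neg hb, log_exp, neg_neg]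
  rfl

theorem liesOver_maximalIdeal (P : HeightOneSpectrum (Bv v F')) :
    P.asIdeal.LiesOver (IsLocalRing.maximalIdeal v.toValuationSubring) := by
  haveI : P.asIdeal.IsMaximal := P.isMaximal
  constructor
  exact (IsLocalRing.eq_maximalIdeal
    (inferInstance : (P.asIdeal.under v.toValuationSubring).IsMaximal)).symm

theorem surjective_residue (hv : v.deg = 1) :
    Function.Surjective (fun c : K =>
      Ideal.Quotient.mk (IsLocalRing.maximalIdeal v.toValuationSubring)
        (algebraMap K v.toValuationSubring c)) := by
  intro z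
  obtain ⟨x, rfl⟩ := Ideal.Quotient.mk_surjective z
  obtain ⟨c, hc⟩ := exists_algebraMap_sub_mem v hv x
  refine ⟨c, ?_⟩
  symm
  rw [Ideal.Quotient.eq]
  exact hc

theorem relNorm_prime (hv : v.deg = 1) (P : HeightOneSpectrum (Bv v F')) :
    Ideal.relNorm v.toValuationSubring P.asIdeal =
      IsLocalRing.maximalIdeal v.toValuationSubring := by
  haveI := liesOver_maximalIdeal v P
  haveI : P.asIdeal.IsMaximal := P.isMaximal
  rw [Ideal.relNorm_eq_pow_of_isMaximal P.asIdeal (IsLocalRing.maximalIdeal _),
    inertiaDeg_eq_one_of_isAlgClosed (K := K) (IsLocalRing.maximalIdeal v.toValuationSubring)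
      (surjective_residue v hv) P.asIdeal, pow_one]

theorem relNorm_span (hv : v.deg = 1) {b : Bv v F'} (hb : b ≠ 0) :
    Ideal.relNorm v.toValuationSubring (Ideal.span {b}) =
      IsLocalRing.maximalIdeal v.toValuationSubring ^ (∑ P, cnt v P b) := by
  have hI : (Ideal.span {b} : Ideal (Bv v F')) ≠ 0 := by
    rw [Ideal.zero_eq_bot, Ne, Ideal.span_singleton_eq_bot]
    exact hb
  conv_lhs => rw [← Ideal.finprod_heightOneSpectrum_factorization hI]
  rw [finprod_eq_prod_of_fintype, map_prod]
  simp only [HeightOneSpectrum.maxPowDividing, map_pow, relNorm_prime v hv]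
  rw [Finset.prod_pow_eq_pow_sum]
  rfl

theorem ord_eq_of_span_eq {x : v.toValuationSubring} {k : ℕ}
    (h : Ideal.span {x} = IsLocalRing.maximalIdeal v.toValuationSubring ^ k) :
    v.ord (x : F) = k := by
  obtain ⟨π, hπ⟩ := IsDiscreteValuationRing.exists_irreducible v.toValuationSubring
  rw [hπ.maximalIdeal_eq, Ideal.span_singleton_pow, Ideal.span_singleton_eq_span_singleton] at h
  obtain ⟨u, hu⟩ := h.symm
  rw [← hu]
  push_cast
  rw [mul_comm, ← zpow_natCast, v.ord_unit_smul_zpow u hπ k]

/-- the norm formula for integral elements -/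
theorem sum_ord_eq_ord_norm_of_mem (hv : v.deg = 1) {b : Bv v F'} (hb : b ≠ 0) :
    ∑ w ∈ v.fiber F', w.ord (b : F') = v.ord (Algebra.norm F (b : F')) := by
  rw [sum_fiber_eq_sum_primes v (fun w => w.ord (b : F'))]
  simp only [ord_plc v _ hb]
  have h1 := relNorm_span v hv hb
  rw [Ideal.relNorm_singleton] at h1
  have h2 := ord_eq_of_span_eq v h1
  have h3 : ((Algebra.intNorm v.toValuationSubring (Bv v F') b : v.toValuationSubring) : F) =
      Algebra.norm F (b : F') :=
    Algebra.algebraMap_intNorm (A := v.toValuationSubring) (K := F) (L := F') (B := Bv v F') b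
  rw [← h3, h2]
  push_cast
  rfl

/-- the norm formula at a place `v` of degree one -/
theorem sum_ord_eq_ord_norm (hv : v.deg = 1) {f : F'} (hf : f ≠ 0) :
    ∑ w ∈ v.fiber F', w.ord f = v.ord (Algebra.norm F f) := by
  obtain ⟨b1, b2, hb2, hfb⟩ := IsFractionRing.div_surjective (A := Bv v F') f
  have hb2' : b2 ≠ 0 := nonZeroDivisors.ne_zero hb2
  have e1 : algebraMap (Bv v F') F' b1 = (b1 : F') := rfl
  have e2 : algebraMap (Bv v F') F' b2 = (b2 : F') := rfl
  rw [e1, e2] at hfb
  have h2 : (b2 : F') ≠ 0 := by
    intro h
    exact hb2' (Subtype.ext h)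
  have hmul : f * (b2 : F') = (b1 : F') := by
    rw [← hfb, div_mul_cancel₀ _ h2]
  have hb1' : b1 ≠ 0 := by
    rintro rfl
    rw [ZeroMemClass.coe_zero] at hmul
    exact (mul_ne_zero hf h2) hmul
  have hS : ∑ w ∈ v.fiber F', w.ord (b1 : F') =
      ∑ w ∈ v.fiber F', w.ord f + ∑ w ∈ v.fiber F', w.ord (b2 : F') := by
    rw [← Finset.sum_add_distrib]
    refine Finset.sum_congr rfl fun w _ => ?_
    rw [← hmul, w.ord_mul hf h2]
  have hN : v.ord (Algebra.norm F (b1 : F')) =
      v.ord (Algebra.norm F f) + v.ord (Algebra.norm F (b2 : F')) := by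
    rw [← hmul, map_mul, v.ord_mul (Algebra.norm_ne_zero_iff.mpr hf)
      (Algebra.norm_ne_zero_iff.mpr h2)]
  have k1 := sum_ord_eq_ord_norm_of_mem v hv hb1'
  have k2 := sum_ord_eq_ord_norm_of_mem v hv hb2'
  linarith

/-- **Norm formula**: `π_* (div f) = div (N_{F'/F} f)`. -/
theorem pushforwardNormFormula (hF : ∀ v : Place K F, v.deg = 1)
    (hF' : ∀ w : Place K F', w.deg = 1) : Divisor.PushforwardNormFormula K F F' := by
  classical
  intro f hf D hD v
  rw [Divisor.pushforward_apply, ← sum_ord_eq_ord_norm v (hF v) hf]
  simp only [inertiaDeg_eq_one hF hF', Nat.cast_one, mul_one, hD]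
  rw [← Finset.sum_filter]
  refine Finset.sum_subset ?_ ?_
  · intro w hw
    exact Place.mem_fiber.mpr (Finset.mem_filter.mp hw).2
  · intro w hw hnot
    have hws : w ∉ D.support := fun h =>
      hnot (Finset.mem_filter.mpr ⟨h, Place.mem_fiber.mp hw⟩)
    rw [Finsupp.notMem_support_iff] at hws
    rw [← hD w, hws]

end Norm

end Local

end Fermat.Agent.S37.FibreNorm16
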