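/-
S37 / [HECKE-INPUTS], generic half of the CONCRETE package (helper85).

For a `K`-algebra homomorphism of fields `φ : F →ₐ[K] F'` and an element `f : F` such that `F'` is
finite-dimensional over `K⟮φ f⟯`:
* `isIntegral_of_finiteDimensional_adjoin` : `φ.toRingHom.IsIntegral`;
* `finiteAlong_of_finiteDimensional_adjoin` : `AlgebraicCurve.FiniteAlong K φ`.
Mathlib + Prelude (`Def_AlgebraicCurve_Correspondence`) only.
-/
import Fermat.Prelude.Def_AlgebraicCurve_Correspondence

set_option autoImplicit false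

open IntermediateField AlgebraicCurve

namespace Fermat.Agent.S37.AlongGeneric85

variable {K F F' : Type*} [Field K] [Field F] [Field F'] [Algebra K F] [Algebra K F']

/-- `K⟮φ f⟯` lies in the range of `φ`. -/
theorem adjoin_map_le_fieldRange (φ : F →ₐ[K] F') (f : F) : K⟮φ f⟯ ≤ φ.fieldRange := by
  rw [adjoin_le_iff]
  rintro _ rfl
  exact ⟨f, rfl⟩

theorem exists_eq_of_mem_adjoin (φ : F →ₐ[K] F') (f : F) {c : F'} (hc : c ∈ K⟮φ f⟯) :
    ∃ d : F, φ d = c :=
  adjoin_map_le_fieldRange φ f hc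

/-- If `F'` is finite over `K⟮φ f⟯` then `φ` is integral. -/
theorem isIntegral_of_finiteDimensional_adjoin (φ : F →ₐ[K] F') (f : F)
    (hfin : FiniteDimensional K⟮φ f⟯ F') : φ.toRingHom.IsIntegral := by
  intro x
  have hx : IsIntegral K⟮φ f⟯ x := IsIntegral.of_finite _ x
  obtain ⟨p, hp, hpx⟩ := hx
  have hl : p.map (algebraMap K⟮φ f⟯ F') ∈ Polynomial.lifts φ.toRingHom := by
    rw [Polynomial.lifts_iff_coeff_lifts]
    intro n
    rw [Polynomial.coeff_map]
    obtain ⟨d, hd⟩ := exists_eq_of_mem_adjoin φ f (p.coeff n).2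
    exact ⟨d, hd⟩
  obtain ⟨q, hq, -, hqm⟩ := Polynomial.lifts_and_degree_eq_and_monic hl (hp.map _)
  refine ⟨q, hqm, ?_⟩
  rw [← Polynomial.eval_map, hq, Polynomial.eval_map]
  exact hpx

/-- If `F'` is finite over `K⟮φ f⟯` then `F'` is finite over `F` along `φ`. -/
theorem finiteAlong_of_finiteDimensional_adjoin (φ : F →ₐ[K] F') (f : F)
    (hfin : FiniteDimensional K⟮φ f⟯ F') : FiniteAlong K φ := by
  classical
  letI := algebraAlong φ
  show Module.Finite F F'
  let b := Module.finBasis K⟮φ f⟯ F'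
  refine ⟨⟨Finset.univ.image b, ?_⟩⟩
  rw [eq_top_iff]
  intro x _
  have hx : x = ∑ i, (b.repr x i : F') * b i := by
    conv_lhs => rw [← b.sum_repr x]
    refine Finset.sum_congr rfl fun i _ => ?_
    rfl
  rw [hx]
  refine Submodule.sum_mem _ fun i _ => ?_
  obtain ⟨d, hd⟩ := exists_eq_of_mem_adjoin φ f (b.repr x i).2
  have h2 : (b.repr x i : F') * b i = d • b i := by
    rw [← hd]
    rfl
  rw [h2]
  refine Submodule.smul_mem _ _ (Submodule.subset_span ?_)
  simp

end Fermat.Agent.S37.AlongGeneric85
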