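/-
S37 / [HECKE-INPUTS], CONCRETE half (helper85; second seat next to helper16's generic
`FibreNorm16`).

For `Kb = ℚ̄`, all `N, ℓ ≥ 1` (no primality needed):
* `heckeAlphaBarIntegral N ℓ : HeckeAlphaBarIntegral Kb N ℓ`,
  `heckeBetaBarIntegral N ℓ : HeckeBetaBarIntegral Kb N ℓ`;
* `finiteAlong_alpha`, `finiteAlong_beta`;
* `hasPrincipalDivisors_level M` (from S24);
* the wiring `heckeInputsAlong_of_generic` : the two GENERIC facts (fundamental identity along `β`,
  norm formula along `α`) give `HeckeInputsAlong Kb N ℓ`, and the unfolding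
  `heckeGen_smul_eq` of the Prelude `HeckeAlg`-module structure on `J₀(N)`.
-/
import Fermat.Prelude.Def_ModularCurve_HeckeModule
import Fermat.Agent.S24.Exports
import Fermat.Agent.S24.FFPlaces
import Fermat.Agent.S37.AlongGeneric85

set_option autoImplicit false
set_option linter.style.haveILetI false

open IntermediateField AlgebraicCurve ModularCurve

noncomputable section

namespace Fermat.Agent.S37.HeckeConcrete85

open Fermat.Agent.S24 Fermat.Agent.S37.AlongGeneric85

/-- the constant field `ℚ̄` -/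
abbrev Kb : Type := AlgebraicClosure ℚ

section Level

variable (M : ℕ) [NeZero M]

/-- `F_M` is finite over `ℚ̄(j)`. -/
theorem finiteDimensional_level : FiniteDimensional Kb⟮jF M⟯ (FN M) :=
  (Exports.isFunctionFieldOver_jF M).finite

/-- `HasPrincipalDivisors` at every level (S24). -/
theorem hasPrincipalDivisors_level : HasPrincipalDivisors Kb (FN M) :=
  FFPlaces.hasPrincipalDivisors (jF M) (finiteDimensional_level M)

/-- all places of `F_M` have degree one -/
theorem deg_eq_one_level (w : Place Kb (FN M)) : w.deg = 1 :=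
  FFPlaces.deg_eq_one (jF M) (finiteDimensional_level M) w

end Level

variable (N ℓ : ℕ) [NeZero N] [NeZero ℓ]

instance instNeZeroMul : NeZero (N * ℓ) := ⟨Nat.mul_ne_zero (NeZero.ne N) (NeZero.ne ℓ)⟩

theorem heckeAlphaBar_jF : heckeAlphaBar Kb N ℓ (jF N) = jF (N * ℓ) :=
  Subtype.ext (by rw [coe_heckeAlphaBar]; rfl)

/-- the image of `j` under `β` -/
def jBeta : FN (N * ℓ) := heckeBetaBar Kb N ℓ (jF N)

theorem transcendental_jBeta : Transcendental Kb (jBeta N ℓ) := by
  intro h
  exact Exports.transcendental_jF N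
    ((isAlgebraic_algHom_iff (heckeBetaBar Kb N ℓ) (heckeBetaBar Kb N ℓ).toRingHom.injective).mp h)

theorem finiteDimensional_jBeta : FiniteDimensional Kb⟮jBeta N ℓ⟯ (FN (N * ℓ)) :=
  FFPlaces.finiteDimensional_simple_of_transcendental (finiteDimensional_level (N * ℓ))
    (transcendental_jBeta N ℓ)

theorem finiteDimensional_jAlpha :
    FiniteDimensional Kb⟮heckeAlphaBar Kb N ℓ (jF N)⟯ (FN (N * ℓ)) := by
  rw [heckeAlphaBar_jF]
  exact finiteDimensional_level (N * ℓ)

/-- **(B1)** `α` is integral. -/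
theorem heckeAlphaBarIntegral : HeckeAlphaBarIntegral Kb N ℓ :=
  isIntegral_of_finiteDimensional_adjoin (heckeAlphaBar Kb N ℓ) (jF N)
    (finiteDimensional_jAlpha N ℓ)

/-- **(B2)** `β` is integral. -/
theorem heckeBetaBarIntegral : HeckeBetaBarIntegral Kb N ℓ :=
  isIntegral_of_finiteDimensional_adjoin (heckeBetaBar Kb N ℓ) (jF N)
    (finiteDimensional_jBeta N ℓ)

/-- **(B3)** `F_{Nℓ}` is finite over `F_N` along `α`. -/
theorem finiteAlong_alpha : FiniteAlong Kb (heckeAlphaBar Kb N ℓ) :=
  finiteAlong_of_finiteDimensional_adjoin (heckeAlphaBar Kb N ℓ) (jF N)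
    (finiteDimensional_jAlpha N ℓ)

/-- **(B3')** `F_{Nℓ}` is finite over `F_N` along `β`. -/
theorem finiteAlong_beta : FiniteAlong Kb (heckeBetaBar Kb N ℓ) :=
  finiteAlong_of_finiteDimensional_adjoin (heckeBetaBar Kb N ℓ) (jF N)
    (finiteDimensional_jBeta N ℓ)

/-- **(B4)** principal divisors at level `Nℓ`, in the Prelude shape. -/
theorem hasPrincipalDivisors_mul :
    HasPrincipalDivisors Kb (laurentBaseChange Kb (modularFunctionFieldFull (N * ℓ))) :=
  hasPrincipalDivisors_level (N * ℓ)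

/-- **(B5)** WIRING: the two generic facts give `HeckeInputsAlong`. -/
theorem heckeInputsAlong_of_generic
    (hFI : haveI := hasPrincipalDivisors_mul N ℓ
      FundamentalIdentityAlong Kb (heckeBetaBar Kb N ℓ) (heckeBetaBarIntegral N ℓ))
    (hNF : NormFormulaAlong Kb (heckeAlphaBar Kb N ℓ) (finiteAlong_alpha N ℓ)) :
    HeckeInputsAlong Kb N ℓ :=
  ⟨heckeAlphaBarIntegral N ℓ, heckeBetaBarIntegral N ℓ, hasPrincipalDivisors_mul N ℓ,
    finiteAlong_alpha N ℓ, hFI, hNF⟩

/-- Under `HeckeInputsAlong`, the total operator is the genuine correspondence `α_* β^*`. -/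
theorem heckeOperatorAlong_eq_of_generic
    (hFI : haveI := hasPrincipalDivisors_mul N ℓ
      FundamentalIdentityAlong Kb (heckeBetaBar Kb N ℓ) (heckeBetaBarIntegral N ℓ))
    (hNF : NormFormulaAlong Kb (heckeAlphaBar Kb N ℓ) (finiteAlong_alpha N ℓ)) :
    haveI := hasPrincipalDivisors_mul N ℓ
    heckeOperatorAlong Kb N ℓ =
      heckePic0Bar (heckeAlphaBarIntegral N ℓ) (heckeBetaBarIntegral N ℓ) hFI
        (finiteAlong_alpha N ℓ) hNF := by
  haveI := hasPrincipalDivisors_mul N ℓ
  exact heckeOperatorAlong_eq _ _ hFI _ hNF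

/-- The Prelude `HeckeAlg`-module structure on `J₀(N)`: under `HeckeOperatorsCommuteBar` and the two
generic facts, `heckeGen ℓ` acts as the genuine correspondence `α_* β^*`. -/
theorem heckeGen_smul_eq (hcomm : HeckeOperatorsCommuteBar N) (p : Nat.Primes)
    (hFI : haveI : NeZero (p : ℕ) := ⟨p.2.ne_zero⟩
      haveI := hasPrincipalDivisors_mul N p
      FundamentalIdentityAlong Kb (heckeBetaBar Kb N p) (heckeBetaBarIntegral N p))
    (hNF : haveI : NeZero (p : ℕ) := ⟨p.2.ne_zero⟩
      NormFormulaAlong Kb (heckeAlphaBar Kb N p) (finiteAlong_alpha N p))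
    (x : JZero N) :
    haveI : NeZero (p : ℕ) := ⟨p.2.ne_zero⟩
    haveI := hasPrincipalDivisors_mul N p
    (letI := heckeModuleBar N; heckeGen p • x) =
      heckePic0Bar (heckeAlphaBarIntegral N p) (heckeBetaBarIntegral N p) hFI
        (finiteAlong_alpha N p) hNF x := by
  haveI : NeZero (p : ℕ) := ⟨p.2.ne_zero⟩
  haveI := hasPrincipalDivisors_mul N p
  rw [heckeModuleBar_heckeGen_smul hcomm, heckeOperatorBar_apply,
    heckeOperatorAlong_eq_of_generic N p hFI hNF]

end Fermat.Agent.S37.HeckeConcrete85
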