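/-
S37 / [HECKE-INPUTS], FINAL WIRING (helper85): helper16's generic `FibreNorm16`
(`fundamentalIdentity`, `pushforwardNormFormula`) + the concrete half `HeckeConcrete85` give

  `heckeInputsAlong N ℓ : HeckeInputsAlong ℚ̄ N ℓ`     for ALL `N, ℓ ≥ 1`,

so the Prelude operator `heckeOperatorAlong ℚ̄ N ℓ` is the genuine correspondence `α_* β^*`
(`heckeOperatorAlong_eq'`, `heckeGen_smul_eq'`).  Also the "Along" forms of the fundamental identity
and of the norm formula for BOTH degeneracy maps `α` (inclusion) and `β` (`q ↦ q^ℓ`).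
-/
import Fermat.Agent.S37.HeckeConcrete85
import Fermat.Agent.S37.FibreNorm16

set_option autoImplicit false
set_option linter.style.haveILetI false
set_option linter.unusedVariables false

open IntermediateField AlgebraicCurve ModularCurve

noncomputable section

namespace Fermat.Agent.S37.HeckeInputsFinal85

open Fermat.Agent.S24 Fermat.Agent.S37.AlongGeneric85 Fermat.Agent.S37.HeckeConcrete85

/-! ### generic "Along" forms of helper16's theorems -/

section Generic

variable {K F F' : Type*} [Field K] [Field F] [Field F'] [Algebra K F] [Algebra K F']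
  [IsAlgClosed K] [CharZero F]

theorem fundamentalIdentityAlong_of (φ : F →ₐ[K] F') (hφ : φ.toRingHom.IsIntegral)
    (hfin : FiniteAlong K φ) [HasPrincipalDivisors K F']
    (hF : ∀ v : Place K F, v.deg = 1) (hF' : ∀ w : Place K F', w.deg = 1) :
    FundamentalIdentityAlong K φ hφ := by
  letI := algebraAlong φ
  haveI := isScalarTower_along φ
  haveI := isIntegral_along φ hφ
  haveI : FiniteDimensional F F' := hfin
  exact FibreNorm16.fundamentalIdentity hF hF'

theorem normFormulaAlong_of (φ : F →ₐ[K] F') (hφ : φ.toRingHom.IsIntegral)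
    (hfin : FiniteAlong K φ) [HasPrincipalDivisors K F']
    (hF : ∀ v : Place K F, v.deg = 1) (hF' : ∀ w : Place K F', w.deg = 1) :
    NormFormulaAlong K φ hfin := by
  letI := algebraAlong φ
  haveI := isScalarTower_along φ
  haveI := isIntegral_along φ hφ
  haveI : FiniteDimensional F F' := hfin
  exact FibreNorm16.pushforwardNormFormula hF hF'

end Generic

/-! ### the modular instances -/

variable (N ℓ : ℕ) [NeZero N] [NeZero ℓ]

theorem fundamentalIdentityAlong_beta :
    haveI := hasPrincipalDivisors_mul N ℓ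
    FundamentalIdentityAlong Kb (heckeBetaBar Kb N ℓ) (heckeBetaBarIntegral N ℓ) := by
  haveI := hasPrincipalDivisors_mul N ℓ
  exact fundamentalIdentityAlong_of _ _ (finiteAlong_beta N ℓ) (deg_eq_one_level N)
    (deg_eq_one_level (N * ℓ))

theorem fundamentalIdentityAlong_alpha :
    haveI := hasPrincipalDivisors_mul N ℓ
    FundamentalIdentityAlong Kb (heckeAlphaBar Kb N ℓ) (heckeAlphaBarIntegral N ℓ) := by
  haveI := hasPrincipalDivisors_mul N ℓ
  exact fundamentalIdentityAlong_of _ _ (finiteAlong_alpha N ℓ) (deg_eq_one_level N)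
    (deg_eq_one_level (N * ℓ))

theorem normFormulaAlong_alpha :
    NormFormulaAlong Kb (heckeAlphaBar Kb N ℓ) (finiteAlong_alpha N ℓ) := by
  haveI := hasPrincipalDivisors_mul N ℓ
  exact normFormulaAlong_of _ (heckeAlphaBarIntegral N ℓ) _ (deg_eq_one_level N)
    (deg_eq_one_level (N * ℓ))

theorem normFormulaAlong_beta :
    NormFormulaAlong Kb (heckeBetaBar Kb N ℓ) (finiteAlong_beta N ℓ) := by
  haveI := hasPrincipalDivisors_mul N ℓ
  exact normFormulaAlong_of _ (heckeBetaBarIntegral N ℓ) _ (deg_eq_one_level N)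
    (deg_eq_one_level (N * ℓ))

/-- **[HECKE-INPUTS]**: the Prelude's `HeckeInputsAlong` holds over `ℚ̄` for all `N, ℓ ≥ 1`. -/
theorem heckeInputsAlong : HeckeInputsAlong Kb N ℓ :=
  heckeInputsAlong_of_generic N ℓ (fundamentalIdentityAlong_beta N ℓ) (normFormulaAlong_alpha N ℓ)

/-- the total operator is the genuine correspondence `α_* β^*` -/
theorem heckeOperatorAlong_eq' :
    haveI := hasPrincipalDivisors_mul N ℓ
    heckeOperatorAlong Kb N ℓ =
      heckePic0Bar (heckeAlphaBarIntegral N ℓ) (heckeBetaBarIntegral N ℓ)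
        (fundamentalIdentityAlong_beta N ℓ) (finiteAlong_alpha N ℓ) (normFormulaAlong_alpha N ℓ) :=
  heckeOperatorAlong_eq_of_generic N ℓ (fundamentalIdentityAlong_beta N ℓ)
    (normFormulaAlong_alpha N ℓ)

/-- `heckeGen p` acts on `J₀(N)` as the genuine correspondence (under `HeckeOperatorsCommuteBar`). -/
theorem heckeGen_smul_eq' (hcomm : HeckeOperatorsCommuteBar N) (p : Nat.Primes) (x : JZero N) :
    haveI : NeZero (p : ℕ) := ⟨p.2.ne_zero⟩
    haveI := hasPrincipalDivisors_mul N p
    (letI := heckeModuleBar N; heckeGen p • x) =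
      heckePic0Bar (heckeAlphaBarIntegral N p) (heckeBetaBarIntegral N p)
        (fundamentalIdentityAlong_beta N p) (finiteAlong_alpha N p) (normFormulaAlong_alpha N p) x := by
  haveI : NeZero (p : ℕ) := ⟨p.2.ne_zero⟩
  exact heckeGen_smul_eq N hcomm p (fundamentalIdentityAlong_beta N p) (normFormulaAlong_alpha N p) x

/-- on a class `mk D`: `T_p (mk D) = mk (α_* β^* D)` -/
theorem heckePic0Bar_mk (D : Divisor.degZero (K := Kb) (F := FN N)) :
    haveI := hasPrincipalDivisors_mul N ℓ
    heckePic0Bar (heckeAlphaBarIntegral N ℓ) (heckeBetaBarIntegral N ℓ)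
        (fundamentalIdentityAlong_beta N ℓ) (finiteAlong_alpha N ℓ) (normFormulaAlong_alpha N ℓ)
        (Pic0.mk D) =
      Pic0.mk (Pic0.degZeroCorrespondence (heckeBetaBar Kb N ℓ) (heckeAlphaBar Kb N ℓ)
        (heckeBetaBarIntegral N ℓ) (heckeAlphaBarIntegral N ℓ) (fundamentalIdentityAlong_beta N ℓ) D) :=
  rfl

end Fermat.Agent.S37.HeckeInputsFinal85
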