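/-
S37, gap (G1) of blueprint 18 (helper57): `Normalize96.HasIntegralFractions A (residue A) M` and the
Prelude predicate `PrincipalGeneratedByIntegral A (residue A) M` for EVERY level `M` with
`(M : k) ≠ 0` (`k` the residue field of the valuation subring `A` of `ℚ̄`); in particular for
`A | ℓ`, `ℓ ∤ M` (no good-level hypothesis).

Proof = `IntFrac57.IntFrame` (integral frame ⇒ integral fractions) instantiated at helper28's
concrete frame `Bridge28.frame A M hMk` (`j = jqModC`, `x i` = integral monomials in the `j(q^d)`).
-/
import Mathlib
import Fermat.Agent.S37.IntFrac57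
import Fermat.Agent.S18.Bridge28.Exports
import Fermat.Agent.S18.NormFrac20

set_option autoImplicit false

noncomputable section

namespace Fermat.Agent.S37.IntFracInst57

open ModularCurve HahnSeries IntermediateField AlgebraicCurve
open Fermat.Agent.S18 Fermat.Agent.S18.Bridge28 Fermat.Agent.S28 Fermat.Agent.S28.KeyGlue

/-- The constant field `ℚ̄`. -/
local notation "Qb" => AlgebraicClosure ℚ

section Level

variable (A : ValuationSubring Qb) (M : ℕ) [NeZero M]
  (hMk : (M : IsLocalRing.ResidueField A) ≠ 0)

/-- helper28's concrete frame at level `M` is an integral frame. -/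
def intFrame : IntFrac57.IntFrame A M (Fin (dedekindPsi M)) where
  S := frame A M hMk
  hF := rfl
  J := liftZ A (jqModC ℤ)
  hJ := by
    rw [frame_j, incl_liftZ]
    exact (coeffMap_int_jqModC _).symm
  hJk := by
    rw [red_liftZ, coeffMap_int_jqModC]
    exact jqModC_mem_full _ M
  X := fun i => liftZ A (xZ A M hMk i)
  hX := fun i => by rw [frame_x, incl_liftZ]
  hXk := fun i => by
    rw [red_liftZ]
    exact coeffMap_mem_fullC_of_mem_monomialsZ _ (xZ_mem A M hMk i)

include hMk in
/-- **(G1)**: integral fractions at every level `M` with `(M : k) ≠ 0`. -/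
theorem hasIntegralFractions :
    Normalize96.HasIntegralFractions A (IsLocalRing.residue A) M :=
  (intFrame A M hMk).hasIntegralFractions

include hMk in
/-- **(G1)**, Prelude form: principal divisors of `F_M` are generated by integral ones. -/
theorem principalGeneratedByIntegral :
    PrincipalGeneratedByIntegral A (IsLocalRing.residue A) M := by
  haveI := NormFrac20.hasPrincipalDivisors_bar M
  exact IntFrac57.IntFrame.principalGeneratedByIntegral A (intFrame A M hMk)

end Level

section LiesOver

variable (A : ValuationSubring Qb) {ℓ : ℕ} [Fact ℓ.Prime] (hA : A.LiesOverPrime ℓ)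
  (M : ℕ) [NeZero M] (hM : ¬ ℓ ∣ M)

include hA hM in
/-- **(G1)** for `A | ℓ`, `ℓ ∤ M`. -/
theorem hasIntegralFractions_of_liesOver :
    Normalize96.HasIntegralFractions A (IsLocalRing.residue A) M :=
  hasIntegralFractions A M (natCast_residueField_ne_zero A hA hM)

include hA hM in
/-- **(G1)**, Prelude form, for `A | ℓ`, `ℓ ∤ M`. -/
theorem principalGeneratedByIntegral_of_liesOver :
    PrincipalGeneratedByIntegral A (IsLocalRing.residue A) M :=
  principalGeneratedByIntegral A M (natCast_residueField_ne_zero A hA hM)

end LiesOver

end Fermat.Agent.S37.IntFracInst57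

end
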