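/-
S37 / [S37-KRONECKER-NORM] (helper17), part 1: the exact degree `[L_{Nℓ} : L_N] = ℓ + 1`
over an algebraically closed field of characteristic `0` (`ℓ` prime, `ℓ ∤ N`), where
`L_N = modularFunctionFieldFullC K N`.  Pure bookkeeping on top of the S28 bounds
(`KeyLower.keyLower_algClosed`, `KEY0.relrank_modularFunctionFieldFullC_le`).
-/
import Mathlib
import Fermat.Prelude.Def_ModularCurve_X0ModL
import Fermat.Agent.S28.KeyLowerMain
import Fermat.Agent.S28.KeyUpper
import Fermat.Agent.S28.ModEq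

set_option autoImplicit false
set_option linter.style.haveILetI false

noncomputable section

namespace Fermat.Agent.S37.KronDeg17

open HahnSeries ModularCurve IntermediateField Polynomial
open Fermat.Agent.S28

section Roots

variable (K : Type) [Field K]

/-- The roots data of the modular equation of level `r` over a field containing a primitive
`r`-th root of unity. -/
def rootsData (r : ℕ) [NeZero r] (D : ModEqData r) (ζ : Kˣ) (hζ : IsPrimitiveRoot (ζ : K) r) :
    KEY0.RootsData K r where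
  Φ := D.Phi
  monic := D.monic
  natDegree_eq := D.natDegree_eq
  ρ b := twist (ζ ^ b) (jqModC K)
  c b := (((ζ ^ b) ^ (-1 : ℤ) : Kˣ) : K)
  roots := by
    have h := D.roots K ζ (hζ.isRoot_cyclotomic (Nat.pos_of_ne_zero (NeZero.ne r)))
    have : NeZero (r * r) := ⟨Nat.mul_ne_zero (NeZero.ne r) (NeZero.ne r)⟩
    rw [KEY0.tq_eq, KEY0.tq_eq]
    exact h
  ρ_zero := by rw [pow_zero, twist_one]
  leads b _ := KEY0.leadsAt_twist_jqModC _
  c_ne_zero b _ := Units.ne_zero _
  c_ne_one b hb hb0 := by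
    intro h
    have h1 : ((ζ ^ b) ^ (-1 : ℤ) : Kˣ) = 1 := Units.ext h
    rw [zpow_neg_one, inv_eq_one] at h1
    have h2 : ((ζ : Kˣ) : K) ^ b = 1 := by
      have := congrArg (fun u : Kˣ => (u : K)) h1
      simpa using this
    exact hζ.pow_ne_one_of_pos_of_lt hb0 hb h2

theorem nonempty_rootsData [IsAlgClosed K] [CharZero K] (r : ℕ) (hr : r.Prime) :
    Nonempty (KEY0.RootsData K r) := by
  have : NeZero r := ⟨hr.ne_zero⟩
  have : NeZero (r : K) := ⟨by exact_mod_cast hr.ne_zero⟩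
  obtain ⟨ζ, hζ⟩ := HasEnoughRootsOfUnity.exists_primitiveRoot K r
  have hu : IsUnit ζ := hζ.isUnit (NeZero.ne r)
  exact ⟨rootsData K r (modEqStatement r hr).some hu.unit (by rw [IsUnit.unit_spec]; exact hζ)⟩

end Roots

section Degree

variable (K : Type) [Field K] [IsAlgClosed K] [CharZero K]

/-- **KEY0** over `K`: `[L_N : K(t)] ≤ ψ(N)`. -/
theorem relrank_le (N : ℕ) [NeZero N] :
    (K⟮jqModC K⟯).relrank (modularFunctionFieldFullC K N) ≤ (dedekindPsi N : Cardinal) := by
  refine KEY0.relrank_modularFunctionFieldFullC_le (RingHom.id K) N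
    (fun r hr _ => (nonempty_rootsData K r hr).some) ?_
  intro p hp _
  have : NeZero p := ⟨hp.ne_zero⟩
  obtain ⟨-, -, -, -, h1, h2⟩ :=
    P1.p1Statement p hp.two_le (modEqStatement p hp).some K (by exact_mod_cast hp.ne_zero)
  have e : fieldTTp K p = K⟮jqModC K⟯ ⊔ K⟮KEY0.tq K p⟯ := by
    unfold fieldTTp
    rw [KEY0.tq_eq, ← adjoin_union]
    rfl
  rw [← e]
  have h1' : (K⟮jqModC K⟯).relrank (fieldTTp K p) = ((p + 1 : ℕ) : Cardinal) := h1
  have h2' : (K⟮KEY0.tq K p⟯).relrank (fieldTTp K p) = ((p + 1 : ℕ) : Cardinal) := by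
    rw [KEY0.tq_eq]
    exact h2
  rw [h1', h2']

/-- **KEYL** over `K`: `ψ(N) ≤ [L_N : K(t)]`. -/
theorem le_relrank (N : ℕ) [NeZero N] :
    (dedekindPsi N : Cardinal) ≤ (K⟮jqModC K⟯).relrank (modularFunctionFieldFullC K N) :=
  KeyLower.keyLower_algClosed modEqStatement K N (by exact_mod_cast NeZero.ne N)

/-- `[L_N : K(t)] = ψ(N)`. -/
theorem relrank_eq (N : ℕ) [NeZero N] :
    (K⟮jqModC K⟯).relrank (modularFunctionFieldFullC K N) = (dedekindPsi N : Cardinal) :=
  le_antisymm (relrank_le K N) (le_relrank K N)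

omit [IsAlgClosed K] [CharZero K] in
theorem adjoin_jqModC_le (N : ℕ) [NeZero N] :
    K⟮jqModC K⟯ ≤ modularFunctionFieldFullC K N := by
  rw [adjoin_simple_le_iff, ← KeyLowerBasic.tq_one]
  exact KeyLowerBasic.tq_mem_fullC K (one_dvd N)

/-- **(KC1)** `[L_{Nℓ} : L_N] = ℓ + 1` for a prime `ℓ ∤ N`. -/
theorem relrank_mul_prime (N ℓ : ℕ) [NeZero N] [NeZero (N * ℓ)] (hℓ : ℓ.Prime) (hℓN : ¬ ℓ ∣ N) :
    (modularFunctionFieldFullC K N).relrank (modularFunctionFieldFullC K (N * ℓ))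
      = ((ℓ + 1 : ℕ) : Cardinal) := by
  have hle : modularFunctionFieldFullC K N ≤ modularFunctionFieldFullC K (N * ℓ) :=
    full_degeneracyC_le K (dvd_mul_right N ℓ)
  have h1 := relrank_mul_relrank (adjoin_jqModC_le K N) hle
  rw [relrank_eq K N, relrank_eq K (N * ℓ), mul_comm N ℓ,
    Psi.dedekindPsi_mul_of_not_dvd hℓ (NeZero.ne N) hℓN] at h1
  have hψ : (dedekindPsi N : Cardinal) ≠ 0 := by
    exact_mod_cast (Psi.dedekindPsi_pos (NeZero.ne N)).ne'
  have hfin : (modularFunctionFieldFullC K N).relrank (modularFunctionFieldFullC K (ℓ * N))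
      < Cardinal.aleph0 := by
    by_contra hinf
    rw [not_lt] at hinf
    have h2 : Cardinal.aleph0 ≤ (dedekindPsi N : Cardinal) *
        (modularFunctionFieldFullC K N).relrank (modularFunctionFieldFullC K (ℓ * N)) :=
      Cardinal.aleph0_le_mul_iff'.mpr (Or.inl ⟨hψ, hinf⟩)
    rw [h1] at h2
    exact absurd h2 (not_le.mpr (Cardinal.natCast_lt_aleph0))
  obtain ⟨x, hx⟩ := Cardinal.lt_aleph0.mp hfin
  rw [hx] at h1
  rw [mul_comm N ℓ, hx]
  have h3 : dedekindPsi N * x = (ℓ + 1) * dedekindPsi N := by exact_mod_cast h1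
  have hpos := Psi.dedekindPsi_pos (NeZero.ne N)
  have : x = ℓ + 1 := by
    rw [mul_comm] at h3
    exact Nat.eq_of_mul_eq_mul_right hpos h3
  rw [this]

end Degree

end Fermat.Agent.S37.KronDeg17
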