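/-
S37 / [S37-KRONECKER-NORM] (helper17), part 2: the conjugates of `β(L_N) = σ_ℓ(L_N)` over
`α(L_N) = L_N` inside `L_{Nℓ}` (`ℓ` prime, `ℓ ∤ N`), over an algebraically closed field `K` of
characteristic `0`.

Every ring homomorphism `τ : L_{Nℓ} → Ω` which restricts to `ι ∘ σ_{ℓN}` on `L_N`
(`ι : K((q)) → Ω` any ring homomorphism to a field) satisfies `τ(t_ℓ) = ι(t(c q^a))` with
`(c, a) = (1, ℓ²N)` or `(ζ^b, N)`, and then `τ(f(q^ℓ)) = ι(f(c q^a))` for every `f ∈ L_N`.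
-/
import Mathlib
import Fermat.Prelude.Def_ModularCurve_X0ModL
import Fermat.Agent.S37.KronDeg17

set_option autoImplicit false
set_option linter.style.haveILetI false

noncomputable section

namespace Fermat.Agent.S37.KronConj17

open HahnSeries ModularCurve IntermediateField Polynomial
open Fermat.Agent.S28 Fermat.Agent.S28.Subst Fermat.Agent.S28.KeyLowerBasic
open Fermat.Agent.S28.KeyLower

/-! ### Monomial substitutions, total in the exponent -/

section Basic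

variable (K : Type) [Field K]

/-- the modular polynomial of level `r` (junk `0` for `r` not prime). -/
def Phi (r : ℕ) : Polynomial (Polynomial ℤ) := phiT modEqStatement r

/-- `x ↦ x(c q^a)`, total in `a` (junk value `id` at `a = 0`). -/
def substT (c : Kˣ) (a : ℕ) : LaurentSeries K →+* LaurentSeries K :=
  if h : a = 0 then RingHom.id _ else @subst K _ c a ⟨h⟩

variable {K}

theorem substT_eq (c : Kˣ) (a : ℕ) [ha : NeZero a] : substT K c a = subst c a := by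
  rw [substT, dif_neg ha.out]

theorem substT_jqModC (c : Kˣ) {a : ℕ} (ha : a ≠ 0) : substT K c a (jqModC K) = monT K c a := by
  haveI : NeZero a := ⟨ha⟩
  rw [substT_eq, monT_eq]

theorem substT_tq (c : Kˣ) {a d : ℕ} (ha : a ≠ 0) (hd : d ≠ 0) :
    substT K c a (tq K d) = monT K (c ^ d) (a * d) := by
  haveI : NeZero a := ⟨ha⟩
  haveI : NeZero d := ⟨hd⟩
  haveI : NeZero (a * d) := ⟨Nat.mul_ne_zero ha hd⟩
  rw [substT_eq, monT_eq, tq_eq, subst_qExpand]

theorem substT_C (c : Kˣ) (a : ℕ) (r : K) : substT K c a (HahnSeries.C r) = HahnSeries.C r := by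
  by_cases ha : a = 0
  · rw [substT, dif_pos ha]; rfl
  · haveI : NeZero a := ⟨ha⟩
    rw [substT_eq, subst_C]

theorem substT_one_left (a : ℕ) [NeZero a] (x : LaurentSeries K) :
    substT K 1 a x = qExpand K a x := by
  rw [substT_eq, subst_one_left]

theorem monT_one (a : ℕ) : monT K 1 a = tq K a := by
  by_cases h : a = 0
  · rw [monT, tq, dif_pos h, dif_pos h]
  · rw [monT, tq, dif_neg h, dif_neg h]
    exact @subst_one_left K _ a ⟨h⟩ _

/-- exponent (and constant) comparison for monomials. -/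
theorem monT_injective {c c' : Kˣ} {a a' : ℕ} (ha : a ≠ 0) (ha' : a' ≠ 0)
    (h : monT K c a = monT K c' a') : a = a' ∧ c = c' := by
  haveI : NeZero a := ⟨ha⟩
  haveI : NeZero a' := ⟨ha'⟩
  rw [monT_eq, monT_eq] at h
  exact subst_jqModC_injective h

end Basic

/-! ### ROOTS with an explicit root of unity, and its image in any field -/

section Roots

variable {K : Type} [Field K]

theorem roots_explicit {r : ℕ} (hr : r.Prime) (ζ : Kˣ)
    (hζ : (Polynomial.cyclotomic r K).IsRoot (ζ : K)) (c : Kˣ) {a : ℕ} (ha : a ≠ 0) :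
    polyAt (Phi r) (monT K (c ^ r) (a * r)) =
      (X - Polynomial.C (monT K (c ^ (r * r)) (a * (r * r)))) *
        ∏ b ∈ Finset.range r, (X - Polynomial.C (monT K (c * ζ ^ b) a)) := by
  haveI : NeZero r := ⟨hr.ne_zero⟩
  haveI : NeZero a := ⟨ha⟩
  haveI : NeZero (a * r) := ⟨Nat.mul_ne_zero ha hr.ne_zero⟩
  haveI : NeZero (a * (r * r)) := ⟨Nat.mul_ne_zero ha (Nat.mul_ne_zero hr.ne_zero hr.ne_zero)⟩
  have h := modEqData_roots_monomial (dataT modEqStatement r hr) K ζ hζ c a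
  rw [Phi, phiT_eq modEqStatement r hr, polyAt_eq_map_evalY, monT_eq, monT_eq, h]
  congr 1
  apply Finset.prod_congr rfl
  intro b _
  rw [monT_eq]

theorem roots_in {Ω : Type*} [Field Ω] (ι : LaurentSeries K →+* Ω) {r : ℕ} (hr : r.Prime)
    (ζ : Kˣ) (hζ : (Polynomial.cyclotomic r K).IsRoot (ζ : K)) (c : Kˣ) {a : ℕ} (ha : a ≠ 0)
    (y : Ω) (h : ev (Phi r) y (ι (monT K (c ^ r) (a * r))) = 0) :
    y = ι (monT K (c ^ (r * r)) (a * (r * r))) ∨
      ∃ b < r, y = ι (monT K (c * ζ ^ b) a) := by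
  rw [ev, ← polyAt_map ι, roots_explicit hr ζ hζ c ha, Polynomial.map_mul, Polynomial.map_sub,
    Polynomial.map_X, Polynomial.map_C, Polynomial.map_prod, eval_mul, eval_prod,
    mul_eq_zero, Finset.prod_eq_zero_iff] at h
  rcases h with h | ⟨b, hb, h⟩
  · left
    rwa [eval_sub, eval_X, eval_C, sub_eq_zero] at h
  · right
    refine ⟨b, Finset.mem_range.mp hb, ?_⟩
    rwa [Polynomial.map_sub, Polynomial.map_X, Polynomial.map_C, eval_sub, eval_X, eval_C,
      sub_eq_zero] at h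

end Roots

/-! ### The forced values of `τ(t_{ℓ d})` -/

section Track

variable {K : Type} [Field K] [IsAlgClosed K] [CharZero K]

/-- `Φ_r(t_{rd}, t_d) = 0`. -/
theorem rel_up {r : ℕ} (hr : r.Prime) {d : ℕ} (hd : 0 < d) :
    ev (Phi r) (tq K (r * d)) (tq K d) = 0 :=
  (inputOf K modEqStatement).rel hr (by exact_mod_cast hr.ne_zero) hd

variable {Ω : Type*} [Field Ω] (ι : LaurentSeries K →+* Ω)

/-- **Forced values.**  If `T e` (thought of as `τ(t_e)`, `e ∣ Nℓ`) satisfies the modular relations,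
`T d = ι(t(q^{ℓNd}))` for `d ∣ N`, and `T ℓ = ι(t(c q^a))` with `a = N` or `a = Nℓ²`, then
`T (ℓ d) = ι(t(c^d q^{ad}))` for all `d ∣ N`. -/
theorem track (N ℓ : ℕ) (hN : 0 < N) (hℓ : ℓ.Prime) (hℓN : ¬ ℓ ∣ N) (T : ℕ → Ω)
    (hrel : ∀ r, r.Prime → ∀ e, r * e ∣ N * ℓ → ev (Phi r) (T (r * e)) (T e) = 0)
    (h1 : ∀ d, d ∣ N → T d = ι (tq K (ℓ * N * d)))
    (c : Kˣ) (a : ℕ) (ha : a = N ∨ a = N * (ℓ * ℓ)) (h2 : T ℓ = ι (monT K c a)) :
    ∀ d, d ∣ N → T (ℓ * d) = ι (monT K (c ^ d) (a * d)) := by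
  intro d
  induction d using Nat.strong_induction_on with
  | _ d ih =>
    intro hdN
    rcases Nat.lt_or_ge 1 d with hd1 | hd1
    · obtain ⟨r, hr, ⟨d', rfl⟩⟩ := Nat.exists_prime_and_dvd (by omega : d ≠ 1)
      have hd'N : d' ∣ N := (Dvd.intro_left r rfl).trans hdN
      have hd'0 : 0 < d' := Nat.pos_of_dvd_of_pos hd'N hN
      have hrN : r ∣ N := (Dvd.intro d' rfl).trans hdN
      have hr2 := hr.two_le
      have hℓ2 := hℓ.two_le
      have hlt : d' < r * d' := by nlinarith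
      have hIH := ih d' hlt hd'N
      have hra : r ∣ a := by
        rcases ha with rfl | rfl
        · exact hrN
        · exact hrN.mul_right _
      obtain ⟨a1, ha1⟩ := hra
      have ha_pos : 0 < a := by
        rcases ha with rfl | rfl
        · exact hN
        · positivity
      have ha_le : a ≤ N * (ℓ * ℓ) := by
        rcases ha with rfl | rfl
        · exact Nat.le_mul_of_pos_right _ (by positivity)
        · exact le_rfl
      have ha1_pos : 0 < a1 := Nat.pos_of_ne_zero (by rintro rfl; omega)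
      set a0 := a1 * d' with ha0
      have ha0_ne : a0 ≠ 0 := (Nat.mul_pos ha1_pos hd'0).ne'
      have haa : a * d' = a0 * r := by rw [ha1, ha0]; ring
      -- an `r`-th root of `c ^ d'`
      obtain ⟨z, hz⟩ := IsAlgClosed.exists_pow_nat_eq (((c ^ d' : Kˣ) : Kˣ) : K) hr.pos
      have hz0 : z ≠ 0 := by
        rintro rfl
        rw [zero_pow hr.ne_zero] at hz
        exact (c ^ d').ne_zero hz.symm
      let c0 : Kˣ := Units.mk0 z hz0
      have hc0 : c0 ^ r = c ^ d' := by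
        apply Units.ext; push_cast; exact hz
      obtain ⟨ζ, -, hζ⟩ := exists_zeta K r hr.pos (by exact_mod_cast hr.ne_zero)
      -- the `r`-relation between `t_{ℓ d}` and `t_{ℓ d'}`
      have hR := hrel r hr (ℓ * d') (by
        rw [show r * (ℓ * d') = r * d' * ℓ by ring]
        exact Nat.mul_dvd_mul_right hdN ℓ)
      rw [hIH, haa, ← hc0, show r * (ℓ * d') = ℓ * (r * d') by ring] at hR
      rcases roots_in ι hr ζ hζ c0 ha0_ne _ hR with h | ⟨b, -, h⟩
      · rw [h]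
        congr 2
        · rw [pow_mul, hc0, ← pow_mul, mul_comm]
        · rw [ha1, ha0]; ring
      · exfalso
        -- the `ℓ`-relation between `t_{ℓ d}` and `t_d`
        have hL := hrel ℓ hℓ (r * d') (by
          rw [mul_comm]
          exact Nat.mul_dvd_mul_right hdN ℓ)
        have e1 : tq K (ℓ * N * (r * d')) = monT K ((1 : Kˣ) ^ ℓ) ((N * (r * d')) * ℓ) := by
          rw [one_pow, monT_one]; congr 1; ring
        rw [h1 (r * d') hdN, h, e1] at hL
        obtain ⟨ζℓ, -, hζℓ⟩ := exists_zeta K ℓ hℓ.pos (by exact_mod_cast hℓ.ne_zero)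
        have hNd_ne : N * (r * d') ≠ 0 := by positivity
        rcases roots_in ι hℓ ζℓ hζℓ 1 hNd_ne _ hL with h' | ⟨b', -, h'⟩
        · have h3 := (monT_injective ha0_ne (by positivity) (ι.injective h')).1
          -- a0 = N * (r * d') * (ℓ * ℓ)
          have h4 : a1 = N * r * (ℓ * ℓ) := by
            apply Nat.eq_of_mul_eq_mul_right hd'0
            rw [← ha0, h3]; ring
          rw [h4] at ha1
          have : N * (ℓ * ℓ) < a := by
            rw [ha1]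
            have h5 : 0 < N * (ℓ * ℓ) := by positivity
            nlinarith
          omega
        · have h3 := (monT_injective ha0_ne hNd_ne (ι.injective h')).1
          have h4 : a1 = N * r := by
            apply Nat.eq_of_mul_eq_mul_right hd'0
            rw [← ha0, h3]; ring
          rw [h4] at ha1
          rcases ha with rfl | rfl
          · have : a < r * (a * r) := by nlinarith
            omega
          · have h5 : ℓ * ℓ = r * r := by
              apply Nat.eq_of_mul_eq_mul_left hN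
              rw [ha1]; ring
            have h6 : ℓ = r := Nat.mul_self_inj.mp h5
            exact hℓN (h6 ▸ hrN)
    · have hd : d = 1 := by
        have := Nat.pos_of_dvd_of_pos hdN hN
        omega
      subst hd
      rw [mul_one, pow_one, mul_one]
      exact h2

end Track

/-! ### Ring homomorphisms out of `L_{Nℓ}` extending `ι ∘ σ_{ℓN}` on `L_N` -/

section Conj

variable {K : Type} [Field K] [IsAlgClosed K] [CharZero K]
variable {Ω : Type*} [Field Ω] (ι : LaurentSeries K →+* Ω)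
variable (N ℓ : ℕ) [NeZero N] [NeZero ℓ]

local notation "𝔽" => modularFunctionFieldFullC K N
local notation "𝔽'" => modularFunctionFieldFullC K (N * ℓ)

omit [IsAlgClosed K] [CharZero K] in
theorem le_full : 𝔽 ≤ 𝔽' := full_degeneracyC_le K (dvd_mul_right N ℓ)

omit [IsAlgClosed K] [CharZero K] [NeZero N] in
theorem qExpand_mem_full' {f : LaurentSeries K} (hf : f ∈ 𝔽) : qExpand K ℓ f ∈ 𝔽' :=
  full_degeneracyC_map_le K N ℓ ⟨f, hf, rfl⟩

attribute [local instance] Classical.propDecidable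

/-- the values of `τ` on the generators `t_e` (junk `0` if `t_e ∉ L_{Nℓ}`). -/
def Tval (τ : 𝔽' →+* Ω) (e : ℕ) : Ω := if h : tq K e ∈ 𝔽' then τ ⟨tq K e, h⟩ else 0

omit [IsAlgClosed K] [CharZero K] [NeZero N] [NeZero ℓ] in
theorem Tval_eq (τ : 𝔽' →+* Ω) {e : ℕ} (h : tq K e ∈ 𝔽') : Tval N ℓ τ e = τ ⟨tq K e, h⟩ :=
  dif_pos h

theorem Tval_rel (τ : 𝔽' →+* Ω) {r : ℕ} (hr : r.Prime) {e : ℕ} (he : r * e ∣ N * ℓ) :
    ev (Phi r) (Tval N ℓ τ (r * e)) (Tval N ℓ τ e) = 0 := by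
  have hNℓ : 0 < N * ℓ := Nat.pos_of_ne_zero (NeZero.ne _)
  have he0 : 0 < e := Nat.pos_of_ne_zero (by
    rintro rfl
    rw [mul_zero, zero_dvd_iff] at he
    omega)
  have h1 : tq K (r * e) ∈ 𝔽' := tq_mem_fullC K he
  have h2 : tq K e ∈ 𝔽' := tq_mem_fullC K ((Dvd.intro_left r rfl).trans he)
  rw [Tval_eq N ℓ τ h1, Tval_eq N ℓ τ h2]
  have h0 : ev (Phi r) (⟨tq K (r * e), h1⟩ : 𝔽') ⟨tq K e, h2⟩ = 0 := by
    apply (algebraMap 𝔽' (LaurentSeries K)).injective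
    rw [map_ev, map_zero]
    exact rel_up hr he0
  have := congrArg τ h0
  rwa [map_ev, map_zero] at this

variable {N ℓ}

/-- the hypothesis "`τ` restricts to `ι ∘ σ_{ℓN}` on `L_N`". -/
def Extends (τ : 𝔽' →+* Ω) : Prop :=
  ∀ (x : LaurentSeries K) (hx : x ∈ 𝔽), τ ⟨x, le_full N ℓ hx⟩ = ι (qExpand K (ℓ * N) x)

omit [IsAlgClosed K] [CharZero K] in
theorem Extends.tval_dvd {τ : 𝔽' →+* Ω} (hτ : Extends ι τ) {d : ℕ} (hd : d ∣ N) :
    Tval N ℓ τ d = ι (tq K (ℓ * N * d)) := by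
  have hd0 : d ≠ 0 := fun h => NeZero.ne N (by simpa [h] using hd)
  haveI : NeZero d := ⟨hd0⟩
  have h1 : tq K d ∈ 𝔽 := tq_mem_fullC K hd
  rw [Tval_eq N ℓ τ (le_full N ℓ h1), hτ _ h1, qExpand_tq]

/-- **(KC2a)** the possible values of `τ(t_ℓ)`. -/
theorem Extends.exists_par {τ : 𝔽' →+* Ω} (hτ : Extends ι τ) (hℓ : ℓ.Prime) (ζ : Kˣ)
    (hζ : (Polynomial.cyclotomic ℓ K).IsRoot (ζ : K)) :
    Tval N ℓ τ ℓ = ι (monT K 1 (N * (ℓ * ℓ))) ∨
      ∃ b < ℓ, Tval N ℓ τ ℓ = ι (monT K (ζ ^ b) N) := by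
  have h := Tval_rel N ℓ τ hℓ (e := 1) (by rw [mul_one]; exact dvd_mul_left ℓ N)
  have e1 : tq K (ℓ * N * 1) = monT K ((1 : Kˣ) ^ ℓ) (N * ℓ) := by
    rw [one_pow, monT_one]; congr 1; ring
  rw [hτ.tval_dvd ι (one_dvd N), e1, mul_one] at h
  rcases roots_in ι hℓ ζ hζ 1 (NeZero.ne N) _ h with h' | ⟨b, hb, h'⟩
  · left
    rw [h', one_pow]
  · right
    exact ⟨b, hb, by rw [h', one_mul]⟩

/-- **(KC2b)** the value of `τ(t_ℓ)` determines `τ ∘ β`: `τ(f(q^ℓ)) = ι(f(c q^a))`. -/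
theorem Extends.apply_qExpand {τ : 𝔽' →+* Ω} (hτ : Extends ι τ) (hℓ : ℓ.Prime) (hℓN : ¬ ℓ ∣ N)
    (c : Kˣ) (a : ℕ) (ha : a = N ∨ a = N * (ℓ * ℓ)) (h2 : Tval N ℓ τ ℓ = ι (monT K c a))
    (f : LaurentSeries K) (hf : f ∈ 𝔽) (hf' : qExpand K ℓ f ∈ 𝔽') :
    τ ⟨qExpand K ℓ f, hf'⟩ = ι (substT K c a f) := by
  have hN : 0 < N := Nat.pos_of_ne_zero (NeZero.ne N)
  have ha0 : a ≠ 0 := by
    rcases ha with h | h
    · rw [h]; exact NeZero.ne N
    · rw [h]; exact Nat.mul_ne_zero (NeZero.ne N) (Nat.mul_ne_zero hℓ.ne_zero hℓ.ne_zero)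
  have htrack := track ι N ℓ hN hℓ hℓN (Tval N ℓ τ)
    (fun r hr e he => Tval_rel N ℓ τ hr he) (fun d hd => hτ.tval_dvd ι hd) c a ha h2
  have key : ∀ x, x ∈ adjoin K ((fun d => tq K d) '' {d | d ∣ N}) →
      ∀ (hx' : qExpand K ℓ x ∈ 𝔽'), τ ⟨qExpand K ℓ x, hx'⟩ = ι (substT K c a x) := by
    intro x hx
    induction hx using adjoin_induction with
    | mem s hs =>
      obtain ⟨d, hd, rfl⟩ := hs
      intro hx'
      have hd0 : d ≠ 0 := fun h => NeZero.ne N (by simpa [h] using (hd : d ∣ N))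
      haveI : NeZero d := ⟨hd0⟩
      have e : qExpand K ℓ (tq K d) = tq K (ℓ * d) := qExpand_tq K ℓ d
      have hmem : tq K (ℓ * d) ∈ 𝔽' := e ▸ hx'
      have e' : (⟨qExpand K ℓ (tq K d), hx'⟩ : 𝔽') = ⟨tq K (ℓ * d), hmem⟩ := Subtype.ext e
      show τ ⟨qExpand K ℓ (tq K d), hx'⟩ = _
      rw [e', ← Tval_eq N ℓ τ hmem, htrack d hd, substT_tq c ha0 hd0]
    | algebraMap k =>
      intro hx'
      have e0 : algebraMap K (LaurentSeries K) k = HahnSeries.C k := by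
        rw [algebraMap_laurentSeries_eq_single]; rfl
      have hk : (HahnSeries.C k : LaurentSeries K) ∈ 𝔽 := e0 ▸ (𝔽).algebraMap_mem k
      have e : (⟨qExpand K ℓ (algebraMap K (LaurentSeries K) k), hx'⟩ : 𝔽')
          = ⟨HahnSeries.C k, le_full N ℓ hk⟩ := Subtype.ext (by
        show qExpand K ℓ (algebraMap K (LaurentSeries K) k) = HahnSeries.C k
        rw [e0, qExpand_C])
      rw [e, hτ _ hk, qExpand_C, e0, substT_C]
    | add x y hx hy ihx ihy =>
      intro hx'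
      have hxF : x ∈ 𝔽 := by rw [fullC_eq_adjoin]; exact hx
      have hyF : y ∈ 𝔽 := by rw [fullC_eq_adjoin]; exact hy
      have h1 := qExpand_mem_full' N ℓ hxF
      have h2 := qExpand_mem_full' N ℓ hyF
      have e : (⟨qExpand K ℓ (x + y), hx'⟩ : 𝔽') = ⟨qExpand K ℓ x, h1⟩ + ⟨qExpand K ℓ y, h2⟩ :=
        Subtype.ext (map_add _ _ _)
      rw [e, map_add, ihx h1, ihy h2, map_add, map_add]
    | inv x hx ihx =>
      intro hx'
      have hxF : x ∈ 𝔽 := by rw [fullC_eq_adjoin]; exact hx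
      have h1 := qExpand_mem_full' N ℓ hxF
      have e : (⟨qExpand K ℓ x⁻¹, hx'⟩ : 𝔽') = (⟨qExpand K ℓ x, h1⟩ : 𝔽')⁻¹ :=
        Subtype.ext (map_inv₀ _ _)
      rw [e, map_inv₀, ihx h1, map_inv₀, map_inv₀]
    | mul x y hx hy ihx ihy =>
      intro hx'
      have hxF : x ∈ 𝔽 := by rw [fullC_eq_adjoin]; exact hx
      have hyF : y ∈ 𝔽 := by rw [fullC_eq_adjoin]; exact hy
      have h1 := qExpand_mem_full' N ℓ hxF
      have h2 := qExpand_mem_full' N ℓ hyF
      have e : (⟨qExpand K ℓ (x * y), hx'⟩ : 𝔽') = ⟨qExpand K ℓ x, h1⟩ * ⟨qExpand K ℓ y, h2⟩ :=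
        Subtype.ext (map_mul _ _ _)
      rw [e, map_mul, ihx h1, ihy h2, map_mul, map_mul]
  exact key f (by rw [← fullC_eq_adjoin]; exact hf) hf'

/-- **(KC2c)** `τ` is determined by `τ(t_ℓ)`. -/
theorem Extends.ext_of_tval {τ τ' : 𝔽' →+* Ω} (hτ : Extends ι τ) (hτ' : Extends ι τ')
    (hℓ : ℓ.Prime) (hℓN : ¬ ℓ ∣ N) (h : Tval N ℓ τ ℓ = Tval N ℓ τ' ℓ) : τ = τ' := by
  obtain ⟨ζ, -, hζ⟩ := exists_zeta K ℓ hℓ.pos (by exact_mod_cast hℓ.ne_zero)
  obtain ⟨c, a, ha, h2⟩ : ∃ (c : Kˣ) (a : ℕ), (a = N ∨ a = N * (ℓ * ℓ)) ∧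
      Tval N ℓ τ ℓ = ι (monT K c a) := by
    rcases hτ.exists_par ι hℓ ζ hζ with h' | ⟨b, -, h'⟩
    · exact ⟨1, _, Or.inr rfl, h'⟩
    · exact ⟨ζ ^ b, _, Or.inl rfl, h'⟩
  have h2' : Tval N ℓ τ' ℓ = ι (monT K c a) := h ▸ h2
  have key : ∀ x, x ∈ adjoin K ((fun d => tq K d) '' {d | d ∣ N * ℓ}) →
      ∀ (hx' : x ∈ 𝔽'), τ ⟨x, hx'⟩ = τ' ⟨x, hx'⟩ := by
    intro x hx
    induction hx using adjoin_induction with
    | mem s hs =>
      obtain ⟨e, he, rfl⟩ := hs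
      intro hx'
      have he' : e ∣ N * ℓ := he
      by_cases hℓe : ℓ ∣ e
      · obtain ⟨d, rfl⟩ := hℓe
        have hd : d ∣ N := by
          rw [mul_comm N ℓ] at he'
          exact Nat.dvd_of_mul_dvd_mul_left hℓ.pos he'
        have hd0 : d ≠ 0 := fun h => NeZero.ne N (by simpa [h] using hd)
        haveI : NeZero d := ⟨hd0⟩
        have hdF : tq K d ∈ 𝔽 := tq_mem_fullC K hd
        have e1 : qExpand K ℓ (tq K d) = tq K (ℓ * d) := qExpand_tq K ℓ d
        have hmem : qExpand K ℓ (tq K d) ∈ 𝔽' := e1 ▸ hx'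
        have e2 : (⟨tq K (ℓ * d), hx'⟩ : 𝔽') = ⟨qExpand K ℓ (tq K d), hmem⟩ :=
          Subtype.ext e1.symm
        show τ ⟨tq K (ℓ * d), hx'⟩ = τ' ⟨tq K (ℓ * d), hx'⟩
        rw [e2, hτ.apply_qExpand ι hℓ hℓN c a ha h2 _ hdF hmem,
          hτ'.apply_qExpand ι hℓ hℓN c a ha h2' _ hdF hmem]
      · have hcop : Nat.Coprime e ℓ := ((Nat.Prime.coprime_iff_not_dvd hℓ).mpr hℓe).symm
        have heN : e ∣ N := hcop.dvd_of_dvd_mul_right he'
        have heF : tq K e ∈ 𝔽 := tq_mem_fullC K heN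
        show τ ⟨tq K e, hx'⟩ = τ' ⟨tq K e, hx'⟩
        rw [hτ _ heF, hτ' _ heF]
    | algebraMap k =>
      intro hx'
      have hk : algebraMap K (LaurentSeries K) k ∈ 𝔽 := (𝔽).algebraMap_mem k
      rw [hτ _ hk, hτ' _ hk]
    | add x y hx hy ihx ihy =>
      intro hx'
      have hxF : x ∈ 𝔽' := by rw [fullC_eq_adjoin]; exact hx
      have hyF : y ∈ 𝔽' := by rw [fullC_eq_adjoin]; exact hy
      have e : (⟨x + y, hx'⟩ : 𝔽') = ⟨x, hxF⟩ + ⟨y, hyF⟩ := rfl
      rw [e, map_add, map_add, ihx hxF, ihy hyF]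
    | inv x hx ihx =>
      intro hx'
      have hxF : x ∈ 𝔽' := by rw [fullC_eq_adjoin]; exact hx
      have e : (⟨x⁻¹, hx'⟩ : 𝔽') = (⟨x, hxF⟩ : 𝔽')⁻¹ := rfl
      rw [e, map_inv₀, map_inv₀, ihx hxF]
    | mul x y hx hy ihx ihy =>
      intro hx'
      have hxF : x ∈ 𝔽' := by rw [fullC_eq_adjoin]; exact hx
      have hyF : y ∈ 𝔽' := by rw [fullC_eq_adjoin]; exact hy
      have e : (⟨x * y, hx'⟩ : 𝔽') = ⟨x, hxF⟩ * ⟨y, hyF⟩ := rfl
      rw [e, map_mul, map_mul, ihx hxF, ihy hyF]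
  ext ⟨x, hx⟩
  exact key x (by rw [← fullC_eq_adjoin]; exact hx) hx

end Conj

end Fermat.Agent.S37.KronConj17
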