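/-
S37 / [S37-KRONECKER-NORM] (helper17), part 3: **the norm formula**.

`K` algebraically closed of characteristic `0`, `ℓ` prime, `ℓ ∤ N`, `ζ` a primitive `ℓ`-th root of
unity, `L_N = modularFunctionFieldFullC K N ≤ L_{Nℓ}`.  For `f ∈ L_N`, the norm from `L_{Nℓ}` down to
`L_N` (along the inclusion `α`) of `β f = f(q^ℓ)` satisfies

  `(N_{L_{Nℓ}/L_N} (f(q^ℓ)))(q^ℓ) = f(q^{ℓ²}) * ∏_{b<ℓ} f(ζ^b q)`.
-/
import Mathlib
import Fermat.Prelude.Def_ModularCurve_X0ModL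
import Fermat.Agent.S37.KronConj17

set_option autoImplicit false
set_option linter.style.haveILetI false

noncomputable section

namespace Fermat.Agent.S37.KronNorm17

open HahnSeries ModularCurve IntermediateField Polynomial
open Fermat.Agent.S28 Fermat.Agent.S28.Subst Fermat.Agent.S28.KeyLowerBasic
open Fermat.Agent.S28.KeyLower Fermat.Agent.S37.KronConj17

attribute [local instance] Classical.propDecidable

section Norm

variable (K : Type) [Field K] [IsAlgClosed K] [CharZero K]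
variable (N ℓ : ℕ) [NeZero N] [NeZero ℓ]

local notation "𝔽" => modularFunctionFieldFullC K N
local notation "𝔽'" => modularFunctionFieldFullC K (N * ℓ)

/-- the algebra structure of `L_{Nℓ}` over `L_N` along the inclusion (`= algebraAlong α`). -/
@[reducible] def algIncl : Algebra 𝔽 𝔽' := (inclusion (le_full N ℓ)).toRingHom.toAlgebra

theorem rank_eq (hℓ : ℓ.Prime) (hℓN : ¬ ℓ ∣ N) :
    letI := algIncl K N ℓ
    Module.rank 𝔽 𝔽' = ((ℓ + 1 : ℕ) : Cardinal) := by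
  letI := algIncl K N ℓ
  have h := relrank_eq_rank_of_le (le_full (K := K) N ℓ)
  rw [KronDeg17.relrank_mul_prime K N ℓ hℓ hℓN] at h
  exact h.symm

theorem finite (hℓ : ℓ.Prime) (hℓN : ¬ ℓ ∣ N) :
    letI := algIncl K N ℓ
    Module.Finite 𝔽 𝔽' := by
  letI := algIncl K N ℓ
  exact Module.finite_of_rank_eq_nat (rank_eq K N ℓ hℓ hℓN)

theorem finrank_eq (hℓ : ℓ.Prime) (hℓN : ¬ ℓ ∣ N) :
    letI := algIncl K N ℓ
    Module.finrank 𝔽 𝔽' = ℓ + 1 := by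
  letI := algIncl K N ℓ
  exact Module.finrank_eq_of_rank_eq (rank_eq K N ℓ hℓ hℓN)

omit [IsAlgClosed K] [CharZero K] in
/-- the index set of the conjugates: `(1, Nℓ²)` and `(ζ^b, N)`, `b < ℓ`. -/
def parSet (ζ : Kˣ) : Finset (Kˣ × ℕ) :=
  insert ((1 : Kˣ), N * (ℓ * ℓ)) ((Finset.range ℓ).image fun b => (ζ ^ b, N))

omit [IsAlgClosed K] [CharZero K] [NeZero ℓ] in
theorem card_parSet (hℓ : ℓ.Prime) (ζ : Kˣ) (hζ : IsPrimitiveRoot ζ ℓ) :
    (parSet K N ℓ ζ).card = ℓ + 1 := by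
  have hN : 0 < N := Nat.pos_of_ne_zero (NeZero.ne N)
  have hℓ2 := hℓ.two_le
  rw [parSet, Finset.card_insert_of_notMem, Finset.card_image_of_injOn, Finset.card_range]
  · intro b hb b' hb' h
    have h1 : ζ ^ b = ζ ^ b' := (Prod.mk.inj h).1
    exact hζ.pow_inj (Finset.mem_range.mp hb) (Finset.mem_range.mp hb') h1
  · intro h
    obtain ⟨b, -, hb⟩ := Finset.mem_image.mp h
    have h1 : N = N * (ℓ * ℓ) := (Prod.mk.inj hb).2
    have h2 : N * 4 ≤ N * (ℓ * ℓ) := Nat.mul_le_mul_left N (by nlinarith)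
    omega

omit [IsAlgClosed K] [CharZero K] [NeZero ℓ] in
theorem prod_parSet {M : Type*} [CommMonoid M] (hℓ : ℓ.Prime) (ζ : Kˣ)
    (hζ : IsPrimitiveRoot ζ ℓ) (g : Kˣ × ℕ → M) :
    ∏ p ∈ parSet K N ℓ ζ, g p = g (1, N * (ℓ * ℓ)) * ∏ b ∈ Finset.range ℓ, g (ζ ^ b, N) := by
  have hN : 0 < N := Nat.pos_of_ne_zero (NeZero.ne N)
  have hℓ2 := hℓ.two_le
  rw [parSet, Finset.prod_insert, Finset.prod_image]
  · intro b hb b' hb' h
    have h1 : ζ ^ b = ζ ^ b' := (Prod.mk.inj h).1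
    exact hζ.pow_inj (Finset.mem_range.mp hb) (Finset.mem_range.mp hb') h1
  · intro h
    obtain ⟨b, -, hb⟩ := Finset.mem_image.mp h
    have h1 : N = N * (ℓ * ℓ) := (Prod.mk.inj hb).2
    have h2 : N * 4 ≤ N * (ℓ * ℓ) := Nat.mul_le_mul_left N (by nlinarith)
    omega

/-- **(KC3) The norm formula**: `σ_ℓ (N_{L_{Nℓ}/L_N} (σ_ℓ f)) = σ_{ℓ²} f * ∏_{b<ℓ} f(ζ^b q)`. -/
theorem qExpand_norm (hℓ : ℓ.Prime) (hℓN : ¬ ℓ ∣ N) (ζ : Kˣ) (hζ : IsPrimitiveRoot ζ ℓ)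
    (f : LaurentSeries K) (hf : f ∈ 𝔽) :
    letI := algIncl K N ℓ
    qExpand K ℓ ((Algebra.norm 𝔽 (⟨qExpand K ℓ f, qExpand_mem_full' N ℓ hf⟩ : 𝔽') : 𝔽) :
        LaurentSeries K)
      = qExpand K (ℓ * ℓ) f * ∏ b ∈ Finset.range ℓ, twist (ζ ^ b) f := by
  letI alg := algIncl K N ℓ
  haveI hfin : Module.Finite 𝔽 𝔽' := finite K N ℓ hℓ hℓN
  haveI : Algebra.IsAlgebraic 𝔽 𝔽' := Algebra.IsAlgebraic.of_finite 𝔽 𝔽'
  haveI : Algebra.IsSeparable 𝔽 𝔽' := Algebra.IsAlgebraic.isSeparable_of_perfectField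
  have hζK : IsPrimitiveRoot ((ζ : Kˣ) : K) ℓ := IsPrimitiveRoot.coe_units_iff.mpr hζ
  have hcyc : (Polynomial.cyclotomic ℓ K).IsRoot (ζ : K) := hζK.isRoot_cyclotomic hℓ.pos
  -- the target field
  let Ω := AlgebraicClosure (LaurentSeries K)
  let ι : LaurentSeries K →+* Ω := algebraMap (LaurentSeries K) Ω
  letI algΩ : Algebra 𝔽 Ω :=
    (ι.comp ((qExpand K (ℓ * N)).comp (algebraMap 𝔽 (LaurentSeries K)))).toAlgebra
  set g : 𝔽' := ⟨qExpand K ℓ f, qExpand_mem_full' N ℓ hf⟩ with hg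
  have hnorm := Algebra.norm_eq_prod_embeddings 𝔽 Ω g
  -- every embedding extends `ι ∘ σ_{ℓN}`
  have hext : ∀ σ : 𝔽' →ₐ[𝔽] Ω, Extends ι (σ : 𝔽' →+* Ω) := by
    intro σ x hx
    exact σ.commutes ⟨x, hx⟩
  -- the parameter of an embedding
  have hpar : ∀ σ : 𝔽' →ₐ[𝔽] Ω, ∃ p ∈ parSet K N ℓ ζ,
      Tval N ℓ (σ : 𝔽' →+* Ω) ℓ = ι (monT K p.1 p.2) := by
    intro σ
    rcases (hext σ).exists_par ι hℓ ζ hcyc with h | ⟨b, hb, h⟩
    · exact ⟨(1, N * (ℓ * ℓ)), Finset.mem_insert_self _ _, h⟩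
    · exact ⟨(ζ ^ b, N), Finset.mem_insert_of_mem
        (Finset.mem_image.mpr ⟨b, Finset.mem_range.mpr hb, rfl⟩), h⟩
  choose par hparmem hparval using hpar
  have hpar_a : ∀ σ, (par σ).2 = N ∨ (par σ).2 = N * (ℓ * ℓ) := by
    intro σ
    rcases Finset.mem_insert.mp (hparmem σ) with h | h
    · right; rw [h]
    · left
      obtain ⟨b, -, hb⟩ := Finset.mem_image.mp h
      rw [← hb]
  have hinj : Function.Injective par := by
    intro σ σ' h
    have h1 : Tval N ℓ (σ : 𝔽' →+* Ω) ℓ = Tval N ℓ (σ' : 𝔽' →+* Ω) ℓ := by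
      rw [hparval σ, hparval σ', h]
    have h2 := (hext σ).ext_of_tval ι (hext σ') hℓ hℓN h1
    exact AlgHom.coe_ringHom_injective h2
  -- the image of `par` is everything
  have himage : Finset.univ.image par = parSet K N ℓ ζ := by
    apply Finset.eq_of_subset_of_card_le
    · intro p hp
      obtain ⟨σ, -, rfl⟩ := Finset.mem_image.mp hp
      exact hparmem σ
    · rw [card_parSet K N ℓ hℓ ζ hζ, Finset.card_image_of_injective _ hinj, Finset.card_univ,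
        AlgHom.card 𝔽 𝔽' Ω, finrank_eq K N ℓ hℓ hℓN]
  -- the values of the embeddings on `g`
  have hval : ∀ σ : 𝔽' →ₐ[𝔽] Ω, σ g = ι (substT K (par σ).1 (par σ).2 f) := by
    intro σ
    exact (hext σ).apply_qExpand ι hℓ hℓN (par σ).1 (par σ).2 (hpar_a σ) (hparval σ) f hf _
  have hprod : ∏ σ : 𝔽' →ₐ[𝔽] Ω, σ g =
      ι (substT K 1 (N * (ℓ * ℓ)) f * ∏ b ∈ Finset.range ℓ, substT K (ζ ^ b) N f) := by
    rw [Finset.prod_congr rfl (fun σ _ => hval σ),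
      ← Finset.prod_image (f := fun p : Kˣ × ℕ => ι (substT K p.1 p.2 f))
        (s := Finset.univ) (g := par) (fun σ _ σ' _ h => hinj h),
      himage, prod_parSet K N ℓ hℓ ζ hζ, map_mul, map_prod]
  rw [hprod] at hnorm
  have h3 : qExpand K (ℓ * N) ((Algebra.norm 𝔽 g : 𝔽) : LaurentSeries K)
      = substT K 1 (N * (ℓ * ℓ)) f * ∏ b ∈ Finset.range ℓ, substT K (ζ ^ b) N f :=
    ι.injective hnorm
  -- cancel `σ_N`
  apply qExpand_injective (R := K) N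
  rw [qExpand_qExpand, map_mul, map_prod, qExpand_qExpand, qExpand_congr (mul_comm N ℓ), h3,
    substT_one_left]
  congr 1
  apply Finset.prod_congr rfl
  intro b _
  rw [substT_eq, subst_apply]

end Norm

end Fermat.Agent.S37.KronNorm17
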