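import Mathlib
import Fermat.Prelude.Def_ModularCurve_X0ModL
import Fermat.Agent.S28.Twist

/-!
# S37, package [KRON-SERIES] (helper62): the series half of the Kronecker congruence

Pure Laurent-series statements (Mathlib + Prelude `qExpand`/`coeffMap` + `S28.twist`):

* `pow_char_eq` : over a commutative ring `k` of prime characteristic `ℓ`,
  `f ^ ℓ = qExpand k ℓ (coeffMap (frobenius k ℓ) f)` (`f(q)^ℓ = f^{Frob}(q^ℓ)`).
* `prodTwist ζ ℓ f = ∏_{b<ℓ} f(ζ^b q)`; it is invariant under `q ↦ ζ q` when `ζ^ℓ = 1`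
  (`twist_prodTwist`), hence a series in `q^ℓ` when `ζ` has exact order `ℓ` and `B` is a domain
  (`exists_qExpand_eq_prodTwist`).
* `coeffMap_prodTwist` : if `ρ : B →+* k` kills `ζ - 1` and `k` has characteristic `ℓ` then
  `ρ(∏_b f(ζ^b q)) = (ρ f)^{Frob}(q^ℓ)`.
* `kronecker_reduction` : the norm series `G` with `G(q^ℓ) = f(q^{ℓ²}) ∏_b f(ζ^b q)` reduces to
  `f̄(q^ℓ) · f̄^{Frob}(q)`.
-/

set_option autoImplicit false

noncomputable section

namespace Fermat.Agent.S37.KronSeries62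

open HahnSeries ModularCurve Fermat.Agent.S28

/-! ### Vanishing of low coefficients of products -/

section LowCoeff

variable {R : Type*} [CommRing R]

/-- `x` has no coefficients below `a`. -/
def VanishBelow (a : ℤ) (x : LaurentSeries R) : Prop := ∀ n : ℤ, n < a → x.coeff n = 0

theorem VanishBelow.mul {a b : ℤ} {x y : LaurentSeries R} (hx : VanishBelow a x)
    (hy : VanishBelow b y) : VanishBelow (a + b) (x * y) := by
  intro n hn
  rw [HahnSeries.coeff_mul]
  apply Finset.sum_eq_zero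
  rintro ⟨i, j⟩ hij
  rw [Finset.mem_antidiagonal] at hij
  obtain ⟨hi, hj, hsum⟩ := hij
  simp only at hi hj hsum
  by_cases hia : i < a
  · rw [hx i hia, zero_mul]
  · have hjb : j < b := by omega
    rw [hy j hjb, mul_zero]

theorem vanishBelow_one : VanishBelow 0 (1 : LaurentSeries R) := by
  intro n hn
  rw [HahnSeries.coeff_one, if_neg (by omega)]

theorem VanishBelow.pow {a : ℤ} {x : LaurentSeries R} (hx : VanishBelow a x) (m : ℕ) :
    VanishBelow ((m : ℤ) * a) (x ^ m) := by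
  induction m with
  | zero => simpa using vanishBelow_one
  | succ m ih =>
    rw [pow_succ]
    have := ih.mul hx
    convert this using 1
    push_cast
    ring

end LowCoeff

/-! ### Frobenius on Laurent series -/

section Frobenius

variable {k : Type*} [CommRing k] (ℓ : ℕ) [hℓ : Fact ℓ.Prime] [NeZero ℓ] [CharP k ℓ]

omit [NeZero ℓ] hℓ in
theorem charP_laurentSeries : CharP (LaurentSeries k) ℓ :=
  charP_of_injective_ringHom (f := (HahnSeries.C : k →+* LaurentSeries k))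
    HahnSeries.C_injective ℓ

/-- `f ↦ f^{Frob}(q^ℓ)`. -/
def frobExpand : LaurentSeries k →+* LaurentSeries k :=
  (qExpand k ℓ).comp (coeffMap (frobenius k ℓ))

theorem frobExpand_apply (f : LaurentSeries k) :
    frobExpand ℓ f = qExpand k ℓ (coeffMap (frobenius k ℓ) f) := rfl

theorem frobExpand_coeff_mul (f : LaurentSeries k) (n : ℤ) :
    (frobExpand ℓ f).coeff ((ℓ : ℤ) * n) = (f.coeff n) ^ ℓ := by
  rw [frobExpand_apply, qExpand_coeff_mul, coeffMap_coeff, frobenius_def]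

theorem frobExpand_coeff_of_not_dvd (f : LaurentSeries k) {n : ℤ} (hn : ¬ (ℓ : ℤ) ∣ n) :
    (frobExpand ℓ f).coeff n = 0 := by
  rw [frobExpand_apply, qExpand_coeff_of_not_dvd ℓ _ hn]

theorem frobExpand_single (n : ℤ) (a : k) :
    frobExpand ℓ (HahnSeries.single n a) = (HahnSeries.single n a) ^ ℓ := by
  rw [frobExpand_apply, coeffMap_single, qExpand_single, HahnSeries.single_pow, frobenius_def,
    nsmul_eq_mul]

theorem VanishBelow.frobExpand {a : ℤ} {x : LaurentSeries k} (hx : VanishBelow a x) :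
    VanishBelow ((ℓ : ℤ) * a) (frobExpand ℓ x) := by
  intro n hn
  by_cases hd : (ℓ : ℤ) ∣ n
  · obtain ⟨m, rfl⟩ := hd
    have hℓpos : (0 : ℤ) < ℓ := by exact_mod_cast hℓ.out.pos
    have hm : m < a := lt_of_mul_lt_mul_left hn hℓpos.le
    rw [frobExpand_coeff_mul, hx m hm, zero_pow hℓ.out.ne_zero]
  · exact frobExpand_coeff_of_not_dvd ℓ x hd

/-- Frobenius agrees with `frobExpand` on every truncation `truncLT c f`. -/
theorem truncLT_pow_char (f : LaurentSeries k) (c : ℤ) :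
    (HahnSeries.truncLT c f) ^ ℓ = frobExpand ℓ (HahnSeries.truncLT c f) := by
  have : CharP (LaurentSeries k) ℓ := charP_laurentSeries ℓ
  -- below the support the truncation vanishes
  obtain ⟨c0, hc0⟩ : ∃ c0 : ℤ, ∀ n < c0, f.coeff n = 0 := by
    rcases eq_or_ne f 0 with rfl | hf
    · exact ⟨0, fun n _ => rfl⟩
    · exact ⟨f.order, fun n hn => HahnSeries.coeff_eq_zero_of_lt_order hn⟩
  rcases le_total c c0 with hc | hc
  · have h0 : HahnSeries.truncLT c f = 0 := by
      ext n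
      rw [HahnSeries.coeff_truncLT]
      split_ifs with h
      · exact hc0 n (lt_of_lt_of_le h hc)
      · rfl
    rw [h0, map_zero, zero_pow hℓ.out.ne_zero]
  · induction c, hc using Int.leInduction with
    | base =>
      have h0 : HahnSeries.truncLT c0 f = 0 := by
        ext n
        rw [HahnSeries.coeff_truncLT]
        split_ifs with h
        · exact hc0 n h
        · rfl
      rw [h0, map_zero, zero_pow hℓ.out.ne_zero]
    | succ c _ ih =>
      have hstep : HahnSeries.truncLT (c + 1) f =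
          HahnSeries.truncLT c f + HahnSeries.single c (f.coeff c) := by
        ext n
        rw [HahnSeries.coeff_add, HahnSeries.coeff_truncLT, HahnSeries.coeff_truncLT]
        rcases lt_trichotomy n c with h | h | h
        · rw [if_pos (by omega), if_pos h, HahnSeries.coeff_single_of_ne h.ne, add_zero]
        · subst h
          rw [if_pos (by omega), if_neg (lt_irrefl _), HahnSeries.coeff_single_same, zero_add]
        · rw [if_neg (by omega), if_neg (by omega), HahnSeries.coeff_single_of_ne h.ne',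
            add_zero]
      rw [hstep, add_pow_char, map_add, ih, frobExpand_single]

/-- **Frobenius on Laurent series**: `f(q)^ℓ = f^{Frob}(q^ℓ)` in characteristic `ℓ`. -/
theorem pow_char_eq (f : LaurentSeries k) :
    f ^ ℓ = qExpand k ℓ (coeffMap (frobenius k ℓ) f) := by
  have : CharP (LaurentSeries k) ℓ := charP_laurentSeries ℓ
  rw [← frobExpand_apply]
  ext m
  -- truncate above `m`
  set c : ℤ := max (m + 1) 0 with hc
  have hℓpos : (1 : ℤ) ≤ ℓ := by exact_mod_cast hℓ.out.one_lt.le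
  have hmc : m < (ℓ : ℤ) * c := by
    have h1 : m + 1 ≤ c := le_max_left _ _
    have h2 : (0 : ℤ) ≤ c := le_max_right _ _
    nlinarith
  set g := HahnSeries.truncLT c f with hg
  set h := f - g with hh
  have hfh : f = g + h := by rw [hh]; ring
  have hvan : VanishBelow c h := by
    intro n hn
    rw [hh, HahnSeries.coeff_sub, hg, HahnSeries.coeff_truncLT_of_lt hn, sub_self]
  have e1 : f ^ ℓ = g ^ ℓ + h ^ ℓ := by rw [hfh, add_pow_char]
  have e2 : frobExpand ℓ f = frobExpand ℓ g + frobExpand ℓ h := by rw [hfh, map_add]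
  rw [e1, e2, HahnSeries.coeff_add, HahnSeries.coeff_add, (hvan.pow ℓ) m hmc,
    (hvan.frobExpand ℓ) m hmc, hg, truncLT_pow_char]

/-- Over a perfect ring: `f(q^ℓ) = (f^{Frob⁻¹}(q))^ℓ`. -/
theorem qExpand_eq_pow_of_perfect [PerfectRing k ℓ] (f : LaurentSeries k) :
    qExpand k ℓ f = (coeffMap ((frobeniusEquiv k ℓ).symm : k →+* k) f) ^ ℓ := by
  rw [pow_char_eq, coeffMap_coeffMap]
  congr 1
  ext n
  simp

end Frobenius

/-! ### The product of the twists -/

section ProdTwist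

variable {B : Type*} [CommRing B]

/-- `∏_{b<ℓ} f(ζ^b q)`. -/
def prodTwist (ζ : Bˣ) (ℓ : ℕ) (f : LaurentSeries B) : LaurentSeries B :=
  ∏ b ∈ Finset.range ℓ, twist (ζ ^ b) f

theorem prodTwist_mul (ζ : Bˣ) (ℓ : ℕ) (f g : LaurentSeries B) :
    prodTwist ζ ℓ (f * g) = prodTwist ζ ℓ f * prodTwist ζ ℓ g := by
  simp only [prodTwist, map_mul, Finset.prod_mul_distrib]

theorem prodTwist_one (ζ : Bˣ) (ℓ : ℕ) : prodTwist ζ ℓ (1 : LaurentSeries B) = 1 := by
  simp [prodTwist]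

/-- `∏_b f(ζ^b q)` is invariant under `q ↦ ζ q` when `ζ^ℓ = 1`. -/
theorem twist_prodTwist (ζ : Bˣ) (ℓ : ℕ) (hζ : ζ ^ ℓ = 1) (f : LaurentSeries B) :
    twist ζ (prodTwist ζ ℓ f) = prodTwist ζ ℓ f := by
  rcases Nat.eq_zero_or_pos ℓ with rfl | hpos
  · simp [prodTwist]
  · obtain ⟨n, rfl⟩ : ∃ n, ℓ = n + 1 := ⟨ℓ - 1, by omega⟩
    have h1 : twist ζ (prodTwist ζ (n + 1) f) =
        ∏ b ∈ Finset.range (n + 1), twist (ζ ^ (b + 1)) f := by
      rw [prodTwist, map_prod]
      refine Finset.prod_congr rfl fun b _ => ?_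
      rw [twist_mul, pow_succ']
    rw [h1, Finset.prod_range_succ, prodTwist, Finset.prod_range_succ', hζ, pow_zero]

/-- A series invariant under `q ↦ ζ q`, `ζ` of exact order `ℓ` in a domain, is a series in
`q^ℓ`. -/
theorem exists_qExpand_eq_of_twist_eq [IsDomain B] (ζ : Bˣ) (ℓ : ℕ) [NeZero ℓ]
    (hζ : ∀ n : ℤ, ¬ (ℓ : ℤ) ∣ n → ζ ^ n ≠ 1) (x : LaurentSeries B) (hx : twist ζ x = x) :
    ∃ g : LaurentSeries B, qExpand B ℓ g = x := by
  have hvan : ∀ n : ℤ, ¬ (ℓ : ℤ) ∣ n → x.coeff n = 0 := by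
    intro n hn
    have h1 : ((ζ ^ n : Bˣ) : B) * x.coeff n = x.coeff n := by
      conv_rhs => rw [← hx]
      rw [twist_coeff]
    have h2 : (((ζ ^ n : Bˣ) : B) - 1) * x.coeff n = 0 := by rw [sub_mul, h1, one_mul, sub_self]
    rcases mul_eq_zero.mp h2 with h3 | h3
    · exfalso
      apply hζ n hn
      apply Units.ext
      rw [Units.val_one]
      exact sub_eq_zero.mp h3
    · exact h3
  have hs1 : (1 : ℤ) ≤ (ℓ : ℤ) := by exact_mod_cast Nat.one_le_iff_ne_zero.mpr (NeZero.ne ℓ)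
  have hbdd : BddBelow (Function.support fun m : ℤ => x.coeff ((ℓ : ℤ) * m)) := by
    refine ⟨min x.order 0, ?_⟩
    intro m hm
    rw [Function.mem_support] at hm
    have h1 : x.order ≤ (ℓ : ℤ) * m := HahnSeries.order_le_of_coeff_ne_zero hm
    rcases le_or_gt 0 m with h0 | h0
    · exact le_trans (min_le_right _ _) h0
    · have h2 : (ℓ : ℤ) * m ≤ m := by nlinarith
      exact le_trans (min_le_left _ _) (le_trans h1 h2)
  refine ⟨HahnSeries.ofSuppBddBelow (fun m : ℤ => x.coeff ((ℓ : ℤ) * m)) hbdd, ?_⟩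
  ext n
  by_cases hn : (ℓ : ℤ) ∣ n
  · obtain ⟨m, rfl⟩ := hn
    rw [qExpand_coeff_mul]
    rfl
  · rw [qExpand_coeff_of_not_dvd ℓ _ hn, hvan n hn]

theorem exists_qExpand_eq_prodTwist [IsDomain B] (ζ : Bˣ) (ℓ : ℕ) [NeZero ℓ] (hζ : ζ ^ ℓ = 1)
    (hζ' : ∀ n : ℤ, ¬ (ℓ : ℤ) ∣ n → ζ ^ n ≠ 1) (f : LaurentSeries B) :
    ∃ g : LaurentSeries B, qExpand B ℓ g = prodTwist ζ ℓ f :=
  exists_qExpand_eq_of_twist_eq ζ ℓ hζ' _ (twist_prodTwist ζ ℓ hζ f)

/-- Reduction modulo a ring homomorphism killing `ζ - 1`: every twist becomes trivial. -/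
theorem coeffMap_twist_of_map_eq_one {k : Type*} [CommRing k] (ρ : B →+* k) (ζ : Bˣ)
    (hρ : ρ (ζ : B) = 1) (f : LaurentSeries B) :
    coeffMap ρ (twist ζ f) = coeffMap ρ f := by
  rw [coeffMap_twist]
  have : Units.map (ρ : B →* k) ζ = 1 := by
    apply Units.ext
    simpa using hρ
  rw [this, twist_one]

theorem coeffMap_prodTwist_eq_pow {k : Type*} [CommRing k] (ρ : B →+* k) (ζ : Bˣ)
    (hρ : ρ (ζ : B) = 1) (ℓ : ℕ) (f : LaurentSeries B) :
    coeffMap ρ (prodTwist ζ ℓ f) = (coeffMap ρ f) ^ ℓ := by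
  rw [prodTwist, map_prod]
  have : ∀ b ∈ Finset.range ℓ, coeffMap ρ (twist (ζ ^ b) f) = coeffMap ρ f := by
    intro b _
    apply coeffMap_twist_of_map_eq_one
    rw [Units.val_pow_eq_pow_val, map_pow, hρ, one_pow]
  rw [Finset.prod_congr rfl this, Finset.prod_const, Finset.card_range]

/-- **Kronecker congruence, product part**: `ρ(∏_b f(ζ^b q)) = (ρ f)^{Frob}(q^ℓ)`. -/
theorem coeffMap_prodTwist {k : Type*} [CommRing k] (ℓ : ℕ) [Fact ℓ.Prime] [NeZero ℓ]
    [CharP k ℓ] (ρ : B →+* k) (ζ : Bˣ) (hρ : ρ (ζ : B) = 1) (f : LaurentSeries B) :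
    coeffMap ρ (prodTwist ζ ℓ f) =
      qExpand k ℓ (coeffMap (frobenius k ℓ) (coeffMap ρ f)) := by
  rw [coeffMap_prodTwist_eq_pow ρ ζ hρ, pow_char_eq]

/-- **Kronecker congruence for the norm series**: if `G(q^ℓ) = f(q^{ℓ²}) ∏_b f(ζ^b q)` then
`Ḡ(q) = f̄(q^ℓ) · f̄^{Frob}(q)`. -/
theorem kronecker_reduction {k : Type*} [CommRing k] (ℓ : ℕ) [Fact ℓ.Prime] [NeZero ℓ]
    [NeZero (ℓ * ℓ)] [CharP k ℓ] (ρ : B →+* k) (ζ : Bˣ) (hρ : ρ (ζ : B) = 1)
    (f G : LaurentSeries B)
    (hG : qExpand B ℓ G = qExpand B (ℓ * ℓ) f * prodTwist ζ ℓ f) :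
    coeffMap ρ G =
      qExpand k ℓ (coeffMap ρ f) * coeffMap (frobenius k ℓ) (coeffMap ρ f) := by
  apply qExpand_injective (R := k) ℓ
  have hcomm : ∀ (n : ℕ) [NeZero n] (x : LaurentSeries B),
      coeffMap ρ (qExpand B n x) = qExpand k n (coeffMap ρ x) := by
    intro n _ x
    ext m
    by_cases hm : (n : ℤ) ∣ m
    · obtain ⟨j, rfl⟩ := hm
      rw [coeffMap_coeff, qExpand_coeff_mul, qExpand_coeff_mul, coeffMap_coeff]
    · rw [coeffMap_coeff, qExpand_coeff_of_not_dvd n _ hm, qExpand_coeff_of_not_dvd n _ hm,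
        map_zero]
  rw [← hcomm, hG, map_mul, map_mul, hcomm, coeffMap_prodTwist ℓ ρ ζ hρ, qExpand_qExpand]

end ProdTwist

end Fermat.Agent.S37.KronSeries62
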