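/-
S37 / [S37-KRONECKER-NORM] (helper17), part 4: **Kronecker's congruence on norms** (KC4) and the
transport of (KC3)/(KC4) to the Prelude types (`laurentBaseChange L (modularFunctionFieldFull N)`,
`algebraAlong (heckeAlphaBar L N ℓ)`, `heckeBetaBar L N ℓ`).

`K` algebraically closed of characteristic `0`, `A` a valuation subring of `K`, `π : A →+* k` a ring
homomorphism to a field of characteristic `ℓ` (`ℓ` prime, `ℓ ∤ N`).  If `U ∈ A((q))` has
`incl U ∈ L_N`, then the norm `N_{L_{Nℓ}/L_N}((incl U)(q^ℓ))` is `incl V` for a `V ∈ A((q))` with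
`π V = (π U)(q^ℓ) · (π U)^{Frob}(q)`.
-/
import Mathlib
import Fermat.Prelude.Def_ModularCurve_X0ModL
import Fermat.Prelude.Def_ModularCurve_HeckeOperator
import Fermat.Agent.S37.KronNorm17
import Fermat.Agent.S37.KronSeries62
import Fermat.Agent.S18.BarFullC97

set_option autoImplicit false
set_option linter.style.haveILetI false

noncomputable section

namespace Fermat.Agent.S37.KronRed17

open HahnSeries ModularCurve IntermediateField Polynomial
open Fermat.Agent.S28 Fermat.Agent.S37.KronConj17 Fermat.Agent.S37.KronNorm17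
open Fermat.Agent.S37.KronSeries62

/-! ### Roots of unity in a valuation subring -/

section Zeta

variable {K : Type*} [Field K] (A : ValuationSubring K)

theorem mem_of_pow_eq_one {ζ : K} {n : ℕ} (hn : n ≠ 0) (h : ζ ^ n = 1) : ζ ∈ A := by
  rw [← A.valuation_le_one_iff]
  have h1 : A.valuation ζ ^ n = 1 := by rw [← map_pow, h, map_one]
  exact le_of_eq ((pow_eq_one_iff_left hn).mp h1)

/-- a root of unity of `K`, as a unit of `A`. -/
def unitOfPow (ζ : Kˣ) {n : ℕ} (hn : n ≠ 0) (h : ζ ^ n = 1) : Aˣ where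
  val := ⟨(ζ : K), mem_of_pow_eq_one A hn (by rw [← Units.val_pow_eq_pow_val, h, Units.val_one])⟩
  inv := ⟨((ζ⁻¹ : Kˣ) : K), mem_of_pow_eq_one A hn
    (by rw [← Units.val_pow_eq_pow_val, inv_pow, h, inv_one, Units.val_one])⟩
  val_inv := Subtype.ext (by simp)
  inv_val := Subtype.ext (by simp)

@[simp]
theorem coe_unitOfPow (ζ : Kˣ) {n : ℕ} (hn : n ≠ 0) (h : ζ ^ n = 1) :
    (((unitOfPow A ζ hn h : Aˣ) : A) : K) = (ζ : K) := rfl

theorem unitOfPow_pow (ζ : Kˣ) {n : ℕ} (hn : n ≠ 0) (h : ζ ^ n = 1) :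
    (unitOfPow A ζ hn h) ^ n = 1 := by
  apply Units.ext
  apply Subtype.ext
  rw [Units.val_pow_eq_pow_val, Units.val_one]
  show (((unitOfPow A ζ hn h : Aˣ) : A) : K) ^ n = 1
  rw [coe_unitOfPow, ← Units.val_pow_eq_pow_val, h, Units.val_one]

theorem map_unitOfPow (ζ : Kˣ) {n : ℕ} (hn : n ≠ 0) (h : ζ ^ n = 1) :
    Units.map (A.subtype : A →* K) (unitOfPow A ζ hn h) = ζ := Units.ext rfl

/-- an `ℓ`-th root of unity reduces to `1` in a field of characteristic `ℓ`. -/
theorem map_eq_one_of_pow_eq_one {B k : Type*} [CommRing B] [Field k] (ℓ : ℕ) [Fact ℓ.Prime]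
    [CharP k ℓ] (π : B →+* k) (z : B) (hz : z ^ ℓ = 1) : π z = 1 := by
  have h1 : (π z - 1) ^ ℓ = 0 := by
    rw [sub_pow_char, ← map_pow, hz, map_one, one_pow, sub_self]
  exact sub_eq_zero.mp (pow_eq_zero_iff (Fact.out : ℓ.Prime).ne_zero |>.mp h1)

end Zeta

/-! ### (KC4) Kronecker's congruence on norms -/

section KC4

variable (K : Type) [Field K] [IsAlgClosed K] [CharZero K]
variable (N ℓ : ℕ) [NeZero N] [NeZero ℓ] [hℓ : Fact ℓ.Prime]

local notation "𝔽" => modularFunctionFieldFullC K N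
local notation "𝔽'" => modularFunctionFieldFullC K (N * ℓ)

/-- **(KC4)** the norm of `(incl U)(q^ℓ)` is integral, and reduces to `Ū(q^ℓ) · Ū^{Frob}(q)`. -/
theorem exists_integral_norm (hℓN : ¬ ℓ ∣ N) (A : ValuationSubring K) {k : Type*} [Field k]
    [CharP k ℓ] (π : A →+* k) (U : LaurentSeries A) (hU : coeffMap A.subtype U ∈ 𝔽) :
    ∃ V : LaurentSeries A,
      coeffMap A.subtype V =
        (letI := algIncl K N ℓ
         ((Algebra.norm 𝔽 (⟨qExpand K ℓ (coeffMap A.subtype U), qExpand_mem_full' N ℓ hU⟩ : 𝔽') :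
            𝔽) : LaurentSeries K)) ∧
      coeffMap π V = qExpand k ℓ (coeffMap π U) * coeffMap (frobenius k ℓ) (coeffMap π U) := by
  have hp : ℓ.Prime := hℓ.out
  obtain ⟨ζ, hζ, -⟩ := KeyLower.exists_zeta K ℓ hp.pos (by exact_mod_cast hp.ne_zero)
  have hζℓ : ζ ^ ℓ = 1 := hζ.pow_eq_one
  set ζA : Aˣ := unitOfPow A ζ hp.ne_zero hζℓ with hζA
  have hmap : Units.map (A.subtype : A →* K) ζA = ζ := map_unitOfPow A ζ hp.ne_zero hζℓ
  have hζA' : ∀ n : ℤ, ¬ (ℓ : ℤ) ∣ n → ζA ^ n ≠ 1 := by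
    intro n hn h
    apply hn
    have h1 : ζ ^ n = 1 := by
      rw [← hmap, ← map_zpow, h, map_one]
    exact (hζ.zpow_eq_one_iff_dvd n).mp h1
  have hnorm := qExpand_norm K N ℓ hp hℓN ζ hζ (coeffMap A.subtype U) hU
  obtain ⟨g, hg⟩ := exists_qExpand_eq_prodTwist ζA ℓ (unitOfPow_pow A ζ hp.ne_zero hζℓ) hζA' U
  have hV : qExpand A ℓ (qExpand A ℓ U * g) = qExpand A (ℓ * ℓ) U * prodTwist ζA ℓ U := by
    rw [map_mul, qExpand_qExpand, hg]
  refine ⟨qExpand A ℓ U * g, ?_, ?_⟩
  · apply qExpand_injective (R := K) ℓ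
    rw [hnorm, ← coeffMap_qExpand, hV, map_mul, coeffMap_qExpand, prodTwist, map_prod]
    congr 1
    apply Finset.prod_congr rfl
    intro b _
    rw [coeffMap_twist, map_pow, hmap]
  · exact kronecker_reduction ℓ π ζA
      (map_eq_one_of_pow_eq_one ℓ π _ (by
        rw [← Units.val_pow_eq_pow_val, unitOfPow_pow A ζ hp.ne_zero hζℓ, Units.val_one]))
      U _ hV

end KC4

/-! ### Transport to the Prelude types -/

section Transport

/-- the norm along an inclusion of intermediate fields does not depend on how the two fields are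
presented. -/
theorem coe_norm_congr {E : Type*} [Field E] {K : Type*} [Field K] [Algebra K E]
    {F₁ F₂ F₁' F₂' : IntermediateField K E} (hF : F₁ = F₂) (hF' : F₁' = F₂')
    (h1 : F₁ ≤ F₁') (h2 : F₂ ≤ F₂') (x : E) (hx1 : x ∈ F₁') (hx2 : x ∈ F₂') :
    (((letI := (inclusion h1).toRingHom.toAlgebra
       Algebra.norm F₁ (⟨x, hx1⟩ : F₁')) : F₁) : E)
      = (((letI := (inclusion h2).toRingHom.toAlgebra
           Algebra.norm F₂ (⟨x, hx2⟩ : F₂')) : F₂) : E) := by
  subst hF
  subst hF'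
  rfl

variable (L : Type) [Field L] [Algebra ℚ L] [IsAlgClosed L]
variable (N ℓ : ℕ) [NeZero N] [NeZero ℓ]

local notation "FL" => laurentBaseChange L (modularFunctionFieldFull N)
local notation "FL'" => laurentBaseChange L (modularFunctionFieldFull (N * ℓ))

/-- the norm of `β y` along `α`, as a Laurent series. -/
def normAlpha (y : FL) : LaurentSeries L :=
  (((letI := AlgebraicCurve.algebraAlong (heckeAlphaBar L N ℓ)
     Algebra.norm FL (heckeBetaBar L N ℓ y)) : FL) : LaurentSeries L)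

omit [IsAlgClosed L] in
theorem normAlpha_eq (y : FL)
    (hy : (y : LaurentSeries L) ∈ modularFunctionFieldFullC L N) :
    normAlpha L N ℓ y =
      (letI := algIncl L N ℓ
       ((Algebra.norm (modularFunctionFieldFullC L N)
          (⟨qExpand L ℓ (y : LaurentSeries L), qExpand_mem_full' N ℓ hy⟩ :
            modularFunctionFieldFullC L (N * ℓ)) : modularFunctionFieldFullC L N) :
          LaurentSeries L)) :=
  coe_norm_congr (Fermat.Agent.S18.BarFullC97.laurentBaseChange_full_eq L N)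
    (Fermat.Agent.S18.BarFullC97.laurentBaseChange_full_eq L (N * ℓ)) _ (le_full N ℓ)
    (qExpand L ℓ (y : LaurentSeries L)) (heckeBetaBar L N ℓ y).2 (qExpand_mem_full' N ℓ hy)

/-- **(KC3), Prelude form**: `σ_ℓ (N_α (β y)) = σ_{ℓ²} y * ∏_{b<ℓ} y(ζ^b q)`. -/
theorem qExpand_normAlpha (hℓ : ℓ.Prime) (hℓN : ¬ ℓ ∣ N) (ζ : Lˣ) (hζ : IsPrimitiveRoot ζ ℓ)
    (y : FL) :
    qExpand L ℓ (normAlpha L N ℓ y)
      = qExpand L (ℓ * ℓ) (y : LaurentSeries L)
          * ∏ b ∈ Finset.range ℓ, twist (ζ ^ b) (y : LaurentSeries L) := by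
  haveI : CharZero L := algebraRat.charZero L
  have hy : (y : LaurentSeries L) ∈ modularFunctionFieldFullC L N := by
    rw [← Fermat.Agent.S18.BarFullC97.laurentBaseChange_full_eq L N]
    exact y.2
  rw [normAlpha_eq L N ℓ y hy]
  exact qExpand_norm L N ℓ hℓ hℓN ζ hζ _ hy

/-- **(KC4), Prelude form** (Kronecker's congruence on norms): for `U ∈ A((q))` with
`incl U ∈ F_N`, the norm `N_α(β(incl U))` is `incl V` with `π V = (π U)(q^ℓ) · (π U)^{Frob}(q)`. -/
theorem exists_integral_normAlpha [hℓ : Fact ℓ.Prime] (hℓN : ¬ ℓ ∣ N) (A : ValuationSubring L)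
    {k : Type*} [Field k] [CharP k ℓ] (π : A →+* k) (U : LaurentSeries A)
    (hU : coeffMap A.subtype U ∈ FL) :
    ∃ V : LaurentSeries A,
      coeffMap A.subtype V = normAlpha L N ℓ ⟨coeffMap A.subtype U, hU⟩ ∧
      coeffMap π V = qExpand k ℓ (coeffMap π U) * coeffMap (frobenius k ℓ) (coeffMap π U) := by
  haveI : CharZero L := algebraRat.charZero L
  have hy : coeffMap A.subtype U ∈ modularFunctionFieldFullC L N := by
    rw [← Fermat.Agent.S18.BarFullC97.laurentBaseChange_full_eq L N]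
    exact hU
  obtain ⟨V, hV1, hV2⟩ := exists_integral_norm L N ℓ hℓN A π U hy
  refine ⟨V, ?_, hV2⟩
  rw [hV1, normAlpha_eq L N ℓ ⟨coeffMap A.subtype U, hU⟩ hy]

omit [IsAlgClosed L] in
/-- the norm lies in `F_N` (by construction). -/
theorem normAlpha_mem (y : FL) : normAlpha L N ℓ y ∈ FL :=
  (letI := AlgebraicCurve.algebraAlong (heckeAlphaBar L N ℓ)
   Algebra.norm FL (heckeBetaBar L N ℓ y)).2

omit [IsAlgClosed L] in
theorem mk_normAlpha (y : FL) :
    (⟨normAlpha L N ℓ y, normAlpha_mem L N ℓ y⟩ : FL) =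
      (letI := AlgebraicCurve.algebraAlong (heckeAlphaBar L N ℓ)
       Algebra.norm FL (heckeBetaBar L N ℓ y)) := rfl

end Transport

end Fermat.Agent.S37.KronRed17
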