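/-
S37 leaf 12-KRON-RED (helper17): Kronecker's congruence on norms in the exact shape fixed by the
S37 dispatch (helper77, report #1576): `Spine33.incl / Spine33.red / Spine33.FK`,
`GalRed42.coeffFrob`, Prelude `algebraAlong (heckeAlphaBar Kb N ℓ)` and `heckeBetaBar Kb N ℓ`.
-/
import Mathlib
import Fermat.Agent.S37.KronRed17
import Fermat.Agent.S18.Spine33
import Fermat.Agent.S37.GalRed42
import Fermat.Agent.S18.ValRing25

set_option autoImplicit false
set_option linter.style.haveILetI false

noncomputable section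

namespace Fermat.Agent.S37.KronRedStmt17

open ModularCurve AlgebraicCurve HahnSeries
open Fermat.Agent.S18.Spine33 Fermat.Agent.S37

/-- **Kronecker's congruence on norms** at level `N`, prime `ℓ`, valuation subring `A` of `ℚ̄`
with residue characteristic `ℓ`: for `U ∈ A((q))` with `incl U ∈ F_N`, the norm
`N_α(β(incl U))` is `incl V` with `red V = (red U)(q^ℓ) · (red U)^{Frob}(q)`. -/
def KronRedStatement (N ℓ : ℕ) [NeZero N] [Fact ℓ.Prime] (A : ValuationSubring Kb)
    [CharP (kA A) ℓ] : Prop :=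
  ∀ (U : LaurentSeries A) (hU : incl A U ∈ modularFunctionFieldBar N),
    ∃ V : LaurentSeries A,
      incl A V =
        (((letI := algebraAlong (heckeAlphaBar Kb N ℓ)
           Algebra.norm (FK N) (heckeBetaBar Kb N ℓ ⟨incl A U, hU⟩)) : FK N) : LaurentSeries Kb) ∧
      red A V = qExpand (kA A) ℓ (red A U) * GalRed42.coeffFrob (kA A) ℓ (red A U)

/-- **12-KRON-RED**: the statement holds for every prime `ℓ ∤ N`. -/
theorem kronRedStatement (N ℓ : ℕ) [NeZero N] [Fact ℓ.Prime] (hℓN : ¬ ℓ ∣ N)
    (A : ValuationSubring Kb) [CharP (kA A) ℓ] : KronRedStatement N ℓ A := by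
  intro U hU
  exact KronRed17.exists_integral_normAlpha Kb N ℓ hℓN A (IsLocalRing.residue A) U hU

/-- the same with `A.LiesOverPrime ℓ` instead of the `CharP` instance. -/
theorem kronRedStatement_of_liesOver (N ℓ : ℕ) [NeZero N] [Fact ℓ.Prime] (hℓN : ¬ ℓ ∣ N)
    (A : ValuationSubring Kb) (hA : A.LiesOverPrime ℓ) :
    haveI : CharP (kA A) ℓ := Fermat.Agent.S18.ValRing25.residueField_charP A hA
    KronRedStatement N ℓ A := by
  haveI : CharP (kA A) ℓ := Fermat.Agent.S18.ValRing25.residueField_charP A hA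
  exact kronRedStatement N ℓ hℓN A

/-- nonvanishing of the reduction of the norm. -/
theorem red_ne_zero_of_kron {ℓ : ℕ} [Fact ℓ.Prime] (A : ValuationSubring Kb) [CharP (kA A) ℓ]
    {U V : LaurentSeries A} (hU : red A U ≠ 0)
    (hV : red A V = qExpand (kA A) ℓ (red A U) * GalRed42.coeffFrob (kA A) ℓ (red A U)) :
    red A V ≠ 0 := by
  rw [hV]
  refine mul_ne_zero ?_ ?_
  · exact fun h => hU (qExpand_injective (R := kA A) ℓ (by rw [h, map_zero]))
  · intro h
    apply hU
    ext n
    have h1 := congrArg (fun x => x.coeff n) h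
    simp only [GalRed42.coeffFrob_coeff, HahnSeries.coeff_zero] at h1
    rw [HahnSeries.coeff_zero]
    exact (pow_eq_zero_iff (Fact.out : ℓ.Prime).ne_zero).mp h1

end Fermat.Agent.S37.KronRedStmt17
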