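/-
S37, gap (G2) of blueprint 18 (helper41): the inputs of helper65's LEMMA B (`Bounded65`) for the
characteristic-zero function field `F_N = modularFunctionFieldBar N` over `ℚ̄`, at an ARBITRARY level
`N ≥ 1` (no good-level hypothesis):

* `hasPrincipalDivisors N : HasPrincipalDivisors ℚ̄ F_N`
* `deg_eq_one N v : v.deg = 1`
* `exists_hasSections N : ∃ g : ℕ, Bounded65.HasSections ℚ̄ F_N g`
* the three consequences of Lemma B in ready-to-use form (`map_eq_zero`, `map_eq`).

Pure wiring: S24 (`Exports.isFunctionFieldOver_jF`) + S18 `FFInst5` + `Riemann12` + `Bounded65`.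
-/
import Fermat.Agent.S24.Exports
import Fermat.Agent.S18.FFInst5
import Fermat.Agent.S37.Bounded65

set_option autoImplicit false

namespace Fermat.Agent.S37.LemmaBInputs41

open AlgebraicCurve ModularCurve IntermediateField
open Fermat.Agent.S24 (Kbar FN jF)

variable (N : ℕ) [NeZero N]

theorem finiteDimensional_adjoin_jF : FiniteDimensional (↥Kbar⟮jF N⟯) (FN N) :=
  (Fermat.Agent.S24.Exports.isFunctionFieldOver_jF N).finite

/-- `HasPrincipalDivisors ℚ̄ F_N` (also available from S24; this one goes through `FFInst5`). -/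
theorem hasPrincipalDivisors : HasPrincipalDivisors Kbar (FN N) := by
  have := finiteDimensional_adjoin_jF N
  exact Fermat.Agent.S18.FFInst5.hasPrincipalDivisors (jF N)
    (Fermat.Agent.S24.Exports.transcendental_jF N)

/-- all places of `F_N / ℚ̄` have degree one -/
theorem deg_eq_one (v : Place Kbar (FN N)) : v.deg = 1 := by
  have := finiteDimensional_adjoin_jF N
  exact Fermat.Agent.S18.FFInst5.deg_eq_one (jF N) v

/-- Riemann's inequality gives sections in every degree `≥ g`. -/
theorem exists_hasSections : ∃ g : ℕ, Bounded65.HasSections Kbar (FN N) g := by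
  have := finiteDimensional_adjoin_jF N
  obtain ⟨g, hg0, hg⟩ := Fermat.Agent.S18.FFInst5.exists_isRiemannGenus (jF N)
    (Fermat.Agent.S24.Exports.transcendental_jF N)
  refine ⟨g.toNat, ?_⟩
  intro G hG
  have hgG : g ≤ Divisor.degree G := by
    have : ((g.toNat : ℕ) : ℤ) = g := Int.toNat_of_nonneg hg0
    omega
  have h1 := hg.1 G
  have hnb : Fermat.Agent.S18.Riemann12.LSpace G ≠ ⊥ := by
    intro hbot
    have h0 : Fermat.Agent.S18.Riemann12.ell G = 0 := by
      unfold Fermat.Agent.S18.Riemann12.ell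
      rw [hbot]
      exact finrank_bot Kbar (FN N)
    rw [h0] at h1
    simp only [Nat.cast_zero] at h1
    omega
  obtain ⟨y, hy, hy0'⟩ := (Submodule.ne_bot_iff _).mp hnb
  refine ⟨y, hy0', fun v => ?_⟩
  rcases hy with h | h
  · exact absurd h hy0'
  · have := h v
    omega

/-- **Lemma B at level `N`**: an additive map `Div(F_N) → (ι →₀ ℤ)` killing principal divisors and
with bounded coefficients on places vanishes on divisors of degree `0`. -/
theorem map_eq_zero {ι : Type*} (δ : Divisor Kbar (FN N) →+ (ι →₀ ℤ))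
    (hδ : ∀ D ∈ Divisor.principal (K := Kbar) (F := FN N), δ D = 0)
    (C : ℤ) (hC : ∀ (v : Place Kbar (FN N)) (i : ι), |δ (Finsupp.single v 1) i| ≤ C)
    (D : Divisor Kbar (FN N)) (hD : Divisor.degree D = 0) : δ D = 0 := by
  have := hasPrincipalDivisors N
  obtain ⟨g, hg⟩ := exists_hasSections N
  exact Bounded65.map_eq_zero_of_degree_eq_zero g hg (deg_eq_one N) δ hδ C hC D hD

/-- **Lemma B at level `N`**, two-map form. -/
theorem map_eq {ι : Type*} (δ₁ δ₂ : Divisor Kbar (FN N) →+ (ι →₀ ℤ))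
    (h : ∀ D ∈ Divisor.principal (K := Kbar) (F := FN N), δ₁ D = δ₂ D)
    (C₁ C₂ : ℤ) (hC₁ : ∀ (v : Place Kbar (FN N)) (i : ι), |δ₁ (Finsupp.single v 1) i| ≤ C₁)
    (hC₂ : ∀ (v : Place Kbar (FN N)) (i : ι), |δ₂ (Finsupp.single v 1) i| ≤ C₂)
    (D : Divisor Kbar (FN N)) (hD : Divisor.degree D = 0) : δ₁ D = δ₂ D := by
  have := hasPrincipalDivisors N
  obtain ⟨g, hg⟩ := exists_hasSections N
  exact Bounded65.eq_of_eqOn_principal g hg (deg_eq_one N) δ₁ δ₂ h C₁ C₂ hC₁ hC₂ D hD

end Fermat.Agent.S37.LemmaBInputs41
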