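/-
S37 package [PULL] (helper91): pull-back of divisor classes along `σ_s : F_N → F_{sN}`,
`f(q) ↦ f(q^s)` (blueprint 16 DAG item [PULL]; consumer: `ρ := red_M ∘ σ_s^*`).

* abstract part (any function fields `F ⊆ F'`, semilinear automorphisms `g`, `g'` compatible with
  `algebraMap`): `restrict_smul`, `ramificationIndex_smul`, `pullback_smul`;
* the same along an algebra hom `φ : F →ₐ[K] F'` (`pullbackAlong_smul`);
* `pullDiv N s`, `pullPic0`, `pull N s : J₀(N) →+ J₀(sN)` for `σ_s = Transfer87.sigma N s`:
  `pullDiv_apply_of_ord` (`σ_s^* div f = div σ_s f`), `pullDiv_gal`, `pull_gal` (Galois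
  equivariance), `degree_pullDiv` (via helper16's `FibreNorm16.fundamentalIdentity`),
  `eq_zero_of_pull_eq_zero` (injective on torsion for `DescentPair s N`, via `Descent74.descent`).
-/
import Fermat.Prelude.Def_AlgebraicCurve_Correspondence
import Fermat.Prelude.Def_ModularCurve_ArithmeticGalois
import Fermat.Prelude.Thm_ModularCurve_coeffMap_qExpand
import Fermat.Agent.S18.Transfer87
import Fermat.Agent.S24.Exports
import Fermat.Agent.S24.FFPlaces
import Fermat.Agent.S18.NormFrac20
import Fermat.Agent.S18.Descent74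
import Fermat.Agent.S37.FibreNorm16
import Fermat.Agent.S37.HeckeConcrete85

set_option autoImplicit false
set_option linter.unusedSectionVars false
set_option linter.style.haveILetI false

open AlgebraicCurve

noncomputable section

namespace Fermat.Agent.S37.Pull91

/-! ### Abstract part: semilinear automorphisms and restriction of places -/

section Abstract

variable {K F F' : Type*} [Field K] [Field F] [Field F']
  [Algebra K F] [Algebra K F'] [Algebra F F'] [IsScalarTower K F F']
  [Algebra.IsIntegral F F']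

variable (g : SemilinearAut K F) (g' : SemilinearAut K F')

/-- compatibility of two semilinear automorphisms with the inclusion `F → F'` -/
def Compat : Prop := ∀ f : F, algebraMap F F' (g • f) = g' • algebraMap F F' f

variable {g g'}

theorem Compat.inv (h : Compat g g') : Compat g⁻¹ g'⁻¹ := by
  intro f
  have h1 := h (g⁻¹ • f)
  rw [smul_inv_smul] at h1
  rw [h1, inv_smul_smul]

theorem restrict_smul (h : Compat g g') (w : Place K F') :
    (g' • w).restrict F = g • (w.restrict F) := by
  ext f
  rw [Place.mem_restrict_iff, SemilinearAut.smul_toValuationSubring,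
    SemilinearAut.smul_toValuationSubring,
    ValuationSubring.mem_pointwise_smul_iff_inv_smul_mem,
    ValuationSubring.mem_pointwise_smul_iff_inv_smul_mem, Place.mem_restrict_iff, h.inv f]

theorem ord_smul_algebraMap (h : Compat g g') (w : Place K F') (f : F) :
    (g' • w).ord (algebraMap F F' f) = w.ord (algebraMap F F' (g⁻¹ • f)) := by
  have h1 := SemilinearAut.ord_smul g' w (algebraMap F F' (g⁻¹ • f))
  rw [← h (g⁻¹ • f), smul_inv_smul] at h1
  exact h1

theorem ramificationIndex_smul (h : Compat g g') (w : Place K F') :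
    (g' • w).ramificationIndex F = w.ramificationIndex F := by
  unfold Place.ramificationIndex
  congr 1
  ext n
  show (0 < n ∧ ∃ f : F, f ≠ 0 ∧ (g' • w).ord (algebraMap F F' f) = n) ↔
    (0 < n ∧ ∃ f : F, f ≠ 0 ∧ w.ord (algebraMap F F' f) = n)
  constructor
  · rintro ⟨hn, f, hf, hfn⟩
    refine ⟨hn, g⁻¹ • f, by simpa using hf, ?_⟩
    rw [← ord_smul_algebraMap h w f]
    exact hfn
  · rintro ⟨hn, f, hf, hfn⟩
    refine ⟨hn, g • f, by simpa using hf, ?_⟩
    rw [ord_smul_algebraMap h w (g • f), inv_smul_smul]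
    exact hfn

variable [HasPrincipalDivisors K F']

theorem pullback_smul (h : Compat g g') (D : Divisor K F) :
    Divisor.pullback F' (g • D) = g' • Divisor.pullback F' D := by
  ext w
  rw [Divisor.pullback_apply, SemilinearAut.divisor_smul_apply, SemilinearAut.divisor_smul_apply,
    Divisor.pullback_apply, restrict_smul h.inv, ramificationIndex_smul h.inv]

end Abstract

/-! ### The same along an algebra homomorphism -/

section Along

variable {K F F' : Type*} [Field K] [Field F] [Field F'] [Algebra K F] [Algebra K F']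
  [HasPrincipalDivisors K F'] (φ : F →ₐ[K] F') (hφ : φ.toRingHom.IsIntegral)

/-- restriction of a place of `F'` along `φ` -/
def restrictAlong (w : Place K F') : Place K F :=
  letI := algebraAlong φ
  haveI := isScalarTower_along φ
  haveI := isIntegral_along φ hφ
  w.restrict F

/-- ramification index of a place of `F'` along `φ` -/
def ramAlong (w : Place K F') : ℕ :=
  letI := algebraAlong φ
  w.ramificationIndex F

include hφ in
theorem ramAlong_pos (w : Place K F') : 0 < ramAlong φ w := by
  letI := algebraAlong φ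
  haveI := isScalarTower_along φ
  haveI := isIntegral_along φ hφ
  exact w.ramificationIndex_pos (F := F)

theorem mem_restrictAlong_iff (w : Place K F') (f : F) :
    f ∈ (restrictAlong φ hφ w).toValuationSubring ↔ φ f ∈ w.toValuationSubring :=
  Iff.rfl

theorem ord_along (w : Place K F') (f : F) :
    w.ord (φ f) = ramAlong φ w * (restrictAlong φ hφ w).ord f := by
  letI := algebraAlong φ
  haveI := isScalarTower_along φ
  haveI := isIntegral_along φ hφ
  exact w.ord_restrict (F := F) f

theorem pullbackAlong_apply (D : Divisor K F) (w : Place K F') :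
    Divisor.pullbackAlong φ hφ D w = ramAlong φ w * D (restrictAlong φ hφ w) := by
  letI := algebraAlong φ
  haveI := isScalarTower_along φ
  haveI := isIntegral_along φ hφ
  exact Divisor.pullback_apply D w

/-- pull-back of `div f` is `div (φ f)` -/
theorem pullbackAlong_apply_of_ord {f : F} {D : Divisor K F}
    (hD : ∀ v : Place K F, D v = v.ord f) (w : Place K F') :
    Divisor.pullbackAlong φ hφ D w = w.ord (φ f) := by
  rw [pullbackAlong_apply, hD, ← ord_along]

theorem pullbackAlong_nonneg {D : Divisor K F} (hD : 0 ≤ D) :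
    0 ≤ Divisor.pullbackAlong φ hφ D := by
  intro w
  rw [pullbackAlong_apply]
  exact mul_nonneg (Int.natCast_nonneg _) (hD _)

/-- Galois (semilinear) equivariance of the pull-back of divisors -/
theorem pullbackAlong_smul {g : SemilinearAut K F} {g' : SemilinearAut K F'}
    (h : ∀ f : F, φ (g • f) = g' • φ f) (D : Divisor K F) :
    Divisor.pullbackAlong φ hφ (g • D) = g' • Divisor.pullbackAlong φ hφ D := by
  letI := algebraAlong φ
  haveI := isScalarTower_along φ
  haveI := isIntegral_along φ hφ
  exact pullback_smul (g := g) (g' := g') h D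

end Along

/-! ### The concrete map `σ_s^*` -/

section Concrete

open ModularCurve Fermat.Agent.S18.Spine33 Fermat.Agent.S18.Transfer87

set_option synthInstance.maxHeartbeats 400000

/-- `F_M` over `ℚ̄` has principal divisors (S24). -/
theorem hasPD (M : ℕ) [NeZero M] : HasPrincipalDivisors Kb (FK M) :=
  Fermat.Agent.S24.FFPlaces.hasPrincipalDivisors (Fermat.Agent.S24.jF M)
    (Fermat.Agent.S24.Exports.isFunctionFieldOver_jF M).finite

variable (N s : ℕ) [NeZero N] [NeZero s]

theorem neZero_mul : NeZero (s * N) := ⟨Nat.mul_ne_zero (NeZero.ne s) (NeZero.ne N)⟩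

/-- `σ_s^*` on divisors -/
def pullDiv : Divisor Kb (FK N) →+ Divisor Kb (FK (s * N)) :=
  haveI := neZero_mul N s
  haveI := hasPD (s * N)
  Divisor.pullbackAlong (sigma N s) (sigma_isIntegral N s)

/-- `σ_s^* (div f) = div (σ_s f)` -/
theorem pullDiv_apply_of_ord {f : FK N} {D : Divisor Kb (FK N)}
    (hD : ∀ v : Place Kb (FK N), D v = v.ord f) (w : Place Kb (FK (s * N))) :
    pullDiv N s D w = w.ord (sigma N s f) := by
  haveI := neZero_mul N s
  haveI := hasPD (s * N)
  exact pullbackAlong_apply_of_ord (sigma N s) (sigma_isIntegral N s) hD w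

theorem pullDiv_mem_principal {D : Divisor Kb (FK N)}
    (hD : D ∈ Divisor.principal (K := Kb) (F := FK N)) :
    pullDiv N s D ∈ Divisor.principal (K := Kb) (F := FK (s * N)) := by
  obtain ⟨f, hf, hDf⟩ := hD
  refine ⟨sigma N s f, ?_, fun w => pullDiv_apply_of_ord N s hDf w⟩
  simpa using hf

theorem pullDiv_nonneg {D : Divisor Kb (FK N)} (hD : 0 ≤ D) : 0 ≤ pullDiv N s D := by
  haveI := neZero_mul N s
  haveI := hasPD (s * N)
  exact pullbackAlong_nonneg (sigma N s) (sigma_isIntegral N s) hD

/-- the coefficientwise Galois action on `F_M` -/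
abbrev gal (M : ℕ) (τ : Kb ≃ₐ[ℚ] Kb) : SemilinearAut Kb (FK M) :=
  arithmeticGalois (modularFunctionFieldFull M) τ

theorem sigma_gal (τ : Kb ≃ₐ[ℚ] Kb) (f : FK N) :
    sigma N s (gal N τ • f) = gal (s * N) τ • sigma N s f := by
  apply Subtype.ext
  rw [coe_sigma, coe_arithmeticGalois_smul, coe_arithmeticGalois_smul, coe_sigma,
    coeffMap_qExpand]

/-- Galois equivariance of `σ_s^*` on divisors -/
theorem pullDiv_gal (τ : Kb ≃ₐ[ℚ] Kb) (D : Divisor Kb (FK N)) :
    pullDiv N s (gal N τ • D) = gal (s * N) τ • pullDiv N s D := by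
  haveI := neZero_mul N s
  haveI := hasPD (s * N)
  exact pullbackAlong_smul (sigma N s) (sigma_isIntegral N s) (sigma_gal N s τ) D

/-! ### `σ_s^*` on `Pic⁰` -/

/-- `σ_s^*` preserves degree zero (a consequence of the fundamental identity for
`F_{sN} / σ_s F_N`; kept as a hypothesis so that this file does not depend on it). -/
def PullDegZero : Prop :=
  ∀ D : Divisor Kb (FK N), Divisor.degree D = 0 → Divisor.degree (pullDiv N s D) = 0

theorem pullDegZero_of_fundamentalIdentity
    (hFI : haveI := neZero_mul N s; haveI := hasPD (s * N);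
      FundamentalIdentityAlong Kb (sigma N s) (sigma_isIntegral N s)) :
    PullDegZero N s := by
  haveI := neZero_mul N s
  haveI := hasPD (s * N)
  intro D hD
  have h := Divisor.degree_pullbackAlong (sigma N s) (sigma_isIntegral N s) hFI D
  rw [hD, mul_zero] at h
  exact h

/-- `F_{sN}` is finite over `ℚ̄(σ_s j)`. -/
theorem finiteDimensional_sigma_jF :
    haveI := neZero_mul N s
    FiniteDimensional (IntermediateField.adjoin Kb {sigma N s (Fermat.Agent.S24.jF N)})
      (FK (s * N)) := by
  haveI := neZero_mul N s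
  have htr : Transcendental Kb (sigma N s (Fermat.Agent.S24.jF N)) := by
    intro h
    exact Fermat.Agent.S24.Exports.transcendental_jF N
      ((isAlgebraic_algHom_iff (sigma N s) (sigma N s).toRingHom.injective).mp h)
  exact Fermat.Agent.S24.FFPlaces.finiteDimensional_simple_of_transcendental
    (Fermat.Agent.S24.Exports.isFunctionFieldOver_jF (s * N)).finite htr

/-- `F_{sN}` is finite over `F_N` along `σ_s`. -/
theorem finiteAlong_sigma : FiniteAlong Kb (sigma N s) :=
  Fermat.Agent.S37.AlongGeneric85.finiteAlong_of_finiteDimensional_adjoin (sigma N s)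
    (Fermat.Agent.S24.jF N) (finiteDimensional_sigma_jF N s)

/-- the fundamental identity for `F_{sN} / σ_s F_N` (helper16's generic theorem) -/
theorem fundamentalIdentityAlong_sigma :
    haveI := neZero_mul N s; haveI := hasPD (s * N);
    FundamentalIdentityAlong Kb (sigma N s) (sigma_isIntegral N s) := by
  haveI := neZero_mul N s
  haveI := hasPD (s * N)
  letI := algebraAlong (sigma N s)
  haveI := isScalarTower_along (sigma N s)
  haveI : FiniteDimensional (FK N) (FK (s * N)) := finiteAlong_sigma N s
  exact Fermat.Agent.S37.FibreNorm16.fundamentalIdentity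
    (fun v => Fermat.Agent.S37.HeckeConcrete85.deg_eq_one_level N v)
    (fun w => Fermat.Agent.S37.HeckeConcrete85.deg_eq_one_level (s * N) w)

/-- `deg σ_s^* D = [F_{sN} : σ_s F_N] · deg D` -/
theorem degree_pullDiv (D : Divisor Kb (FK N)) :
    Divisor.degree (pullDiv N s D) = (finrankAlong Kb (sigma N s) : ℤ) * Divisor.degree D := by
  haveI := neZero_mul N s
  haveI := hasPD (s * N)
  exact Divisor.degree_pullbackAlong (sigma N s) (sigma_isIntegral N s)
    (fundamentalIdentityAlong_sigma N s) D

/-- `σ_s^*` preserves degree zero, unconditionally. -/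
theorem pullDegZero : PullDegZero N s :=
  pullDegZero_of_fundamentalIdentity N s (fundamentalIdentityAlong_sigma N s)

variable {N s}

/-- `σ_s^*` on degree-zero divisors -/
def pullDegZeroHom (h : PullDegZero N s) :
    Divisor.degZero (K := Kb) (F := FK N) →+ Divisor.degZero (K := Kb) (F := FK (s * N)) :=
  ((pullDiv N s).domRestrict (Divisor.degZero (K := Kb) (F := FK N))).codRestrict _ fun D => by
    rw [Divisor.mem_degZero]
    exact h D (Divisor.mem_degZero.mp D.2)

@[simp]
theorem coe_pullDegZeroHom (h : PullDegZero N s) (D : Divisor.degZero (K := Kb) (F := FK N)) :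
    (pullDegZeroHom h D : Divisor Kb (FK (s * N))) = pullDiv N s (D : Divisor Kb (FK N)) :=
  rfl

/-- `σ_s^* : J₀(N) → J₀(sN)` -/
def pullPic0 (h : PullDegZero N s) : JZero N →+ JZero (s * N) :=
  QuotientAddGroup.map _ _ (pullDegZeroHom h) (by
    rintro ⟨D, hD0⟩ hD
    simp only [AddSubgroup.mem_addSubgroupOf] at hD ⊢
    exact pullDiv_mem_principal N s hD)

theorem pullPic0_mk (h : PullDegZero N s) (D : Divisor.degZero (K := Kb) (F := FK N)) :
    pullPic0 h (Pic0.mk D) = Pic0.mk (pullDegZeroHom h D) :=
  rfl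

/-- Galois equivariance of `σ_s^*` on `J₀` -/
theorem pullPic0_gal (h : PullDegZero N s) (τ : Kb ≃ₐ[ℚ] Kb) (x : JZero N) :
    pullPic0 h (τ • x) = τ • pullPic0 h x := by
  obtain ⟨D, rfl⟩ := Pic0.mk_surjective x
  rw [galois_smul_pic0_def, galois_smul_pic0_def, SemilinearAut.pic0_smul_mk, pullPic0_mk,
    pullPic0_mk, SemilinearAut.pic0_smul_mk]
  refine congrArg Pic0.mk (Subtype.ext ?_)
  rw [coe_pullDegZeroHom, SemilinearAut.coe_degZeroSMulHom, SemilinearAut.coe_degZeroSMulHom,
    coe_pullDegZeroHom]
  exact pullDiv_gal N s τ _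

/-- `σ_s^*` is injective on torsion for the descent pairs of `Spine33` (the S18 descent). -/
theorem eq_zero_of_pullPic0_eq_zero (h : PullDegZero N s) (hpair : DescentPair s N) (m : ℕ)
    (hm : 0 < m) (x : JZero N) (hmx : m • x = 0) (hx : pullPic0 h x = 0) : x = 0 := by
  haveI := neZero_mul N s
  obtain ⟨D, rfl⟩ := Pic0.mk_surjective x
  -- `m D = div f`
  have h1 : ((m • D : Divisor.degZero (K := Kb) (F := FK N)) : Divisor Kb (FK N)) ∈
      Divisor.principal (K := Kb) (F := FK N) := by
    have : Pic0.mk (m • D) = (0 : JZero N) := hmx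
    exact (QuotientAddGroup.eq_zero_iff (m • D)).mp this
  obtain ⟨f, hf0, hfD⟩ := h1
  have hfD' : ∀ P : Place Kb (FK N), (m : ℤ) * (D : Divisor Kb (FK N)) P = P.ord f := by
    intro P
    rw [← hfD P]
    simp
  -- `σ_s^* D = div g`
  have h2 : pullDiv N s (D : Divisor Kb (FK N)) ∈
      Divisor.principal (K := Kb) (F := FK (s * N)) := by
    have := (QuotientAddGroup.eq_zero_iff (pullDegZeroHom h D)).mp hx
    rw [AddSubgroup.mem_addSubgroupOf, coe_pullDegZeroHom] at this
    exact this
  obtain ⟨g, hg0, hgD⟩ := h2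
  -- `σ_s f / g^m` is constant
  have hσf0 : sigma N s f ≠ 0 := by simpa using hf0
  have hord : ∀ w : Place Kb (FK (s * N)), w.ord (sigma N s f / g ^ m) = 0 := by
    intro w
    have e1 : w.ord (sigma N s f) = pullDiv N s ((m • D : Divisor.degZero (K := Kb) (F := FK N)) :
        Divisor Kb (FK N)) w := (pullDiv_apply_of_ord N s (f := f) (fun v => hfD v) w).symm
    have e2 : pullDiv N s ((m • D : Divisor.degZero (K := Kb) (F := FK N)) :
        Divisor Kb (FK N)) w = (m : ℤ) * w.ord g := by
      rw [AddSubgroupClass.coe_nsmul, map_nsmul, Finsupp.smul_apply, hgD w, nsmul_eq_mul]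
    rw [div_eq_mul_inv, w.ord_mul hσf0 (inv_ne_zero (pow_ne_zero m hg0)), w.ord_inv, e1, e2,
      ← zpow_natCast, w.ord_zpow]
    ring
  obtain ⟨c, hc⟩ := Fermat.Agent.S18.NormFrac20.const_of_ord_zero_bar (s * N) _ hord
  obtain ⟨d, hd⟩ := IsAlgClosed.exists_pow_nat_eq c hm
  have hpow : (algebraMap Kb (FK (s * N)) d * g) ^ m = sigma N s f := by
    rw [mul_pow, ← map_pow, hd, ← hc, div_mul_cancel₀ _ (pow_ne_zero m hg0)]
  -- descent
  have hloc : LocallyPower N m f := fun P => ⟨(D : Divisor Kb (FK N)) P, (hfD' P).symm⟩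
  obtain ⟨Pinf, hPinf⟩ := cuspInfty N f hf0
  have hordq : (m : ℤ) ∣ (f : LaurentSeries Kb).order := by
    rw [← hPinf]; exact hloc Pinf
  obtain ⟨v, hv⟩ := Fermat.Agent.S18.Descent74.descent N s hpair m hm f hf0 hordq
    ⟨((algebraMap Kb (FK (s * N)) d * g : FK (s * N)) : LaurentSeries Kb),
      (algebraMap Kb (FK (s * N)) d * g : FK (s * N)).2, by
        have := congrArg Subtype.val hpow
        simpa using this⟩
  have hv0 : v ≠ 0 := by
    rintro rfl
    rw [zero_pow hm.ne'] at hv
    exact hf0 hv.symm
  have hDv : ∀ P : Place Kb (FK N), (D : Divisor Kb (FK N)) P = P.ord v := by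
    intro P
    have h1 : P.ord f = (m : ℤ) * P.ord v := by
      rw [← hv, ← zpow_natCast, P.ord_zpow]
    have h2 := hfD' P
    rw [h1] at h2
    exact mul_left_cancel₀ (by exact_mod_cast hm.ne') h2
  exact (QuotientAddGroup.eq_zero_iff D).mpr ⟨v, hv0, hDv⟩

/-! ### Unconditional versions -/

variable (N s)

/-- **`σ_s^* : J₀(N) → J₀(sN)`**, unconditional. -/
def pull : JZero N →+ JZero (s * N) := pullPic0 (pullDegZero N s)

theorem pull_mk (D : Divisor.degZero (K := Kb) (F := FK N)) :
    pull N s (Pic0.mk D) = Pic0.mk (pullDegZeroHom (pullDegZero N s) D) :=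
  rfl

/-- `σ_s^*` commutes with the Galois action. -/
theorem pull_gal (τ : Kb ≃ₐ[ℚ] Kb) (x : JZero N) : pull N s (τ • x) = τ • pull N s x :=
  pullPic0_gal (pullDegZero N s) τ x

/-- `σ_s^*` is injective on torsion for the descent pairs of `Spine33`. -/
theorem eq_zero_of_pull_eq_zero (hpair : DescentPair s N) (m : ℕ) (hm : 0 < m) (x : JZero N)
    (hmx : m • x = 0) (hx : pull N s x = 0) : x = 0 :=
  eq_zero_of_pullPic0_eq_zero (pullDegZero N s) hpair m hm x hmx hx

/-- on places: `σ_s^* P` is effective of degree `[F_{sN} : σ_s F_N]` (bound for Lemma B). -/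
theorem pullDiv_single_nonneg (P : Place Kb (FK N)) : 0 ≤ pullDiv N s (Finsupp.single P 1) :=
  pullDiv_nonneg N s (by
    intro v
    classical
    rw [Finsupp.single_apply]
    split_ifs <;> simp)

theorem degree_pullDiv_single (P : Place Kb (FK N)) :
    Divisor.degree (pullDiv N s (Finsupp.single P 1)) = (finrankAlong Kb (sigma N s) : ℤ) := by
  rw [degree_pullDiv, Divisor.degree_single, Fermat.Agent.S37.HeckeConcrete85.deg_eq_one_level N P]
  simp

end Concrete

end Fermat.Agent.S37.Pull91
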