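/-
S37 (SpecializationExists), abstract reduction (helper52).

`SpecializationExists N p J` asks, for every prime `ℓ ∤ N p` and every valuation subring `A` of `L`
over `ℓ`, for SOME Hecke module `J'` with an endomorphism `F` and a Hecke-linear `sp : J → J'`
which is inertia-invariant, intertwines every Frobenius lift with `F`, is injective on `p`-power
torsion, and satisfies `F² - T_ℓ F + ℓ = 0` on `J'`.

Here we show that NO Hecke structure on the special fibre is needed: it suffices to have ONE group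
homomorphism `ρ : J →+ G` (to any abelian group: think of `Pic⁰` of the special fibre) and ONE
Frobenius lift `φ` such that
  * `ρ (σ x) = ρ x` for `σ` in inertia,
  * `ρ (φ² x - T_ℓ φ x + ℓ x) = 0`  (Eichler–Shimura for the single operator `T_ℓ`),
  * `ρ` is injective on `p`-power torsion.
Then `J' := J ⧸ K`, `K` = subgroup generated by the `σ x - x` and the `φ² x - T_ℓ φ x + ℓ x`
(automatically a Hecke submodule stable under `φ`), `sp` = quotient map, `F` = map induced by `φ`.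
-/
import Fermat.Prelude.Def_HeckeGalois_EichlerShimura

set_option autoImplicit false

noncomputable section

namespace Fermat.Agent.S37.Quot52

open ModularCurve

variable {K L : Type*} [Field K] [Field L] [Algebra K L]
variable (p : ℕ) (J : Type) [AddCommGroup J] [Module HeckeAlg J]
  [DistribMulAction (L ≃ₐ[K] L) J] [SMulCommClass (L ≃ₐ[K] L) HeckeAlg J]

/-- conjugating an inertia element by a decomposition element stays in inertia -/
theorem conj_mem_inertiaSubgroupIn (A : ValuationSubring L) {φ σ : L ≃ₐ[K] L}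
    (hφ : φ ∈ A.decompositionSubgroup K) (hσ : σ ∈ A.inertiaSubgroupIn K) :
    φ * σ * φ⁻¹ ∈ A.inertiaSubgroupIn K := by
  obtain ⟨s, hs, rfl⟩ := hσ
  refine ⟨⟨φ, hφ⟩ * s * ⟨φ, hφ⟩⁻¹, ?_, rfl⟩
  have hn : (A.inertiaSubgroup K).Normal := by
    unfold ValuationSubring.inertiaSubgroup
    infer_instance
  exact hn.conj_mem s hs ⟨φ, hφ⟩

/-- two Frobenius lifts differ by inertia -/
theorem inv_mul_mem_inertiaSubgroupIn (A : ValuationSubring L) {ℓ : ℕ} {φ σ : L ≃ₐ[K] L}
    (hφ : A.IsFrobeniusAt φ ℓ) (hσ : A.IsFrobeniusAt σ ℓ) :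
    φ⁻¹ * σ ∈ A.inertiaSubgroupIn K := by
  refine ⟨⟨φ, hφ.mem_decompositionSubgroup⟩⁻¹ * ⟨σ, hσ.mem_decompositionSubgroup⟩, ?_, rfl⟩
  refine MonoidHom.mem_ker.mpr ?_
  ext x
  show (⟨φ, hφ.mem_decompositionSubgroup⟩⁻¹ * ⟨σ, hσ.mem_decompositionSubgroup⟩ :
    A.decompositionSubgroup K) • x = x
  rw [mul_smul, hσ.smul_residue_eq, ← hφ.smul_residue_eq, inv_smul_smul]

variable {J}

/-- the Eichler–Shimura expression `φ² x - T_ℓ φ x + ℓ x` -/
def esExpr (φ : L ≃ₐ[K] L) (t : HeckeAlg) (ℓ : ℕ) (x : J) : J :=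
  φ • φ • x - t • φ • x + ℓ • x

theorem smul_esExpr (φ : L ≃ₐ[K] L) (t : HeckeAlg) (ℓ : ℕ) (s : HeckeAlg) (x : J) :
    s • esExpr φ t ℓ x = esExpr φ t ℓ (s • x) := by
  unfold esExpr
  rw [smul_add, smul_sub, ← smul_comm φ s, ← smul_comm φ s, smul_smul s t, mul_comm s t,
    ← smul_smul t s, ← smul_comm φ s, smul_comm s ℓ]

theorem galois_smul_esExpr (φ : L ≃ₐ[K] L) (t : HeckeAlg) (ℓ : ℕ) (x : J) :
    φ • esExpr φ t ℓ x = esExpr φ t ℓ (φ • x) := by
  unfold esExpr
  rw [smul_add, smul_sub, smul_comm φ t, smul_comm φ ℓ]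

variable (J)

/-- the generators of the kernel -/
def gens (A : ValuationSubring L) (φ : L ≃ₐ[K] L) (t : HeckeAlg) (ℓ : ℕ) : Set J :=
  {y | ∃ σ ∈ A.inertiaSubgroupIn K, ∃ x : J, y = σ • x - x} ∪ {y | ∃ x : J, y = esExpr φ t ℓ x}

/-- the kernel as an additive subgroup -/
def kerGroup (A : ValuationSubring L) (φ : L ≃ₐ[K] L) (t : HeckeAlg) (ℓ : ℕ) : AddSubgroup J :=
  AddSubgroup.closure (gens J A φ t ℓ)

variable {J}

theorem hecke_smul_mem_kerGroup (A : ValuationSubring L) (φ : L ≃ₐ[K] L) (t : HeckeAlg) (ℓ : ℕ)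
    (s : HeckeAlg) {y : J} (hy : y ∈ kerGroup J A φ t ℓ) : s • y ∈ kerGroup J A φ t ℓ := by
  unfold kerGroup at hy ⊢
  induction hy using AddSubgroup.closure_induction with
  | mem y hy =>
    rcases hy with ⟨σ, hσ, x, rfl⟩ | ⟨x, rfl⟩
    · refine AddSubgroup.subset_closure (Or.inl ⟨σ, hσ, s • x, ?_⟩)
      rw [smul_sub, ← smul_comm σ s]
    · refine AddSubgroup.subset_closure (Or.inr ⟨s • x, ?_⟩)
      rw [smul_esExpr]
  | zero => rw [smul_zero]; exact AddSubgroup.zero_mem _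
  | add a b _ _ ha hb => rw [smul_add]; exact AddSubgroup.add_mem _ ha hb
  | neg a _ ha => rw [smul_neg]; exact AddSubgroup.neg_mem _ ha

theorem galois_smul_mem_kerGroup (A : ValuationSubring L) {φ : L ≃ₐ[K] L}
    (hφ : φ ∈ A.decompositionSubgroup K) (t : HeckeAlg) (ℓ : ℕ)
    {y : J} (hy : y ∈ kerGroup J A φ t ℓ) : φ • y ∈ kerGroup J A φ t ℓ := by
  unfold kerGroup at hy ⊢
  induction hy using AddSubgroup.closure_induction with
  | mem y hy =>
    rcases hy with ⟨σ, hσ, x, rfl⟩ | ⟨x, rfl⟩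
    · refine AddSubgroup.subset_closure
        (Or.inl ⟨φ * σ * φ⁻¹, conj_mem_inertiaSubgroupIn A hφ hσ, φ • x, ?_⟩)
      rw [smul_sub, mul_smul, mul_smul, inv_smul_smul]
    · refine AddSubgroup.subset_closure (Or.inr ⟨φ • x, ?_⟩)
      rw [galois_smul_esExpr]
  | zero => rw [smul_zero]; exact AddSubgroup.zero_mem _
  | add a b _ _ ha hb => rw [smul_add]; exact AddSubgroup.add_mem _ ha hb
  | neg a _ ha => rw [smul_neg]; exact AddSubgroup.neg_mem _ ha

variable (J)

/-- the kernel as a Hecke submodule -/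
def kerModule (A : ValuationSubring L) (φ : L ≃ₐ[K] L) (t : HeckeAlg) (ℓ : ℕ) :
    Submodule HeckeAlg J where
  carrier := kerGroup J A φ t ℓ
  add_mem' ha hb := AddSubgroup.add_mem _ ha hb
  zero_mem' := AddSubgroup.zero_mem _
  smul_mem' s _ hy := hecke_smul_mem_kerGroup A φ t ℓ s hy

variable {J}

theorem mem_kerModule_iff (A : ValuationSubring L) (φ : L ≃ₐ[K] L) (t : HeckeAlg) (ℓ : ℕ) (y : J) :
    y ∈ kerModule J A φ t ℓ ↔ y ∈ kerGroup J A φ t ℓ := Iff.rfl

variable (J)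

/-- the Galois element `φ` as a Hecke-linear endomorphism -/
def galoisLin (φ : L ≃ₐ[K] L) : J →ₗ[HeckeAlg] J where
  toFun x := φ • x
  map_add' x y := smul_add φ x y
  map_smul' s x := smul_comm φ s x

variable {J}

theorem rho_eq_zero_of_mem {G : Type*} [AddCommGroup G] (ρ : J →+ G)
    (A : ValuationSubring L) (φ : L ≃ₐ[K] L) (t : HeckeAlg) (ℓ : ℕ)
    (hI : ∀ σ ∈ A.inertiaSubgroupIn K, ∀ x : J, ρ (σ • x) = ρ x)
    (hES : ∀ x : J, ρ (esExpr φ t ℓ x) = 0)
    {y : J} (hy : y ∈ kerGroup J A φ t ℓ) : ρ y = 0 := by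
  unfold kerGroup at hy
  induction hy using AddSubgroup.closure_induction with
  | mem y hy =>
    rcases hy with ⟨σ, hσ, x, rfl⟩ | ⟨x, rfl⟩
    · rw [map_sub, hI σ hσ x, sub_self]
    · exact hES x
  | zero => exact map_zero ρ
  | add a b _ _ ha hb => rw [map_add, ha, hb, add_zero]
  | neg a _ ha => rw [map_neg, ha, neg_zero]

/-- **Abstract reduction of `SpecializationExists`** at one prime `ℓ` and one valuation ring `A`:
a group homomorphism `ρ` killing inertia and the Eichler–Shimura expression of ONE Frobenius lift,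
injective on `p`-power torsion, produces the whole specialization datum. -/
theorem exists_specialization (A : ValuationSubring L) (ℓ : ℕ) (hℓ : ℓ.Prime)
    (φ : L ≃ₐ[K] L) (hφ : A.IsFrobeniusAt φ ℓ)
    {G : Type*} [AddCommGroup G] (ρ : J →+ G)
    (hI : ∀ σ ∈ A.inertiaSubgroupIn K, ∀ x : J, ρ (σ • x) = ρ x)
    (hES : ∀ x : J, ρ (φ • φ • x - heckeGen ⟨ℓ, hℓ⟩ • φ • x + ℓ • x) = 0)
    (hinj : ∀ x : J, (∃ n : ℕ, p ^ n • x = 0) → ρ x = 0 → x = 0) :
    ∃ (J' : Type) (_ : AddCommGroup J') (_ : Module HeckeAlg J') (sp : J →+ J') (F : J' →+ J'),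
      IsSpecialization (K := K) p J J' A ℓ sp F ∧ SpecialFibreRelation J' ℓ hℓ F := by
  set t : HeckeAlg := heckeGen ⟨ℓ, hℓ⟩ with ht
  set Km : Submodule HeckeAlg J := kerModule J A φ t ℓ with hKm
  have hstab : Km ≤ Km.comap (galoisLin J φ) := fun y hy =>
    galois_smul_mem_kerGroup A hφ.mem_decompositionSubgroup t ℓ hy
  refine ⟨J ⧸ Km, inferInstance, inferInstance, Km.mkQ.toAddMonoidHom,
    (Km.mapQ Km (galoisLin J φ) hstab).toAddMonoidHom, ⟨?_, ?_, ?_, ?_⟩, ?_⟩
  · -- Hecke-linear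
    intro T x
    exact map_smul Km.mkQ T x
  · -- inertia
    intro σ hσ x
    show Km.mkQ (σ • x) = Km.mkQ x
    rw [← sub_eq_zero, ← map_sub, Submodule.mkQ_apply, Submodule.Quotient.mk_eq_zero]
    exact AddSubgroup.subset_closure (Or.inl ⟨σ, hσ, x, rfl⟩)
  · -- Frobenius
    intro σ hσ x
    show Km.mkQ (σ • x) = Km.mapQ Km (galoisLin J φ) hstab (Km.mkQ x)
    rw [Submodule.mkQ_apply, Submodule.mkQ_apply, Submodule.mapQ_apply, ← sub_eq_zero,
      ← Submodule.Quotient.mk_sub, Submodule.Quotient.mk_eq_zero]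
    have hτ := inv_mul_mem_inertiaSubgroupIn A hφ hσ
    have h1 : σ • x - galoisLin J φ x = φ • ((φ⁻¹ * σ) • x - x) := by
      show σ • x - φ • x = _
      rw [smul_sub, mul_smul, smul_inv_smul]
    rw [h1]
    exact galois_smul_mem_kerGroup A hφ.mem_decompositionSubgroup t ℓ
      (AddSubgroup.subset_closure (Or.inl ⟨φ⁻¹ * σ, hτ, x, rfl⟩))
  · -- injective on torsion
    intro x hx hsp
    have hmem : x ∈ Km := by
      have : Km.mkQ x = 0 := hsp
      rwa [Submodule.mkQ_apply, Submodule.Quotient.mk_eq_zero] at this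
    exact hinj x hx (rho_eq_zero_of_mem ρ A φ t ℓ hI hES hmem)
  · -- special fibre relation
    intro y
    obtain ⟨x, rfl⟩ := Km.mkQ_surjective y
    show Km.mapQ Km (galoisLin J φ) hstab (Km.mapQ Km (galoisLin J φ) hstab (Km.mkQ x)) -
      t • Km.mapQ Km (galoisLin J φ) hstab (Km.mkQ x) + ℓ • Km.mkQ x = 0
    simp only [Submodule.mkQ_apply, Submodule.mapQ_apply]
    rw [← Submodule.Quotient.mk_smul, ← Submodule.Quotient.mk_sub, ← Submodule.Quotient.mk_smul,
      ← Submodule.Quotient.mk_add, Submodule.Quotient.mk_eq_zero]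
    exact AddSubgroup.subset_closure (Or.inr ⟨x, rfl⟩)

end Fermat.Agent.S37.Quot52

end
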