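/-
S37 (SpecializationExists for J₀(N)), reduction to a statement about ONE group homomorphism
(helper52).  See `Quot52.lean` for the abstract construction `J' := J ⧸ K`.

`RhoStmt N p` : for every prime `ℓ ∤ N p` and every valuation subring `A` of `ℚ̄` over `ℓ` there are
an abelian group `G`, a group homomorphism `ρ : J₀(N) →+ G` and a Frobenius lift `φ` at `A` with
  (I)  `ρ (σ x) = ρ x` for `σ` in the inertia group of `A`;
  (ES) `ρ (φ² x - T_ℓ (φ x) + ℓ x) = 0`  (`T_ℓ = heckeOperatorBar N ℓ`, the Prelude operator);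
  (T)  `ρ` is injective on `p`-power torsion.
`specializationExists_of_rho : RhoStmt N p → (frozen S37 conclusion)`.
-/
import Fermat.Prelude.Def_ModularCurve_HeckeModule
import Fermat.Agent.S37.Quot52

set_option autoImplicit false

noncomputable section

namespace Fermat.Agent.S37.Reduce52

open ModularCurve

/-- The reduced form of S37: one group homomorphism per `(ℓ, A)`. -/
def RhoStmt (N p : ℕ) [NeZero N] : Prop :=
  ∀ (ℓ : ℕ) (hℓ : ℓ.Prime), ¬ ℓ ∣ N * p →
    ∀ A : ValuationSubring (AlgebraicClosure ℚ), A.LiesOverPrime ℓ →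
      ∃ (G : Type) (_ : AddCommGroup G) (ρ : JZero N →+ G)
        (φ : AlgebraicClosure ℚ ≃ₐ[ℚ] AlgebraicClosure ℚ),
        A.IsFrobeniusAt φ ℓ ∧
        (∀ σ ∈ A.inertiaSubgroupIn ℚ, ∀ x : JZero N, ρ (σ • x) = ρ x) ∧
        (∀ x : JZero N,
          ρ (φ • φ • x - heckeOperatorBar N ⟨ℓ, hℓ⟩ (φ • x) + ℓ • x) = 0) ∧
        (∀ x : JZero N, (∃ n : ℕ, p ^ n • x = 0) → ρ x = 0 → x = 0)

theorem specializationExists_of_rho (N p : ℕ) [NeZero N]
    (hcomm : ModularCurve.HeckeOperatorsCommuteBar N) (h : RhoStmt N p) :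
    letI := ModularCurve.heckeModuleBar N
    ∀ (_ : SMulCommClass (AlgebraicClosure ℚ ≃ₐ[ℚ] AlgebraicClosure ℚ) ModularCurve.HeckeAlg
        (ModularCurve.JZero N)),
      ModularCurve.SpecializationExists (K := ℚ) (L := AlgebraicClosure ℚ) N p
        (ModularCurve.JZero N) := by
  letI := ModularCurve.heckeModuleBar N
  intro hsmul ℓ hℓ hℓNp A hA
  obtain ⟨G, _, ρ, φ, hφ, hI, hES, hinj⟩ := h ℓ hℓ hℓNp A hA
  refine Quot52.exists_specialization (K := ℚ) p A ℓ hℓ φ hφ ρ hI ?_ hinj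
  intro x
  rw [heckeModuleBar_heckeGen_smul hcomm]
  exact hES x

end Fermat.Agent.S37.Reduce52

end
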