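/-
S37, package [S37-RHO+TM], second file (helper77): the PACKAGING lemma.

`rhoStmt_of_data` : if, for every prime `ℓ ∤ N` and every valuation subring `A` of `ℚ̄` over `ℓ`,
there are
  * an auxiliary factor `s` with `DescentPair s N`, `GoodLevel ℓ (s N)`, `ℓ ∤ s N`
    (`Spine33.exists_aux` provides one),
  * a place reduction `r` at level `M = s N` with `IsPlaceReductionAlong` and
    `PrincipalGeneratedByIntegral` (the output of [R] = Deuring reduction at level `M`),
  * a Frobenius lift `φ` at `A`,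
  * (I) inertia invariance and (ES) the Eichler–Shimura relation for `ρ = RhoTM77.rho N s r _`,
then `Reduce52.RhoStmt N p` holds, hence (with `Reduce52.specializationExists_of_rho`) the frozen
statement S37.  Clause (T) is `RhoTM77.rho_ptorsion_injective`; its inputs `H1 H2 H3` are discharged
here from the landed S18 leaves (`NormFrac20`, `P1Normalize20`, `FFInst30`).
-/
import Fermat.Agent.S37.RhoTM77
import Fermat.Agent.S37.Reduce52
import Fermat.Agent.S18.P1Normalize20

set_option autoImplicit false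

open ModularCurve AlgebraicCurve HahnSeries

noncomputable section

namespace Fermat.Agent.S37.RhoStmt77

open Fermat.Agent.S18 Fermat.Agent.S18.Spine33 Fermat.Agent.S37.RhoTM77

set_option synthInstance.maxHeartbeats 400000

/-- `r_*` maps principal divisors to principal divisors (Prelude lemma, restated at level `M`). -/
theorem hprin_of {M : ℕ} {A : ValuationSubring Kb}
    {r : Place Kb (FK M) → Place (kA A) (Fk (kA A) M)}
    (hr : IsPlaceReductionAlong A (IsLocalRing.residue A) M r)
    (hgen : PrincipalGeneratedByIntegral A (IsLocalRing.residue A) M) :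
    ∀ D ∈ Divisor.principal (K := Kb) (F := FK M),
      Finsupp.mapDomain r D ∈ Divisor.principal (K := kA A) (F := Fk (kA A) M) :=
  fun _ hD => hr.mapDomain_mem_principal hgen hD

/-- The data needed at one pair `(ℓ, A)`. -/
def HasRhoData (N : ℕ) [NeZero N] (ℓ : ℕ) (hℓ : ℓ.Prime) (A : ValuationSubring Kb) : Prop :=
  ∃ (s : ℕ) (_ : NeZero s), DescentPair s N ∧ GoodLevel ℓ (s * N) ∧ ¬ ℓ ∣ s * N ∧
    ∃ (r : Place Kb (FK (s * N)) → Place (kA A) (Fk (kA A) (s * N)))
      (hr : IsPlaceReductionAlong A (IsLocalRing.residue A) (s * N) r)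
      (hgen : PrincipalGeneratedByIntegral A (IsLocalRing.residue A) (s * N))
      (φ : Kb ≃ₐ[ℚ] Kb),
      A.IsFrobeniusAt φ ℓ ∧
      (∀ σ ∈ A.inertiaSubgroupIn ℚ, ∀ x : JZero N,
        rho N s r (hprin_of hr hgen) (σ • x) = rho N s r (hprin_of hr hgen) x) ∧
      (∀ x : JZero N,
        rho N s r (hprin_of hr hgen)
          (φ • φ • x - heckeOperatorBar N ⟨ℓ, hℓ⟩ (φ • x) + ℓ • x) = 0)

/-- **S37 from the reduction data.** -/
theorem rhoStmt_of_data (N p : ℕ) [NeZero N]
    (hLevel : LevelStatement) (hDesc : DescentStatement) (hCusp : CuspInftyStatement)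
    (H : ∀ (ℓ : ℕ) (hℓ : ℓ.Prime), ¬ ℓ ∣ N → ∀ A : ValuationSubring Kb, A.LiesOverPrime ℓ →
      HasRhoData N ℓ hℓ A) :
    Reduce52.RhoStmt N p := by
  intro ℓ hℓ hℓNp A hA
  have : Fact ℓ.Prime := ⟨hℓ⟩
  have hℓN : ¬ ℓ ∣ N := fun h => hℓNp (Dvd.dvd.mul_right h p)
  have hℓp : ¬ ℓ ∣ p := fun h => hℓNp (Dvd.dvd.mul_left h N)
  obtain ⟨s, hs, hpair, hgood, hℓM, r, hr, hgen, φ, hφ, hI, hES⟩ := H ℓ hℓ hℓN A hA
  have : NeZero s := hs
  have hPD := NormFrac20.hasPrincipalDivisors_bar (s * N)
  have H1 : Normalize96.HasIntegralFractions A (IsLocalRing.residue A) (s * N) :=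
    NormFrac20.hasIntegralFractions hgen
      fun u _ hord => NormFrac20.const_of_ord_zero_bar (s * N) u hord
  have H2 := P1Normalize20.reductionSurjective A (s * N)
  have H3 := FFInst30.constOfOrdZero_residueField A hA (s * N) hℓM
  refine ⟨Pic (kA A) (Fk (kA A) (s * N)), inferInstance, rho N s r (hprin_of hr hgen), φ, hφ,
    hI, hES, ?_⟩
  intro x hpx hx
  exact rho_ptorsion_injective N s hLevel hDesc hCusp A hA hpair hgood hℓM r hr
    (hprin_of hr hgen) H1 H2 H3 p hℓp x hpx hx

/-- The frozen statement S37 from the reduction data. -/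
theorem s37_of_data (N p : ℕ) [NeZero N] (hcomm : ModularCurve.HeckeOperatorsCommuteBar N)
    (hLevel : LevelStatement) (hDesc : DescentStatement) (hCusp : CuspInftyStatement)
    (H : ∀ (ℓ : ℕ) (hℓ : ℓ.Prime), ¬ ℓ ∣ N → ∀ A : ValuationSubring Kb, A.LiesOverPrime ℓ →
      HasRhoData N ℓ hℓ A) :
    letI := ModularCurve.heckeModuleBar N
    ∀ (_ : SMulCommClass (AlgebraicClosure ℚ ≃ₐ[ℚ] AlgebraicClosure ℚ) ModularCurve.HeckeAlg
        (ModularCurve.JZero N)),
      ModularCurve.SpecializationExists (K := ℚ) (L := AlgebraicClosure ℚ) N p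
        (ModularCurve.JZero N) :=
  Reduce52.specializationExists_of_rho N p hcomm (rhoStmt_of_data N p hLevel hDesc hCusp H)

end Fermat.Agent.S37.RhoStmt77
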