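/-
S37, leaf [17-A-CONCRETE] (helper77, second seat): the CONCRETE ASSEMBLY.

For a prime `ℓ ∤ N`, a valuation subring `A` of `ℚ̄` over `ℓ`, an auxiliary factor `s` with `ℓ ∤ s N`
and ANY place reduction `r` at level `M = s N` satisfying the Prelude conservation law
(`IsPlaceReductionAlong`) together with `PrincipalGeneratedByIntegral` (= the Prelude
`ReductionInputsModL A M`), the homomorphism

  `rhoA = Assembly52.rho σ_s _ r _ _ _ : J₀(N) →+ Pic⁰(F̄_M)`

satisfies the three clauses of `Reduce52.RhoStmt`: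
  (I)  `rhoA_inertia`   (GalFn75 + Bounded transfer `Assembly52.rho_galois`),
  (ES) `rhoA_es`        (EsFn77.es_fn + KronRedStmt17 + HeckeInputsFinal85 + `Assembly52.rho_hecke`),
  (T)  `rhoA_torsion`   (RhoTM77 divisor form).
`rhoStmt_of_inputs` : `LevelStatement` + (`ReductionInputsModL` at all good levels) ⟹ `RhoStmt N p`;
`s37_of_inputs`     : ⟹ the frozen statement S37.
-/
import Fermat.Agent.S37.RhoStmt77
import Fermat.Agent.S37.EsFn77
import Fermat.Agent.S37.GalFn75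
import Fermat.Agent.S37.KronRedStmt17
import Fermat.Agent.S37.IntFracInst57
import Fermat.Agent.S37.HeckeInputsFinal85
import Fermat.Agent.S37.LemmaBInputs41
import Fermat.Agent.S37.Pull91
import Fermat.Agent.S18.FFInstDW30
import Fermat.Agent.S18.ValRing25
import Fermat.Agent.S18.Descent74
import Fermat.Agent.S18.CuspInfty56
import Fermat.Agent.Lib.FrobeniusExists

set_option autoImplicit false

open ModularCurve AlgebraicCurve HahnSeries

noncomputable section

namespace Fermat.Agent.S37.Concrete77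

open Fermat.Agent.S18 Fermat.Agent.S18.Spine33 Fermat.Agent.S37.RhoTM77
open Fermat.Agent.S37.Assembly52

set_option synthInstance.maxHeartbeats 400000
set_option maxHeartbeats 1000000

section OnePair

variable (N s : ℕ) [NeZero N] [NeZero s] (A : ValuationSubring Kb)
variable (r : Place Kb (FK (s * N)) → Place (kA A) (Fk (kA A) (s * N)))
variable (hr : IsPlaceReductionAlong A (IsLocalRing.residue A) (s * N) r)
variable (hgen : PrincipalGeneratedByIntegral A (IsLocalRing.residue A) (s * N))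

/-- the fundamental identity for `σ_s`, in the spelling used here -/
theorem hFI_sigma :
    haveI := NormFrac20.hasPrincipalDivisors_bar (s * N)
    FundamentalIdentityAlong Kb (Transfer87.sigma N s) (sigma_int N s) :=
  Pull91.fundamentalIdentityAlong_sigma N s

/-- `ρ_A : J₀(N) → Pic⁰(F̄_{sN})`, the class of `r_* ∘ σ_s^*`. -/
def rhoA : JZero N →+ Pic0 (kA A) (Fk (kA A) (s * N)) :=
  haveI := NormFrac20.hasPrincipalDivisors_bar (s * N)
  Assembly52.rho (Transfer87.sigma N s) (sigma_int N s) r (hFI_sigma N s) hr.1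
    (RhoStmt77.hprin_of hr hgen)

/-- **(I)**: inertia acts trivially after `ρ_A`. -/
theorem rhoA_inertia {ℓ : ℕ} [Fact ℓ.Prime] (hA : A.LiesOverPrime ℓ) (hℓM : ¬ ℓ ∣ s * N)
    {τ : Kb ≃ₐ[ℚ] Kb} (hτ : τ ∈ A.inertiaSubgroupIn ℚ) (x : JZero N) :
    rhoA N s A r hr hgen (τ • x) = rhoA N s A r hr hgen x := by
  have hM := Pull91.neZero_mul N s
  have hPDM := NormFrac20.hasPrincipalDivisors_bar (s * N)
  have hPDN := LemmaBInputs41.hasPrincipalDivisors N
  obtain ⟨gn, hsec⟩ := LemmaBInputs41.exists_hasSections N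
  have hdegb : ∀ Q : Place (kA A) (Fk (kA A) (s * N)), 0 < Q.deg := fun Q => by
    rw [FFInstDW30.deg_eq_one_residueField A hA (s * N) hℓM Q]; exact one_pos
  have h := Assembly52.rho_galois (Transfer87.sigma N s) (sigma_int N s) r (hFI_sigma N s) hr.1
    (RhoStmt77.hprin_of hr hgen) gn hsec (LemmaBInputs41.deg_eq_one N) hdegb
    (arithmeticGalois (modularFunctionFieldFull N) τ) 1
    (GalFn75.redPull_gal_inertia A N s (sigma_int N s) hr hgen hτ) x
  rw [one_smul] at h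
  exact h

/-- **(FROB)**: a Frobenius lift acts through the coefficientwise Frobenius after `ρ_A`. -/
theorem rhoA_frob {ℓ : ℕ} [Fact ℓ.Prime] (hA : A.LiesOverPrime ℓ) (hℓM : ¬ ℓ ∣ s * N)
    [CharP (kA A) ℓ] [PerfectRing (kA A) ℓ]
    {φ : Kb ≃ₐ[ℚ] Kb} (hφ : A.IsFrobeniusAt φ ℓ) (x : JZero N) :
    rhoA N s A r hr hgen (φ • x) = EsFn77.Phi ℓ A (s * N) • rhoA N s A r hr hgen x := by
  have hM := Pull91.neZero_mul N s
  have hPDM := NormFrac20.hasPrincipalDivisors_bar (s * N)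
  have hPDN := LemmaBInputs41.hasPrincipalDivisors N
  obtain ⟨gn, hsec⟩ := LemmaBInputs41.exists_hasSections N
  have hdegb : ∀ Q : Place (kA A) (Fk (kA A) (s * N)), 0 < Q.deg := fun Q => by
    rw [FFInstDW30.deg_eq_one_residueField A hA (s * N) hℓM Q]; exact one_pos
  exact Assembly52.rho_galois (Transfer87.sigma N s) (sigma_int N s) r (hFI_sigma N s) hr.1
    (RhoStmt77.hprin_of hr hgen) gn hsec (LemmaBInputs41.deg_eq_one N) hdegb
    (arithmeticGalois (modularFunctionFieldFull N) φ) (EsFn77.Phi ℓ A (s * N))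
    (GalFn75.redPull_gal_frobenius A N s (sigma_int N s) hr hgen hφ) x

/-- **(HECKE)**: the Eichler–Shimura congruence for `ρ_A`. -/
theorem rhoA_hecke {ℓ : ℕ} (hℓ : ℓ.Prime) [Fact ℓ.Prime] (hA : A.LiesOverPrime ℓ) (hℓN : ¬ ℓ ∣ N)
    (hℓM : ¬ ℓ ∣ s * N) [CharP (kA A) ℓ] [PerfectRing (kA A) ℓ] (x : JZero N) :
    rhoA N s A r hr hgen (heckeOperatorBar N ⟨ℓ, hℓ⟩ x) =
      EsFn77.Phi ℓ A (s * N) • rhoA N s A r hr hgen x +
        ℓ • (EsFn77.Phi ℓ A (s * N))⁻¹ • rhoA N s A r hr hgen x := by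
  haveI : NeZero ℓ := ⟨hℓ.ne_zero⟩
  have hM := Pull91.neZero_mul N s
  have hPDM := NormFrac20.hasPrincipalDivisors_bar (s * N)
  have hPDN := LemmaBInputs41.hasPrincipalDivisors N
  have hPDNℓ := HeckeConcrete85.hasPrincipalDivisors_mul N ℓ
  obtain ⟨gn, hsec⟩ := LemmaBInputs41.exists_hasSections N
  have hdegb : ∀ Q : Place (kA A) (Fk (kA A) (s * N)), 0 < Q.deg := fun Q => by
    rw [FFInstDW30.deg_eq_one_residueField A hA (s * N) hℓM Q]; exact one_pos
  have hKron : EsFn77.KronRedStatement N ℓ A := fun U hU =>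
    KronRedStmt17.kronRedStatement N ℓ hℓN A U hU
  have H1N := IntFracInst57.hasIntegralFractions_of_liesOver A hA N hℓN
  have hop : heckeOperatorBar N ⟨ℓ, hℓ⟩ x =
      Pic0.correspondence (heckeBetaBar Kb N ℓ) (heckeAlphaBar Kb N ℓ)
        (HeckeConcrete85.heckeBetaBarIntegral N ℓ) (HeckeConcrete85.heckeAlphaBarIntegral N ℓ)
        (HeckeInputsFinal85.fundamentalIdentityAlong_beta N ℓ)
        (HeckeConcrete85.finiteAlong_alpha N ℓ)
        (HeckeInputsFinal85.normFormulaAlong_alpha N ℓ) x := by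
    refine (heckeOperatorBar_apply N ⟨ℓ, hℓ⟩ x).trans ?_
    exact congrArg (fun T => T x) (HeckeInputsFinal85.heckeOperatorAlong_eq' N ℓ)
  rw [hop]
  exact Assembly52.rho_hecke (Transfer87.sigma N s) (sigma_int N s) r (hFI_sigma N s) hr.1
    (RhoStmt77.hprin_of hr hgen) (heckeAlphaBar Kb N ℓ) (heckeBetaBar Kb N ℓ)
    (HeckeConcrete85.heckeAlphaBarIntegral N ℓ) (HeckeConcrete85.heckeBetaBarIntegral N ℓ)
    (HeckeInputsFinal85.fundamentalIdentityAlong_beta N ℓ) gn hsec (LemmaBInputs41.deg_eq_one N)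
    hdegb (HeckeConcrete85.finiteAlong_alpha N ℓ) (HeckeInputsFinal85.normFormulaAlong_alpha N ℓ)
    (EsFn77.Phi ℓ A (s * N)) ℓ
    (EsFn77.es_fn N s ℓ A r hr H1N hKron (HeckeConcrete85.heckeAlphaBarIntegral N ℓ)
      (HeckeConcrete85.heckeBetaBarIntegral N ℓ) (HeckeConcrete85.finiteAlong_alpha N ℓ)
      (HeckeInputsFinal85.normFormulaAlong_alpha N ℓ)) x

/-- **(ES)**: the Eichler–Shimura relation for `ρ_A` and ANY Frobenius lift `φ` at `A`. -/
theorem rhoA_es {ℓ : ℕ} (hℓ : ℓ.Prime) (hA : A.LiesOverPrime ℓ) (hℓN : ¬ ℓ ∣ N)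
    (hℓM : ¬ ℓ ∣ s * N) {φ : Kb ≃ₐ[ℚ] Kb} (hφ : A.IsFrobeniusAt φ ℓ) (x : JZero N) :
    rhoA N s A r hr hgen (φ • φ • x - heckeOperatorBar N ⟨ℓ, hℓ⟩ (φ • x) + ℓ • x) = 0 := by
  have : Fact ℓ.Prime := ⟨hℓ⟩
  haveI : CharP (kA A) ℓ := ValRing25.residueField_charP A hA
  haveI : IsAlgClosed (kA A) := ValRing25.residueField_isAlgClosed A
  haveI : PerfectRing (kA A) ℓ := inferInstance
  exact Assembly52.eichlerShimura_of_congruence (rhoA N s A r hr hgen) (fun y => φ • y)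
    (heckeOperatorBar N ⟨ℓ, hℓ⟩).toAddMonoidHom
    (DistribSMul.toAddMonoidHom _ (EsFn77.Phi ℓ A (s * N)))
    (DistribSMul.toAddMonoidHom _ (EsFn77.Phi ℓ A (s * N))⁻¹)
    (fun y => inv_smul_smul (EsFn77.Phi ℓ A (s * N)) y) ℓ
    (fun y => rhoA_frob N s A r hr hgen hA hℓM hφ y)
    (fun y => rhoA_hecke N s A r hr hgen hℓ hA hℓN hℓM y) x

/-- **(T)**: `ρ_A` is injective on prime-to-`ℓ` torsion (S18 spine at the good level `s N`). -/
theorem rhoA_torsion (hLevel : LevelStatement) {ℓ : ℕ} [Fact ℓ.Prime] (hA : A.LiesOverPrime ℓ)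
    (hpair : DescentPair s N) (hgood : GoodLevel ℓ (s * N)) (hℓM : ¬ ℓ ∣ s * N)
    (m : ℕ) (hm : ¬ ℓ ∣ m) (x : JZero N) (hmx : m • x = 0)
    (hx : rhoA N s A r hr hgen x = 0) : x = 0 := by
  have hM := Pull91.neZero_mul N s
  have hPDM := NormFrac20.hasPrincipalDivisors_bar (s * N)
  have H1 : Normalize96.HasIntegralFractions A (IsLocalRing.residue A) (s * N) :=
    NormFrac20.hasIntegralFractions hgen
      fun u _ hord => NormFrac20.const_of_ord_zero_bar (s * N) u hord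
  have H2 := P1Normalize20.reductionSurjective A (s * N)
  have H3 := FFInst30.constOfOrdZero_residueField A hA (s * N) hℓM
  obtain ⟨D, rfl⟩ := Pic0.mk_surjective x
  refine mk_eq_zero_of_mapDomain_pull_mem_principal N s hLevel Descent74.descent
    CuspInfty56.cuspInfty A hA hpair hgood hℓM r hr H1 H2 H3 m hm D hmx ?_
  have h0 : (Pic0.mk (Assembly52.redPullDegZero (Transfer87.sigma N s) (sigma_int N s) r
      (hFI_sigma N s) hr.1 D) : Pic0 (kA A) (Fk (kA A) (s * N))) = 0 := hx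
  have h1 := (QuotientAddGroup.eq_zero_iff _).mp h0
  rw [AddSubgroup.mem_addSubgroupOf] at h1
  exact h1

end OnePair

/-- the reduction inputs, as a hypothesis: the Prelude `ReductionInputsModL` at every good level -/
def RInstStatement : Prop :=
  ∀ (M ℓ : ℕ) [NeZero M] [Fact ℓ.Prime], ¬ ℓ ∣ M → GoodLevel ℓ M →
    ∀ A : ValuationSubring Kb, A.LiesOverPrime ℓ → ReductionInputsModL A M

/-- **17-A-CONCRETE**: `RhoStmt N p` from `LevelStatement` (S18 P2) and the reduction inputs at good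
levels ([R]-INST). -/
theorem rhoStmt_of_inputs (N p : ℕ) [NeZero N] (hLevel : LevelStatement) (hR : RInstStatement) :
    Reduce52.RhoStmt N p := by
  intro ℓ hℓ hℓNp A hA
  have : Fact ℓ.Prime := ⟨hℓ⟩
  have hℓN : ¬ ℓ ∣ N := fun h => hℓNp (Dvd.dvd.mul_right h p)
  have hℓp : ¬ ℓ ∣ p := fun h => hℓNp (Dvd.dvd.mul_left h N)
  obtain ⟨s, hs0, hpair, hgood, hℓM⟩ := exists_aux ℓ N hℓ hℓN
  haveI : NeZero s := ⟨hs0⟩
  haveI := Pull91.neZero_mul N s
  obtain ⟨r, hr, hgen⟩ := hR (s * N) ℓ hℓM hgood A hA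
  obtain ⟨φ, hφ⟩ := Fermat.Agent.Lib.FrobeniusExists.exists_isFrobeniusAt A hℓ hA
  refine ⟨Pic0 (kA A) (Fk (kA A) (s * N)), inferInstance, rhoA N s A r hr hgen, φ, hφ, ?_, ?_, ?_⟩
  · intro τ hτ x
    exact rhoA_inertia N s A r hr hgen hA hℓM hτ x
  · intro x
    exact rhoA_es N s A r hr hgen hℓ hA hℓN hℓM hφ x
  · rintro x ⟨n, hn⟩ hx
    exact rhoA_torsion N s A r hr hgen hLevel hA hpair hgood hℓM (p ^ n)
      (fun h => hℓp (hℓ.dvd_of_dvd_pow h)) x hn hx

/-- The frozen statement S37 from `LevelStatement` and the reduction inputs. -/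
theorem s37_of_inputs (N p : ℕ) [NeZero N] (hcomm : ModularCurve.HeckeOperatorsCommuteBar N)
    (hLevel : LevelStatement) (hR : RInstStatement) :
    letI := ModularCurve.heckeModuleBar N
    ∀ (_ : SMulCommClass (AlgebraicClosure ℚ ≃ₐ[ℚ] AlgebraicClosure ℚ) ModularCurve.HeckeAlg
        (ModularCurve.JZero N)),
      ModularCurve.SpecializationExists (K := ℚ) (L := AlgebraicClosure ℚ) N p
        (ModularCurve.JZero N) :=
  Reduce52.specializationExists_of_rho N p hcomm (rhoStmt_of_inputs N p hLevel hR)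

end Fermat.Agent.S37.Concrete77
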