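/-
S37 / [R]-INST part (iii) (helper51): the ANCHOR hypothesis `hint` of
`Deuring43.ReductionSetup` for `E = (j)_∞`, `Eb = (j̄)_∞`, from a `BridgeKernel15.Frame`.

The integrality lemma `GaussInt51.red_mem_riemannRochSpace` is stated in terms of the Prelude
`Place` API on BOTH fibres (no `RatFunc` instances, nothing assumed on the special fibre).  Its
hypotheses `Ortho` / `GaussProp` are produced here from a frame:

* `ortho_of_frame`     : `Frame.hspan` + `Frame.sum_mem_O_iff`;
* `gaussProp_of_frame` : primitive parts (`BridgeGauss15.exists_primitive_part`);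
* `anchor`             : `y ∈ L(n (j)_∞) ∩ O_F  ⟹  red y ∈ L̄(n (j̄)_∞)` for any `redM : O_F →+* Fb`
                         compatible with `Frame.rhoF` along an embedding `Fb → k((q))`;
* `anchor'`            : the same over `F'` with `hF : S.F = F'` (`LevelInst29.OF'`, `rhoF'`);
* `hint_of_frame`      : literally the field `hint` of `Deuring43.ReductionSetup`;
* `hint_of_frame_rr`   : the same with the Prelude `riemannRochSpace` (shape of `CuspSemi3`).
-/
import Mathlib
import Fermat.Agent.S18.GaussInt51.Places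
import Fermat.Agent.S18.LevelInst29
import Fermat.Agent.S18.KGauss73
import Fermat.Agent.S18.Riemann12

set_option autoImplicit false

noncomputable section

namespace Fermat.Agent.S37.Anchor51

open ModularCurve AlgebraicCurve HahnSeries Polynomial IntermediateField
open Fermat.Agent.S18 Fermat.Agent.S18.Bridge28 Fermat.Agent.S18.BridgeO15
  Fermat.Agent.S18.BridgeGauss15 Fermat.Agent.S18.BridgeKernel15 Fermat.Agent.S18.GaussInt51

section Generic

variable {L : Type*} [Field L] {A : ValuationSubring L} {ι : Type*} [Fintype ι] (S : Frame A ι)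

/-- `j` as an element of the field `S.F`. -/
def jF : S.F := ⟨S.j, S.hjF⟩

/-- the frame as a family in `S.F` -/
def bF (i : ι) : S.F := ⟨S.x i, S.hxF i⟩

theorem coe_jF : ((jF S : S.F) : LaurentSeries L) = S.j := rfl

theorem coe_bF (i : ι) : ((bF S i : S.F) : LaurentSeries L) = S.x i := rfl

theorem map_adjoin_jF : (L⟮jF S⟯).map S.F.val = L⟮S.j⟯ := by
  rw [IntermediateField.adjoin_map, Set.image_singleton]
  rfl

theorem coe_mem_adjoin {c : S.F} (hc : c ∈ L⟮jF S⟯) : (c : LaurentSeries L) ∈ L⟮S.j⟯ := by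
  rw [← map_adjoin_jF S]
  exact ⟨c, hc, rfl⟩

theorem exists_of_mem_adjoin {c : LaurentSeries L} (hc : c ∈ L⟮S.j⟯) :
    ∃ c' : L⟮jF S⟯, ((c' : S.F) : LaurentSeries L) = c := by
  rw [← map_adjoin_jF S] at hc
  obtain ⟨c', hc', rfl⟩ := hc
  exact ⟨⟨c', hc'⟩, rfl⟩

theorem coe_sum_mul (c : ι → S.F) :
    ((∑ i, c i * bF S i : S.F) : LaurentSeries L) = ∑ i, (c i : LaurentSeries L) * S.x i := by
  have h := map_sum S.F.val (fun i => c i * bF S i) Finset.univ
  simp only [map_mul] at h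
  exact h

/-- The frame is an orthonormal spanning family of `S.F` over `L(j)` w.r.t. `O_F`. -/
theorem ortho_of_frame : Ortho S.OF (L⟮jF S⟯) (bF S) where
  mem i := S.hxO i
  span z := by
    obtain ⟨c, hc, hz⟩ := S.hspan z.1 z.2
    choose c' hc' using fun i => exists_of_mem_adjoin S (hc i)
    refine ⟨c', Subtype.ext ?_⟩
    rw [coe_sum_mul S (fun i => ((c' i : L⟮jF S⟯) : S.F))]
    rw [hz]
    exact Finset.sum_congr rfl fun i _ => by rw [hc' i]
  orth c h i := by
    have h' : ∑ i, (((c i : L⟮jF S⟯) : S.F) : LaurentSeries L) * S.x i ∈ O A := by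
      rw [← coe_sum_mul S (fun i => ((c i : L⟮jF S⟯) : S.F))]
      exact (S.mem_OF_iff _).1 h
    exact (S.sum_mem_O_iff _ (fun i => coe_mem_adjoin S (c i).2)).1 h' i

theorem coe_aeval_jF (p : L[X]) :
    ((aeval (jF S) p : S.F) : LaurentSeries L) = aeval S.j p :=
  (Polynomial.aeval_algHom_apply S.F.val (jF S) p).symm

/-- Gauss property of `j`: a polynomial expression in `j` lies in `O_F` only if all its
coefficients are in `A`. -/
theorem gaussProp_of_frame : GaussProp L S.OF (jF S) := by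
  intro p hp i
  by_cases hp0 : p = 0
  · subst hp0
    rw [Polynomial.coeff_zero, map_zero]
    exact S.OF.zero_mem
  obtain ⟨c, p₀, hc, hpp, hp₀⟩ := exists_primitive_part A p hp0
  have hmem : aeval S.j p ∈ O A := by
    rw [← coe_aeval_jF S p]
    exact (S.mem_OF_iff _).1 hp
  have hev : aeval S.j p =
      HahnSeries.C c * ((evalO A S.j S.hj p₀ : O A) : LaurentSeries L) := by
    rw [coe_evalO]
    conv_lhs => rw [hpp]
    rw [map_mul, aeval_C, algebraMap_eq_C]
  have hu := rho_evalO_ne_zero A S.j S.hj S.ht hp₀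
  have hcA : c ∈ A := by
    by_contra hcA
    have hci : c⁻¹ ∈ A.nonunits := by
      rw [ValuationSubring.mem_nonunits_iff, map_inv₀]
      have h1 : ¬ A.valuation c ≤ 1 := fun h' => hcA ((A.valuation_le_one_iff c).mp h')
      exact inv_lt_one_of_one_lt₀ (not_le.mp h1)
    have h2 : evalO A S.j S.hj p₀ =
        ⟨HahnSeries.C c⁻¹, C_mem_O A (A.nonunits_subset hci)⟩ * ⟨aeval S.j p, hmem⟩ := by
      apply Subtype.ext
      simp only [Subring.coe_mul]
      rw [hev, ← mul_assoc, ← map_mul, inv_mul_cancel₀ hc, map_one, one_mul]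
    apply hu
    rw [h2]
    exact rho_C_mul_eq_zero A hci _
  rw [S.algebraMap_mem_OF_iff]
  have hco : p.coeff i = c * ((p₀.coeff i : A) : L) := by
    conv_lhs => rw [hpp]
    rw [Polynomial.coeff_C_mul, Polynomial.coeff_map]
    rfl
  rw [hco]
  exact A.mul_mem _ _ hcA (p₀.coeff i).2

theorem transcendental_jF : Transcendental L (jF S) := by
  have h := transcendental_of_rho A S.j S.hj S.ht
  rw [transcendental_iff] at h ⊢
  intro p hp
  apply h
  rw [← coe_aeval_jF S p, hp]
  rfl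

theorem jF_mem : jF S ∈ S.OF := S.hj

theorem rho_j_ne_zero : rho A ⟨S.j, S.hj⟩ ≠ 0 := fun h =>
  S.ht (h ▸ isAlgebraic_zero)

theorem jF_inv_mem : (jF S)⁻¹ ∈ S.OF := by
  rw [S.mem_OF_iff, IntermediateField.coe_inv]
  exact inv_mem_O_of_rho_ne_zero A ⟨S.j, S.hj⟩ (rho_j_ne_zero S)

variable {Fb : Type*} [Field Fb] [Algebra (IsLocalRing.ResidueField A) Fb]
  (emb : Fb →ₐ[IsLocalRing.ResidueField A] LaurentSeries (IsLocalRing.ResidueField A))
  (redM : S.OF →+* Fb) (hred : ∀ y, emb (redM y) = S.rhoF y)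

include hred in
theorem redM_const (c : L) (hc : algebraMap L S.F c ∈ S.OF) :
    redM ⟨_, hc⟩ ∈ (algebraMap (IsLocalRing.ResidueField A) Fb).range := by
  have hcA : c ∈ A := (S.algebraMap_mem_OF_iff c).1 hc
  refine ⟨IsLocalRing.residue A ⟨c, hcA⟩, emb.toRingHom.injective ?_⟩
  show emb (algebraMap _ Fb _) = emb (redM _)
  rw [AlgHom.commutes, hred, S.rhoF_apply, algebraMap_k_eq_C, ← rho_C A hcA]
  apply rho_congr
  show HahnSeries.C c = ((algebraMap L S.F c : S.F) : LaurentSeries L)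
  rw [IntermediateField.coe_algebraMap_apply, algebraMap_eq_C]

include hred in
/-- **Anchor.**  Reduction maps `L(n (j)_∞) ∩ O_F` into `L̄(n (j̄)_∞)`. -/
theorem anchor [FiniteDimensional L⟮jF S⟯ S.F] [Algebra.IsSeparable L⟮jF S⟯ S.F]
    (n : ℕ) (E : Divisor L S.F) (Eb : Divisor (IsLocalRing.ResidueField A) Fb)
    (hE : ∀ P : Place L S.F, E P = max 0 (-(P.ord (jF S))))
    (hEb : ∀ Q : Place (IsLocalRing.ResidueField A) Fb,
      Eb Q = max 0 (-(Q.ord (redM ⟨jF S, jF_mem S⟩))))
    {y : S.F} (hyO : y ∈ S.OF) (hy : y ∈ riemannRochSpace ((n : ℤ) • E)) :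
    redM ⟨y, hyO⟩ ∈ riemannRochSpace ((n : ℤ) • Eb) := by
  refine red_mem_riemannRochSpace (jF_mem S) (jF_inv_mem S) (transcendental_jF S)
    (ortho_of_frame S) redM (gaussProp_of_frame S) (redM_const S emb redM hred) n 0 _ _
    (fun P => ?_) (fun Q => ?_) hyO hy
  · rw [Finsupp.smul_apply, hE P, bound, smul_eq_mul]
    push_cast
    ring
  · rw [Finsupp.smul_apply, hEb Q, bound, smul_eq_mul]
    push_cast
    ring

end Generic

/-! ### Transport to a fixed field `F'` (`LevelInst29.OF'`, `rhoF'`) over `ℚ̄` -/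

section Transport

open Fermat.Agent.S18.Spine33 Fermat.Agent.S18.LevelInst29

variable {A : ValuationSubring Kb} {ι : Type*} [Fintype ι] (S : Frame A ι)
  (F' : IntermediateField Kb (LaurentSeries Kb)) (hF : S.F = F')

/-- `j` as an element of `F'`. -/
def jF' : F' := ⟨S.j, hF ▸ S.hjF⟩

theorem coe_jF' : ((jF' S F' hF : F') : LaurentSeries Kb) = S.j := rfl

theorem jF'_mem : jF' S F' hF ∈ OF' S F' hF := S.hj

theorem jF'_inv_mem : (jF' S F' hF)⁻¹ ∈ OF' S F' hF := by
  subst hF
  exact jF_inv_mem S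

theorem transcendental_jF' : Transcendental Kb (jF' S F' hF) := by
  subst hF
  exact transcendental_jF S

variable {Fb : Type*} [Field Fb] [Algebra (kA A) Fb]
  (emb : Fb →ₐ[kA A] LaurentSeries (kA A))

/-- **Anchor over `F'`.**  For any `redM : OF' →+* Fb` compatible with `rhoF'` along an embedding
`emb : Fb → k((q))`: reduction maps `L(n (j)_∞) ∩ O_{F'}` into `L̄(n (j̄)_∞)`. -/
theorem anchor' (redM : OF' S F' hF →+* Fb) (hred : ∀ y, emb (redM y) = rhoF' S F' hF y)
    [hfin : FiniteDimensional Kb⟮jF' S F' hF⟯ F']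
    (n : ℕ) (E : Divisor Kb F') (Eb : Divisor (kA A) Fb)
    (hE : ∀ P : Place Kb F', E P = max 0 (-(P.ord (jF' S F' hF))))
    (hEb : ∀ Q : Place (kA A) Fb,
      Eb Q = max 0 (-(Q.ord (redM ⟨jF' S F' hF, jF'_mem S F' hF⟩))))
    {y : F'} (hyO : y ∈ OF' S F' hF) (hy : y ∈ riemannRochSpace ((n : ℤ) • E)) :
    redM ⟨y, hyO⟩ ∈ riemannRochSpace ((n : ℤ) • Eb) := by
  subst hF
  haveI : FiniteDimensional Kb⟮jF S⟯ S.F := hfin
  exact anchor S emb redM hred n E Eb hE hEb hyO hy

/-- `O_{F'} ≤` the integers of its valuation. -/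
theorem OF'_le_integer :
    (OF' S F' hF).toSubring ≤ (OF' S F' hF).valuation.integer := fun y hy =>
  ((OF' S F' hF).valuation_le_one_iff y).2 hy

/-- **The field `hint` of `Deuring43.ReductionSetup`**, for `w = (OF').valuation`, any
`G : GaussData w k Fb` whose `red` is compatible with `rhoF'` along `emb`, `E = (j)_∞` and
`Eb = (G.redF j)_∞`. -/
theorem hint_of_frame
    (G : KGauss73.GaussData (L := Kb) (OF' S F' hF).valuation (kA A) Fb)
    (hG : ∀ (y : F') (h : (OF' S F' hF).valuation y ≤ 1),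
      emb (G.red ⟨y, h⟩) = rhoF' S F' hF ⟨y, ((OF' S F' hF).valuation_le_one_iff y).1 h⟩)
    [FiniteDimensional Kb⟮jF' S F' hF⟯ F']
    (E : Divisor Kb F') (Eb : Divisor (kA A) Fb)
    (hE : ∀ P : Place Kb F', E P = max 0 (-(P.ord (jF' S F' hF))))
    (hEb : ∀ Q : Place (kA A) Fb, Eb Q = max 0 (-(Q.ord (G.redF (jF' S F' hF)))))
    (n : ℕ) (y : F') (hy : y ∈ Riemann12.LSpace ((n : ℤ) • E))
    (hw : (OF' S F' hF).valuation y ≤ 1) :
    G.redF y ∈ Riemann12.LSpace ((n : ℤ) • Eb) := by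
  rw [Riemann12.LSpace_eq_riemannRochSpace] at hy ⊢
  set redM : OF' S F' hF →+* Fb := G.red.comp (Subring.inclusion (OF'_le_integer S F' hF))
    with hredM
  have hred : ∀ y, emb (redM y) = rhoF' S F' hF y := fun y =>
    hG (y : F') (((OF' S F' hF).valuation_le_one_iff _).2 y.2)
  have hyO : y ∈ OF' S F' hF := ((OF' S F' hF).valuation_le_one_iff y).1 hw
  have hj : G.redF (jF' S F' hF) = redM ⟨jF' S F' hF, jF'_mem S F' hF⟩ :=
    G.redF_of_le (((OF' S F' hF).valuation_le_one_iff _).2 (jF'_mem S F' hF))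
  have h := anchor' S F' hF emb redM hred n E Eb hE (fun Q => by rw [hEb Q, hj]) hyO hy
  rw [G.redF_of_le hw]
  exact h

/-- The same in terms of the Prelude `riemannRochSpace` (the shape of the `hint` hypothesis of
`CuspSemi3.card_add_dwGenus_le`, once `E`, `Eb` are the pole divisors of `j`, `j̄`). -/
theorem hint_of_frame_rr
    (G : KGauss73.GaussData (L := Kb) (OF' S F' hF).valuation (kA A) Fb)
    (hG : ∀ (y : F') (h : (OF' S F' hF).valuation y ≤ 1),
      emb (G.red ⟨y, h⟩) = rhoF' S F' hF ⟨y, ((OF' S F' hF).valuation_le_one_iff y).1 h⟩)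
    [FiniteDimensional Kb⟮jF' S F' hF⟯ F']
    (E : Divisor Kb F') (Eb : Divisor (kA A) Fb)
    (hE : ∀ P : Place Kb F', E P = max 0 (-(P.ord (jF' S F' hF))))
    (hEb : ∀ Q : Place (kA A) Fb, Eb Q = max 0 (-(Q.ord (G.redF (jF' S F' hF)))))
    (n : ℕ) (y : F') (hy : y ∈ riemannRochSpace ((n : ℤ) • E))
    (hw : (OF' S F' hF).valuation y ≤ 1) :
    G.redF y ∈ riemannRochSpace ((n : ℤ) • Eb) := by
  rw [← Riemann12.LSpace_eq_riemannRochSpace] at hy ⊢
  exact hint_of_frame S F' hF emb G hG E Eb hE hEb n y hy hw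

end Transport

end Fermat.Agent.S37.Anchor51
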