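/-
S37 moonshot, package [R]-ABS (helper43): abstract DEURING REDUCTION of divisors.

Data: a function field `F/L` (generic fibre) and a function field `Fb/k` (special fibre), both with
the Prelude `Place`/`Divisor` API, principal divisors and Riemann's theorem with the SAME genus `g`;
a valuation `w` on `F` with reduction data `G : KGauss73.GaussData w k Fb` (reduction map with kernel
`{w < 1}` + the lattice lemma); and ONE anchor pair of divisors `E` of `F`, `Eb` of `Fb` of equal
positive degree such that integral elements of `L(nE)` reduce into `Lbar(n Eb)`.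

Output: a map `r : Place L F → Place k Fb` with `(r P).deg = P.deg`, with
`red (L(D) ∩ O_w) = Lbar(r_* D)` for all divisors of large degree, and with conservation
`r_* (div f) = div (red f)` for `w f = 1`.

No norms, no models, no generic elements: the degree bound comes from the complement trick
`L(D) * L(nE - D) ⊂ L(nE)`.
-/
import Mathlib
import Fermat.Agent.S18.KGauss73
import Fermat.Agent.S18.Riemann12
import Fermat.Prelude.Def_AlgebraicCurve_BaseChangeGalois

set_option autoImplicit false
set_option linter.style.haveILetI false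

open AlgebraicCurve

namespace Fermat.Agent.S37.Deuring43

open Fermat.Agent.S18.Riemann12 Fermat.Agent.S18.KGauss73 Fermat.Agent.S24.FF

/-! ### Part 1: the pole-sup of a finite-dimensional space of functions -/

section PoleSup

variable {K F : Type*} [Field K] [Field F] [Algebra K F]

/-- products of elements of `L(G)`, `L(G')` lie in `L(G + G')` -/
theorem mul_mem_LSpace {G G' : Divisor K F} {y y' : F} (hy : y ∈ LSpace G) (hy' : y' ∈ LSpace G') :
    y * y' ∈ LSpace (G + G') := by
  rcases eq_or_ne y 0 with rfl | hy0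
  · rw [zero_mul]; exact zero_mem _
  rcases eq_or_ne y' 0 with rfl | hy0'
  · rw [mul_zero]; exact zero_mem _
  rw [mem_LSpace_of_ne_zero (mul_ne_zero hy0 hy0')]
  intro v
  have h1 := (mem_LSpace_of_ne_zero hy0).1 hy v
  have h2 := (mem_LSpace_of_ne_zero hy0').1 hy' v
  rw [v.ord_mul hy0 hy0', Finsupp.add_apply]
  omega

/-- `G` is the pole-sup of the space `U`: `U ⊂ L(G)`, and at every place the bound is attained by
a nonzero element of `U`. -/
structure IsPoleSup (U : Submodule K F) (G : Divisor K F) : Prop where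
  le : U ≤ LSpace G
  attained : ∀ Q : Place K F, ∃ z ∈ U, z ≠ 0 ∧ Q.ord z = -G Q

namespace IsPoleSup

variable {U U' : Submodule K F} {G G' H : Divisor K F}

theorem le_of_le (h : IsPoleSup U G) (hH : U ≤ LSpace H) : G ≤ H := by
  rw [Finsupp.le_def]
  intro Q
  obtain ⟨z, hzU, hz0, hz⟩ := h.attained Q
  have := (mem_LSpace_of_ne_zero hz0).1 (hH hzU) Q
  omega

theorem unique (h : IsPoleSup U G) (h' : IsPoleSup U G') : G = G' :=
  le_antisymm (h.le_of_le h'.le) (h'.le_of_le h.le)

theorem mono (h : IsPoleSup U G) (h' : IsPoleSup U' G') (hUU' : U ≤ U') : G ≤ G' :=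
  h.le_of_le (hUU'.trans h'.le)

theorem ne_bot (h : IsPoleSup U G) [Nonempty (Place K F)] : U ≠ ⊥ := by
  obtain ⟨z, hzU, hz0, -⟩ := h.attained (Classical.arbitrary _)
  intro hU
  rw [hU, Submodule.mem_bot] at hzU
  exact hz0 hzU

/-- binary sups -/
theorem sup (h : IsPoleSup U G) (h' : IsPoleSup U' G') : IsPoleSup (U ⊔ U') (G ⊔ G') := by
  refine ⟨sup_le (h.le.trans (LSpace_mono le_sup_left)) (h'.le.trans (LSpace_mono le_sup_right)),
    fun Q => ?_⟩
  rcases le_total (G Q) (G' Q) with hle | hle
  · obtain ⟨z, hzU, hz0, hz⟩ := h'.attained Q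
    refine ⟨z, Submodule.mem_sup_right hzU, hz0, ?_⟩
    rw [hz, Finsupp.sup_apply, sup_eq_right.2 hle]
  · obtain ⟨z, hzU, hz0, hz⟩ := h.attained Q
    refine ⟨z, Submodule.mem_sup_left hzU, hz0, ?_⟩
    rw [hz, Finsupp.sup_apply, sup_eq_left.2 hle]

/-- products: if `U * U' ⊂ L(H)` then `G + G' ≤ H` -/
theorem add_le_of_mul_mem (h : IsPoleSup U G) (h' : IsPoleSup U' G')
    (hmul : ∀ z ∈ U, ∀ z' ∈ U', z * z' ∈ LSpace H) : G + G' ≤ H := by
  rw [Finsupp.le_def]
  intro Q
  obtain ⟨z, hzU, hz0, hz⟩ := h.attained Q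
  obtain ⟨z', hzU', hz0', hz'⟩ := h'.attained Q
  have := (mem_LSpace_of_ne_zero (mul_ne_zero hz0 hz0')).1 (hmul z hzU z' hzU') Q
  rw [Q.ord_mul hz0 hz0'] at this
  rw [Finsupp.add_apply]
  omega

end IsPoleSup

variable [HasPrincipalDivisors K F]

theorem isPoleSup_span_singleton {z : F} (hz : z ≠ 0) :
    IsPoleSup (K ∙ z) (-(divOf z : Divisor K F)) := by
  refine ⟨?_, fun Q => ⟨z, Submodule.mem_span_singleton_self z, hz, ?_⟩⟩
  · rw [Submodule.span_singleton_le_iff_mem, mem_LSpace_of_ne_zero hz]
    intro v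
    rw [Finsupp.neg_apply, divOf_apply hz]
    omega
  · rw [Finsupp.neg_apply, divOf_apply hz, neg_neg]

/-- a finitely generated nonzero space has a pole-sup -/
theorem exists_isPoleSup_span {ι : Type*} (s : Finset ι) (hs : s.Nonempty) (z : ι → F)
    (hz : ∀ i ∈ s, z i ≠ 0) :
    ∃ G : Divisor K F, IsPoleSup (Submodule.span K (z '' (s : Set ι))) G := by
  classical
  induction hs using Finset.Nonempty.cons_induction with
  | singleton i =>
    refine ⟨-(divOf (z i) : Divisor K F), ?_⟩
    rw [Finset.coe_singleton, Set.image_singleton]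
    exact isPoleSup_span_singleton (hz i (Finset.mem_singleton_self i))
  | cons i s hi hs ih =>
    obtain ⟨G, hG⟩ := ih fun j hj => hz j (Finset.mem_cons_of_mem hj)
    refine ⟨-(divOf (z i) : Divisor K F) ⊔ G, ?_⟩
    rw [Finset.coe_cons, Set.image_insert_eq, Submodule.span_insert]
    exact (isPoleSup_span_singleton (hz i (Finset.mem_cons_self i s))).sup hG

theorem exists_isPoleSup (U : Submodule K F) [Module.Finite K U] (hU : U ≠ ⊥) :
    ∃ G : Divisor K F, IsPoleSup U G := by
  classical
  set n := Module.finrank K U with hn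
  have b : Module.Basis (Fin n) K U := Module.finBasis K U
  have hnpos : 0 < n := by
    rw [hn]
    exact Module.finrank_pos_iff_exists_ne_zero.2 (by
      obtain ⟨x, hxU, hx0⟩ := (Submodule.ne_bot_iff U).1 hU
      exact ⟨⟨x, hxU⟩, fun h => hx0 (congrArg Subtype.val h)⟩)
  have : Nonempty (Fin n) := ⟨⟨0, hnpos⟩⟩
  obtain ⟨G, hG⟩ := exists_isPoleSup_span (K := K) (Finset.univ : Finset (Fin n))
    Finset.univ_nonempty (fun i => (b i : F)) (fun i _ h => b.ne_zero i (Subtype.ext h))
  refine ⟨G, ?_⟩
  have hspan : Submodule.span K ((fun i => (b i : F)) '' ((Finset.univ : Finset (Fin n)) : Set (Fin n)))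
      = U := by
    rw [Finset.coe_univ, Set.image_univ]
    have h1 : Set.range (fun i => (b i : F)) = U.subtype '' Set.range b := by
      rw [← Set.range_comp]; rfl
    rw [h1, Submodule.span_image, b.span_eq, Submodule.map_top, Submodule.range_subtype]
  rwa [hspan] at hG

/-- scaling by a nonzero function shifts the pole-sup by its divisor -/
theorem IsPoleSup.mulLeft {U : Submodule K F} {G : Divisor K F} (h : IsPoleSup U G) {f : F}
    (hf : f ≠ 0) : IsPoleSup (U.map (LinearMap.mulLeft K f)) (G - divOf f) := by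
  refine ⟨?_, fun Q => ?_⟩
  · rintro _ ⟨z, hzU, rfl⟩
    rw [LinearMap.mulLeft_apply]
    rcases eq_or_ne z 0 with rfl | hz0
    · rw [mul_zero]; exact zero_mem _
    rw [mem_LSpace_of_ne_zero (mul_ne_zero hf hz0)]
    intro v
    have := (mem_LSpace_of_ne_zero hz0).1 (h.le hzU) v
    rw [v.ord_mul hf hz0, Finsupp.sub_apply, divOf_apply hf]
    omega
  · obtain ⟨z, hzU, hz0, hz⟩ := h.attained Q
    refine ⟨f * z, ⟨z, hzU, rfl⟩, mul_ne_zero hf hz0, ?_⟩
    rw [Q.ord_mul hf hz0, hz, Finsupp.sub_apply, divOf_apply hf]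
    omega

end PoleSup


/-! ### Part 2: divisors — strict monotonicity of the degree -/

section DegreeLemmas

variable {K F : Type*} [Field K] [Field F] [Algebra K F]

theorem deg_pos_of_finite (v : Place K F) [Module.Finite K v.ResidueField] : 0 < v.deg :=
  Module.finrank_pos

/-- `G ≤ H` with equal degrees forces `G = H` (all places have positive degree). -/
theorem eq_of_le_of_degree_eq (hres : ∀ v : Place K F, Module.Finite K v.ResidueField)
    {G H : Divisor K F} (hle : G ≤ H) (hdeg : Divisor.degree G = Divisor.degree H) : G = H := by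
  by_contra hne
  obtain ⟨v, hv⟩ : ∃ v, G v ≠ H v := by
    by_contra hcon
    exact hne (Finsupp.ext fun v => not_not.1 fun h => hcon ⟨v, h⟩)
  have hlt : G v < H v := lt_of_le_of_ne (hle v) hv
  have hle' : G + Finsupp.single v 1 ≤ H := by
    intro u
    rw [Finsupp.add_apply]
    by_cases hu : u = v
    · subst hu
      rw [Finsupp.single_eq_same]
      omega
    · rw [Finsupp.single_eq_of_ne hu, add_zero]
      exact hle u
  have h1 := degree_mono hle'
  rw [map_add, Divisor.degree_single, one_mul] at h1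
  haveI := hres v
  have h2 : (0 : ℤ) < (v.deg : ℤ) := by exact_mod_cast deg_pos_of_finite v
  omega

/-- an effective divisor of degree one is a single place of degree one -/
theorem exists_eq_single_of_degree_one (hres : ∀ v : Place K F, Module.Finite K v.ResidueField)
    {T : Divisor K F} (h0 : 0 ≤ T) (h1 : Divisor.degree T = 1) :
    ∃ Q : Place K F, T = Finsupp.single Q 1 ∧ Q.deg = 1 := by
  have hne : T ≠ 0 := by
    rintro rfl
    rw [map_zero] at h1
    exact zero_ne_one h1
  obtain ⟨Q, hQ⟩ : ∃ Q, T Q ≠ 0 := by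
    by_contra hcon
    exact hne (Finsupp.ext fun v => not_not.1 fun h => hcon ⟨v, h⟩)
  have hQ1 : 1 ≤ T Q := by
    have := h0 Q
    rw [Finsupp.zero_apply] at this
    omega
  have hle : Finsupp.single Q 1 ≤ T := by
    intro u
    by_cases hu : u = Q
    · subst hu
      rw [Finsupp.single_eq_same]; exact hQ1
    · rw [Finsupp.single_eq_of_ne hu]
      exact h0 u
  have h2 := degree_mono hle
  rw [Divisor.degree_single, one_mul, h1] at h2
  haveI := hres Q
  have h3 : 0 < Q.deg := deg_pos_of_finite Q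
  have h4 : Q.deg = 1 := by
    have : (Q.deg : ℤ) ≤ 1 := h2
    omega
  refine ⟨Q, (eq_of_le_of_degree_eq hres hle ?_).symm, h4⟩
  rw [Divisor.degree_single, one_mul, h1, h4]
  rfl

end DegreeLemmas

/-! ### Part 3: the reduced spaces `V_D = red (L(D) ∩ O_w)` -/

section RedSpace

variable {L F k Fb Γ₀ : Type*} [Field L] [Field F] [Algebra L F] [Field k] [Field Fb]
  [Algebra k Fb] [LinearOrderedCommGroupWithZero Γ₀]
variable {w : Valuation F Γ₀} (G : GaussData (L := L) w k Fb)

/-- the reduction of the lattice `L(D) ∩ O_w` -/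
def redSpace (D : Divisor L F) : Submodule k Fb where
  carrier := {z | ∃ y ∈ LSpace D, w y ≤ 1 ∧ G.redF y = z}
  zero_mem' := ⟨0, zero_mem _, by simp, G.redF_zero⟩
  add_mem' := by
    rintro _ _ ⟨y, hy, hy1, rfl⟩ ⟨y', hy', hy1', rfl⟩
    exact ⟨y + y', add_mem hy hy', (w.map_add _ _).trans (max_le hy1 hy1'), G.redF_add hy1 hy1'⟩
  smul_mem' := by
    rintro a _ ⟨y, hy, hy1, rfl⟩
    obtain ⟨c, hc1, rfl⟩ := G.exists_resL_eq a
    exact ⟨c • y, Submodule.smul_mem _ c hy, GaussData.smul_le_one hc1 hy1, G.redF_smul hc1 hy1⟩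

theorem mem_redSpace {D : Divisor L F} {z : Fb} :
    z ∈ redSpace G D ↔ ∃ y ∈ LSpace D, w y ≤ 1 ∧ G.redF y = z := Iff.rfl

theorem redF_mem_redSpace {D : Divisor L F} {y : F} (hy : y ∈ LSpace D) (hy1 : w y ≤ 1) :
    G.redF y ∈ redSpace G D := ⟨y, hy, hy1, rfl⟩

theorem redSpace_mono {D D' : Divisor L F} (h : D ≤ D') : redSpace G D ≤ redSpace G D' := by
  rintro _ ⟨y, hy, hy1, rfl⟩
  exact ⟨y, LSpace_mono h hy, hy1, rfl⟩

theorem mul_mem_redSpace {D D' : Divisor L F} {z z' : Fb} (hz : z ∈ redSpace G D)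
    (hz' : z' ∈ redSpace G D') : z * z' ∈ redSpace G (D + D') := by
  obtain ⟨y, hy, hy1, rfl⟩ := hz
  obtain ⟨y', hy', hy1', rfl⟩ := hz'
  refine ⟨y * y', mul_mem_LSpace hy hy', ?_, G.redF_mul hy1 hy1'⟩
  rw [map_mul]
  exact mul_le_one' hy1 hy1'

/-- `dim_k V_D = dim_L L(D)` (the lattice lemma) -/
theorem finite_and_finrank_redSpace (D : Divisor L F) [Module.Finite L (LSpace D)] :
    Module.Finite k (redSpace G D) ∧ Module.finrank k (redSpace G D) = ell D := by
  obtain ⟨n, g, hgV, hg1, hgen, hortho⟩ := G.lattice (LSpace D) inferInstance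
  have hli : LinearIndependent L g := linearIndependent_of_ortho hortho
  have hfr : Module.finrank L (LSpace D) = n := by
    rw [← span_eq_of_generates hgV hgen, finrank_span_eq_card hli, Fintype.card_fin]
  have hlib : LinearIndependent k (fun j => G.redF (g j)) :=
    linearIndependent_red_of_ortho G hg1 hortho
  have hspan : redSpace G D = Submodule.span k (Set.range fun j => G.redF (g j)) := by
    apply le_antisymm
    · rintro _ ⟨y, hy, hy1, rfl⟩
      obtain ⟨c, rfl⟩ := hgen y hy
      have hc1 : ∀ j, w (algebraMap L F (c j)) ≤ 1 := fun j => (hortho c j).trans hy1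
      rw [G.redF_sum hc1 hg1]
      exact Submodule.sum_mem _ fun j _ =>
        Submodule.smul_mem _ _ (Submodule.subset_span ⟨j, rfl⟩)
    · rw [Submodule.span_le]
      rintro _ ⟨j, rfl⟩
      exact redF_mem_redSpace G (hgV j) (hg1 j)
  rw [hspan]
  refine ⟨Module.Finite.span_of_finite k (Set.finite_range _), ?_⟩
  rw [finrank_span_eq_card hlib, Fintype.card_fin]
  unfold ell
  exact hfr.symm

variable [HasPrincipalDivisors L F]

theorem ne_zero_of_val_eq_one {f : F} (hf : w f = 1) : f ≠ 0 := by
  rintro rfl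
  rw [map_zero] at hf
  exact zero_ne_one hf

theorem self_mem_LSpace_neg_divOf {f : F} (hf : f ≠ 0) : f ∈ LSpace (-(divOf f : Divisor L F)) := by
  rw [mem_LSpace_of_ne_zero hf]
  intro v
  rw [Finsupp.neg_apply, divOf_apply hf]
  omega

theorem inv_mem_LSpace_divOf {f : F} (hf : f ≠ 0) : f⁻¹ ∈ LSpace (divOf f : Divisor L F) := by
  rw [mem_LSpace_of_ne_zero (inv_ne_zero hf)]
  intro v
  rw [divOf_apply hf, v.ord_inv]
  omega

/-- multiplication by a unit `f` of `O_w` : `V_(D - div f) = fbar * V_D` -/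
theorem redSpace_sub_divOf (D : Divisor L F) {f : F} (hf : w f = 1) :
    redSpace G (D - divOf f) = (redSpace G D).map (LinearMap.mulLeft k (G.redF f)) := by
  have hf0 : f ≠ 0 := ne_zero_of_val_eq_one hf
  have hfi : w f⁻¹ = 1 := by rw [map_inv₀, hf, inv_one]
  ext z
  constructor
  · rintro ⟨y', hy', hy1', rfl⟩
    have hy : f⁻¹ * y' ∈ LSpace D := by
      have := mul_mem_LSpace (inv_mem_LSpace_divOf (L := L) hf0) hy'
      rwa [add_sub_cancel] at this
    have hy1 : w (f⁻¹ * y') ≤ 1 := by rw [map_mul, hfi, one_mul]; exact hy1'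
    refine ⟨G.redF (f⁻¹ * y'), redF_mem_redSpace G hy hy1, ?_⟩
    rw [LinearMap.mulLeft_apply, ← G.redF_mul hf.le hy1, mul_inv_cancel_left₀ hf0]
  · rintro ⟨_, ⟨y, hy, hy1, rfl⟩, rfl⟩
    rw [LinearMap.mulLeft_apply, ← G.redF_mul hf.le hy1]
    refine redF_mem_redSpace G ?_ (by rw [map_mul, hf, one_mul]; exact hy1)
    have := mul_mem_LSpace (self_mem_LSpace_neg_divOf (L := L) hf0) hy
    rwa [neg_add_eq_sub] at this

end RedSpace


/-! ### Part 4: the main theorem — `V_D = Lbar(Dbar)` with `deg Dbar = deg D` -/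

section Main

variable {L F k Fb Γ₀ : Type*} [Field L] [Field F] [Algebra L F] [Field k] [Field Fb]
  [Algebra k Fb] [LinearOrderedCommGroupWithZero Γ₀]
variable {w : Valuation F Γ₀} (G : GaussData (L := L) w k Fb)
variable [HasPrincipalDivisors L F] [HasPrincipalDivisors k Fb]

/-- All the inputs of the abstract Deuring reduction. -/
structure ReductionSetup (g : ℤ) (E : Divisor L F) (Eb : Divisor k Fb) : Prop where
  /-- function-field facts, generic fibre -/
  ffL : FFFacts L F
  /-- function-field facts, special fibre -/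
  ffk : FFFacts k Fb
  /-- Riemann's theorem on the generic fibre -/
  genusL : IsRiemannGenus L F g
  /-- Riemann's theorem on the special fibre, with THE SAME genus -/
  genusk : IsRiemannGenus k Fb g
  /-- the anchor divisor has positive degree -/
  deg_pos : 0 < Divisor.degree E
  /-- the anchor divisors have the same degree -/
  deg_eq : Divisor.degree Eb = Divisor.degree E
  /-- the integrality lemma for the anchor -/
  hint : ∀ (n : ℕ) (y : F), y ∈ LSpace ((n : ℤ) • E) → w y ≤ 1 →
    G.redF y ∈ LSpace ((n : ℤ) • Eb)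

variable {G}
variable {g : ℤ} {E : Divisor L F} {Eb : Divisor k Fb}

/-- the explicit threshold -/
noncomputable def threshold (cF cb g z₀ : ℤ) : ℤ := max (max cF g) (max (cb + g + z₀) 0)

omit [HasPrincipalDivisors L F] in
theorem ReductionSetup.half (S : ReductionSetup G g E Eb) {cF cb : ℤ}
    (hcF : ∀ D : Divisor L F, cF ≤ Divisor.degree D → (ell D : ℤ) = Divisor.degree D + 1 - g)
    (hcb : ∀ D : Divisor k Fb, cb ≤ Divisor.degree D → (ell D : ℤ) = Divisor.degree D + 1 - g)
    {D : Divisor L F}
    (hD : threshold cF cb g (ell (0 : Divisor k Fb)) ≤ Divisor.degree D)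
    {Gb : Divisor k Fb} (hG : IsPoleSup (redSpace G D) Gb) :
    Divisor.degree D ≤ Divisor.degree Gb ∧
      (ell Gb : ℤ) = Divisor.degree Gb + 1 - g ∧
      (Module.finrank k (redSpace G D) : ℤ) = Divisor.degree D + 1 - g := by
  have h1 : cF ≤ Divisor.degree D := le_trans (le_trans (le_max_left _ _) (le_max_left _ _)) hD
  have h2 : g ≤ Divisor.degree D := le_trans (le_trans (le_max_right _ _) (le_max_left _ _)) hD
  have h3 : cb + g + (ell (0 : Divisor k Fb) : ℤ) ≤ Divisor.degree D :=
    le_trans (le_trans (le_max_left _ _) (le_max_right _ _)) hD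
  haveI := S.ffL.finite_LSpace D
  obtain ⟨hfin, hrank⟩ := finite_and_finrank_redSpace G D
  have hell := hcF D h1
  haveI := S.ffk.finite_LSpace Gb
  have hmono : Module.finrank k (redSpace G D) ≤ ell Gb := Submodule.finrank_mono hG.le
  have hpos : 0 < ell Gb := by
    have : (0 : ℤ) < (ell Gb : ℤ) := by
      have h5 : (Module.finrank k (redSpace G D) : ℤ) ≤ (ell Gb : ℤ) := by exact_mod_cast hmono
      rw [hrank, hell] at h5
      omega
    exact_mod_cast this
  obtain ⟨z, hz0, hz⟩ := S.ffk.exists_ne_zero_of_ell_pos hpos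
  have hdeg0 : 0 ≤ Divisor.degree Gb := degree_nonneg_of_mem hz0 hz
  have hup := S.ffk.ell_le_degree_add Gb hdeg0
  have h5 : (Module.finrank k (redSpace G D) : ℤ) ≤ (ell Gb : ℤ) := by exact_mod_cast hmono
  rw [hrank, hell] at h5
  have hcbG : cb ≤ Divisor.degree Gb := by omega
  have hellG := hcb Gb hcbG
  refine ⟨by omega, hellG, ?_⟩
  rw [hrank, hell]

omit [HasPrincipalDivisors L F] in
/-- **Theorem A**: for `deg D` large, the pole-sup `Gb` of `V_D` has `deg Gb = deg D` and
`V_D = Lbar(Gb)`. -/
theorem ReductionSetup.main (S : ReductionSetup G g E Eb) {cF cb : ℤ}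
    (hcF : ∀ D : Divisor L F, cF ≤ Divisor.degree D → (ell D : ℤ) = Divisor.degree D + 1 - g)
    (hcb : ∀ D : Divisor k Fb, cb ≤ Divisor.degree D → (ell D : ℤ) = Divisor.degree D + 1 - g)
    {D : Divisor L F}
    (hD : threshold cF cb g (ell (0 : Divisor k Fb)) ≤ Divisor.degree D)
    {Gb : Divisor k Fb} (hG : IsPoleSup (redSpace G D) Gb) :
    Divisor.degree Gb = Divisor.degree D ∧ redSpace G D = LSpace Gb := by
  set c₁ := threshold cF cb g (ell (0 : Divisor k Fb)) with hc₁
  have hc₁0 : 0 ≤ c₁ := le_trans (le_max_right _ _) (le_max_right _ _)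
  have hc₁g : g ≤ c₁ := le_trans (le_max_right _ _) (le_max_left _ _)
  -- the complementary divisor
  set n : ℕ := (c₁ + Divisor.degree D).toNat with hn
  have hnle : c₁ + Divisor.degree D ≤ (n : ℤ) := Int.self_le_toNat _
  set D' : Divisor L F := (n : ℤ) • E - D with hD'
  have hdegD' : Divisor.degree D' = (n : ℤ) * Divisor.degree E - Divisor.degree D := by
    rw [hD', map_sub, map_zsmul, smul_eq_mul]
  have hE1 : 1 ≤ Divisor.degree E := S.deg_pos
  have hD'c : c₁ ≤ Divisor.degree D' := by
    rw [hdegD']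
    have : (n : ℤ) ≤ (n : ℤ) * Divisor.degree E := by
      have hn0 : (0 : ℤ) ≤ (n : ℤ) := Int.natCast_nonneg _
      nlinarith
    omega
  -- its reduced space is nonzero and finite-dimensional
  haveI := S.ffL.finite_LSpace D'
  obtain ⟨hfin', hrank'⟩ := finite_and_finrank_redSpace G D'
  have hne' : redSpace G D' ≠ ⊥ := by
    intro hbot
    have h0 : Module.finrank k (redSpace G D') = 0 := by rw [hbot]; exact finrank_bot k Fb
    have hcF' : cF ≤ Divisor.degree D' :=
      le_trans (le_trans (le_max_left _ _) (le_max_left _ _)) hD'c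
    have := hcF D' hcF'
    rw [h0] at hrank'
    rw [← hrank'] at this
    push_cast at this
    omega
  obtain ⟨Gb', hG'⟩ := exists_isPoleSup (redSpace G D') hne'
  -- the complement trick
  have hsum : Gb + Gb' ≤ (n : ℤ) • Eb := by
    refine hG.add_le_of_mul_mem hG' ?_
    rintro _ ⟨y, hy, hy1, rfl⟩ _ ⟨y', hy', hy1', rfl⟩
    rw [← G.redF_mul hy1 hy1']
    refine S.hint n (y * y') ?_ (by rw [map_mul]; exact mul_le_one' hy1 hy1')
    have := mul_mem_LSpace hy hy'
    rwa [hD', add_sub_cancel] at this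
  have hsumdeg := degree_mono hsum
  rw [map_add, map_zsmul, smul_eq_mul, S.deg_eq] at hsumdeg
  obtain ⟨hle, hellG, hrk⟩ := S.half hcF hcb hD hG
  obtain ⟨hle', -, -⟩ := S.half hcF hcb hD'c hG'
  have hdegG : Divisor.degree Gb = Divisor.degree D := by omega
  refine ⟨hdegG, ?_⟩
  haveI := S.ffk.finite_LSpace Gb
  refine Submodule.eq_of_le_of_finrank_eq hG.le ?_
  have : (Module.finrank k (redSpace G D) : ℤ) = (Module.finrank k (LSpace Gb) : ℤ) := by
    rw [hrk]
    have : (ell Gb : ℤ) = (Module.finrank k (LSpace Gb) : ℤ) := rfl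
    rw [← this, hellG, hdegG]
  exact_mod_cast this

end Main


/-! ### Part 5: the reduction of divisors of large degree -/

section RedDiv

variable {L F k Fb Γ₀ : Type*} [Field L] [Field F] [Algebra L F] [Field k] [Field Fb]
  [Algebra k Fb] [LinearOrderedCommGroupWithZero Γ₀]
variable {w : Valuation F Γ₀} (G : GaussData (L := L) w k Fb)

open Classical in
/-- the reduction of a divisor: the pole-sup of `V_D` (junk value `0` if it does not exist) -/
noncomputable def redDiv (D : Divisor L F) : Divisor k Fb :=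
  if h : ∃ Gb, IsPoleSup (redSpace G D) Gb then h.choose else 0

/-- `c₁` is a good threshold: Theorem A holds in degrees `≥ c₁`. -/
structure IsThreshold (c₁ : ℤ) : Prop where
  nonneg : 0 ≤ c₁
  exists_poleSup : ∀ D : Divisor L F, c₁ ≤ Divisor.degree D → ∃ Gb, IsPoleSup (redSpace G D) Gb
  deg_eq : ∀ D : Divisor L F, c₁ ≤ Divisor.degree D → ∀ Gb, IsPoleSup (redSpace G D) Gb →
    Divisor.degree Gb = Divisor.degree D
  space_eq : ∀ D : Divisor L F, c₁ ≤ Divisor.degree D → ∀ Gb, IsPoleSup (redSpace G D) Gb →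
    redSpace G D = LSpace Gb

variable {G}

namespace IsThreshold

variable {c₁ : ℤ} (hT : IsThreshold G c₁)
include hT

theorem isPoleSup_redDiv {D : Divisor L F} (hD : c₁ ≤ Divisor.degree D) :
    IsPoleSup (redSpace G D) (redDiv G D) := by
  have h := hT.exists_poleSup D hD
  rw [redDiv, dif_pos h]
  exact h.choose_spec

theorem degree_redDiv {D : Divisor L F} (hD : c₁ ≤ Divisor.degree D) :
    Divisor.degree (redDiv G D) = Divisor.degree D :=
  hT.deg_eq D hD _ (hT.isPoleSup_redDiv hD)

theorem redSpace_eq {D : Divisor L F} (hD : c₁ ≤ Divisor.degree D) :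
    redSpace G D = LSpace (redDiv G D) :=
  hT.space_eq D hD _ (hT.isPoleSup_redDiv hD)

theorem redDiv_mono {D D' : Divisor L F} (hD : c₁ ≤ Divisor.degree D) (hle : D ≤ D') :
    redDiv G D ≤ redDiv G D' :=
  (hT.isPoleSup_redDiv hD).mono (hT.isPoleSup_redDiv (hD.trans (degree_mono hle)))
    (redSpace_mono G hle)

theorem redDiv_add (hres : ∀ v : Place k Fb, Module.Finite k v.ResidueField)
    {D D' : Divisor L F} (hD : c₁ ≤ Divisor.degree D)
    (hD' : c₁ ≤ Divisor.degree D') : redDiv G (D + D') = redDiv G D + redDiv G D' := by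
  have hDD' : c₁ ≤ Divisor.degree (D + D') := by
    rw [map_add]
    have := hT.nonneg
    omega
  have hle : redDiv G D + redDiv G D' ≤ redDiv G (D + D') := by
    refine (hT.isPoleSup_redDiv hD).add_le_of_mul_mem (hT.isPoleSup_redDiv hD') ?_
    intro z hz z' hz'
    exact (hT.isPoleSup_redDiv hDD').le (mul_mem_redSpace G hz hz')
  refine (eq_of_le_of_degree_eq hres hle ?_).symm
  rw [map_add, hT.degree_redDiv hD, hT.degree_redDiv hD', hT.degree_redDiv hDD', map_add]

theorem redDiv_sub_divOf [HasPrincipalDivisors L F] [HasPrincipalDivisors k Fb]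
    {D : Divisor L F} (hD : c₁ ≤ Divisor.degree D) {f : F} (hf : w f = 1) :
    redDiv G (D - divOf f) = redDiv G D - divOf (G.redF f) := by
  have hD' : c₁ ≤ Divisor.degree (D - divOf f) := by
    rw [map_sub, degree_divOf, sub_zero]; exact hD
  have hfb : G.redF f ≠ 0 := by
    intro h0
    have := (G.redF_eq_zero_iff hf.le).1 h0
    rw [hf] at this
    exact lt_irrefl _ this
  have h1 := (hT.isPoleSup_redDiv hD).mulLeft hfb
  rw [← redSpace_sub_divOf G D hf] at h1
  exact (hT.isPoleSup_redDiv hD').unique h1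

end IsThreshold

end RedDiv

/-! ### Part 6: existence of thresholds and construction of the place reduction -/

section Construction

variable {L F k Fb Γ₀ : Type*} [Field L] [Field F] [Algebra L F] [Field k] [Field Fb]
  [Algebra k Fb] [LinearOrderedCommGroupWithZero Γ₀]
variable {w : Valuation F Γ₀} {G : GaussData (L := L) w k Fb}
variable [HasPrincipalDivisors L F] [HasPrincipalDivisors k Fb]
variable {g : ℤ} {E : Divisor L F} {Eb : Divisor k Fb}

omit [HasPrincipalDivisors L F] in
theorem ReductionSetup.exists_isThreshold (S : ReductionSetup G g E Eb) :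
    ∃ c₁ : ℤ, IsThreshold G c₁ := by
  obtain ⟨cF, hcF⟩ := S.genusL.2
  obtain ⟨cb, hcb⟩ := S.genusk.2
  refine ⟨threshold cF cb g (ell (0 : Divisor k Fb)),
    le_trans (le_max_right _ _) (le_max_right _ _), fun D hD => ?_,
    fun D hD Gb hG => (S.main hcF hcb hD hG).1, fun D hD Gb hG => (S.main hcF hcb hD hG).2⟩
  haveI := S.ffL.finite_LSpace D
  obtain ⟨hfin, hrank⟩ := finite_and_finrank_redSpace G D
  refine exists_isPoleSup (redSpace G D) ?_
  intro hbot
  have h0 : Module.finrank k (redSpace G D) = 0 := by rw [hbot]; exact finrank_bot k Fb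
  have h1 : cF ≤ Divisor.degree D := le_trans (le_trans (le_max_left _ _) (le_max_left _ _)) hD
  have h2 : g ≤ Divisor.degree D := le_trans (le_trans (le_max_right _ _) (le_max_left _ _)) hD
  have := hcF D h1
  rw [h0] at hrank
  rw [← hrank] at this
  push_cast at this
  omega

variable {c₁ : ℤ}

omit [HasPrincipalDivisors L F] [HasPrincipalDivisors k Fb] in
/-- adding a place of degree one adds a place of degree one -/
theorem IsThreshold.exists_place (hT : IsThreshold G c₁)
    (hres : ∀ v : Place k Fb, Module.Finite k v.ResidueField)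
    {B₀ : Divisor L F} (hB₀ : c₁ ≤ Divisor.degree B₀) (P : Place L F) (hP : P.deg = 1) :
    ∃ Q : Place k Fb, redDiv G (B₀ + Finsupp.single P 1) = redDiv G B₀ + Finsupp.single Q 1 ∧
      Q.deg = 1 := by
  have hle : B₀ ≤ B₀ + Finsupp.single P 1 := le_add_single B₀ P
  have hB₁ : c₁ ≤ Divisor.degree (B₀ + Finsupp.single P 1) := hB₀.trans (degree_mono hle)
  have h0 : 0 ≤ redDiv G (B₀ + Finsupp.single P 1) - redDiv G B₀ :=
    sub_nonneg.2 (hT.redDiv_mono hB₀ hle)
  have h1 : Divisor.degree (redDiv G (B₀ + Finsupp.single P 1) - redDiv G B₀) = 1 := by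
    rw [map_sub, hT.degree_redDiv hB₁, hT.degree_redDiv hB₀, map_add, Divisor.degree_single, hP]
    simp
  obtain ⟨Q, hQ, hQ1⟩ := exists_eq_single_of_degree_one hres h0 h1
  refine ⟨Q, ?_, hQ1⟩
  rw [← hQ]
  abel

/-- **Deuring reduction**: the place reduction `r`, with `red (L(D) ∩ O) = Lbar(r_* D)` in large
degrees, degree preservation and conservation of principal divisors. -/
theorem ReductionSetup.exists_reduction (S : ReductionSetup G g E Eb)
    (hdeg1 : ∀ P : Place L F, P.deg = 1) :
    ∃ (r : Place L F → Place k Fb) (c : ℤ),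
      (∀ P, (r P).deg = P.deg) ∧
      (∀ D : Divisor L F, c ≤ Divisor.degree D →
        IsPoleSup (redSpace G D) (Finsupp.mapDomain r D) ∧
        redSpace G D = LSpace (Finsupp.mapDomain r D)) ∧
      (∀ f : F, w f = 1 →
        Finsupp.mapDomain r (divOf f : Divisor L F) = divOf (G.redF f)) := by
  classical
  obtain ⟨c₁, hT⟩ := S.exists_isThreshold
  have hres := S.ffk.finite_residue
  -- the base divisor
  set B₀ : Divisor L F := ((c₁.toNat : ℕ) : ℤ) • E with hB₀def
  have hB₀ : c₁ ≤ Divisor.degree B₀ := by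
    rw [hB₀def, map_zsmul, smul_eq_mul]
    have h1 : c₁ ≤ (c₁.toNat : ℤ) := Int.self_le_toNat c₁
    have h2 : (1 : ℤ) ≤ Divisor.degree E := S.deg_pos
    have h3 : (0 : ℤ) ≤ (c₁.toNat : ℤ) := Int.natCast_nonneg _
    nlinarith
  choose r hr hr1 using fun P => hT.exists_place hres hB₀ P (hdeg1 P)
  -- effective divisors
  have heff : ∀ D : Divisor L F, 0 ≤ D →
      redDiv G (B₀ + D) = redDiv G B₀ + Finsupp.mapDomain r D := by
    refine induction_of_le (P := fun D => redDiv G (B₀ + D) = redDiv G B₀ + Finsupp.mapDomain r D)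
      0 (by simp) ?_
    intro D v hD0 ih
    have hdegD : 0 ≤ Divisor.degree D := by
      have := degree_mono hD0
      rwa [map_zero] at this
    have hBD : c₁ ≤ Divisor.degree (B₀ + D) := by rw [map_add]; omega
    have hBv : c₁ ≤ Divisor.degree (B₀ + Finsupp.single v 1) :=
      hB₀.trans (degree_mono (le_add_single B₀ v))
    have hBDv : c₁ ≤ Divisor.degree (B₀ + (D + Finsupp.single v 1)) := by
      rw [← add_assoc]
      exact hBD.trans (degree_mono (le_add_single _ v))
    have e1 := hT.redDiv_add hres hBDv hB₀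
    have e2 := hT.redDiv_add hres hBD hBv
    have e3 : B₀ + (D + Finsupp.single v 1) + B₀ = B₀ + D + (B₀ + Finsupp.single v 1) := by abel
    rw [e3, e2, ih, hr v] at e1
    rw [Finsupp.mapDomain_add, Finsupp.mapDomain_single]
    have e4 : redDiv G (B₀ + (D + Finsupp.single v 1)) =
        redDiv G B₀ + Finsupp.mapDomain r D + (redDiv G B₀ + Finsupp.single (r v) 1) -
          redDiv G B₀ := by
      rw [e1]; abel
    rw [e4]; abel
  -- all divisors of large degree
  have hall : ∀ D : Divisor L F, c₁ ≤ Divisor.degree D → redDiv G D = Finsupp.mapDomain r D := by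
    intro D hD
    set Dp : Divisor L F := D ⊔ 0 with hDp
    set Dm : Divisor L F := (-D) ⊔ 0 with hDm
    have hDpm : D + Dm = Dp := by
      ext v
      simp only [hDp, hDm, Finsupp.add_apply, Finsupp.sup_apply, Finsupp.neg_apply,
        Finsupp.zero_apply]
      rcases le_total (D v) 0 with h | h
      · rw [sup_eq_left.2 (by omega : (0 : ℤ) ≤ -D v), sup_eq_right.2 h]; omega
      · rw [sup_eq_right.2 (by omega : -D v ≤ (0 : ℤ)), sup_eq_left.2 h]; omega
    have hDp0 : (0 : Divisor L F) ≤ Dp := le_sup_right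
    have hDm0 : (0 : Divisor L F) ≤ Dm := le_sup_right
    have hdegm : 0 ≤ Divisor.degree Dm := by
      have := degree_mono hDm0
      rwa [map_zero] at this
    have hBm : c₁ ≤ Divisor.degree (B₀ + Dm) := by rw [map_add]; omega
    have e1 := hT.redDiv_add hres hD hBm
    have e2 : D + (B₀ + Dm) = B₀ + Dp := by rw [← hDpm]; abel
    rw [e2, heff Dp hDp0, heff Dm hDm0] at e1
    have e3 : Finsupp.mapDomain r Dp = Finsupp.mapDomain r D + Finsupp.mapDomain r Dm := by
      rw [← hDpm, Finsupp.mapDomain_add]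
    rw [e3] at e1
    have e4 : redDiv G D = redDiv G B₀ + (Finsupp.mapDomain r D + Finsupp.mapDomain r Dm) -
        (redDiv G B₀ + Finsupp.mapDomain r Dm) := by
      rw [e1]; abel
    rw [e4]; abel
  refine ⟨r, c₁, fun P => by rw [hr1 P, hdeg1 P], fun D hD => ?_, fun f hf => ?_⟩
  · rw [← hall D hD]
    exact ⟨hT.isPoleSup_redDiv hD, hT.redSpace_eq hD⟩
  · have h1 := hT.redDiv_sub_divOf hB₀ hf
    have hB₁ : c₁ ≤ Divisor.degree (B₀ - divOf f) := by
      rw [map_sub, degree_divOf, sub_zero]; exact hB₀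
    rw [hall _ hB₁, hall _ hB₀] at h1
    have h2 : Finsupp.mapDomain r (B₀ - divOf f) =
        Finsupp.mapDomain r B₀ - Finsupp.mapDomain r (divOf f : Divisor L F) := by
      have := map_sub (Finsupp.mapDomain.addMonoidHom (M := ℤ) r) B₀ (divOf f : Divisor L F)
      simpa using this
    rw [h2] at h1
    have h3 : Finsupp.mapDomain r (divOf f : Divisor L F) =
        Finsupp.mapDomain r B₀ - (Finsupp.mapDomain r B₀ - divOf (G.redF f)) := by
      rw [← h1]; abel
    rw [h3]; abel

end Construction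


/-! ### Part 7: uniqueness and equivariance of the place reduction -/

section Unique

variable {L F k Fb Γ₀ : Type*} [Field L] [Field F] [Algebra L F] [Field k] [Field Fb]
  [Algebra k Fb] [LinearOrderedCommGroupWithZero Γ₀]
variable {w : Valuation F Γ₀} {G : GaussData (L := L) w k Fb}

/-- a degree-preserving map of places preserves the degree of divisors -/
theorem degree_mapDomain {r : Place L F → Place k Fb} (hrdeg : ∀ P, (r P).deg = P.deg)
    (D : Divisor L F) : Divisor.degree (Finsupp.mapDomain r D) = Divisor.degree D := by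
  induction D using Finsupp.induction with
  | zero => simp
  | single_add P n D _ _ ih =>
    rw [Finsupp.mapDomain_add, map_add, map_add, ih, Finsupp.mapDomain_single,
      Divisor.degree_single, Divisor.degree_single, hrdeg]

/-- existence of divisors of large degree -/
theorem exists_degree_ge {E : Divisor L F} (hE : 0 < Divisor.degree E) (c : ℤ) :
    ∃ B : Divisor L F, c ≤ Divisor.degree B := by
  refine ⟨((c.toNat : ℕ) : ℤ) • E, ?_⟩
  rw [map_zsmul, smul_eq_mul]
  have h1 : c ≤ (c.toNat : ℤ) := Int.self_le_toNat c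
  have h2 : (1 : ℤ) ≤ Divisor.degree E := hE
  have h3 : (0 : ℤ) ≤ (c.toNat : ℤ) := Int.natCast_nonneg _
  nlinarith

/-- **Uniqueness**: the place reduction is determined by the pole-sup property in large
degrees. -/
theorem reduction_unique {E : Divisor L F} (hE : 0 < Divisor.degree E)
    {r r' : Place L F → Place k Fb} {c c' : ℤ}
    (hr : ∀ D : Divisor L F, c ≤ Divisor.degree D →
      IsPoleSup (redSpace G D) (Finsupp.mapDomain r D))
    (hr' : ∀ D : Divisor L F, c' ≤ Divisor.degree D →
      IsPoleSup (redSpace G D) (Finsupp.mapDomain r' D)) : r = r' := by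
  funext P
  obtain ⟨B, hB⟩ := exists_degree_ge hE (max c c')
  have hB' : max c c' ≤ Divisor.degree (B + Finsupp.single P 1) :=
    hB.trans (degree_mono (le_add_single B P))
  have e1 := (hr B ((le_max_left _ _).trans hB)).unique (hr' B ((le_max_right _ _).trans hB))
  have e2 := (hr _ ((le_max_left _ _).trans hB')).unique (hr' _ ((le_max_right _ _).trans hB'))
  rw [Finsupp.mapDomain_add, Finsupp.mapDomain_add, Finsupp.mapDomain_single,
    Finsupp.mapDomain_single, e1] at e2
  exact Finsupp.single_left_injective (one_ne_zero) (add_left_cancel e2)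

end Unique

section Equivariance

variable {L F k Fb Γ₀ : Type*} [Field L] [Field F] [Algebra L F] [Field k] [Field Fb]
  [Algebra k Fb] [LinearOrderedCommGroupWithZero Γ₀]
variable {w : Valuation F Γ₀} {G : GaussData (L := L) w k Fb}

open SemilinearAut

/-- `L(D)` is equivariant for semilinear automorphisms -/
theorem smul_mem_LSpace_smul {K F : Type*} [Field K] [Field F] [Algebra K F]
    (γ : SemilinearAut K F) {D : Divisor K F} {y : F} (hy : y ∈ LSpace D) :
    γ • y ∈ LSpace (γ • D) := by
  rcases eq_or_ne y 0 with rfl | hy0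
  · rw [smul_zero]; exact zero_mem _
  have hγy : γ • y ≠ 0 := by
    rw [SemilinearAut.smul_def]
    exact (map_ne_zero_iff _ (toRingAut γ).injective).2 hy0
  rw [mem_LSpace_of_ne_zero hγy]
  intro v
  have h1 := (mem_LSpace_of_ne_zero hy0).1 hy (γ⁻¹ • v)
  have h2 := ord_smul γ (γ⁻¹ • v) y
  rw [smul_inv_smul] at h2
  rw [h2, divisor_smul_apply]
  exact h1

/-- **Equivariance**: if a semilinear automorphism `γ` of `F/L` preserves `O_w` and induces the
semilinear automorphism `γb` of `Fb/k` on reductions, then `r (γ • P) = γb • r P`. -/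
theorem reduction_equivariant {E : Divisor L F} (hE : 0 < Divisor.degree E)
    (hres : ∀ v : Place k Fb, Module.Finite k v.ResidueField)
    {r : Place L F → Place k Fb} {c : ℤ} (hrdeg : ∀ P, (r P).deg = P.deg)
    (hr : ∀ D : Divisor L F, c ≤ Divisor.degree D →
      IsPoleSup (redSpace G D) (Finsupp.mapDomain r D))
    (γ : SemilinearAut L F) (γb : SemilinearAut k Fb)
    (hw : ∀ y : F, w (γ • y) ≤ 1 → w y ≤ 1)
    (hred : ∀ y : F, w y ≤ 1 → G.redF (γ • y) = γb • G.redF y)
    (P : Place L F) : r (γ • P) = γb • r P := by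
  have key : ∀ D : Divisor L F, c ≤ Divisor.degree D →
      Finsupp.mapDomain r (γ • D) = γb • Finsupp.mapDomain r D := by
    intro D hD
    have hD' : c ≤ Divisor.degree (γ • D) := by rw [degree_smul]; exact hD
    have hle : Finsupp.mapDomain r (γ • D) ≤ γb • Finsupp.mapDomain r D := by
      refine (hr _ hD').le_of_le ?_
      rintro _ ⟨y, hy, hy1, rfl⟩
      have hy₀ : γ⁻¹ • y ∈ LSpace D := by
        have := smul_mem_LSpace_smul γ⁻¹ hy
        rwa [inv_smul_smul] at this
      have hy₀1 : w (γ⁻¹ • y) ≤ 1 := hw _ (by rw [smul_inv_smul]; exact hy1)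
      have h1 := hred _ hy₀1
      rw [smul_inv_smul] at h1
      rw [h1]
      exact smul_mem_LSpace_smul γb ((hr D hD).le (redF_mem_redSpace G hy₀ hy₀1))
    refine eq_of_le_of_degree_eq hres hle ?_
    rw [degree_mapDomain hrdeg, degree_smul, degree_smul, degree_mapDomain hrdeg]
  obtain ⟨B, hB⟩ := exists_degree_ge hE c
  have hB' : c ≤ Divisor.degree (B + Finsupp.single P 1) :=
    hB.trans (degree_mono (le_add_single B P))
  have e1 := key B hB
  have e2 := key _ hB'
  rw [smul_add, SemilinearAut.smul_single, Finsupp.mapDomain_add, Finsupp.mapDomain_add,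
    Finsupp.mapDomain_single, Finsupp.mapDomain_single, smul_add, SemilinearAut.smul_single,
    e1] at e2
  exact Finsupp.single_left_injective (one_ne_zero) (add_left_cancel e2)

end Equivariance


/-! ### Part 8: conservation in the pointwise shape of the Prelude -/

section Shape

variable {L F k Fb Γ₀ : Type*} [Field L] [Field F] [Algebra L F] [Field k] [Field Fb]
  [Algebra k Fb] [LinearOrderedCommGroupWithZero Γ₀]
variable {w : Valuation F Γ₀} {G : GaussData (L := L) w k Fb}
variable [HasPrincipalDivisors L F] [HasPrincipalDivisors k Fb]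

/-- conservation, pointwise: if `D = div f` with `w f = 1` then `r_* D = div (red f)`. -/
theorem conservation_apply {r : Place L F → Place k Fb}
    (hcons : ∀ f : F, w f = 1 →
      Finsupp.mapDomain r (divOf f : Divisor L F) = divOf (G.redF f))
    {f : F} (hf : w f = 1) (D : Divisor L F) (hD : ∀ P : Place L F, D P = P.ord f)
    (Q : Place k Fb) : Finsupp.mapDomain r D Q = Q.ord (G.redF f) := by
  have hf0 : f ≠ 0 := ne_zero_of_val_eq_one hf
  have hfb : G.redF f ≠ 0 := by
    intro h0
    have := (G.redF_eq_zero_iff hf.le).1 h0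
    rw [hf] at this
    exact lt_irrefl _ this
  have hDf : D = divOf f := by
    ext P
    rw [hD P, divOf_apply hf0]
  rw [hDf, hcons f hf, divOf_apply hfb]

end Shape


/-! ### Part 9: semicontinuity of the genus (so that only `g ≤ gb` has to be supplied) -/

section Semicontinuity

variable {L F k Fb Γ₀ : Type*} [Field L] [Field F] [Algebra L F] [Field k] [Field Fb]
  [Algebra k Fb] [LinearOrderedCommGroupWithZero Γ₀]
variable {w : Valuation F Γ₀} {G : GaussData (L := L) w k Fb}

/-- **Semicontinuity**: the anchor and the lattice lemma force `gb ≤ g`. -/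
theorem genus_le_of_anchor {g gb : ℤ} {E : Divisor L F} {Eb : Divisor k Fb}
    (ffL : FFFacts L F) (ffk : FFFacts k Fb)
    (genusL : IsRiemannGenus L F g) (genusk : IsRiemannGenus k Fb gb)
    (deg_pos : 0 < Divisor.degree E) (deg_eq : Divisor.degree Eb = Divisor.degree E)
    (hint : ∀ (n : ℕ) (y : F), y ∈ LSpace ((n : ℤ) • E) → w y ≤ 1 →
      G.redF y ∈ LSpace ((n : ℤ) • Eb)) : gb ≤ g := by
  obtain ⟨cF, hcF⟩ := genusL.2
  obtain ⟨cb, hcb⟩ := genusk.2
  set n : ℕ := max cF.toNat cb.toNat with hn
  have hE1 : (1 : ℤ) ≤ Divisor.degree E := deg_pos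
  have hn0 : (0 : ℤ) ≤ (n : ℤ) := Int.natCast_nonneg _
  have h1 : cF ≤ (n : ℤ) := (Int.self_le_toNat cF).trans (by exact_mod_cast le_max_left _ _)
  have h2 : cb ≤ (n : ℤ) := (Int.self_le_toNat cb).trans (by exact_mod_cast le_max_right _ _)
  have hnd : (n : ℤ) ≤ (n : ℤ) * Divisor.degree E := by nlinarith
  have hdegD : Divisor.degree ((n : ℤ) • E) = (n : ℤ) * Divisor.degree E := by
    rw [map_zsmul, smul_eq_mul]
  have hdegDb : Divisor.degree ((n : ℤ) • Eb) = (n : ℤ) * Divisor.degree E := by
    rw [map_zsmul, smul_eq_mul, deg_eq]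
  have e1 := hcF ((n : ℤ) • E) (by rw [hdegD]; omega)
  have e2 := hcb ((n : ℤ) • Eb) (by rw [hdegDb]; omega)
  haveI := ffL.finite_LSpace ((n : ℤ) • E)
  obtain ⟨hfin, hrank⟩ := finite_and_finrank_redSpace G ((n : ℤ) • E)
  haveI := ffk.finite_LSpace ((n : ℤ) • Eb)
  have hle : redSpace G ((n : ℤ) • E) ≤ LSpace ((n : ℤ) • Eb) := by
    rintro _ ⟨y, hy, hy1, rfl⟩
    exact hint n y hy hy1
  have hmono : Module.finrank k (redSpace G ((n : ℤ) • E)) ≤ ell ((n : ℤ) • Eb) :=
    Submodule.finrank_mono hle
  rw [hrank] at hmono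
  have : (ell ((n : ℤ) • E) : ℤ) ≤ (ell ((n : ℤ) • Eb) : ℤ) := by exact_mod_cast hmono
  rw [e1, e2, hdegD, hdegDb] at this
  omega

/-- the setup from a genus INEQUALITY `g ≤ gb` (the other inequality is automatic). -/
theorem ReductionSetup.of_genus_le {g gb : ℤ} {E : Divisor L F} {Eb : Divisor k Fb}
    (ffL : FFFacts L F) (ffk : FFFacts k Fb)
    (genusL : IsRiemannGenus L F g) (genusk : IsRiemannGenus k Fb gb) (hle : g ≤ gb)
    (deg_pos : 0 < Divisor.degree E) (deg_eq : Divisor.degree Eb = Divisor.degree E)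
    (hint : ∀ (n : ℕ) (y : F), y ∈ LSpace ((n : ℤ) • E) → w y ≤ 1 →
      G.redF y ∈ LSpace ((n : ℤ) • Eb)) : ReductionSetup G g E Eb := by
  have hge := genus_le_of_anchor ffL ffk genusL genusk deg_pos deg_eq hint
  have heq : gb = g := le_antisymm hge hle
  subst heq
  exact ⟨ffL, ffk, genusL, genusk, deg_pos, deg_eq, hint⟩

end Semicontinuity

end Fermat.Agent.S37.Deuring43
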