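/-
S37 / [R]-INST part (iii), concrete (helper51): the ANCHOR (`hint`) for the CONCRETE reduction
data `GaussDataInst73.gaussData (Bridge28.bridgeData A M hMk) hlat` at a level `M` prime to the
residue characteristic, with `E = (j)_∞` on `F_M` and `Eb = (j̄)_∞` on `F̄_M`.

* `hint_of_frame_gen` : `Anchor51.hint_of_frame_rr` for an ARBITRARY valuation subring `O'` of `F'`
  with `y ∈ O' ↔ (y : ℚ̄((q))) ∈ Bridge28.O A` (so it applies to `Bridge28.OW`, `BridgeData.O`, ...).
* `hint_gaussData`    : the `hint` hypothesis of `Deuring43.ReductionSetup` / of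
  `CuspSemi3.card_add_dwGenus_le` for `w = wB B`, `G = gaussData B hlat`, `B = bridgeData A M hMk`.
-/
import Mathlib
import Fermat.Agent.S37.Anchor51
import Fermat.Agent.S18.GaussDataInst73
import Fermat.Agent.S18.SepInst72
import Fermat.Agent.S18.Bridge28.FieldEq
import Fermat.Agent.S24.Exports

set_option autoImplicit false

noncomputable section

namespace Fermat.Agent.S37.AnchorInst51

open ModularCurve AlgebraicCurve HahnSeries IntermediateField
open Fermat.Agent.S18 Fermat.Agent.S18.Spine33 Fermat.Agent.S18.Bridge28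
  Fermat.Agent.S18.BridgeKernel15 Fermat.Agent.S18.LevelInst29 Fermat.Agent.S37.Anchor51

section Gen

variable {A : ValuationSubring Kb} {ι : Type*} [Fintype ι] (S : Frame A ι)
  (F' : IntermediateField Kb (LaurentSeries Kb)) (hF : S.F = F')
  {Fb : Type*} [Field Fb] [Algebra (kA A) Fb]
  (emb : Fb →ₐ[kA A] LaurentSeries (kA A))

/-- `Anchor51.hint_of_frame_rr` for an arbitrary presentation `O'` of the valuation ring
`𝒪_A ∩ F'`. -/
theorem hint_of_frame_gen (O' : ValuationSubring F')
    (hO : ∀ y : F', y ∈ O' ↔ (y : LaurentSeries Kb) ∈ Bridge28.O A)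
    (G : KGauss73.GaussData (L := Kb) O'.valuation (kA A) Fb)
    (hG : ∀ (y : F') (hy : y ∈ O'),
      emb (G.redF y) = rho A ⟨(y : LaurentSeries Kb), (hO y).1 hy⟩)
    [FiniteDimensional Kb⟮jF' S F' hF⟯ F']
    (E : Divisor Kb F') (Eb : Divisor (kA A) Fb)
    (hE : ∀ P : Place Kb F', E P = max 0 (-(P.ord (jF' S F' hF))))
    (hEb : ∀ Q : Place (kA A) Fb, Eb Q = max 0 (-(Q.ord (G.redF (jF' S F' hF)))))
    (n : ℕ) (y : F') (hy : y ∈ riemannRochSpace ((n : ℤ) • E))
    (hw : O'.valuation y ≤ 1) :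
    G.redF y ∈ riemannRochSpace ((n : ℤ) • Eb) := by
  have hOO : O' = OF' S F' hF :=
    SetLike.ext fun y => (hO y).trans (mem_OF'_iff S F' hF y).symm
  subst hOO
  refine hint_of_frame_rr S F' hF emb G (fun y h => ?_) E Eb hE hEb n y hy hw
  have hyO : y ∈ OF' S F' hF := ((OF' S F' hF).valuation_le_one_iff y).1 h
  rw [← G.redF_of_le h, hG y hyO]
  rfl

end Gen

section Concrete

open Fermat.Agent.S18.GaussDataInst73 Fermat.Agent.S24

variable (A : ValuationSubring Kb) (M : ℕ) [NeZero M] (hMk : (M : kA A) ≠ 0)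

/-- `S24.jF M` is `j` of the frame. -/
theorem coe_jF_eq : ((S24.jF M : FK M) : LaurentSeries Kb) = jqModC Kb :=
  Bridge28.coeffEmb_jq

theorem jF'_frame_eq :
    jF' (Bridge28.frame A M hMk) (modularFunctionFieldBar M) rfl = S24.jF M :=
  Subtype.ext (coe_jF_eq M).symm

/-- the reduction of `j` is `j̄ = SepInst72.xbar`. -/
theorem redF_jF (hlat : LatticeStmt (bridgeData A M hMk)) :
    (gaussData (bridgeData A M hMk) hlat).redF (S24.jF M) = SepInst72.xbar (kA A) M := by
  have hmem : S24.jF M ∈ (bridgeData A M hMk).O := by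
    rw [(bridgeData A M hMk).mem_iff, coe_jF_eq]
    exact jqModC_mem_O A
  apply Subtype.ext
  rw [coe_redF (bridgeData A M hMk) hlat hmem, SepInst72.coe_xbar]
  show rho A ⟨((S24.jF M : FK M) : LaurentSeries Kb), _⟩ = _
  rw [← rho_jqModC A]
  exact BridgeO15.rho_congr A (coe_jF_eq M)

/-- **The anchor at level `M`**, for the concrete reduction data: reduction maps
`L(n (j)_∞) ∩ O` into `L̄(n (j̄)_∞)`.  This is the `hint` field of `Deuring43.ReductionSetup`
(after `Riemann12.LSpace_eq_riemannRochSpace`) and the `hint` hypothesis of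
`CuspSemi3.card_add_dwGenus_le`. -/
theorem hint_gaussData (hlat : LatticeStmt (bridgeData A M hMk))
    (E : Divisor Kb (FK M)) (Eb : Divisor (kA A) (FbM A M))
    (hE : ∀ P : Place Kb (FK M), E P = max 0 (-(P.ord (S24.jF M))))
    (hEb : ∀ Q : Place (kA A) (FbM A M), Eb Q = max 0 (-(Q.ord (SepInst72.xbar (kA A) M))))
    (n : ℕ) (y : FK M) (hy : y ∈ riemannRochSpace ((n : ℤ) • E))
    (hw : wB (bridgeData A M hMk) y ≤ 1) :
    (gaussData (bridgeData A M hMk) hlat).redF y ∈ riemannRochSpace ((n : ℤ) • Eb) := by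
  haveI : FiniteDimensional Kb⟮S24.jF M⟯ (FK M) := (Exports.isFunctionFieldOver_jF M).finite
  haveI : FiniteDimensional
      Kb⟮jF' (Bridge28.frame A M hMk) (modularFunctionFieldBar M) rfl⟯ (FK M) := by
    rw [jF'_frame_eq]
    infer_instance
  refine hint_of_frame_gen (Bridge28.frame A M hMk) (modularFunctionFieldBar M) rfl
    (modularFunctionFieldFullC (kA A) M).val (bridgeData A M hMk).O
    (bridgeData A M hMk).mem_iff (gaussData (bridgeData A M hMk) hlat) (fun y hy => ?_)
    E Eb (fun P => ?_) (fun Q => ?_) n y hy hw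
  · exact coe_redF (bridgeData A M hMk) hlat hy
  · rw [hE P, jF'_frame_eq]
  · rw [hEb Q, jF'_frame_eq, redF_jF]

/-- The same with `Riemann12.LSpace` (literally the field `hint` of
`Deuring43.ReductionSetup`). -/
theorem hint_gaussData_LSpace (hlat : LatticeStmt (bridgeData A M hMk))
    (E : Divisor Kb (FK M)) (Eb : Divisor (kA A) (FbM A M))
    (hE : ∀ P : Place Kb (FK M), E P = max 0 (-(P.ord (S24.jF M))))
    (hEb : ∀ Q : Place (kA A) (FbM A M), Eb Q = max 0 (-(Q.ord (SepInst72.xbar (kA A) M))))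
    (n : ℕ) (y : FK M) (hy : y ∈ Riemann12.LSpace ((n : ℤ) • E))
    (hw : wB (bridgeData A M hMk) y ≤ 1) :
    (gaussData (bridgeData A M hMk) hlat).redF y ∈ Riemann12.LSpace ((n : ℤ) • Eb) := by
  rw [Riemann12.LSpace_eq_riemannRochSpace] at hy ⊢
  exact hint_gaussData A M hMk hlat E Eb hE hEb n y hy hw

end Concrete

end Fermat.Agent.S37.AnchorInst51
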