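/-
S37 helper (helper66): blueprint 18 gap (G4) -- EFFECTIVITY / BOUND LEMMA, generic in the Prelude
`Place`/`Divisor` vocabulary.

Lemma B (`Bounded65`) needs, for every additive map `δ : Div(F) →+ Div(F')` it is applied to, a
uniform bound `|δ (single v 1) w| ≤ C`.  All the maps of the S37 chain (`g • ·`, `pullbackAlong`,
`pushforwardAlong`, `Divisor.correspondence` (Hecke), `Finsupp.mapDomain r`, sums and natural
multiples of such) are

* POSITIVE: they send places to effective divisors, and
* DEGREE-HOMOGENEOUS: `degree (δ D) = c * degree D` for a constant `c`.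

`PosDeg δ c` records exactly these two facts; it is closed under composition, sums and natural
multiples, and it gives the bound `0 ≤ δ (single v 1) w ≤ c * v.deg` as soon as all places of the
target have positive degree (`PosDeg.apply_single_le`), hence `|δ (single v 1) w| ≤ c` when all
places of the source have degree `1` (`PosDeg.abs_apply_single_le`).

Final corollaries `PosDeg.eq_of_eqOn_principal` / `PosDeg.sub_eq_zero_of_degree_eq_zero`: two
`PosDeg` maps which agree on principal divisors agree on all divisors of degree `0`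
(= `Bounded65.eq_of_eqOn_principal` with the bounds discharged).
-/
import Mathlib
import Fermat.Prelude.Def_AlgebraicCurve_Correspondence
import Fermat.Agent.S37.Bounded65

set_option autoImplicit false

open AlgebraicCurve

namespace Fermat.Agent.S37.Effective66

/-! ### Effective finitely supported integer functions -/

section Eff

variable {ι : Type*}

/-- `D` is effective: all coefficients are nonnegative. -/
def Eff (D : ι →₀ ℤ) : Prop := ∀ i, 0 ≤ D i

theorem eff_iff_nonneg (D : ι →₀ ℤ) : Eff D ↔ 0 ≤ D := by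
  rw [Finsupp.le_def]
  exact Iff.rfl

theorem eff_zero : Eff (0 : ι →₀ ℤ) := fun _ => le_rfl

theorem eff_single (i : ι) {n : ℤ} (hn : 0 ≤ n) : Eff (Finsupp.single i n) := by
  classical
  intro j
  rw [Finsupp.single_apply]
  split_ifs
  · exact hn
  · exact le_rfl

theorem Eff.add {D E : ι →₀ ℤ} (hD : Eff D) (hE : Eff E) : Eff (D + E) := fun i => by
  rw [Finsupp.add_apply]
  exact add_nonneg (hD i) (hE i)

theorem Eff.nsmul {D : ι →₀ ℤ} (hD : Eff D) (n : ℕ) : Eff (n • D) := fun i => by
  rw [Finsupp.smul_apply]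
  exact nsmul_nonneg (hD i) n

theorem Eff.zsmul {D : ι →₀ ℤ} (hD : Eff D) {n : ℤ} (hn : 0 ≤ n) : Eff (n • D) := fun i => by
  rw [Finsupp.smul_apply, smul_eq_mul]
  exact mul_nonneg hn (hD i)

theorem eff_sum {κ : Type*} (s : Finset κ) (f : κ → ι →₀ ℤ) (h : ∀ a ∈ s, Eff (f a)) :
    Eff (∑ a ∈ s, f a) := fun i => by
  rw [Finset.sum_apply']
  exact Finset.sum_nonneg fun a ha => h a ha i

theorem Eff.mapDomain {κ : Type*} (r : ι → κ) {D : ι →₀ ℤ} (hD : Eff D) :
    Eff (Finsupp.mapDomain r D) := by
  classical
  rw [Finsupp.mapDomain, Finsupp.sum]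
  exact eff_sum _ _ fun a _ => eff_single _ (hD a)

/-- An additive map which is nonnegative on the generators `single i 1` preserves effectivity. -/
theorem eff_map {κ : Type*} (δ : (ι →₀ ℤ) →+ (κ →₀ ℤ))
    (h : ∀ i, Eff (δ (Finsupp.single i 1))) {D : ι →₀ ℤ} (hD : Eff D) : Eff (δ D) := by
  classical
  have hdec : D = ∑ i ∈ D.support, (D i) • Finsupp.single i (1 : ℤ) := by
    conv_lhs => rw [← Finsupp.sum_single D]
    rw [Finsupp.sum]
    refine Finset.sum_congr rfl fun i _ => ?_
    rw [Finsupp.smul_single, smul_eq_mul, mul_one]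
  rw [hdec, map_sum]
  refine eff_sum _ _ fun i _ => ?_
  rw [map_zsmul]
  exact (h i).zsmul (hD i)

end Eff

/-! ### Degree of an effective divisor bounds its coefficients -/

section DegreeBound

variable {K F : Type*} [Field K] [Field F] [Algebra K F]

theorem degree_nonneg_of_eff {E : Divisor K F} (hE : Eff E) : 0 ≤ Divisor.degree E := by
  rw [Bounded65.degree_eq_sum, Finsupp.sum]
  exact Finset.sum_nonneg fun v _ => mul_nonneg (hE v) (Int.natCast_nonneg _)

/-- `E ≥ 0` ⟹ `E w * deg w ≤ deg E`. -/
theorem apply_mul_deg_le_degree_of_eff {E : Divisor K F} (hE : Eff E) (w : Place K F) :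
    E w * (w.deg : ℤ) ≤ Divisor.degree E := by
  classical
  by_cases hw : w ∈ E.support
  · rw [Bounded65.degree_eq_sum, Finsupp.sum]
    exact Finset.single_le_sum (f := fun v => E v * (v.deg : ℤ))
      (fun v _ => mul_nonneg (hE v) (Int.natCast_nonneg _)) hw
  · rw [Finsupp.notMem_support_iff.mp hw, zero_mul]
    exact degree_nonneg_of_eff hE

/-- `E ≥ 0`, `deg w > 0` ⟹ `0 ≤ E w ≤ deg E`. -/
theorem apply_le_degree_of_eff {E : Divisor K F} (hE : Eff E) (w : Place K F) (hw : 0 < w.deg) :
    E w ≤ Divisor.degree E := by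
  refine le_trans ?_ (apply_mul_deg_le_degree_of_eff hE w)
  have h1 : (1 : ℤ) ≤ (w.deg : ℤ) := by exact_mod_cast hw
  nlinarith [hE w]

theorem abs_apply_le_degree_of_eff {E : Divisor K F} (hE : Eff E) (w : Place K F)
    (hw : 0 < w.deg) : |E w| ≤ Divisor.degree E := by
  rw [abs_of_nonneg (hE w)]
  exact apply_le_degree_of_eff hE w hw

end DegreeBound

/-! ### Positive degree-homogeneous maps of divisors -/

section PosDegDef

variable {K F K' F' : Type*} [Field K] [Field F] [Algebra K F]
  [Field K'] [Field F'] [Algebra K' F']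

/-- `δ : Div(F) →+ Div(F')` sends places to effective divisors and multiplies degrees by `c`. -/
structure PosDeg (δ : Divisor K F →+ Divisor K' F') (c : ℤ) : Prop where
  eff_single : ∀ v : Place K F, Eff (δ (Finsupp.single v 1))
  degree_map : ∀ D : Divisor K F, Divisor.degree (δ D) = c * Divisor.degree D

namespace PosDeg

variable {δ δ₁ δ₂ : Divisor K F →+ Divisor K' F'} {c c₁ c₂ : ℤ}

theorem eff (h : PosDeg δ c) {D : Divisor K F} (hD : Eff D) : Eff (δ D) :=
  eff_map δ h.eff_single hD

theorem nonneg (h : PosDeg δ c) (v : Place K F) (w : Place K' F') :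
    0 ≤ δ (Finsupp.single v 1) w := h.eff_single v w

/-- The coefficient bound: `δ (single v 1) w ≤ c * deg v`. -/
theorem apply_single_le (h : PosDeg δ c) (hdeg' : ∀ w : Place K' F', 0 < w.deg)
    (v : Place K F) (w : Place K' F') : δ (Finsupp.single v 1) w ≤ c * (v.deg : ℤ) := by
  have := apply_le_degree_of_eff (h.eff_single v) w (hdeg' w)
  rwa [h.degree_map, Divisor.degree_single, one_mul] at this

/-- The coefficient bound in the shape needed by `Bounded65` (all source places of degree `1`). -/
theorem abs_apply_single_le (h : PosDeg δ c) (hdeg : ∀ v : Place K F, v.deg = 1)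
    (hdeg' : ∀ w : Place K' F', 0 < w.deg) (v : Place K F) (w : Place K' F') :
    |δ (Finsupp.single v 1) w| ≤ c := by
  rw [abs_of_nonneg (h.nonneg v w)]
  have := h.apply_single_le hdeg' v w
  rwa [hdeg v, Nat.cast_one, mul_one] at this

/-- General coefficient bound on effective divisors. -/
theorem apply_le (h : PosDeg δ c) (hdeg' : ∀ w : Place K' F', 0 < w.deg)
    {D : Divisor K F} (hD : Eff D) (w : Place K' F') : δ D w ≤ c * Divisor.degree D := by
  have := apply_le_degree_of_eff (h.eff hD) w (hdeg' w)
  rwa [h.degree_map] at this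

theorem zero : PosDeg (0 : Divisor K F →+ Divisor K' F') 0 where
  eff_single _ := eff_zero
  degree_map D := by simp

theorem add (h₁ : PosDeg δ₁ c₁) (h₂ : PosDeg δ₂ c₂) : PosDeg (δ₁ + δ₂) (c₁ + c₂) where
  eff_single v := by
    rw [AddMonoidHom.add_apply]
    exact (h₁.eff_single v).add (h₂.eff_single v)
  degree_map D := by
    rw [AddMonoidHom.add_apply, map_add, h₁.degree_map, h₂.degree_map, add_mul]

theorem nsmul (h : PosDeg δ c) (n : ℕ) : PosDeg (n • δ) (n * c) where
  eff_single v := by
    rw [AddMonoidHom.nsmul_apply]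
    exact (h.eff_single v).nsmul n
  degree_map D := by
    rw [AddMonoidHom.nsmul_apply, map_nsmul, h.degree_map, nsmul_eq_mul, mul_assoc]

theorem congr_const (h : PosDeg δ c) {c' : ℤ} (hc : c = c') : PosDeg δ c' := hc ▸ h

end PosDeg

end PosDegDef

section Comp

variable {K F K' F' K'' F'' : Type*} [Field K] [Field F] [Algebra K F]
  [Field K'] [Field F'] [Algebra K' F'] [Field K''] [Field F''] [Algebra K'' F'']

theorem PosDeg.comp {δ₂ : Divisor K' F' →+ Divisor K'' F''} {δ₁ : Divisor K F →+ Divisor K' F'}
    {c₁ c₂ : ℤ} (h₂ : PosDeg δ₂ c₂) (h₁ : PosDeg δ₁ c₁) : PosDeg (δ₂.comp δ₁) (c₂ * c₁) where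
  eff_single v := by
    rw [AddMonoidHom.comp_apply]
    exact h₂.eff (h₁.eff_single v)
  degree_map D := by
    rw [AddMonoidHom.comp_apply, h₂.degree_map, h₁.degree_map, mul_assoc]

end Comp

/-! ### The building blocks -/

section Blocks

variable {K F : Type*} [Field K] [Field F] [Algebra K F]

theorem posDeg_id : PosDeg (AddMonoidHom.id (Divisor K F)) 1 where
  eff_single v := eff_single v zero_le_one
  degree_map D := by simp

/-- `g • ·` for a semilinear automorphism. -/
theorem posDeg_semilinearAut (g : SemilinearAut K F) :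
    PosDeg (DistribSMul.toAddMonoidHom (Divisor K F) g) 1 where
  eff_single v := by
    rw [DistribSMul.toAddMonoidHom_apply, SemilinearAut.smul_single]
    exact eff_single _ zero_le_one
  degree_map D := by
    rw [DistribSMul.toAddMonoidHom_apply, SemilinearAut.degree_smul, one_mul]

/-- `σ • ·` for a `K`-algebra automorphism. -/
theorem posDeg_algEquiv (σ : F ≃ₐ[K] F) :
    PosDeg (DistribSMul.toAddMonoidHom (Divisor K F) σ) 1 where
  eff_single v := by
    rw [DistribSMul.toAddMonoidHom_apply, Divisor.smul_single]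
    exact eff_single _ zero_le_one
  degree_map D := by
    rw [DistribSMul.toAddMonoidHom_apply, Divisor.degree_smul, one_mul]

theorem eff_semilinearAut_smul (g : SemilinearAut K F) {D : Divisor K F} (hD : Eff D) :
    Eff (g • D) := (posDeg_semilinearAut g).eff hD

theorem eff_algEquiv_smul (σ : F ≃ₐ[K] F) {D : Divisor K F} (hD : Eff D) :
    Eff (σ • D) := (posDeg_algEquiv σ).eff hD

variable {K' F' : Type*} [Field K'] [Field F'] [Algebra K' F']

/-- `Finsupp.mapDomain r` for a degree-preserving map of places (clause (1) of the Prelude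
`IsPlaceReductionAlong`). -/
theorem posDeg_mapDomain (r : Place K F → Place K' F') (hr : ∀ P, (r P).deg = P.deg) :
    PosDeg (Finsupp.mapDomain.addMonoidHom r : Divisor K F →+ Divisor K' F') 1 where
  eff_single v := by
    rw [Finsupp.mapDomain.addMonoidHom_apply, Finsupp.mapDomain_single]
    exact eff_single _ zero_le_one
  degree_map D := by
    rw [one_mul, Finsupp.mapDomain.addMonoidHom_apply]
    induction D using Finsupp.induction with
    | zero => simp
    | single_add P n D _ _ ih =>
      rw [Finsupp.mapDomain_add, map_add, map_add, ih, Finsupp.mapDomain_single,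
        Divisor.degree_single, Divisor.degree_single, hr]

end Blocks

section Along

variable {K F F' : Type*} [Field K] [Field F] [Field F'] [Algebra K F] [Algebra K F']

/-- Push-forward along an integral `K`-algebra map. -/
theorem posDeg_pushforwardAlong (φ : F →ₐ[K] F') (hφ : φ.toRingHom.IsIntegral) :
    PosDeg (Divisor.pushforwardAlong φ hφ) 1 where
  eff_single w := by
    rw [Divisor.pushforwardAlong_single]
    exact eff_single _ (mul_nonneg zero_le_one (Int.natCast_nonneg _))
  degree_map D := by
    rw [Divisor.degree_pushforwardAlong, one_mul]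

variable [HasPrincipalDivisors K F']

theorem eff_pullbackAlong (φ : F →ₐ[K] F') (hφ : φ.toRingHom.IsIntegral) {D : Divisor K F}
    (hD : Eff D) : Eff (Divisor.pullbackAlong φ hφ D) := fun w => by
  rw [Divisor.pullbackAlong_apply]
  exact mul_nonneg (Int.natCast_nonneg _) (hD _)

/-- Pull-back along an integral `K`-algebra map satisfying the fundamental identity. -/
theorem posDeg_pullbackAlong (φ : F →ₐ[K] F') (hφ : φ.toRingHom.IsIntegral)
    (hFI : FundamentalIdentityAlong K φ hφ) :
    PosDeg (Divisor.pullbackAlong φ hφ) (finrankAlong K φ : ℤ) where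
  eff_single v := eff_pullbackAlong φ hφ (eff_single v zero_le_one)
  degree_map D := Divisor.degree_pullbackAlong φ hφ hFI D

/-- The correspondence `ψ_* ∘ φ^*` (Hecke operators are of this shape). -/
theorem posDeg_correspondence (φ ψ : F →ₐ[K] F') (hφ : φ.toRingHom.IsIntegral)
    (hψ : ψ.toRingHom.IsIntegral) (hFI : FundamentalIdentityAlong K φ hφ) :
    PosDeg (Divisor.correspondence φ ψ hφ hψ) (finrankAlong K φ : ℤ) :=
  ((posDeg_pushforwardAlong ψ hψ).comp (posDeg_pullbackAlong φ hφ hFI)).congr_const (one_mul _)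

end Along

/-! ### Lemma B with the bounds discharged -/

section LemmaB

variable {K F K' F' : Type*} [Field K] [Field F] [Algebra K F]
  [Field K'] [Field F'] [Algebra K' F'] [HasPrincipalDivisors K F]

/-- Two positive degree-homogeneous maps of divisors which agree on principal divisors agree on
all divisors of degree `0`. -/
theorem PosDeg.eq_of_eqOn_principal {δ₁ δ₂ : Divisor K F →+ Divisor K' F'} {c₁ c₂ : ℤ}
    (h₁ : PosDeg δ₁ c₁) (h₂ : PosDeg δ₂ c₂)
    (g : ℕ) (hsec : Bounded65.HasSections K F g) (hdeg : ∀ v : Place K F, v.deg = 1)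
    (hdeg' : ∀ w : Place K' F', 0 < w.deg)
    (h : ∀ D ∈ Divisor.principal (K := K) (F := F), δ₁ D = δ₂ D)
    (D : Divisor K F) (hD : Divisor.degree D = 0) : δ₁ D = δ₂ D :=
  Bounded65.eq_of_eqOn_principal g hsec hdeg δ₁ δ₂ h c₁ c₂
    (h₁.abs_apply_single_le hdeg hdeg') (h₂.abs_apply_single_le hdeg hdeg') D hD

/-- Variant: agreement on a generating set `S` of the principal divisors suffices (e.g. the Prelude
`integralPrincipalDivisors` together with `PrincipalGeneratedByIntegral`). -/
theorem PosDeg.eq_of_eqOn_generators {δ₁ δ₂ : Divisor K F →+ Divisor K' F'} {c₁ c₂ : ℤ}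
    (h₁ : PosDeg δ₁ c₁) (h₂ : PosDeg δ₂ c₂)
    (g : ℕ) (hsec : Bounded65.HasSections K F g) (hdeg : ∀ v : Place K F, v.deg = 1)
    (hdeg' : ∀ w : Place K' F', 0 < w.deg)
    (S : Set (Divisor K F))
    (hS : Divisor.principal (K := K) (F := F) ≤ AddSubgroup.closure S)
    (h : ∀ D ∈ S, δ₁ D = δ₂ D)
    (D : Divisor K F) (hD : Divisor.degree D = 0) : δ₁ D = δ₂ D := by
  have key : ∀ E ∈ AddSubgroup.closure S, δ₁ E = δ₂ E := by
    intro E hE
    induction hE using AddSubgroup.closure_induction with
    | mem E hE => exact h E hE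
    | zero => rw [map_zero, map_zero]
    | add E E' _ _ hE hE' => rw [map_add, map_add, hE, hE']
    | neg E _ hE => rw [map_neg, map_neg, hE]
  exact h₁.eq_of_eqOn_principal h₂ g hsec hdeg hdeg' (fun E hE => key E (hS hE)) D hD

end LemmaB

end Fermat.Agent.S37.Effective66
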