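/-
S37 / [S37-EQUIV] (helper42): equivariance of ANY place reduction `r` satisfying the conservation law
under the decomposition group — blueprint 16 (D7) / (I) / [FROB], deduced from CONSERVATION ALONE
(no canonicity of the construction of `r` is needed).

Setting: `L` a field of characteristic `0` (for S37: `ℚ̄`), `A : ValuationSubring L`, `k = A/𝔪`,
`F = laurentBaseChange L (modularFunctionFieldFull N)` (`= F_N`), `F̄ = modularFunctionFieldFullC k N`,
`r : Place L F → Place k F̄` with `IsPlaceReductionAlong A (residue A) N r` and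
`PrincipalGeneratedByIntegral A (residue A) N`.  For `σ ∈ D_A` put
`g := arithmeticGalois σ ∈ SemilinearAut L F`, `ḡ := barAut k N (resAut A σ) ∈ SemilinearAut k F̄`.

* `mapDomain_smul_of_mem_integral` : `r_* (g • D) = ḡ • r_* D` for integral principal divisors
  (GalRed42 + clause (2)).
* `mapDomain_smul_of_degree_eq_zero` : the same for ALL `D` of degree `0`
  (both sides are additive, bounded on places, agree on principal divisors: `Bounded65`).
* `reductionPic0Along_smul` : `red (σ • x) = ḡ • red x` on `Pic0`;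
  `reductionPic0Along_smul_of_inertia` : `red (τ • x) = red x`;
  `reductionPic0Along_smul_of_frobenius` : `red (σ • x) = Φ • red x`, `Φ = barAut (frobAut k ℓ)`.
-/
import Mathlib
import Fermat.Prelude.Def_ModularCurve_ReductionModL
import Fermat.Agent.S37.GalRed42
import Fermat.Agent.S37.Bounded65

set_option autoImplicit false
set_option synthInstance.maxHeartbeats 400000
set_option maxHeartbeats 1000000

noncomputable section

namespace Fermat.Agent.S37.EquivRed42

open ModularCurve HahnSeries AlgebraicCurve Fermat.Agent.S18.Bridge28 Fermat.Agent.S37.GalRed42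

variable {L : Type*} [Field L] [Algebra ℚ L] (A : ValuationSubring L) (N : ℕ)

/-- the residue field `k = A / 𝔪_A` -/
abbrev KK : Type _ := IsLocalRing.ResidueField A

/-- `F_N` over `L` -/
abbrev FFt (L : Type*) [Field L] [Algebra ℚ L] (N : ℕ) : Type _ :=
  ↥(laurentBaseChange L (modularFunctionFieldFull N))

/-- `F̄_N` over `k = A / 𝔪_A` -/
abbrev FBt : Type _ := ↥(modularFunctionFieldFullC (IsLocalRing.ResidueField A) N)

/-- the semilinear automorphism of `F_N` attached to `σ ∈ D_A` (Prelude action) -/
def gal (σ : A.decompositionSubgroup ℚ) : SemilinearAut L (FFt L N) :=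
  arithmeticGalois (modularFunctionFieldFull N) (σ : L ≃ₐ[ℚ] L)

/-- the semilinear automorphism of `F̄_N` attached to `σ ∈ D_A` -/
def galBar (σ : A.decompositionSubgroup ℚ) : SemilinearAut (KK A) (FBt A N) :=
  barAut (KK A) N (resAut A σ)

variable {A N}

theorem coe_gal_smul (σ : A.decompositionSubgroup ℚ) (x : FFt L N) :
    ((gal A N σ • x : FFt L N) : LaurentSeries L) =
      coeffMap ((σ : L ≃ₐ[ℚ] L) : L →+* L) (x : LaurentSeries L) := rfl

theorem coe_galBar_smul (σ : A.decompositionSubgroup ℚ) (x : FBt A N) :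
    ((galBar A N σ • x : FBt A N) : LaurentSeries (KK A)) =
      coeffMap ((resAut A σ : KK A ≃+* KK A) : KK A →+* KK A) (x : LaurentSeries (KK A)) := rfl

/-- the divisor of a transported function -/
theorem smul_divisor_eq {K F : Type*} [Field K] [Field F] [Algebra K F] (g : SemilinearAut K F)
    {D : Divisor K F} {f : F} (hD : ∀ P, D P = P.ord f) (P : Place K F) :
    (g • D) P = P.ord (g • f) := by
  rw [SemilinearAut.divisor_smul_apply, hD (g⁻¹ • P)]
  have h := SemilinearAut.ord_smul g (g⁻¹ • P) f
  rw [smul_inv_smul] at h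
  exact h.symm

variable {r : Place L (FFt L N) → Place (KK A) (FBt A N)}

/-- **equivariance on integral principal divisors** -/
theorem mapDomain_smul_of_mem_integral (hr : IsPlaceReductionAlong A (IsLocalRing.residue A) N r)
    (σ : A.decompositionSubgroup ℚ) {D : Divisor L (FFt L N)}
    (hD : D ∈ integralPrincipalDivisors A (IsLocalRing.residue A) N) :
    Finsupp.mapDomain r (gal A N σ • D) = galBar A N σ • Finsupp.mapDomain r D := by
  obtain ⟨y, hy, hyk, hne, hDy⟩ := hD
  -- the transported series
  set y' : LaurentSeries A := actSeries A σ y with hy'def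
  have hincl : coeffMap A.subtype y' =
      coeffMap ((σ : L ≃ₐ[ℚ] L) : L →+* L) (coeffMap A.subtype y) :=
    incl_actSeries' A σ (fun _ => rfl) y
  have hred : coeffMap (IsLocalRing.residue A) y' =
      coeffMap ((resAut A σ : KK A ≃+* KK A) : KK A →+* KK A) (coeffMap (IsLocalRing.residue A) y) :=
    red_actSeries A σ y
  have hy' : coeffMap A.subtype y' ∈ laurentBaseChange L (modularFunctionFieldFull N) := by
    rw [hincl]
    exact coeffMap_mem_laurentBaseChange (σ : L ≃ₐ[ℚ] L) hy
  have hyk' : coeffMap (IsLocalRing.residue A) y' ∈ modularFunctionFieldFullC (IsLocalRing.ResidueField A) N := by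
    rw [hred]
    exact coeffMap_mem_fullC (KK A) N _ hyk
  have hne' : coeffMap (IsLocalRing.residue A) y' ≠ 0 := by
    rw [hred]
    exact coeffMap_ne_zero (resAut A σ).injective hne
  have hgf : gal A N σ • (⟨coeffMap A.subtype y, hy⟩ : FFt L N) = ⟨coeffMap A.subtype y', hy'⟩ :=
    Subtype.ext (by rw [coe_gal_smul]; exact hincl.symm)
  have hgbf : galBar A N σ • (⟨coeffMap (IsLocalRing.residue A) y, hyk⟩ : FBt A N) =
      ⟨coeffMap (IsLocalRing.residue A) y', hyk'⟩ :=
    Subtype.ext (by rw [coe_galBar_smul]; exact hred.symm)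
  ext Q
  -- left side: conservation for `y'`
  have hL := hr.2 y' hy' hyk' hne' (gal A N σ • D)
    (fun P => by rw [smul_divisor_eq (gal A N σ) hDy P, hgf]) Q
  -- right side: conservation for `y`, then transport
  have hR : (galBar A N σ • Finsupp.mapDomain r D) Q =
      Q.ord (⟨coeffMap (IsLocalRing.residue A) y', hyk'⟩ : FBt A N) := by
    rw [smul_divisor_eq (galBar A N σ) (fun P => hr.2 y hy hyk hne D hDy P) Q, hgbf]
  rw [hL, hR]

/-- the two additive maps being compared -/
def leftHom (r : Place L (FFt L N) → Place (KK A) (FBt A N)) (σ : A.decompositionSubgroup ℚ) :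
    Divisor L (FFt L N) →+ (Place (KK A) (FBt A N) →₀ ℤ) :=
  (Finsupp.mapDomain.addMonoidHom r).comp (DistribSMul.toAddMonoidHom (Divisor L (FFt L N)) (gal A N σ))

def rightHom (r : Place L (FFt L N) → Place (KK A) (FBt A N)) (σ : A.decompositionSubgroup ℚ) :
    Divisor L (FFt L N) →+ (Place (KK A) (FBt A N) →₀ ℤ) :=
  (DistribSMul.toAddMonoidHom (Divisor (KK A) (FBt A N)) (galBar A N σ)).comp
    (Finsupp.mapDomain.addMonoidHom r)

theorem leftHom_apply (σ : A.decompositionSubgroup ℚ) (D : Divisor L (FFt L N)) :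
    leftHom r σ D = Finsupp.mapDomain r (gal A N σ • D) := rfl

theorem rightHom_apply (σ : A.decompositionSubgroup ℚ) (D : Divisor L (FFt L N)) :
    rightHom r σ D = galBar A N σ • Finsupp.mapDomain r D := rfl

/-- equivariance on principal divisors -/
theorem mapDomain_smul_of_mem_principal (hr : IsPlaceReductionAlong A (IsLocalRing.residue A) N r)
    (hgen : PrincipalGeneratedByIntegral A (IsLocalRing.residue A) N)
    (σ : A.decompositionSubgroup ℚ) {D : Divisor L (FFt L N)}
    (hD : D ∈ Divisor.principal (K := L) (F := FFt L N)) :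
    Finsupp.mapDomain r (gal A N σ • D) = galBar A N σ • Finsupp.mapDomain r D := by
  have hD' := hgen hD
  clear hD
  show leftHom r σ D = rightHom r σ D
  induction hD' using AddSubgroup.closure_induction with
  | mem E hE => exact mapDomain_smul_of_mem_integral hr σ hE
  | zero => rw [map_zero, map_zero]
  | add E E' _ _ hE hE' => rw [map_add, map_add, hE, hE']
  | neg E _ hE => rw [map_neg, map_neg, hE]

theorem abs_single_apply_le {ι : Type*} (i j : ι) : |(Finsupp.single i (1 : ℤ)) j| ≤ 1 := by
  classical
  rw [Finsupp.single_apply]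
  split_ifs <;> simp

/-- **equivariance on all divisors of degree `0`**, from conservation + boundedness. -/
theorem mapDomain_smul_of_degree_eq_zero [HasPrincipalDivisors L (FFt L N)]
    (hr : IsPlaceReductionAlong A (IsLocalRing.residue A) N r)
    (hgen : PrincipalGeneratedByIntegral A (IsLocalRing.residue A) N)
    (g₀ : ℕ) (hsec : Bounded65.HasSections L (FFt L N) g₀) (hdeg : ∀ v : Place L (FFt L N), v.deg = 1)
    (σ : A.decompositionSubgroup ℚ) (D : Divisor L (FFt L N)) (hD : Divisor.degree D = 0) :
    Finsupp.mapDomain r (gal A N σ • D) = galBar A N σ • Finsupp.mapDomain r D := by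
  have := Bounded65.eq_of_eqOn_principal g₀ hsec hdeg (leftHom r σ) (rightHom r σ)
    (fun E hE => mapDomain_smul_of_mem_principal hr hgen σ hE) 1 1
    (fun v i => by
      rw [leftHom_apply, SemilinearAut.smul_single, Finsupp.mapDomain_single]
      exact abs_single_apply_le _ _)
    (fun v i => by
      rw [rightHom_apply, Finsupp.mapDomain_single, SemilinearAut.smul_single]
      exact abs_single_apply_le _ _)
    D hD
  exact this

/-! ### `Pic0` level -/

/-- **`red (σ • x) = σ̄ • red x`** for the Prelude reduction map attached to `r`. -/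
theorem reductionPic0Along_smul [HasPrincipalDivisors L (FFt L N)]
    (hr : IsPlaceReductionAlong A (IsLocalRing.residue A) N r)
    (hgen : PrincipalGeneratedByIntegral A (IsLocalRing.residue A) N)
    (g₀ : ℕ) (hsec : Bounded65.HasSections L (FFt L N) g₀) (hdeg : ∀ v : Place L (FFt L N), v.deg = 1)
    (σ : A.decompositionSubgroup ℚ) (x : Pic0 L (FFt L N)) :
    reductionPic0Along r hr hgen ((σ : L ≃ₐ[ℚ] L) • x) =
      galBar A N σ • reductionPic0Along r hr hgen x := by
  obtain ⟨D, rfl⟩ := Pic0.mk_surjective x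
  rw [galois_smul_pic0_def, SemilinearAut.pic0_smul_mk, reductionPic0Along_mk,
    reductionPic0Along_mk, SemilinearAut.pic0_smul_mk]
  refine congrArg Pic0.mk (Subtype.ext ?_)
  rw [coe_reductionDegZeroAlong, SemilinearAut.coe_degZeroSMulHom, SemilinearAut.coe_degZeroSMulHom,
    coe_reductionDegZeroAlong]
  exact mapDomain_smul_of_degree_eq_zero hr hgen g₀ hsec hdeg σ _
    ((Divisor.mem_degZero).mp D.2)

/-- **(I)**: inertia acts trivially after reduction. -/
theorem reductionPic0Along_smul_of_inertia [HasPrincipalDivisors L (FFt L N)]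
    (hr : IsPlaceReductionAlong A (IsLocalRing.residue A) N r)
    (hgen : PrincipalGeneratedByIntegral A (IsLocalRing.residue A) N)
    (g₀ : ℕ) (hsec : Bounded65.HasSections L (FFt L N) g₀) (hdeg : ∀ v : Place L (FFt L N), v.deg = 1)
    {τ : L ≃ₐ[ℚ] L} (hτ : τ ∈ A.inertiaSubgroupIn ℚ) (x : Pic0 L (FFt L N)) :
    reductionPic0Along r hr hgen (τ • x) = reductionPic0Along r hr hgen x := by
  obtain ⟨hD, h1⟩ := exists_of_mem_inertiaSubgroupIn A hτ
  have := reductionPic0Along_smul hr hgen g₀ hsec hdeg ⟨τ, hD⟩ x
  rw [this, galBar, h1, map_one, one_smul]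

/-- **[FROB]**: a Frobenius element acts through the coefficientwise Frobenius of `F̄_N`. -/
theorem reductionPic0Along_smul_of_frobenius [HasPrincipalDivisors L (FFt L N)]
    (hr : IsPlaceReductionAlong A (IsLocalRing.residue A) N r)
    (hgen : PrincipalGeneratedByIntegral A (IsLocalRing.residue A) N)
    (g₀ : ℕ) (hsec : Bounded65.HasSections L (FFt L N) g₀) (hdeg : ∀ v : Place L (FFt L N), v.deg = 1)
    {σ : L ≃ₐ[ℚ] L} {ℓ : ℕ} [Fact ℓ.Prime] [CharP (KK A) ℓ] [PerfectRing (KK A) ℓ]
    (h : A.IsFrobeniusAt σ ℓ) (x : Pic0 L (FFt L N)) :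
    reductionPic0Along r hr hgen (σ • x) =
      barAut (KK A) N (frobAut (KK A) ℓ) • reductionPic0Along r hr hgen x := by
  have := reductionPic0Along_smul hr hgen g₀ hsec hdeg ⟨σ, h.mem_decompositionSubgroup⟩ x
  rw [this, galBar]
  congr 2
  ext a
  rw [resAut_of_isFrobeniusAt A h a]
  exact (frobenius_def ℓ a).symm

end Fermat.Agent.S37.EquivRed42
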