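/-
S37, leaf 15-ES-FN (helper3): the EICHLER–SHIMURA CONGRUENCE ON PRINCIPAL DIVISORS of `F_N`,

  `r_* σ^* (T_ℓ D) = Φ • r_* σ^* D + ℓ • Φ⁻¹ • r_* σ^* D`      (`D` principal on `F_N`),

in exactly the shape of the hypothesis `hT` of `Assembly52.rho_hecke` (blueprint 18 (D4) (ES-fn)).

Setting: `ℓ` prime, `A : ValuationSubring ℚ̄` with residue field `k` perfect of characteristic `ℓ`,
`α β = heckeAlphaBar/heckeBetaBar : F_N → F_{Nℓ}` with `T_ℓ = α_* β^*` (`Divisor.correspondence β α`),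
`σ : F_N →ₐ F_M` any `ℚ̄`-embedding which is `f(q) ↦ f(q^s)` on `q`-expansions (e.g. `Transfer87.sigma`),
`r : Place ℚ̄ F_M → Place k F̄_M` ANY place map with the conservation law (`IsPlaceReductionAlong`),
`Φ = barAut (frobAut k ℓ)` the coefficientwise Frobenius of `F̄_M`.

Inputs: `KronRed N ℓ A` (= leaf 12-KRON-RED in the bp 18 final shape, a HYPOTHESIS here),
`PrincipalGeneratedByIntegral A (residue A) N` (H1 at level `N`: `IntFracInst57`), the norm formula for `α`
(`HeckeInputsFinal85`).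

Proof: for `D = div(incl y)`, `y` integral: `T_ℓ D = div (N_α (β y))` (norm formula), `N_α(β y) = incl V`
with `red V = ū(q^ℓ) · Frob ū` (KRON-RED); apply `σ` (commutes with `incl`, `red`), conservation at level
`M` for `σ y` and `σ V`, and the series identity `(ū(q^ℓ) Frob ū)(q^s) = Frob w̄ · (Frob⁻¹ w̄)^ℓ`, `w̄ = ū(q^s)`
(`KronSeries62.qExpand_eq_pow_of_perfect`).  No sorry.
-/
import Fermat.Agent.S37.RhoTM77
import Fermat.Agent.S37.GalRed42
import Fermat.Agent.S37.Assembly52
import Fermat.Agent.S37.KronSeries62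
import Fermat.Prelude.Thm_ModularCurve_coeffMap_qExpand
import Fermat.Prelude.Def_ModularCurve_ReductionModL

set_option autoImplicit false
set_option linter.unusedSectionVars false
set_option synthInstance.maxHeartbeats 400000
set_option maxHeartbeats 1000000

open ModularCurve AlgebraicCurve HahnSeries

noncomputable section

namespace Fermat.Agent.S37.EsFn3

open Fermat.Agent.S18 Fermat.Agent.S18.Spine33 Fermat.Agent.S37.GalRed42
open Fermat.Agent.S37.Assembly52 Fermat.Agent.S37.RhoTM77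

variable (N ℓ : ℕ) [NeZero N] [NeZero ℓ] [Fact ℓ.Prime]
variable (A : ValuationSubring Kb) [CharP (kA A) ℓ]

/-- **KRON-RED** (bp 18 final shape): the norm `N_α(β y)` of an integral `y ∈ F_N` is integral and
reduces to `ȳ(q^ℓ) · Frob(ȳ)`. -/
def KronRed : Prop :=
  ∀ (U : LaurentSeries A) (hU : coeffMap A.subtype U ∈ modularFunctionFieldBar N),
    ∃ V : LaurentSeries A,
      coeffMap A.subtype V =
        (((letI := algebraAlong (heckeAlphaBar Kb N ℓ)
          Algebra.norm (FK N) (heckeBetaBar Kb N ℓ ⟨coeffMap A.subtype U, hU⟩)) : FK N) :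
            LaurentSeries Kb) ∧
      coeffMap (IsLocalRing.residue A) V =
        qExpand (kA A) ℓ (coeffMap (IsLocalRing.residue A) U) *
          coeffFrob (kA A) ℓ (coeffMap (IsLocalRing.residue A) U)

section Series

variable (k : Type*) [Field k] [CharP k ℓ] [PerfectRing k ℓ]

/-- the series identity behind the congruence: `(ū(q^ℓ) · Frob ū)(q^s) = Frob(w̄) · (Frob⁻¹ w̄)^ℓ`
with `w̄ = ū(q^s)`. -/
theorem qExpand_kron_eq (s : ℕ) [NeZero s] (u : LaurentSeries k) :
    qExpand k s (qExpand k ℓ u * coeffFrob k ℓ u) =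
      coeffFrob k ℓ (qExpand k s u) *
        (coeffMap ((frobeniusEquiv k ℓ).symm : k →+* k) (qExpand k s u)) ^ ℓ := by
  rw [map_mul, ← KronSeries62.qExpand_eq_pow_of_perfect, coeffFrob, coeffMap_qExpand,
    qExpand_qExpand, qExpand_qExpand, mul_comm]
  congr 1
  exact qExpand_congr (Nat.mul_comm s ℓ) u

end Series

section Main

variable {N ℓ A}
variable [PerfectRing (kA A) ℓ]
variable [HasPrincipalDivisors Kb (FK (N * ℓ))]
variable (hα : (heckeAlphaBar Kb N ℓ).toRingHom.IsIntegral)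
  (hβ : (heckeBetaBar Kb N ℓ).toRingHom.IsIntegral)
  (hfin : FiniteAlong Kb (heckeAlphaBar Kb N ℓ))
  (hN : NormFormulaAlong Kb (heckeAlphaBar Kb N ℓ) hfin)
variable {s M : ℕ} [NeZero s] [HasPrincipalDivisors Kb (FK M)]
variable (σ : FK N →ₐ[Kb] FK M) (hσ : σ.toRingHom.IsIntegral)
  (hσq : ∀ f : FK N, ((σ f : FK M) : LaurentSeries Kb) = qExpand Kb s (f : LaurentSeries Kb))
  (hqk : ∀ x ∈ modularFunctionFieldFullC (kA A) N,
    qExpand (kA A) s x ∈ modularFunctionFieldFullC (kA A) M)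
variable (r : Place Kb (FK M) → Place (kA A) (Fk (kA A) M))
  (hr : IsPlaceReductionAlong A (IsLocalRing.residue A) M r)

/-- the Frobenius `Φ` of the special fibre at level `M` -/
abbrev Phi (ℓ : ℕ) [Fact ℓ.Prime] (A : ValuationSubring Kb) [CharP (kA A) ℓ]
    [PerfectRing (kA A) ℓ] (M : ℕ) : SemilinearAut (kA A) (Fk (kA A) M) :=
  barAut (kA A) M (frobAut (kA A) ℓ)

theorem coe_Phi_smul (x : Fk (kA A) M) :
    ((Phi ℓ A M • x : Fk (kA A) M) : LaurentSeries (kA A)) =
      coeffFrob (kA A) ℓ (x : LaurentSeries (kA A)) :=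
  coe_barAut_frobAut_smul (kA A) M ℓ x

theorem coe_Phi_inv_smul (x : Fk (kA A) M) :
    (((Phi ℓ A M)⁻¹ • x : Fk (kA A) M) : LaurentSeries (kA A)) =
      coeffMap ((frobeniusEquiv (kA A) ℓ).symm : kA A →+* kA A) (x : LaurentSeries (kA A)) := by
  rw [Phi, ← map_inv, coe_barAut_smul]
  rfl

include hfin hN hσq hqk hr in
/-- **(ES-fn) on integral principal divisors.** -/
theorem es_fn_integral (hkron : KronRed N ℓ A) {D : Divisor Kb (FK N)}
    (hD : D ∈ integralPrincipalDivisors A (IsLocalRing.residue A) N) :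
    Finsupp.mapDomain r (Divisor.pullbackAlong σ hσ
        (Divisor.correspondence (heckeBetaBar Kb N ℓ) (heckeAlphaBar Kb N ℓ) hβ hα D)) =
      Phi ℓ A M • Finsupp.mapDomain r (Divisor.pullbackAlong σ hσ D) +
        ℓ • (Phi ℓ A M)⁻¹ • Finsupp.mapDomain r (Divisor.pullbackAlong σ hσ D) := by
  obtain ⟨y, hy, hyk, hne, hDy⟩ := hD
  set π := IsLocalRing.residue A with hπ
  set f : FK N := ⟨coeffMap A.subtype y, hy⟩ with hf
  have hDf : IsDivOf D f := hDy
  have hinjA : Function.Injective (coeffMap (R := A) (S := Kb) A.subtype) :=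
    GalRed42.coeffMap_injective A.subtype_injective
  have hy0 : y ≠ 0 := fun h => hne (by rw [h, map_zero])
  have hf0 : f ≠ 0 := by
    intro h
    have : coeffMap A.subtype y = 0 := congrArg Subtype.val h
    exact hy0 (hinjA (by rw [this, map_zero]))
  have hβf0 : heckeBetaBar Kb N ℓ f ≠ 0 :=
    (map_ne_zero_iff _ (heckeBetaBar Kb N ℓ).toRingHom.injective).mpr hf0
  -- `T D = div g`
  set g : FK N := (letI := algebraAlong (heckeAlphaBar Kb N ℓ)
    Algebra.norm (FK N) (heckeBetaBar Kb N ℓ f)) with hg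
  have hTD : IsDivOf (Divisor.correspondence (heckeBetaBar Kb N ℓ) (heckeAlphaBar Kb N ℓ) hβ hα D) g :=
    isDivOf_pushforwardAlong (heckeAlphaBar Kb N ℓ) hα hfin hN hβf0
      (isDivOf_pullbackAlong (heckeBetaBar Kb N ℓ) hβ hDf)
  obtain ⟨V, hVincl, hVred⟩ := hkron y hy
  -- series at level `M`
  set y' : LaurentSeries A := qExpand A s y with hy'
  set V' : LaurentSeries A := qExpand A s V with hV'
  set u : LaurentSeries (kA A) := coeffMap π y with hu
  have hy'incl : coeffMap A.subtype y' = ((σ f : FK M) : LaurentSeries Kb) := by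
    rw [hy', coeffMap_qExpand, hσq]
  have hV'incl : coeffMap A.subtype V' = ((σ g : FK M) : LaurentSeries Kb) := by
    rw [hV', coeffMap_qExpand, hσq, hVincl]
  have hy'red : coeffMap π y' = qExpand (kA A) s u := by
    rw [hy', coeffMap_qExpand]
  have hV'red : coeffMap π V' = qExpand (kA A) s (qExpand (kA A) ℓ u * coeffFrob (kA A) ℓ u) := by
    rw [hV', coeffMap_qExpand, hVred]
  have hy'mem : coeffMap A.subtype y' ∈ modularFunctionFieldBar M := by
    rw [hy'incl]; exact (σ f).2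
  have hV'mem : coeffMap A.subtype V' ∈ modularFunctionFieldBar M := by
    rw [hV'incl]; exact (σ g).2
  have hy'k : coeffMap π y' ∈ modularFunctionFieldFullC (kA A) M := by
    rw [hy'red]; exact hqk _ hyk
  have hu0 : u ≠ 0 := hne
  have hw0 : qExpand (kA A) s u ≠ 0 := fun h =>
    hu0 (qExpand_injective (R := kA A) (N := s) (by rw [h, map_zero]))
  have hy'ne : coeffMap π y' ≠ 0 := by rw [hy'red]; exact hw0
  -- the reduction `w̄` of `σ f`
  set w : Fk (kA A) M := ⟨coeffMap π y', hy'k⟩ with hw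
  have hwcoe : (w : LaurentSeries (kA A)) = qExpand (kA A) s u := hy'red
  have hwne : w ≠ 0 := fun h => hy'ne (congrArg Subtype.val h)
  -- the element `Φ w̄ · (Φ⁻¹ w̄)^ℓ`
  set z : Fk (kA A) M := Phi ℓ A M • w * ((Phi ℓ A M)⁻¹ • w) ^ ℓ with hz
  have hzcoe : (z : LaurentSeries (kA A)) = coeffMap π V' := by
    rw [hV'red, qExpand_kron_eq, hz]
    show ((Phi ℓ A M • w : Fk (kA A) M) : LaurentSeries (kA A)) *
      (((Phi ℓ A M)⁻¹ • w : Fk (kA A) M) : LaurentSeries (kA A)) ^ ℓ = _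
    rw [coe_Phi_smul, coe_Phi_inv_smul, hwcoe]
  have hV'k : coeffMap π V' ∈ modularFunctionFieldFullC (kA A) M := by
    rw [← hzcoe]; exact z.2
  have hΦw0 : Phi ℓ A M • w ≠ 0 := by
    intro h
    apply hwne
    have := congrArg (fun x => (Phi ℓ A M)⁻¹ • x) h
    simpa using this
  have hΦiw0 : (Phi ℓ A M)⁻¹ • w ≠ 0 := by
    intro h
    apply hwne
    have := congrArg (fun x => (Phi ℓ A M) • x) h
    simpa using this
  have hz0 : z ≠ 0 := mul_ne_zero hΦw0 (pow_ne_zero _ hΦiw0)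
  have hV'ne : coeffMap π V' ≠ 0 := by
    rw [← hzcoe]
    exact fun h => hz0 (Subtype.ext h)
  -- conservation for `σ f` and `σ g`
  set E := Finsupp.mapDomain r (Divisor.pullbackAlong σ hσ D) with hE
  have hEw : IsDivOf E w := fun Q =>
    hr.2 y' hy'mem hy'k hy'ne (Divisor.pullbackAlong σ hσ D)
      (fun P => by
        rw [isDivOf_pullbackAlong σ hσ hDf P]
        congr 1
        exact Subtype.ext hy'incl.symm) Q
  have hLz : IsDivOf (Finsupp.mapDomain r (Divisor.pullbackAlong σ hσ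
      (Divisor.correspondence (heckeBetaBar Kb N ℓ) (heckeAlphaBar Kb N ℓ) hβ hα D))) z := by
    intro Q
    have h1 := hr.2 V' hV'mem hV'k hV'ne (Divisor.pullbackAlong σ hσ
      (Divisor.correspondence (heckeBetaBar Kb N ℓ) (heckeAlphaBar Kb N ℓ) hβ hα D))
      (fun P => by
        rw [isDivOf_pullbackAlong σ hσ hTD P]
        congr 1
        exact Subtype.ext hV'incl.symm) Q
    rw [h1]
    congr 1
    exact Subtype.ext hzcoe.symm
  -- the right hand side is also the divisor of `z`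
  have hRz : IsDivOf (Phi ℓ A M • E + ℓ • (Phi ℓ A M)⁻¹ • E) z :=
    (hEw.smul (Phi ℓ A M)).mul ((hEw.smul (Phi ℓ A M)⁻¹).pow ℓ) hΦw0 (pow_ne_zero _ hΦiw0)
  exact hLz.eq hRz

/-- the two sides of (ES-fn) as additive maps -/
def lhsHom : Divisor Kb (FK N) →+ Divisor (kA A) (Fk (kA A) M) :=
  (Finsupp.mapDomain.addMonoidHom r).comp ((Divisor.pullbackAlong σ hσ).comp
    (Divisor.correspondence (heckeBetaBar Kb N ℓ) (heckeAlphaBar Kb N ℓ) hβ hα))

def rhsHom : Divisor Kb (FK N) →+ Divisor (kA A) (Fk (kA A) M) :=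
  (frobVer (Phi ℓ A M) ℓ).comp ((Finsupp.mapDomain.addMonoidHom r).comp (Divisor.pullbackAlong σ hσ))

include hfin hN hσq hqk hr in
/-- **(ES-fn)**: the Eichler–Shimura congruence on ALL principal divisors of `F_N`. -/
theorem es_fn (hkron : KronRed N ℓ A)
    (hgen : PrincipalGeneratedByIntegral A (IsLocalRing.residue A) N)
    {D : Divisor Kb (FK N)} (hD : D ∈ Divisor.principal (K := Kb) (F := FK N)) :
    Finsupp.mapDomain r (Divisor.pullbackAlong σ hσ
        (Divisor.correspondence (heckeBetaBar Kb N ℓ) (heckeAlphaBar Kb N ℓ) hβ hα D)) =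
      Phi ℓ A M • Finsupp.mapDomain r (Divisor.pullbackAlong σ hσ D) +
        ℓ • (Phi ℓ A M)⁻¹ • Finsupp.mapDomain r (Divisor.pullbackAlong σ hσ D) := by
  have hD' := hgen hD
  clear hD
  show lhsHom hα hβ σ hσ r D = rhsHom σ hσ r D
  induction hD' using AddSubgroup.closure_induction with
  | mem E hE => exact es_fn_integral hα hβ hfin hN σ hσ hσq hqk r hr hkron hE
  | zero => rw [map_zero, map_zero]
  | add E E' _ _ hE hE' => rw [map_add, map_add, hE, hE']
  | neg E _ hE => rw [map_neg, map_neg, hE]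

include hfin hN hσq hqk hr in
/-- (ES-fn) in the exact shape of the hypothesis `hT` of `Assembly52.rho_hecke` /
`Assembly52.redPull_correspondence`. -/
theorem es_fn_redPull (hkron : KronRed N ℓ A)
    (hgen : PrincipalGeneratedByIntegral A (IsLocalRing.residue A) N) :
    ∀ D ∈ Divisor.principal (K := Kb) (F := FK N),
      redPull σ hσ r (Divisor.correspondence (heckeBetaBar Kb N ℓ) (heckeAlphaBar Kb N ℓ) hβ hα D)
        = Phi ℓ A M • redPull σ hσ r D + ℓ • (Phi ℓ A M)⁻¹ • redPull σ hσ r D :=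
  fun _ hD => es_fn hα hβ hfin hN σ hσ hσq hqk r hr hkron hgen hD

end Main

/-! ### the instance `σ = σ_s : F_N → F_{sN}` of `Transfer87` / `RhoTM77` -/

section Sigma

variable {N ℓ A}
variable [PerfectRing (kA A) ℓ]
variable [HasPrincipalDivisors Kb (FK (N * ℓ))]
variable (hα : (heckeAlphaBar Kb N ℓ).toRingHom.IsIntegral)
  (hβ : (heckeBetaBar Kb N ℓ).toRingHom.IsIntegral)
  (hfin : FiniteAlong Kb (heckeAlphaBar Kb N ℓ))
  (hN : NormFormulaAlong Kb (heckeAlphaBar Kb N ℓ) hfin)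
variable (s : ℕ) [NeZero s]
variable (r : Place Kb (FK (s * N)) → Place (kA A) (Fk (kA A) (s * N)))
  (hr : IsPlaceReductionAlong A (IsLocalRing.residue A) (s * N) r)

include hfin hN hr in
/-- (ES-fn) for `RhoTM77.rhoDiv N s r = r_* ∘ σ_s^*`. -/
theorem es_fn_rhoDiv (hkron : KronRed N ℓ A)
    (hgen : PrincipalGeneratedByIntegral A (IsLocalRing.residue A) N)
    {D : Divisor Kb (FK N)} (hD : D ∈ Divisor.principal (K := Kb) (F := FK N)) :
    rhoDiv N s r (Divisor.correspondence (heckeBetaBar Kb N ℓ) (heckeAlphaBar Kb N ℓ) hβ hα D) =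
      Phi ℓ A (s * N) • rhoDiv N s r D + ℓ • (Phi ℓ A (s * N))⁻¹ • rhoDiv N s r D := by
  have := NormFrac20.hasPrincipalDivisors_bar (s * N)
  exact es_fn hα hβ hfin hN (Transfer87.sigma N s) (sigma_int N s) (fun _ => rfl)
    (fun x hx => Transfer87.qExpand_memC N s (kA A) hx) r hr hkron hgen hD

end Sigma

end Fermat.Agent.S37.EsFn3
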