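/-
S37, leaf 15-ES-FN (helper57): the Eichler–Shimura congruence ON PRINCIPAL DIVISORS, in the exact
shape of the hypothesis `hT` of `Assembly52.redPull_correspondence` / `Assembly52.rho_hecke`.

Setting: `A` a valuation subring of `ℚ̄`, `k` its residue field of characteristic `ℓ` (perfect),
`N` a level, `s ≥ 1`, `M = s * N`, `σ = Transfer87.sigma N s : F_N → F_M` (`q ↦ q^s`),
`r : Place ℚ̄ F_M → Place k F̄_M` ANY place map with the conservation law
(`IsPlaceReductionAlong A (residue A) M r`), `α β = heckeAlphaBar / heckeBetaBar ℚ̄ N ℓ`,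
`Φ = GalRed42.barAut k M (frobAut k ℓ)` the coefficientwise Frobenius of `F̄_M`.

`esFn` : for every principal divisor `D` of `F_N`
  `r_* σ^* (α_* β^* D) = Φ • r_* σ^* D + ℓ • Φ⁻¹ • r_* σ^* D`.

Inputs: (H1@N) integral fractions at level `N` (`IntFracInst57`), the norm formula for `α`
(`HeckeInputsFinal85`), the Kronecker congruence on norms `KronRed` (leaf 12-KRON-RED, here a
HYPOTHESIS in the shape fixed by blueprint 18), and `ρ(O ∩ F_N) ⊆ F̄_N` (`Bridge28.gaussPair`).
-/
import Mathlib
import Fermat.Prelude.Thm_ModularCurve_coeffMap_qExpand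
import Fermat.Prelude.Def_ModularCurve_HeckeOperator
import Fermat.Prelude.Def_ModularCurve_ReductionModL
import Fermat.Agent.S18.Normalize96
import Fermat.Agent.S18.Transfer87
import Fermat.Agent.S37.Assembly52
import Fermat.Agent.S37.GalRed42

set_option autoImplicit false

noncomputable section

namespace Fermat.Agent.S37.EsFn57

open ModularCurve HahnSeries IntermediateField AlgebraicCurve
open Fermat.Agent.S18 Fermat.Agent.S18.Spine33 Fermat.Agent.S37.Assembly52
  Fermat.Agent.S37.GalRed42

/-! ### `qExpand` on the special fibre -/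

section QExpandBar

variable (k : Type*) [Field k] (N s : ℕ) [NeZero N] [NeZero s]

/-- `x(q) ↦ x(q^s)` maps `F̄_N` into `F̄_{sN}`. -/
theorem qExpand_mem_fullC {x : LaurentSeries k} (hx : x ∈ modularFunctionFieldFullC k N) :
    qExpand k s x ∈ modularFunctionFieldFullC k (s * N) := by
  have h := full_degeneracyC_map_le (K := k) (N := N) s
  have h1 : qExpand k s x ∈ modularFunctionFieldFullC k (N * s) :=
    h ⟨x, hx, rfl⟩
  rwa [Nat.mul_comm] at h1

end QExpandBar

/-! ### Frobenius and Verschiebung on functions of the special fibre -/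

section FrobVer

variable (k : Type*) [Field k] (M : ℕ) (ℓ : ℕ) [Fact ℓ.Prime] [CharP k ℓ] [PerfectRing k ℓ]

/-- the coefficientwise Frobenius of `F̄_M` -/
abbrev Phi : SemilinearAut k (modularFunctionFieldFullC k M) := barAut k M (frobAut k ℓ)

/-- `((Φ • u) * (Φ⁻¹ • u)^ℓ)(q) = u^Frob(q) * u(q^ℓ)`. -/
theorem coe_frobVer_elt [NeZero ℓ] (u : modularFunctionFieldFullC k M) :
    (((Phi k M ℓ • u) * (((Phi k M ℓ)⁻¹ • u) ^ ℓ) : modularFunctionFieldFullC k M) :
      LaurentSeries k) =
      coeffFrob k ℓ (u : LaurentSeries k) * qExpand k ℓ (u : LaurentSeries k) := by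
  have h1 : ((Phi k M ℓ • u : modularFunctionFieldFullC k M) : LaurentSeries k) =
      coeffFrob k ℓ (u : LaurentSeries k) := coe_barAut_frobAut_smul k M ℓ u
  have h2 : ((((Phi k M ℓ)⁻¹ • u) ^ ℓ : modularFunctionFieldFullC k M) : LaurentSeries k) =
      qExpand k ℓ (u : LaurentSeries k) := by
    have e1 : ((((Phi k M ℓ)⁻¹ • u) ^ ℓ : modularFunctionFieldFullC k M) : LaurentSeries k) =
        ((((Phi k M ℓ)⁻¹ • u : modularFunctionFieldFullC k M)) : LaurentSeries k) ^ ℓ := rfl
    rw [e1, ← qExpand_coeffFrob k ℓ, ← coe_barAut_frobAut_smul k M ℓ, smul_inv_smul]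
  have e0 : (((Phi k M ℓ • u) * (((Phi k M ℓ)⁻¹ • u) ^ ℓ) : modularFunctionFieldFullC k M) :
      LaurentSeries k) =
      ((Phi k M ℓ • u : modularFunctionFieldFullC k M) : LaurentSeries k) *
        ((((Phi k M ℓ)⁻¹ • u) ^ ℓ : modularFunctionFieldFullC k M) : LaurentSeries k) := rfl
  rw [e0, h1, h2]

/-- `Φ • E + ℓ • Φ⁻¹ • E` is the divisor of `(Φ • u) * (Φ⁻¹ • u)^ℓ` when `E = div u`. -/
theorem isDivOf_frobVer {E : Divisor k (modularFunctionFieldFullC k M)}
    {u : modularFunctionFieldFullC k M} (hu : u ≠ 0) (hE : IsDivOf E u) :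
    IsDivOf (Phi k M ℓ • E + ℓ • (Phi k M ℓ)⁻¹ • E)
      ((Phi k M ℓ • u) * (((Phi k M ℓ)⁻¹ • u) ^ ℓ)) := by
  have h1 : IsDivOf (Phi k M ℓ • E) (Phi k M ℓ • u) := hE.smul _
  have h2 : IsDivOf ((Phi k M ℓ)⁻¹ • E) ((Phi k M ℓ)⁻¹ • u) := hE.smul _
  have hne : ∀ g : SemilinearAut k (modularFunctionFieldFullC k M), g • u ≠ 0 := by
    intro g
    rw [SemilinearAut.smul_def]
    exact (map_ne_zero_iff _ (SemilinearAut.toRingAut g).injective).2 hu
  exact h1.mul (h2.pow ℓ) (hne _) (pow_ne_zero _ (hne _))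

end FrobVer

/-! ### `r_* σ^*` on the divisor of an integral element -/

section RedPullIntElt

variable (A : ValuationSubring Kb) {k : Type*} [Field k] (π : A →+* k)
variable (N s : ℕ) [NeZero N] [NeZero s]

/-- the reduction of an integral element of level `N`, pushed to level `s * N` -/
def redS (a : Normalize96.IntElt A π N) : modularFunctionFieldFullC k (s * N) :=
  ⟨qExpand k s (coeffMap π a.y), qExpand_mem_fullC k N s a.memk⟩

theorem coe_redS (a : Normalize96.IntElt A π N) :
    ((redS A π N s a : modularFunctionFieldFullC k (s * N)) : LaurentSeries k) =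
      qExpand k s (coeffMap π a.y) := rfl

theorem redS_ne_zero (a : Normalize96.IntElt A π N) : redS A π N s a ≠ 0 := by
  intro h
  have h1 : qExpand k s (coeffMap π a.y) = 0 := congrArg Subtype.val h
  have h2 : coeffMap π a.y = 0 := qExpand_injective s (by rw [h1, map_zero])
  exact a.ne h2

variable [HasPrincipalDivisors Kb (FK (s * N))]
variable {A π N s}
variable {r : Place Kb (FK (s * N)) → Place k (modularFunctionFieldFullC k (s * N))}

/-- **Conservation after pull-back**: `r_* σ^* (div a) = div (ā(q^s))` for an integral `a`. -/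
theorem isDivOf_redPull_intElt (hr : IsPlaceReductionAlong A π (s * N) r)
    (a : Normalize96.IntElt A π N) {D : Divisor Kb (FK N)} (hD : IsDivOf D a.toF) :
    IsDivOf (Finsupp.mapDomain r
      (Divisor.pullbackAlong (Transfer87.sigma N s) (Transfer87.sigma_isIntegral N s) D))
      (redS A π N s a) := by
  intro Q
  set y' : LaurentSeries A := qExpand A s a.y with hy'
  have e1 : coeffMap A.subtype y' = qExpand Kb s (coeffMap A.subtype a.y) :=
    coeffMap_qExpand _ s _
  have e2 : coeffMap π y' = qExpand k s (coeffMap π a.y) := coeffMap_qExpand _ s _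
  have hmem : coeffMap A.subtype y' ∈ modularFunctionFieldBar (s * N) := by
    rw [e1]; exact Transfer87.qExpand_mem N s a.toF
  have hmemk : coeffMap π y' ∈ modularFunctionFieldFullC k (s * N) := by
    rw [e2]; exact qExpand_mem_fullC k N s a.memk
  have hne : coeffMap π y' ≠ 0 := by
    rw [e2]
    intro h
    exact a.ne (qExpand_injective s (by rw [h, map_zero]))
  have hσ : Transfer87.sigma N s a.toF = ⟨coeffMap A.subtype y', hmem⟩ :=
    Subtype.ext e1.symm
  have hpull : ∀ P : Place Kb (FK (s * N)),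
      Divisor.pullbackAlong (Transfer87.sigma N s) (Transfer87.sigma_isIntegral N s) D P =
        P.ord (⟨coeffMap A.subtype y', hmem⟩ : FK (s * N)) := by
    intro P
    rw [← hσ]
    exact isDivOf_pullbackAlong _ _ hD P
  rw [hr.2 y' hmem hmemk hne _ hpull Q]
  congr 1
  exact Subtype.ext e2

end RedPullIntElt

/-! ### The Eichler–Shimura congruence on principal divisors -/

section ES

variable (A : ValuationSubring Kb) {k : Type*} [Field k] (π : A →+* k)
variable (N s ℓ : ℕ) [NeZero N] [NeZero s] [NeZero ℓ] [Fact ℓ.Prime] [CharP k ℓ]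

/-- **Kronecker congruence on norms** (leaf 12-KRON-RED), as a hypothesis: for an integral element
`a` of level `N` the norm `N_α(β a)` (an element of `F_N`) is the inclusion of a series `V` over
`A` with `V̄ = ā(q^ℓ) · ā^Frob`. -/
def KronRed : Prop :=
  ∀ a : Normalize96.IntElt A π N, ∃ V : LaurentSeries A,
    coeffMap A.subtype V =
      (((letI := algebraAlong (heckeAlphaBar Kb N ℓ)
         Algebra.norm (FK N) (heckeBetaBar Kb N ℓ a.toF)) : FK N) : LaurentSeries Kb) ∧
    coeffMap π V = qExpand k ℓ (coeffMap π a.y) * coeffFrob k ℓ (coeffMap π a.y)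

/-- `ρ(O ∩ F_N) ⊆ F̄_N`, for integral series (from `Bridge28.gaussPair` at level `N`). -/
def RedMem : Prop :=
  ∀ V : LaurentSeries A, coeffMap A.subtype V ∈ modularFunctionFieldBar N →
    coeffMap π V ∈ modularFunctionFieldFullC k N

variable [PerfectRing k ℓ]
variable [HasPrincipalDivisors Kb (FK (s * N))] [HasPrincipalDivisors Kb (FK (N * ℓ))]
variable {A π N s ℓ}
variable {r : Place Kb (FK (s * N)) → Place k (modularFunctionFieldFullC k (s * N))}
variable (hα : HeckeAlphaBarIntegral Kb N ℓ) (hβ : HeckeBetaBarIntegral Kb N ℓ)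
variable (hfin : FiniteAlong Kb (heckeAlphaBar Kb N ℓ))
variable (hNorm : NormFormulaAlong Kb (heckeAlphaBar Kb N ℓ) hfin)

include hNorm in
/-- the Hecke correspondence of the divisor of an integral element is the divisor of the integral
element given by the Kronecker congruence -/
theorem exists_intElt_correspondence (hK : KronRed A π N ℓ) (hρ : RedMem A π N)
    (a : Normalize96.IntElt A π N) {D : Divisor Kb (FK N)} (hD : IsDivOf D a.toF) :
    ∃ b : Normalize96.IntElt A π N,
      IsDivOf (Divisor.correspondence (heckeBetaBar Kb N ℓ) (heckeAlphaBar Kb N ℓ) hβ hα D) b.toF ∧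
      coeffMap π b.y = qExpand k ℓ (coeffMap π a.y) * coeffFrob k ℓ (coeffMap π a.y) := by
  obtain ⟨V, hV, hVred⟩ := hK a
  have hmem : coeffMap A.subtype V ∈ modularFunctionFieldBar N := by
    rw [hV]; exact Subtype.property _
  have hne : coeffMap π V ≠ 0 := by
    rw [hVred]
    refine mul_ne_zero ?_ ?_
    · intro h
      exact a.ne (qExpand_injective ℓ (by rw [h, map_zero]))
    · intro h
      exact a.ne (coeffMap_injective (frobenius k ℓ).injective (by rw [map_zero]; exact h))
  refine ⟨⟨V, hmem, hρ V hmem, hne⟩, ?_, hVred⟩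
  have hβa : heckeBetaBar Kb N ℓ a.toF ≠ 0 :=
    (map_ne_zero_iff _ (heckeBetaBar Kb N ℓ).toRingHom.injective).mpr a.toF_ne_zero
  have h1 : IsDivOf (Divisor.pullbackAlong (heckeBetaBar Kb N ℓ) hβ D)
      (heckeBetaBar Kb N ℓ a.toF) := isDivOf_pullbackAlong _ hβ hD
  have h2 := isDivOf_pushforwardAlong (heckeAlphaBar Kb N ℓ) hα hfin hNorm hβa h1
  have e : (⟨V, hmem, hρ V hmem, hne⟩ : Normalize96.IntElt A π N).toF =
      (letI := algebraAlong (heckeAlphaBar Kb N ℓ)
       Algebra.norm (FK N) (heckeBetaBar Kb N ℓ a.toF)) := Subtype.ext hV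
  rw [e]
  exact h2

/-- the `q`-series identity behind the congruence -/
theorem qExpand_kron_eq (x : LaurentSeries k) :
    qExpand k s (qExpand k ℓ x * coeffFrob k ℓ x) =
      coeffFrob k ℓ (qExpand k s x) * qExpand k ℓ (qExpand k s x) := by
  have h1 : coeffFrob k ℓ (qExpand k s x) = qExpand k s (coeffFrob k ℓ x) :=
    coeffMap_qExpand _ s x
  have h2 : qExpand k ℓ (qExpand k s x) = qExpand k s (qExpand k ℓ x) := by
    rw [qExpand_qExpand, qExpand_qExpand]
    exact qExpand_congr (Nat.mul_comm ℓ s) x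
  rw [map_mul, h1, h2, mul_comm]

variable (hσ : (Transfer87.sigma N s).toRingHom.IsIntegral)

include hNorm in
/-- **ES-fn for the divisor of an integral element.** -/
theorem esFn_intElt (hr : IsPlaceReductionAlong A π (s * N) r) (hK : KronRed A π N ℓ)
    (hρ : RedMem A π N) (a : Normalize96.IntElt A π N) {D : Divisor Kb (FK N)}
    (hD : IsDivOf D a.toF) :
    redPull (Transfer87.sigma N s) hσ r
        (Divisor.correspondence (heckeBetaBar Kb N ℓ) (heckeAlphaBar Kb N ℓ) hβ hα D) =
      Phi k (s * N) ℓ • redPull (Transfer87.sigma N s) hσ r D +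
        ℓ • (Phi k (s * N) ℓ)⁻¹ • redPull (Transfer87.sigma N s) hσ r D := by
  obtain ⟨b, hb, hbred⟩ := exists_intElt_correspondence hα hβ hfin hNorm hK hρ a hD
  have h1 : IsDivOf (redPull (Transfer87.sigma N s) hσ r
      (Divisor.correspondence (heckeBetaBar Kb N ℓ) (heckeAlphaBar Kb N ℓ) hβ hα D))
      (redS A π N s b) := isDivOf_redPull_intElt hr b hb
  have h2 : IsDivOf (redPull (Transfer87.sigma N s) hσ r D) (redS A π N s a) :=
    isDivOf_redPull_intElt hr a hD
  have h3 := isDivOf_frobVer k (s * N) ℓ (redS_ne_zero A π N s a) h2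
  have e : redS A π N s b =
      (Phi k (s * N) ℓ • redS A π N s a) * (((Phi k (s * N) ℓ)⁻¹ • redS A π N s a) ^ ℓ) := by
    apply Subtype.ext
    rw [coe_frobVer_elt, coe_redS, coe_redS, hbred]
    exact qExpand_kron_eq (coeffMap π a.y)
  rw [e] at h1
  exact h1.eq h3

include hNorm in
/-- **15-ES-FN**: the Eichler–Shimura congruence on principal divisors, in the shape of the
hypothesis `hT` of `Assembly52.redPull_correspondence` / `Assembly52.rho_hecke`. -/
theorem esFn [HasPrincipalDivisors Kb (FK N)]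
    (hr : IsPlaceReductionAlong A π (s * N) r) (hK : KronRed A π N ℓ) (hρ : RedMem A π N)
    (hfrac : Normalize96.HasIntegralFractions A π N) :
    ∀ D ∈ Divisor.principal (K := Kb) (F := FK N),
      redPull (Transfer87.sigma N s) hσ r
          (Divisor.correspondence (heckeBetaBar Kb N ℓ) (heckeAlphaBar Kb N ℓ) hβ hα D) =
        Phi k (s * N) ℓ • redPull (Transfer87.sigma N s) hσ r D +
          ℓ • (Phi k (s * N) ℓ)⁻¹ • redPull (Transfer87.sigma N s) hσ r D := by
  intro D hD
  obtain ⟨y, hy0, hDy⟩ := hD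
  obtain ⟨c, a, b, hc, hx⟩ := hfrac y hy0
  obtain ⟨Da, hDa, -⟩ := HasPrincipalDivisors.exists_divisor (K := Kb) a.toF a.toF_ne_zero
  obtain ⟨Db, hDb, -⟩ := HasPrincipalDivisors.exists_divisor (K := Kb) b.toF b.toF_ne_zero
  have hc' : algebraMap Kb (FK N) c ≠ 0 := by simpa using hc
  have hDeq : D = Da - Db := by
    ext P
    have h1 := congrArg P.ord hx
    rw [P.ord_mul hy0 b.toF_ne_zero, P.ord_mul hc' a.toF_ne_zero,
      Normalize96.ord_algebraMap P c hc, zero_add] at h1
    rw [Finsupp.sub_apply, hDy, hDa, hDb]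
    omega
  have ha := esFn_intElt hα hβ hfin hNorm hσ hr hK hρ a (D := Da) hDa
  have hb := esFn_intElt hα hβ hfin hNorm hσ hr hK hρ b (D := Db) hDb
  rw [hDeq, map_sub, map_sub, ha, hb, map_sub, smul_sub, smul_sub, smul_sub]
  abel

end ES

end Fermat.Agent.S37.EsFn57

end
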