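/-
S37, leaf 15-ES-FN, FINAL (unconditional) form (helper3): `EsFn3.es_fn_rhoDiv` with its three inputs
discharged from landed files: `KronRed` = helper17 `KronRedStmt17.kronRedStatement`,
`PrincipalGeneratedByIntegral` at level `N` = helper57 `IntFracInst57`, Hecke inputs = helper85
`HeckeConcrete85 / HeckeInputsFinal85`.

  `es_fn_rhoDiv N ℓ s hℓN A hA r hr hD :
     rhoDiv N s r (T_ℓ D) = Φ • rhoDiv N s r D + ℓ • Φ⁻¹ • rhoDiv N s r D`   (`D` principal on `F_N`)

for EVERY place map `r` at level `s N` with `IsPlaceReductionAlong`.  No sorry.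
-/
import Fermat.Agent.S37.EsFn3
import Fermat.Agent.S37.KronRedStmt17
import Fermat.Agent.S37.IntFracInst57
import Fermat.Agent.S37.HeckeInputsFinal85

set_option autoImplicit false
set_option linter.unusedSectionVars false
set_option synthInstance.maxHeartbeats 400000
set_option maxHeartbeats 1000000

open ModularCurve AlgebraicCurve HahnSeries

noncomputable section

namespace Fermat.Agent.S37.EsFnFinal3

open Fermat.Agent.S18 Fermat.Agent.S18.Spine33 Fermat.Agent.S37.GalRed42
open Fermat.Agent.S37.Assembly52 Fermat.Agent.S37.RhoTM77 Fermat.Agent.S37.EsFn3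
open Fermat.Agent.S37.HeckeConcrete85 (hasPrincipalDivisors_mul heckeBetaBarIntegral heckeAlphaBarIntegral finiteAlong_alpha)
open Fermat.Agent.S37.HeckeInputsFinal85 (normFormulaAlong_alpha)

variable (N ℓ s : ℕ) [NeZero N] [NeZero ℓ] [NeZero s] [Fact ℓ.Prime] (hℓN : ¬ ℓ ∣ N)
variable (A : ValuationSubring Kb) (hA : A.LiesOverPrime ℓ)
variable [CharP (kA A) ℓ] [PerfectRing (kA A) ℓ]

include hℓN in
/-- leaf 12 in the `EsFn3` shape -/
theorem kronRed : KronRed N ℓ A := KronRedStmt17.kronRedStatement N ℓ hℓN A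

variable (r : Place Kb (FK (s * N)) → Place (kA A) (Fk (kA A) (s * N)))
  (hr : IsPlaceReductionAlong A (IsLocalRing.residue A) (s * N) r)

include hℓN hA hr in
/-- **(ES-fn), unconditional**: for `ℓ ∤ N`, `A | ℓ` and ANY place reduction `r` at level `s N`. -/
theorem es_fn_rhoDiv {D : Divisor Kb (FK N)}
    (hD : D ∈ Divisor.principal (K := Kb) (F := FK N)) :
    haveI := hasPrincipalDivisors_mul N ℓ
    rhoDiv N s r (Divisor.correspondence (heckeBetaBar Kb N ℓ) (heckeAlphaBar Kb N ℓ)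
        (heckeBetaBarIntegral N ℓ) (heckeAlphaBarIntegral N ℓ) D) =
      Phi ℓ A (s * N) • rhoDiv N s r D + ℓ • (Phi ℓ A (s * N))⁻¹ • rhoDiv N s r D := by
  have := hasPrincipalDivisors_mul N ℓ
  exact EsFn3.es_fn_rhoDiv (heckeAlphaBarIntegral N ℓ) (heckeBetaBarIntegral N ℓ)
    (finiteAlong_alpha N ℓ) (normFormulaAlong_alpha N ℓ) s r hr (kronRed N ℓ hℓN A)
    (IntFracInst57.principalGeneratedByIntegral_of_liesOver A hA N hℓN) hD

end Fermat.Agent.S37.EsFnFinal3
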