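/-
S37, leaf 15-ES-FN (helper57), concrete inputs: at the residue field `k` of a valuation subring
`A | ℓ` of `ℚ̄` and a level `N` prime to `ℓ`, the hypotheses `RedMem` (from `Bridge28.gaussPair`)
and `HasIntegralFractions` (from `IntFracInst57`) of `EsFn57.esFn` hold; the only remaining
hypothesis is the Kronecker congruence on norms `EsFn57.KronRed` (leaf 12-KRON-RED).
-/
import Mathlib
import Fermat.Agent.S37.EsFn57
import Fermat.Agent.S37.IntFracInst57

set_option autoImplicit false

noncomputable section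

namespace Fermat.Agent.S37.EsFnInst57

open ModularCurve HahnSeries IntermediateField AlgebraicCurve
open Fermat.Agent.S18 Fermat.Agent.S18.Spine33 Fermat.Agent.S18.Bridge28
  Fermat.Agent.S37.Assembly52 Fermat.Agent.S37.GalRed42 Fermat.Agent.S37.EsFn57

variable (A : ValuationSubring Kb) (N : ℕ) [NeZero N]

/-- `ρ(O ∩ F_N) ⊆ F̄_N` for integral series, at every level `N` with `(N : k) ≠ 0`. -/
theorem redMem (hNk : (N : IsLocalRing.ResidueField A) ≠ 0) :
    RedMem A (IsLocalRing.residue A) N := by
  intro V hV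
  have h := (gaussPair A N hNk).rho_mem (Bridge28.incl A V) (incl_mem_O A V) hV
  rwa [rho_incl] at h

variable {ℓ : ℕ} [Fact ℓ.Prime] (hA : A.LiesOverPrime ℓ) (hN : ¬ ℓ ∣ N)

include hA hN in
theorem redMem_of_liesOver : RedMem A (IsLocalRing.residue A) N :=
  redMem A N (natCast_residueField_ne_zero A hA hN)

variable (s : ℕ) [NeZero s] [NeZero ℓ]
variable [CharP (IsLocalRing.ResidueField A) ℓ] [PerfectRing (IsLocalRing.ResidueField A) ℓ]
variable [HasPrincipalDivisors Kb (FK (s * N))] [HasPrincipalDivisors Kb (FK (N * ℓ))]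
  [HasPrincipalDivisors Kb (FK N)]
variable {r : Place Kb (FK (s * N)) →
  Place (IsLocalRing.ResidueField A)
    (modularFunctionFieldFullC (IsLocalRing.ResidueField A) (s * N))}
variable (hα : HeckeAlphaBarIntegral Kb N ℓ) (hβ : HeckeBetaBarIntegral Kb N ℓ)
variable (hfin : FiniteAlong Kb (heckeAlphaBar Kb N ℓ))
variable (hNorm : NormFormulaAlong Kb (heckeAlphaBar Kb N ℓ) hfin)
variable (hσ : (Transfer87.sigma N s).toRingHom.IsIntegral)

include hA hN hNorm in
/-- **15-ES-FN at the residue field of `A | ℓ`, `ℓ ∤ N`**: only the Kronecker congruence `KronRed`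
remains as a hypothesis. -/
theorem esFn_of_liesOver
    (hr : IsPlaceReductionAlong A (IsLocalRing.residue A) (s * N) r)
    (hK : KronRed A (IsLocalRing.residue A) N ℓ) :
    ∀ D ∈ Divisor.principal (K := Kb) (F := FK N),
      redPull (Transfer87.sigma N s) hσ r
          (Divisor.correspondence (heckeBetaBar Kb N ℓ) (heckeAlphaBar Kb N ℓ) hβ hα D) =
        Phi (IsLocalRing.ResidueField A) (s * N) ℓ • redPull (Transfer87.sigma N s) hσ r D +
          ℓ • (Phi (IsLocalRing.ResidueField A) (s * N) ℓ)⁻¹ •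
            redPull (Transfer87.sigma N s) hσ r D :=
  esFn hα hβ hfin hNorm hσ hr hK (redMem_of_liesOver A N hA hN)
    (IntFracInst57.hasIntegralFractions_of_liesOver A hA N hN)

end Fermat.Agent.S37.EsFnInst57

end
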