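/-
S37 / [S37-FORMAL] (helper1): the formal half of the Eichler–Shimura packaging.

`SpecializationExists N p J` (Prelude, `Def_HeckeGalois_EichlerShimura`) asks, for every prime
`ℓ ∤ N p` and every valuation subring `A` over `ℓ`, for a `HeckeAlg`-module `J'`, a Hecke-equivariant
additive map `sp : J → J'` and an endomorphism `F` of `J'` such that `sp` kills inertia, intertwines
every Frobenius element with `F`, is injective on `p`-power torsion and `F² - T_ℓ F + ℓ = 0` on `J'`.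

Here we show that it suffices to produce, for every such `(ℓ, A)`, a merely ADDITIVE map
`sp₀ : J →+ G` into an arbitrary abelian group (no Hecke structure on `G`) with
 (a) `sp₀ (τ • x) = sp₀ x` for `τ` in the inertia group of `A`,
 (b) `sp₀ (σ • σ • x - T_ℓ • (σ • x) + ℓ • x) = 0` for every Frobenius element `σ` of `A`,
 (c) `sp₀` injective on `p`-power torsion,
together with the existence of one Frobenius element.  The witness is `J' := J ⧸ M`, where `M` is
the additive subgroup generated by the elements in (a) and (b); it is a `HeckeAlg`-submodule because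
the Hecke algebra commutes with the Galois action, and it is stable under the decomposition group
because inertia is normal in it and conjugates of Frobenius elements are Frobenius elements.
-/
import Mathlib
import Fermat.Prelude.Def_HeckeGalois_EichlerShimura

set_option autoImplicit false

open ModularCurve

noncomputable section

namespace Fermat.Agent.S37.Formal1

variable {K L : Type*} [Field K] [Field L] [Algebra K L]

/-! ### Inertia and Frobenius elements -/

theorem mem_inertiaSubgroupIn_iff (A : ValuationSubring L) (τ : L ≃ₐ[K] L) :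
    τ ∈ A.inertiaSubgroupIn K ↔ ∃ h : τ ∈ A.decompositionSubgroup K,
      ∀ x : IsLocalRing.ResidueField A, (⟨τ, h⟩ : A.decompositionSubgroup K) • x = x := by
  unfold ValuationSubring.inertiaSubgroupIn
  rw [Subgroup.mem_map]
  constructor
  · rintro ⟨d, hd, rfl⟩
    refine ⟨d.2, fun x => ?_⟩
    have h1 : MulSemiringAction.toRingAut (A.decompositionSubgroup K)
        (IsLocalRing.ResidueField A) d = 1 := hd
    have h2 := congrArg (fun f : RingAut (IsLocalRing.ResidueField A) => f x) h1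
    simpa using h2
  · rintro ⟨h, hx⟩
    refine ⟨⟨τ, h⟩, ?_, rfl⟩
    rw [ValuationSubring.inertiaSubgroup, MonoidHom.mem_ker]
    ext x
    exact hx x

theorem mem_decompositionSubgroup_of_mem_inertiaSubgroupIn {A : ValuationSubring L}
    {τ : L ≃ₐ[K] L} (h : τ ∈ A.inertiaSubgroupIn K) : τ ∈ A.decompositionSubgroup K :=
  ((mem_inertiaSubgroupIn_iff A τ).mp h).choose

/-- Inertia is normal in the decomposition group. -/
theorem conj_mem_inertiaSubgroupIn {A : ValuationSubring L} {g τ : L ≃ₐ[K] L}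
    (hg : g ∈ A.decompositionSubgroup K) (hτ : τ ∈ A.inertiaSubgroupIn K) :
    g * τ * g⁻¹ ∈ A.inertiaSubgroupIn K := by
  obtain ⟨h, hx⟩ := (mem_inertiaSubgroupIn_iff A τ).mp hτ
  have hmem : g * τ * g⁻¹ ∈ A.decompositionSubgroup K :=
    mul_mem (mul_mem hg h) (inv_mem hg)
  refine (mem_inertiaSubgroupIn_iff A _).mpr ⟨hmem, fun x => ?_⟩
  have e : (⟨g * τ * g⁻¹, hmem⟩ : A.decompositionSubgroup K)
      = (⟨g, hg⟩ : A.decompositionSubgroup K) * ⟨τ, h⟩ * (⟨g, hg⟩ : A.decompositionSubgroup K)⁻¹ :=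
    rfl
  rw [e, mul_smul, mul_smul, hx, smul_inv_smul]

/-- Conjugates of a Frobenius element by the decomposition group are Frobenius elements. -/
theorem conj_isFrobeniusAt {A : ValuationSubring L} {g σ : L ≃ₐ[K] L} {q : ℕ}
    (hg : g ∈ A.decompositionSubgroup K) (hσ : A.IsFrobeniusAt σ q) :
    A.IsFrobeniusAt (g * σ * g⁻¹) q := by
  have h := hσ.mem_decompositionSubgroup
  have hmem : g * σ * g⁻¹ ∈ A.decompositionSubgroup K :=
    mul_mem (mul_mem hg h) (inv_mem hg)
  refine ⟨hmem, fun x => ?_⟩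
  have e : (⟨g * σ * g⁻¹, hmem⟩ : A.decompositionSubgroup K)
      = (⟨g, hg⟩ : A.decompositionSubgroup K) * ⟨σ, h⟩ * (⟨g, hg⟩ : A.decompositionSubgroup K)⁻¹ :=
    rfl
  rw [e, mul_smul, mul_smul, hσ.smul_residue_eq, smul_pow', smul_inv_smul]

/-- Two Frobenius elements differ by an element of inertia. -/
theorem inv_mul_mem_inertiaSubgroupIn {A : ValuationSubring L} {σ₀ σ : L ≃ₐ[K] L} {q : ℕ}
    (h₀ : A.IsFrobeniusAt σ₀ q) (hσ : A.IsFrobeniusAt σ q) :
    σ₀⁻¹ * σ ∈ A.inertiaSubgroupIn K := by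
  have m₀ := h₀.mem_decompositionSubgroup
  have m := hσ.mem_decompositionSubgroup
  have hmem : σ₀⁻¹ * σ ∈ A.decompositionSubgroup K := mul_mem (inv_mem m₀) m
  refine (mem_inertiaSubgroupIn_iff A _).mpr ⟨hmem, fun x => ?_⟩
  have e : (⟨σ₀⁻¹ * σ, hmem⟩ : A.decompositionSubgroup K)
      = (⟨σ₀, m₀⟩ : A.decompositionSubgroup K)⁻¹ * ⟨σ, m⟩ := rfl
  rw [e, mul_smul, hσ.smul_residue_eq, ← h₀.smul_residue_eq, inv_smul_smul]

/-! ### The relation subgroup -/

section Relations

variable (J : Type) [AddCommGroup J] [Module HeckeAlg J]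
  [DistribMulAction (L ≃ₐ[K] L) J] [SMulCommClass (L ≃ₐ[K] L) HeckeAlg J]
variable (A : ValuationSubring L) (ℓ : ℕ) (hℓ : ℓ.Prime)

/-- the generators: inertia relations and Eichler–Shimura relations -/
def relGens : Set J :=
  {y | ∃ τ ∈ A.inertiaSubgroupIn K, ∃ x : J, y = τ • x - x} ∪
  {y | ∃ σ : L ≃ₐ[K] L, A.IsFrobeniusAt σ ℓ ∧ ∃ x : J,
    y = σ • σ • x - heckeGen ⟨ℓ, hℓ⟩ • (σ • x) + ℓ • x}

variable {J A ℓ hℓ}

theorem hecke_smul_mem_relGens (t : HeckeAlg) {y : J} (hy : y ∈ relGens (K := K) J A ℓ hℓ) :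
    t • y ∈ relGens (K := K) J A ℓ hℓ := by
  rcases hy with ⟨τ, hτ, x, rfl⟩ | ⟨σ, hσ, x, rfl⟩
  · left
    refine ⟨τ, hτ, t • x, ?_⟩
    rw [smul_sub, smul_comm τ t x]
  · right
    refine ⟨σ, hσ, t • x, ?_⟩
    rw [smul_add, smul_sub, smul_comm σ t x, smul_comm σ t (σ • x),
      smul_comm t (heckeGen ⟨ℓ, hℓ⟩) (σ • x), smul_comm t ℓ x]

omit [Module HeckeAlg J] [SMulCommClass (L ≃ₐ[K] L) HeckeAlg J] in
theorem nsmul_galois (g : L ≃ₐ[K] L) (n : ℕ) (x : J) : g • (n • x) = n • (g • x) :=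
  map_nsmul (DistribSMul.toAddMonoidHom J g) n x

theorem galois_smul_mem_relGens {g : L ≃ₐ[K] L} (hg : g ∈ A.decompositionSubgroup K) {y : J}
    (hy : y ∈ relGens (K := K) J A ℓ hℓ) : g • y ∈ relGens (K := K) J A ℓ hℓ := by
  rcases hy with ⟨τ, hτ, x, rfl⟩ | ⟨σ, hσ, x, rfl⟩
  · left
    refine ⟨g * τ * g⁻¹, conj_mem_inertiaSubgroupIn hg hτ, g • x, ?_⟩
    rw [smul_sub, mul_smul, mul_smul, inv_smul_smul]
  · right
    refine ⟨g * σ * g⁻¹, conj_isFrobeniusAt hg hσ, g • x, ?_⟩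
    have e1 : ∀ z : J, (g * σ * g⁻¹) • g • z = g • σ • z := fun z => by
      rw [mul_smul, mul_smul, inv_smul_smul]
    rw [e1, e1, smul_add, smul_sub, smul_comm g (heckeGen ⟨ℓ, hℓ⟩) (σ • x), nsmul_galois]

variable (J A ℓ hℓ)

/-- the relation submodule `M` -/
def relSubmodule : Submodule HeckeAlg J where
  carrier := AddSubgroup.closure (relGens (K := K) J A ℓ hℓ)
  add_mem' := fun ha hb => AddSubgroup.add_mem _ ha hb
  zero_mem' := AddSubgroup.zero_mem _
  smul_mem' := by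
    intro t y hy
    induction hy using AddSubgroup.closure_induction with
    | mem y hy => exact AddSubgroup.subset_closure (hecke_smul_mem_relGens t hy)
    | zero => rw [smul_zero]; exact AddSubgroup.zero_mem _
    | add a b _ _ ha hb => rw [smul_add]; exact AddSubgroup.add_mem _ ha hb
    | neg a _ ha => rw [smul_neg]; exact AddSubgroup.neg_mem _ ha

variable {J A ℓ hℓ}

theorem mem_relSubmodule_iff {y : J} :
    y ∈ relSubmodule (K := K) J A ℓ hℓ ↔ y ∈ AddSubgroup.closure (relGens (K := K) J A ℓ hℓ) :=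
  Iff.rfl

theorem subset_relSubmodule {y : J} (hy : y ∈ relGens (K := K) J A ℓ hℓ) :
    y ∈ relSubmodule (K := K) J A ℓ hℓ :=
  AddSubgroup.subset_closure hy

theorem galois_smul_mem_relSubmodule {g : L ≃ₐ[K] L} (hg : g ∈ A.decompositionSubgroup K) {y : J}
    (hy : y ∈ relSubmodule (K := K) J A ℓ hℓ) : g • y ∈ relSubmodule (K := K) J A ℓ hℓ := by
  rw [mem_relSubmodule_iff] at hy ⊢
  induction hy using AddSubgroup.closure_induction with
  | mem y hy => exact AddSubgroup.subset_closure (galois_smul_mem_relGens hg hy)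
  | zero => rw [smul_zero]; exact AddSubgroup.zero_mem _
  | add a b _ _ ha hb => rw [smul_add]; exact AddSubgroup.add_mem _ ha hb
  | neg a _ ha => rw [smul_neg]; exact AddSubgroup.neg_mem _ ha

/-- an additive map killing the generators kills `M` -/
theorem map_eq_zero_of_mem_relSubmodule {G : Type*} [AddCommGroup G] (f : J →+ G)
    (hf : ∀ y ∈ relGens (K := K) J A ℓ hℓ, f y = 0) {y : J}
    (hy : y ∈ relSubmodule (K := K) J A ℓ hℓ) : f y = 0 := by
  rw [mem_relSubmodule_iff] at hy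
  induction hy using AddSubgroup.closure_induction with
  | mem y hy => exact hf y hy
  | zero => exact map_zero f
  | add a b _ _ ha hb => rw [map_add, ha, hb, add_zero]
  | neg a _ ha => rw [map_neg, ha, neg_zero]

end Relations

/-! ### The main reduction -/

section Main

variable (N p : ℕ) (J : Type) [AddCommGroup J] [Module HeckeAlg J]
  [DistribMulAction (L ≃ₐ[K] L) J] [SMulCommClass (L ≃ₐ[K] L) HeckeAlg J]

/-- A *real specialization* at `(ℓ, A)`: an additive map to some abelian group which kills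
inertia, satisfies the Eichler–Shimura relation for every Frobenius element and is injective on
`p`-power torsion.  No Hecke structure on the target is required. -/
def HasRealSpecialization (ℓ : ℕ) (hℓ : ℓ.Prime) (A : ValuationSubring L) : Prop :=
  ∃ (G : Type) (_ : AddCommGroup G) (sp₀ : J →+ G),
    (∀ τ ∈ A.inertiaSubgroupIn K, ∀ x : J, sp₀ (τ • x) = sp₀ x) ∧
    (∀ σ : L ≃ₐ[K] L, A.IsFrobeniusAt σ ℓ → ∀ x : J,
      sp₀ (σ • σ • x - heckeGen ⟨ℓ, hℓ⟩ • (σ • x) + ℓ • x) = 0) ∧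
    (∀ x : J, (∃ n : ℕ, p ^ n • x = 0) → sp₀ x = 0 → x = 0)

variable {N p J}

/-- the local statement at one `(ℓ, A)` -/
theorem exists_specialization_of_real {ℓ : ℕ} (hℓ : ℓ.Prime) (A : ValuationSubring L)
    (hfrob : ∃ σ : L ≃ₐ[K] L, A.IsFrobeniusAt σ ℓ)
    (hreal : HasRealSpecialization (K := K) p J ℓ hℓ A) :
    ∃ (J' : Type) (_ : AddCommGroup J') (_ : Module HeckeAlg J') (sp : J →+ J')
      (F : J' →+ J'),
      IsSpecialization (K := K) p J J' A ℓ sp F ∧ SpecialFibreRelation J' ℓ hℓ F := by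
  obtain ⟨σ₀, hσ₀⟩ := hfrob
  obtain ⟨G, _, sp₀, ha, hb, hc⟩ := hreal
  set M : Submodule HeckeAlg J := relSubmodule (K := K) J A ℓ hℓ with hM
  have hσ₀D := hσ₀.mem_decompositionSubgroup
  -- `sp₀` kills `M`
  have hkill : ∀ y ∈ M, sp₀ y = 0 := by
    intro y hy
    refine map_eq_zero_of_mem_relSubmodule (K := K) sp₀ ?_ hy
    rintro y (⟨τ, hτ, x, rfl⟩ | ⟨σ, hσ, x, rfl⟩)
    · rw [map_sub, ha τ hτ x, sub_self]
    · exact hb σ hσ x
  -- the Frobenius endomorphism of the quotient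
  let φ : J →ₗ[HeckeAlg] J := DistribSMul.toLinearMap HeckeAlg J σ₀
  have hφ : M ≤ M.comap φ := fun y hy => galois_smul_mem_relSubmodule (K := K) hσ₀D hy
  let Fl : (J ⧸ M) →ₗ[HeckeAlg] (J ⧸ M) := M.mapQ M φ hφ
  refine ⟨J ⧸ M, inferInstance, inferInstance, M.mkQ.toAddMonoidHom, Fl.toAddMonoidHom, ?_, ?_⟩
  · refine ⟨fun T x => ?_, fun τ hτ x => ?_, fun σ hσ x => ?_, fun x hx hsp => ?_⟩
    · exact map_smul M.mkQ T x
    · -- inertia
      show M.mkQ (τ • x) = M.mkQ x
      rw [← sub_eq_zero, ← map_sub, Submodule.mkQ_apply, Submodule.Quotient.mk_eq_zero]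
      exact subset_relSubmodule (K := K) (Or.inl ⟨τ, hτ, x, rfl⟩)
    · -- Frobenius
      show M.mkQ (σ • x) = Fl (M.mkQ x)
      have hFl : Fl (M.mkQ x) = M.mkQ (σ₀ • x) := rfl
      rw [hFl, ← sub_eq_zero, ← map_sub, Submodule.mkQ_apply, Submodule.Quotient.mk_eq_zero]
      have hin := inv_mul_mem_inertiaSubgroupIn (K := K) hσ₀ hσ
      have e : σ • x - σ₀ • x = σ₀ • ((σ₀⁻¹ * σ) • x - x) := by
        rw [smul_sub, mul_smul, smul_inv_smul]
      rw [e]
      exact galois_smul_mem_relSubmodule (K := K) hσ₀D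
        (subset_relSubmodule (K := K) (Or.inl ⟨σ₀⁻¹ * σ, hin, x, rfl⟩))
    · -- torsion
      have hxM : x ∈ M := by
        have : M.mkQ x = 0 := hsp
        rwa [Submodule.mkQ_apply, Submodule.Quotient.mk_eq_zero] at this
      exact hc x hx (hkill x hxM)
  · -- the special fibre relation
    intro y
    obtain ⟨x, rfl⟩ := M.mkQ_surjective y
    show Fl (Fl (M.mkQ x)) - heckeGen ⟨ℓ, hℓ⟩ • Fl (M.mkQ x) + ℓ • M.mkQ x = 0
    have h1 : Fl (M.mkQ x) = M.mkQ (σ₀ • x) := rfl
    have h2 : Fl (M.mkQ (σ₀ • x)) = M.mkQ (σ₀ • σ₀ • x) := rfl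
    rw [h1, h2, ← map_smul, ← map_nsmul, ← map_sub, ← map_add, Submodule.mkQ_apply,
      Submodule.Quotient.mk_eq_zero]
    exact subset_relSubmodule (K := K) (Or.inr ⟨σ₀, hσ₀, x, rfl⟩)

/-- **[S37-FORMAL]**: `SpecializationExists` from real specializations. -/
theorem specializationExists_of_real
    (hfrob : ∀ ℓ : ℕ, ℓ.Prime → ¬ ℓ ∣ N * p → ∀ A : ValuationSubring L, A.LiesOverPrime ℓ →
      ∃ σ : L ≃ₐ[K] L, A.IsFrobeniusAt σ ℓ)
    (hreal : ∀ ℓ : ℕ, (hℓ : ℓ.Prime) → ¬ ℓ ∣ N * p → ∀ A : ValuationSubring L,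
      A.LiesOverPrime ℓ → HasRealSpecialization (K := K) p J ℓ hℓ A) :
    SpecializationExists (K := K) (L := L) N p J := by
  intro ℓ hℓ hℓN A hA
  exact exists_specialization_of_real hℓ A (hfrob ℓ hℓ hℓN A hA) (hreal ℓ hℓ hℓN A hA)

end Main

end Fermat.Agent.S37.Formal1
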