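/-
S37 / [S37-FORMAL] top wrapper (helper1): the frozen S37 statement from real specializations of
`JZero N` (see `Formal1.lean`), using the existence of Frobenius elements for every valuation
subring of `ℚ̄` over `ℓ` (`Lib/FrobeniusExists`).
-/
import Fermat.Statements.S37
import Fermat.Agent.S37.Formal1
import Fermat.Agent.Lib.FrobeniusExists

set_option autoImplicit false

open ModularCurve

noncomputable section

namespace Fermat.Agent.S37.Formal1

/-- The frozen statement of S37, given a real specialization at every `(ℓ, A)`. -/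
theorem s37_of_real (N p : ℕ) [NeZero N]
    (hreal : letI := ModularCurve.heckeModuleBar N
      ∀ (_ : SMulCommClass (AlgebraicClosure ℚ ≃ₐ[ℚ] AlgebraicClosure ℚ) ModularCurve.HeckeAlg
        (ModularCurve.JZero N)),
      ∀ ℓ : ℕ, (hℓ : ℓ.Prime) → ¬ ℓ ∣ N * p →
        ∀ A : ValuationSubring (AlgebraicClosure ℚ), A.LiesOverPrime ℓ →
          HasRealSpecialization (K := ℚ) p (ModularCurve.JZero N) ℓ hℓ A) :
    letI := ModularCurve.heckeModuleBar N
    ∀ (_ : SMulCommClass (AlgebraicClosure ℚ ≃ₐ[ℚ] AlgebraicClosure ℚ) ModularCurve.HeckeAlg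
      (ModularCurve.JZero N)),
      ModularCurve.SpecializationExists (K := ℚ) (L := AlgebraicClosure ℚ) N p
        (ModularCurve.JZero N) := by
  letI := ModularCurve.heckeModuleBar N
  intro hsmul
  refine specializationExists_of_real (K := ℚ) (L := AlgebraicClosure ℚ) ?_ (hreal hsmul)
  intro ℓ hℓ _ A hA
  exact Fermat.Agent.Lib.FrobeniusExists.exists_isFrobeniusAt A hℓ hA

end Fermat.Agent.S37.Formal1
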