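/-
S37 project, leaf 14-GAL-FN (helper75): the function-level Galois clauses (I-fn)/(FROB-fn) for
`redPull := r_* ∘ σ_s^*` (`Assembly52.redPull (Transfer87.sigma N s) _ r`).

For `τ ∈ D_A` (decomposition group of `A ⊆ ℚ̄`), `r` a place reduction at level `M = s * N`
with the conservation law (`IsPlaceReductionAlong`) and `PrincipalGeneratedByIntegral`, and `D` a
PRINCIPAL divisor of `F_N`:

  `redPull (gal_N τ • D) = galBar_M τ • redPull D`.

Proof: `σ_s^* (gal_N τ • D) = gal_M τ • σ_s^* D` (`Pull91.pullbackAlong_smul` + `sigma_gal`),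
`σ_s^* D` is principal at level `M`, then `EquivRed42.mapDomain_smul_of_mem_principal`.

Corollaries in the exact shape of the hypothesis `hG` of `Assembly52.rho_galois`:
* `redPull_gal_inertia`   : `τ` in the inertia group, `gb = 1`;
* `redPull_gal_frobenius` : `σ` a Frobenius lift, `gb = barAut (frobAut k ℓ)`.
-/
import Mathlib
import Fermat.Agent.S37.Pull91
import Fermat.Agent.S37.EquivRed42
import Fermat.Agent.S37.Assembly52

set_option autoImplicit false
set_option synthInstance.maxHeartbeats 400000
set_option maxHeartbeats 1000000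

noncomputable section

namespace Fermat.Agent.S37.GalFn75

open ModularCurve HahnSeries AlgebraicCurve
open Fermat.Agent.S18.Spine33 Fermat.Agent.S18.Transfer87
open Fermat.Agent.S37.GalRed42 Fermat.Agent.S37.EquivRed42

variable (A : ValuationSubring Kb) (N s : ℕ) [NeZero N] [NeZero s]
variable [HasPrincipalDivisors Kb (FK (s * N))]
variable {r : Place Kb (FK (s * N)) → Place (KK A) (FBt A (s * N))}
variable (hσ : (sigma N s).toRingHom.IsIntegral)

omit [HasPrincipalDivisors Kb (FK (s * N))] in
/-- the integrality proof in the `toRingHom` spelling -/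
theorem sigma_isIntegral' : (sigma N s).toRingHom.IsIntegral := sigma_isIntegral N s

/-- **(GAL-fn)**: `redPull (gal_N τ • D) = galBar_M τ • redPull D` for principal `D` and `τ ∈ D_A`. -/
theorem redPull_gal
    (hr : IsPlaceReductionAlong A (IsLocalRing.residue A) (s * N) r)
    (hgen : PrincipalGeneratedByIntegral A (IsLocalRing.residue A) (s * N))
    (τ : A.decompositionSubgroup ℚ) {D : Divisor Kb (FK N)}
    (hD : D ∈ Divisor.principal (K := Kb) (F := FK N)) :
    Assembly52.redPull (sigma N s) hσ r (EquivRed42.gal A N τ • D) =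
      EquivRed42.galBar A (s * N) τ •
        Assembly52.redPull (sigma N s) hσ r D := by
  rw [Assembly52.redPull_apply, Assembly52.redPull_apply]
  have h1 : Divisor.pullbackAlong (sigma N s) hσ (EquivRed42.gal A N τ • D) =
      EquivRed42.gal A (s * N) τ • Divisor.pullbackAlong (sigma N s) hσ D :=
    Pull91.pullbackAlong_smul (sigma N s) hσ
      (Pull91.sigma_gal N s (τ : Kb ≃ₐ[ℚ] Kb)) D
  rw [h1]
  exact mapDomain_smul_of_mem_principal hr hgen τ
    (Divisor.isPrincipal_pullbackAlong (sigma N s) hσ hD)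

/-- the Prelude Galois element attached to `τ : ℚ̄ ≃ₐ[ℚ] ℚ̄` at level `N` -/
abbrev galN (τ : Kb ≃ₐ[ℚ] Kb) : SemilinearAut Kb (FK N) :=
  arithmeticGalois (modularFunctionFieldFull N) τ

/-- **(I-fn)**: inertia acts trivially after `redPull`, on principal divisors.
Shape of `hG` in `Assembly52.rho_galois` with `gb = 1`. -/
theorem redPull_gal_inertia
    (hr : IsPlaceReductionAlong A (IsLocalRing.residue A) (s * N) r)
    (hgen : PrincipalGeneratedByIntegral A (IsLocalRing.residue A) (s * N))
    {τ : Kb ≃ₐ[ℚ] Kb} (hτ : τ ∈ A.inertiaSubgroupIn ℚ) :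
    ∀ D ∈ Divisor.principal (K := Kb) (F := FK N),
      Assembly52.redPull (sigma N s) hσ r (galN N τ • D) =
        (1 : SemilinearAut (KK A) (FBt A (s * N))) •
          Assembly52.redPull (sigma N s) hσ r D := by
  intro D hD
  obtain ⟨hDec, h1⟩ := exists_of_mem_inertiaSubgroupIn A hτ
  have := redPull_gal A N s hσ hr hgen ⟨τ, hDec⟩ hD
  rw [EquivRed42.galBar, h1, map_one] at this
  exact this

/-- **(FROB-fn)**: a Frobenius lift acts through the coefficientwise Frobenius after `redPull`, on
principal divisors.  Shape of `hG` in `Assembly52.rho_galois` with `gb = barAut (frobAut k ℓ)`. -/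
theorem redPull_gal_frobenius
    (hr : IsPlaceReductionAlong A (IsLocalRing.residue A) (s * N) r)
    (hgen : PrincipalGeneratedByIntegral A (IsLocalRing.residue A) (s * N))
    {σ : Kb ≃ₐ[ℚ] Kb} {ℓ : ℕ} [Fact ℓ.Prime] [CharP (KK A) ℓ] [PerfectRing (KK A) ℓ]
    (h : A.IsFrobeniusAt σ ℓ) :
    ∀ D ∈ Divisor.principal (K := Kb) (F := FK N),
      Assembly52.redPull (sigma N s) hσ r (galN N σ • D) =
        barAut (KK A) (s * N) (frobAut (KK A) ℓ) •
          Assembly52.redPull (sigma N s) hσ r D := by
  intro D hD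
  have := redPull_gal A N s hσ hr hgen ⟨σ, h.mem_decompositionSubgroup⟩ hD
  refine this.trans ?_
  rw [EquivRed42.galBar]
  congr 2
  ext a
  rw [resAut_of_isFrobeniusAt A h a]
  exact (frobenius_def ℓ a).symm

end Fermat.Agent.S37.GalFn75
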