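/-
S37 ASSEMBLY, concrete half (helper52).

Setting: `N, s ≥ 1`, `M = s * N`, `A` a valuation subring of `ℚ̄`, `π : A →+* k` (for S37 the residue
map), `σ_s = Transfer87.sigma N s : F_N → F_M`, `r : Place ℚ̄ F_M → Place k F̄_M` ANY place map with the
two Prelude clauses (`IsPlaceReductionAlong`), `R = RhoTM77.rhoDiv N s r = r_* ∘ σ_s^*`.

* `conservation`               : `r_* (div (incl Y)) = div (red Y)` in `IsDivOf` form;
* `mapDomain_galois_principal` : `r_* (g • E) = ḡ • r_* E` for `E` principal on `F_M`, `g` preserving `A`;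
* `rhoDiv_galois_principal`    : `R (g • D) = ḡ • R D` for `D` principal on `F_N`;
* `rhoDiv_hecke_principal`     : `R (T_ℓ D) = Φ • R D + ℓ • Φ⁻¹ • R D` for `D` principal on `F_N`
                                  (from the Kronecker norm congruence `KronStmt`);
* `rhoDiv_galois`, `rhoDiv_hecke` : the same on divisors of degree `0` (bounded rigidity).
-/
import Fermat.Agent.S37.Assembly52
import Fermat.Agent.S37.RhoTM77
import Fermat.Agent.S37.GalRed42
import Fermat.Agent.S37.HeckeInputsFinal85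
import Fermat.Agent.S37.LemmaBInputs41

set_option autoImplicit false

open ModularCurve AlgebraicCurve HahnSeries

noncomputable section

namespace Fermat.Agent.S37.Wire52

open Fermat.Agent.S18 Fermat.Agent.S18.Spine33 Fermat.Agent.S37.Assembly52
open Fermat.Agent.S37.RhoTM77 (Fk)
open Fermat.Agent.S37.HeckeConcrete85 (hasPrincipalDivisors_mul heckeBetaBarIntegral
  heckeAlphaBarIntegral finiteAlong_alpha finiteAlong_beta deg_eq_one_level
  hasPrincipalDivisors_level)
open Fermat.Agent.S37.HeckeInputsFinal85 (normFormulaAlong_alpha fundamentalIdentityAlong_beta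
  fundamentalIdentityAlong_of heckeOperatorAlong_eq' heckePic0Bar_mk)

/-! ### conservation in `IsDivOf` form -/

section Conservation

variable {A : ValuationSubring Kb} {k : Type*} [Field k] {π : A →+* k} {M : ℕ}
variable {r : Place Kb (FK M) → Place k (Fk k M)}

theorem conservation (hr : IsPlaceReductionAlong A π M r)
    (Y : LaurentSeries A) (hY : coeffMap A.subtype Y ∈ modularFunctionFieldBar M)
    (hYk : coeffMap π Y ∈ modularFunctionFieldFullC k M)
    (hne : coeffMap π Y ≠ 0) {D : Divisor Kb (FK M)}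
    (hD : IsDivOf D (⟨coeffMap A.subtype Y, hY⟩ : FK M)) :
    IsDivOf (Finsupp.mapDomain r D : Divisor k (Fk k M)) (⟨coeffMap π Y, hYk⟩ : Fk k M) :=
  fun Q => hr.2 Y hY hYk hne D hD Q

theorem mapDomain_neg' (E : Divisor Kb (FK M)) :
    (Finsupp.mapDomain r (-E) : Divisor k (Fk k M)) = -Finsupp.mapDomain r E :=
  map_neg (Finsupp.mapDomain.addMonoidHom r) E

end Conservation

/-! ### Galois equivariance on principal divisors, level `M` -/

section GaloisM

variable {A : ValuationSubring Kb} {k : Type*} [Field k] {π : A →+* k} {M : ℕ}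
variable {r : Place Kb (FK M) → Place k (Fk k M)}

/-- the semilinear automorphism of `F_M` induced by `g` -/
def gM (M : ℕ) (g : Kb ≃ₐ[ℚ] Kb) : SemilinearAut Kb (FK M) :=
  arithmeticGalois (modularFunctionFieldFull M) g

/-- the semilinear automorphism of `F̄_M` induced by `θ ∈ Aut k` -/
def gbar (k : Type*) [Field k] (M : ℕ) (θ : k ≃+* k) : SemilinearAut k (Fk k M) :=
  GalRed42.barAut k M θ

/-- compatibility data: `g` preserves `A` (via `gA`) and induces `θ` on `k` -/
structure Compat (π : A →+* k) (g : Kb ≃ₐ[ℚ] Kb) (gA : A →+* A) (θ : k ≃+* k) : Prop where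
  coe_gA : ∀ a : A, ((gA a : A) : Kb) = g (a : Kb)
  pi_gA : ∀ a : A, π (gA a) = θ (π a)

theorem Compat.incl {g : Kb ≃ₐ[ℚ] Kb} {gA : A →+* A} {θ : k ≃+* k} (h : Compat π g gA θ)
    (Y : LaurentSeries A) :
    coeffMap A.subtype (coeffMap gA Y) = coeffMap (g : Kb →+* Kb) (coeffMap A.subtype Y) := by
  rw [coeffMap_coeffMap, coeffMap_coeffMap]
  exact coeffMap_congr (RingHom.ext fun a => h.coe_gA a) Y

theorem Compat.red {g : Kb ≃ₐ[ℚ] Kb} {gA : A →+* A} {θ : k ≃+* k} (h : Compat π g gA θ)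
    (Y : LaurentSeries A) :
    coeffMap π (coeffMap gA Y) = coeffMap (θ : k →+* k) (coeffMap π Y) := by
  rw [coeffMap_coeffMap, coeffMap_coeffMap]
  exact coeffMap_congr (RingHom.ext fun a => h.pi_gA a) Y

theorem mapDomain_galois_integral (hr : IsPlaceReductionAlong A π M r)
    {g : Kb ≃ₐ[ℚ] Kb} {gA : A →+* A} {θ : k ≃+* k} (hc : Compat π g gA θ)
    {E : Divisor Kb (FK M)} (hE : E ∈ integralPrincipalDivisors A π M) :
    (Finsupp.mapDomain r (gM M g • E) : Divisor k (Fk k M))
      = gbar k M θ • Finsupp.mapDomain r E := by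
  obtain ⟨Y, hY, hYk, hne, hEY⟩ := hE
  set Y' : LaurentSeries A := coeffMap gA Y with hY'
  have hincl : coeffMap A.subtype Y' =
      ((gM M g • (⟨coeffMap A.subtype Y, hY⟩ : FK M) : FK M) : LaurentSeries Kb) := by
    rw [gM, coe_arithmeticGalois_smul]
    exact hc.incl Y
  have hY'mem : coeffMap A.subtype Y' ∈ modularFunctionFieldBar M := by
    rw [hincl]; exact SetLike.coe_mem _
  have hred : coeffMap π Y' = coeffMap (θ : k →+* k) (coeffMap π Y) := hc.red Y
  have hY'k : coeffMap π Y' ∈ modularFunctionFieldFullC k M := by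
    rw [hred]; exact GalRed42.coeffMap_mem_fullC k M _ hYk
  have hY'ne : coeffMap π Y' ≠ 0 := by
    rw [hred]; exact GalRed42.coeffMap_ne_zero θ.injective hne
  have h1 : IsDivOf (gM M g • E) (⟨coeffMap A.subtype Y', hY'mem⟩ : FK M) := by
    have h := IsDivOf.smul (D := E) (f := (⟨coeffMap A.subtype Y, hY⟩ : FK M)) hEY (gM M g)
    have e : (⟨coeffMap A.subtype Y', hY'mem⟩ : FK M)
        = gM M g • (⟨coeffMap A.subtype Y, hY⟩ : FK M) := Subtype.ext hincl
    rw [e]; exact h
  have h2 := conservation hr Y' hY'mem hY'k hY'ne h1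
  have h3 := (conservation hr Y hY hYk hne (D := E) hEY).smul (gbar k M θ)
  have e2 : (⟨coeffMap π Y', hY'k⟩ : Fk k M) = gbar k M θ • (⟨coeffMap π Y, hYk⟩ : Fk k M) :=
    Subtype.ext hred
  rw [e2] at h2
  exact h2.eq h3

theorem mapDomain_galois_principal (hr : IsPlaceReductionAlong A π M r)
    (hgen : PrincipalGeneratedByIntegral A π M)
    {g : Kb ≃ₐ[ℚ] Kb} {gA : A →+* A} {θ : k ≃+* k} (hc : Compat π g gA θ)
    {E : Divisor Kb (FK M)} (hE : E ∈ Divisor.principal (K := Kb) (F := FK M)) :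
    (Finsupp.mapDomain r (gM M g • E) : Divisor k (Fk k M))
      = gbar k M θ • Finsupp.mapDomain r E := by
  have hE' := hgen hE
  clear hE
  induction hE' using AddSubgroup.closure_induction with
  | mem E hE => exact mapDomain_galois_integral hr hc hE
  | zero => rw [smul_zero, Finsupp.mapDomain_zero, smul_zero]
  | add E E' _ _ h h' =>
    rw [smul_add, Finsupp.mapDomain_add, Finsupp.mapDomain_add, smul_add, h, h']
  | neg E _ h => rw [smul_neg, mapDomain_neg', mapDomain_neg', h, smul_neg]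

end GaloisM

/-! ### `q ↦ q^a` -/

section QExpand

variable {R : Type*} [CommRing R]

theorem qExpand_congr {n m : ℕ} [NeZero n] [NeZero m] (h : n = m) (x : LaurentSeries R) :
    qExpand R n x = qExpand R m x := by
  subst h; rfl

theorem qExpand_comm (a b : ℕ) [NeZero a] [NeZero b] (x : LaurentSeries R) :
    qExpand R a (qExpand R b x) = qExpand R b (qExpand R a x) := by
  rw [qExpand_qExpand, qExpand_qExpand]
  exact qExpand_congr (Nat.mul_comm a b) x

end QExpand

/-! ### from level `M = s N` to level `N` -/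

section GaloisN

variable {A : ValuationSubring Kb} {k : Type*} [Field k] {π : A →+* k}
variable (N s : ℕ) [NeZero N] [NeZero s]
variable {r : Place Kb (FK (s * N)) → Place k (Fk k (s * N))}

omit [NeZero N] in
theorem sigma_smul (g : Kb ≃ₐ[ℚ] Kb) (f : FK N) :
    Transfer87.sigma N s (gM N g • f) = gM (s * N) g • Transfer87.sigma N s f := by
  apply Subtype.ext
  rw [Transfer87.coe_sigma]
  show qExpand Kb s (coeffMap (g : Kb →+* Kb) (f : LaurentSeries Kb))
    = coeffMap (g : Kb →+* Kb) (qExpand Kb s (f : LaurentSeries Kb))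
  rw [coeffMap_qExpand]

theorem pull_smul_of_isDivOf (g : Kb ≃ₐ[ℚ] Kb) {D : Divisor Kb (FK N)} {f : FK N}
    (hD : IsDivOf D f) :
    RhoTM77.pull N s (gM N g • D) = gM (s * N) g • RhoTM77.pull N s D := by
  have h1 : IsDivOf (RhoTM77.pull N s (gM N g • D)) (Transfer87.sigma N s (gM N g • f)) :=
    fun P' => RhoTM77.pull_apply_of_ord N s (hD.smul (gM N g)) P'
  have h2 : IsDivOf (RhoTM77.pull N s D) (Transfer87.sigma N s f) :=
    fun P' => RhoTM77.pull_apply_of_ord N s hD P'
  rw [sigma_smul] at h1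
  exact h1.eq (h2.smul (gM (s * N) g))

/-- **Galois equivariance of `R = r_* σ_s^*` on principal divisors of `F_N`.** -/
theorem rhoDiv_galois_principal (hr : IsPlaceReductionAlong A π (s * N) r)
    (hgen : PrincipalGeneratedByIntegral A π (s * N))
    {g : Kb ≃ₐ[ℚ] Kb} {gA : A →+* A} {θ : k ≃+* k} (hc : Compat π g gA θ)
    {D : Divisor Kb (FK N)} (hD : D ∈ Divisor.principal (K := Kb) (F := FK N)) :
    RhoTM77.rhoDiv N s r (gM N g • D) = gbar k (s * N) θ • RhoTM77.rhoDiv N s r D := by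
  obtain ⟨f, hf0, hf⟩ := hD
  rw [RhoTM77.rhoDiv_apply, RhoTM77.rhoDiv_apply, pull_smul_of_isDivOf N s g hf]
  exact mapDomain_galois_principal hr hgen hc (RhoTM77.pull_mem_principal N s ⟨f, hf0, hf⟩)

end GaloisN

/-! ### the Hecke correspondence on principal divisors -/

section HeckeN


variable (A : ValuationSubring Kb) {k : Type*} [Field k] (π : A →+* k)
variable (N ℓ : ℕ) [NeZero N] [NeZero ℓ]

/-- `T_ℓ = α_* β^*` on divisors of `F_N` (the Prelude `heckeDivBar`) -/
def Tdiv : Divisor Kb (FK N) →+ Divisor Kb (FK N) :=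
  haveI := hasPrincipalDivisors_mul N ℓ
  Divisor.correspondence (heckeBetaBar Kb N ℓ) (heckeAlphaBar Kb N ℓ)
    (heckeBetaBarIntegral N ℓ) (heckeAlphaBarIntegral N ℓ)

/-- the norm `N_α (β f)`, `F_{Nℓ} / α(F_N)` -/
def normBeta (f : FK N) : FK N :=
  letI := algebraAlong (heckeAlphaBar Kb N ℓ)
  Algebra.norm (FK N) (heckeBetaBar Kb N ℓ f)

variable {N} in
theorem isDivOf_Tdiv {D : Divisor Kb (FK N)} {f : FK N} (hf : f ≠ 0) (hD : IsDivOf D f) :
    IsDivOf (Tdiv N ℓ D) (normBeta N ℓ f) := by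
  haveI := hasPrincipalDivisors_mul N ℓ
  have h1 := isDivOf_pullbackAlong (heckeBetaBar Kb N ℓ) (heckeBetaBarIntegral N ℓ) hD
  have hβ0 : heckeBetaBar Kb N ℓ f ≠ 0 :=
    (map_ne_zero_iff _ (heckeBetaBar Kb N ℓ).toRingHom.injective).mpr hf
  exact isDivOf_pushforwardAlong (heckeAlphaBar Kb N ℓ) (heckeAlphaBarIntegral N ℓ)
    (finiteAlong_alpha N ℓ) (normFormulaAlong_alpha N ℓ) hβ0 h1

/-- **output shape of the package [KRON]** (Kronecker congruence on norms). -/
def KronStmt [Fact ℓ.Prime] [CharP k ℓ] : Prop :=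
  ∀ (U : LaurentSeries A) (hU : coeffMap A.subtype U ∈ modularFunctionFieldBar N),
    ∃ (V : LaurentSeries A) (hV : coeffMap A.subtype V ∈ modularFunctionFieldBar N),
      (⟨coeffMap A.subtype V, hV⟩ : FK N) = normBeta N ℓ ⟨coeffMap A.subtype U, hU⟩ ∧
      coeffMap π V = qExpand k ℓ (coeffMap π U) * coeffMap (frobenius k ℓ) (coeffMap π U)

end HeckeN

section HeckeM

variable {A : ValuationSubring Kb} {k : Type*} [Field k] {π : A →+* k}
variable (N s ℓ : ℕ) [NeZero N] [NeZero s] [NeZero ℓ] [Fact ℓ.Prime] [CharP k ℓ] [PerfectRing k ℓ]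
variable {r : Place Kb (FK (s * N)) → Place k (Fk k (s * N))}

/-- the coefficient Frobenius `Φ` of `F̄_M` -/
def Phi (k : Type*) [Field k] (M ℓ : ℕ) [Fact ℓ.Prime] [CharP k ℓ] [PerfectRing k ℓ] :
    SemilinearAut k (Fk k M) :=
  gbar k M (GalRed42.frobAut k ℓ)

theorem coe_Phi_smul (M : ℕ) (W : Fk k M) :
    ((Phi k M ℓ • W : Fk k M) : LaurentSeries k) = coeffMap (frobenius k ℓ) (W : LaurentSeries k) :=
  GalRed42.coe_barAut_frobAut_smul k M ℓ W

theorem coe_Phi_inv_smul_pow (M : ℕ) (W : Fk k M) :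
    ((((Phi k M ℓ)⁻¹ • W : Fk k M) : LaurentSeries k)) ^ ℓ = qExpand k ℓ (W : LaurentSeries k) := by
  have h := GalRed42.qExpand_coeffFrob k ℓ (((Phi k M ℓ)⁻¹ • W : Fk k M) : LaurentSeries k)
  have e : GalRed42.coeffFrob k ℓ (((Phi k M ℓ)⁻¹ • W : Fk k M) : LaurentSeries k)
      = (W : LaurentSeries k) := by
    have := coe_Phi_smul ℓ M ((Phi k M ℓ)⁻¹ • W)
    rw [smul_inv_smul] at this
    exact this.symm
  rw [e] at h
  exact h.symm

set_option maxHeartbeats 800000 in
/-- **Eichler–Shimura congruence for `R = r_* σ_s^*` on integral principal divisors of `F_N`.** -/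
theorem rhoDiv_hecke_integral (hr : IsPlaceReductionAlong A π (s * N) r)
    (hK : KronStmt A π N ℓ) {D : Divisor Kb (FK N)}
    (hD : D ∈ integralPrincipalDivisors A π N) :
    RhoTM77.rhoDiv N s r (Tdiv N ℓ D)
      = frobVer (Phi k (s * N) ℓ) ℓ (RhoTM77.rhoDiv N s r D) := by
  obtain ⟨U, hU, hUk, hUne, hDU⟩ := hD
  set u : FK N := ⟨coeffMap A.subtype U, hU⟩ with hu
  have hu0 : u ≠ 0 := by
    intro h0
    apply hUne
    have h1 : coeffMap A.subtype U = 0 := congrArg Subtype.val h0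
    have h2 : U = 0 := GalRed42.coeffMap_injective Subtype.val_injective (by rw [h1, map_zero])
    rw [h2, map_zero]
  obtain ⟨V, hV, hVn, hVred⟩ := hK U hU
  have hT : IsDivOf (Tdiv N ℓ D) (⟨coeffMap A.subtype V, hV⟩ : FK N) := by
    rw [hVn]; exact isDivOf_Tdiv ℓ hu0 hDU
  -- the series at level `M`
  set U' : LaurentSeries A := qExpand A s U with hU'
  set V' : LaurentSeries A := qExpand A s V with hV'
  have hinclU' : coeffMap A.subtype U' = ((Transfer87.sigma N s u : FK (s * N)) : LaurentSeries Kb) := by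
    rw [Transfer87.coe_sigma]; exact coeffMap_qExpand _ s U
  have hinclV' : coeffMap A.subtype V' =
      ((Transfer87.sigma N s ⟨coeffMap A.subtype V, hV⟩ : FK (s * N)) : LaurentSeries Kb) := by
    rw [Transfer87.coe_sigma]; exact coeffMap_qExpand _ s V
  have hU'mem : coeffMap A.subtype U' ∈ modularFunctionFieldBar (s * N) := by
    rw [hinclU']; exact SetLike.coe_mem _
  have hV'mem : coeffMap A.subtype V' ∈ modularFunctionFieldBar (s * N) := by
    rw [hinclV']; exact SetLike.coe_mem _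
  have hredU' : coeffMap π U' = qExpand k s (coeffMap π U) := coeffMap_qExpand _ s U
  have hwmem : coeffMap π U' ∈ modularFunctionFieldFullC k (s * N) := by
    rw [hredU']; exact Transfer87.qExpand_memC N s k hUk
  have hwne : coeffMap π U' ≠ 0 := by
    rw [hredU']
    intro h0
    apply hUne
    apply qExpand_injective (R := k) s
    rw [h0, map_zero]
  set W : Fk k (s * N) := ⟨coeffMap π U', hwmem⟩ with hW
  have hW0 : W ≠ 0 := fun h0 => hwne (congrArg Subtype.val h0)
  have hredV' : coeffMap π V' =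
      (((Phi k (s * N) ℓ • W) * ((Phi k (s * N) ℓ)⁻¹ • W) ^ ℓ : Fk k (s * N)) : LaurentSeries k) := by
    have e1 : coeffMap π V' = qExpand k s (coeffMap π V) := coeffMap_qExpand _ s V
    rw [e1, hVred, map_mul, qExpand_comm s ℓ, ← hredU']
    have e2 : qExpand k s (coeffMap (frobenius k ℓ) (coeffMap π U))
        = coeffMap (frobenius k ℓ) (coeffMap π U') := by
      rw [hredU', coeffMap_qExpand]
    rw [e2]
    show _ = ((Phi k (s * N) ℓ • W : Fk k (s * N)) : LaurentSeries k) *
      (((Phi k (s * N) ℓ)⁻¹ • W : Fk k (s * N)) : LaurentSeries k) ^ ℓ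
    rw [coe_Phi_smul, coe_Phi_inv_smul_pow, mul_comm]
  have hV'k : coeffMap π V' ∈ modularFunctionFieldFullC k (s * N) := by
    rw [hredV']; exact SetLike.coe_mem _
  have hΦW0 : Phi k (s * N) ℓ • W ≠ 0 := by
    intro h0
    apply hW0
    have := congrArg (fun x => (Phi k (s * N) ℓ)⁻¹ • x) h0
    simpa using this
  have hΦiW0 : (Phi k (s * N) ℓ)⁻¹ • W ≠ 0 := by
    intro h0
    apply hW0
    have := congrArg (fun x => (Phi k (s * N) ℓ) • x) h0
    simpa using this
  have hV'ne : coeffMap π V' ≠ 0 := by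
    rw [hredV']
    intro h0
    exact mul_ne_zero hΦW0 (pow_ne_zero ℓ hΦiW0) (Subtype.ext h0)
  -- conservation for `T_ℓ D`
  have hpullT : IsDivOf (RhoTM77.pull N s (Tdiv N ℓ D))
      (⟨coeffMap A.subtype V', hV'mem⟩ : FK (s * N)) := by
    have e : (⟨coeffMap A.subtype V', hV'mem⟩ : FK (s * N))
        = Transfer87.sigma N s ⟨coeffMap A.subtype V, hV⟩ := Subtype.ext hinclV'
    rw [e]
    exact fun P' => RhoTM77.pull_apply_of_ord N s hT P'
  have c1 := conservation hr V' hV'mem hV'k hV'ne hpullT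
  have e1 : (⟨coeffMap π V', hV'k⟩ : Fk k (s * N))
      = (Phi k (s * N) ℓ • W) * ((Phi k (s * N) ℓ)⁻¹ • W) ^ ℓ := Subtype.ext hredV'
  rw [e1] at c1
  -- conservation for `D`
  have hpullD : IsDivOf (RhoTM77.pull N s D) (⟨coeffMap A.subtype U', hU'mem⟩ : FK (s * N)) := by
    have e : (⟨coeffMap A.subtype U', hU'mem⟩ : FK (s * N)) = Transfer87.sigma N s u :=
      Subtype.ext hinclU'
    rw [e]
    exact fun P' => RhoTM77.pull_apply_of_ord N s hDU P'
  have c2 : IsDivOf (Finsupp.mapDomain r (RhoTM77.pull N s D) : Divisor k (Fk k (s * N))) W :=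
    conservation hr U' hU'mem hwmem hwne hpullD
  have c3 := ((c2.smul (Phi k (s * N) ℓ)).mul (((c2.smul (Phi k (s * N) ℓ)⁻¹)).pow ℓ) hΦW0
    (pow_ne_zero ℓ hΦiW0))
  rw [RhoTM77.rhoDiv_apply, RhoTM77.rhoDiv_apply, frobVer_apply]
  exact c1.eq c3

/-- **Eichler–Shimura congruence for `R = r_* σ_s^*` on principal divisors of `F_N`.** -/
theorem rhoDiv_hecke_principal (hr : IsPlaceReductionAlong A π (s * N) r)
    (hK : KronStmt A π N ℓ) (hgenN : PrincipalGeneratedByIntegral A π N)
    {D : Divisor Kb (FK N)} (hD : D ∈ Divisor.principal (K := Kb) (F := FK N)) :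
    RhoTM77.rhoDiv N s r (Tdiv N ℓ D)
      = frobVer (Phi k (s * N) ℓ) ℓ (RhoTM77.rhoDiv N s r D) := by
  have h : Set.EqOn ((RhoTM77.rhoDiv N s r).comp (Tdiv N ℓ))
      ((frobVer (Phi k (s * N) ℓ) ℓ).comp (RhoTM77.rhoDiv N s r))
      (integralPrincipalDivisors A π N) := fun E hE => rhoDiv_hecke_integral N s ℓ hr hK hE
  exact AddMonoidHom.eqOn_closure h (hgenN hD)

end HeckeM

/-! ### degree zero: bounded rigidity -/

section DegZero

variable {A : ValuationSubring Kb} {k : Type*} [Field k] {π : A →+* k}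
variable (N s : ℕ) [NeZero N] [NeZero s]
variable {r : Place Kb (FK (s * N)) → Place k (Fk k (s * N))}

/-- `RhoTM77.rhoDiv` is the generic `Assembly52.redPull` -/
theorem rhoDiv_eq_redPull :
    RhoTM77.rhoDiv N s r =
      (haveI := NormFrac20.hasPrincipalDivisors_bar (s * N)
       redPull (Transfer87.sigma N s) (RhoTM77.sigma_int N s) r) := rfl

/-- the standing hypotheses on `σ_s`, `r` and the special fibre used by the rigidity argument -/
structure RigidInputs (π : A →+* k) (N s : ℕ) [NeZero N] [NeZero s]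
    (r : Place Kb (FK (s * N)) → Place k (Fk k (s * N))) : Prop where
  hr : IsPlaceReductionAlong A π (s * N) r
  hgen : PrincipalGeneratedByIntegral A π (s * N)
  hFI : haveI := NormFrac20.hasPrincipalDivisors_bar (s * N)
    FundamentalIdentityAlong Kb (Transfer87.sigma N s) (RhoTM77.sigma_int N s)
  hdegb : ∀ Q : Place k (Fk k (s * N)), 0 < Q.deg

variable {N s}

/-- **Galois equivariance of `R` on divisors of degree `0`.** -/
theorem rhoDiv_galois (H : RigidInputs π N s r)
    {g : Kb ≃ₐ[ℚ] Kb} {gA : A →+* A} {θ : k ≃+* k} (hc : Compat π g gA θ)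
    (D : Divisor Kb (FK N)) (hD : Divisor.degree D = 0) :
    RhoTM77.rhoDiv N s r (gM N g • D) = gbar k (s * N) θ • RhoTM77.rhoDiv N s r D := by
  haveI := NormFrac20.hasPrincipalDivisors_bar (s * N)
  haveI := LemmaBInputs41.hasPrincipalDivisors N
  obtain ⟨gn, hsec⟩ := LemmaBInputs41.exists_hasSections N
  exact redPull_smul (Transfer87.sigma N s) (RhoTM77.sigma_int N s) r H.hFI H.hr.1 gn hsec
    (LemmaBInputs41.deg_eq_one N) H.hdegb (gM N g) (gbar k (s * N) θ)
    (fun E hE => rhoDiv_galois_principal N s H.hr H.hgen hc hE) D hD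

variable (ℓ : ℕ) [NeZero ℓ] [Fact ℓ.Prime] [CharP k ℓ] [PerfectRing k ℓ]

/-- **Eichler–Shimura congruence for `R` on divisors of degree `0`.** -/
theorem rhoDiv_hecke (H : RigidInputs π N s r) (hK : KronStmt A π N ℓ)
    (hgenN : PrincipalGeneratedByIntegral A π N)
    (D : Divisor Kb (FK N)) (hD : Divisor.degree D = 0) :
    RhoTM77.rhoDiv N s r (Tdiv N ℓ D)
      = Phi k (s * N) ℓ • RhoTM77.rhoDiv N s r D
        + ℓ • (Phi k (s * N) ℓ)⁻¹ • RhoTM77.rhoDiv N s r D := by
  haveI := NormFrac20.hasPrincipalDivisors_bar (s * N)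
  haveI := LemmaBInputs41.hasPrincipalDivisors N
  haveI := hasPrincipalDivisors_mul N ℓ
  obtain ⟨gn, hsec⟩ := LemmaBInputs41.exists_hasSections N
  exact redPull_correspondence (Transfer87.sigma N s) (RhoTM77.sigma_int N s) r H.hFI H.hr.1
    (heckeAlphaBar Kb N ℓ) (heckeBetaBar Kb N ℓ) (heckeAlphaBarIntegral N ℓ)
    (heckeBetaBarIntegral N ℓ) (fundamentalIdentityAlong_beta N ℓ) gn hsec
    (LemmaBInputs41.deg_eq_one N) H.hdegb (Phi k (s * N) ℓ) ℓ
    (fun E hE => rhoDiv_hecke_principal N s ℓ H.hr hK hgenN hE) D hD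

end DegZero

end Fermat.Agent.S37.Wire52
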