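/-
S37 ASSEMBLY, final glue (helper52): `Reduce52.RhoStmt N p` from the package outputs.

`ρ := RhoTM77.rho N s r hprin : J₀(N) → Pic(F̄_M)`, `M = s N` the good auxiliary level of
`Spine33.exists_aux`, `r := ` the place map of `ReductionInputsModL A M`.

Open inputs (each is the exact output of one package):
* `Spine33.LevelStatement`, `DescentStatement`, `CuspInftyStatement`          (S18 spine plugs);
* `RedInputs`  : `ReductionInputsModL A M` at good levels                       ([R]-INST);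
* `GenInputs`  : `PrincipalGeneratedByIntegral A (residue A) N` for `ℓ ∤ N`     ((G1), [BRIDGE]);
* `KronInputs` : `Wire52.KronStmt A (residue A) N ℓ`                            ([KRON]);
* `PullInputs` : `FundamentalIdentityAlong` for `σ_s = Transfer87.sigma N s`    ([PULL]).
-/
import Fermat.Agent.S37.Wire52
import Fermat.Agent.S37.Reduce52
import Fermat.Agent.S18.P1Normalize20
import Fermat.Agent.S18.FFInstDW30
import Fermat.Agent.S18.ValRing25
import Fermat.Agent.Lib.FrobeniusExists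

set_option autoImplicit false
set_option synthInstance.maxHeartbeats 400000

open ModularCurve AlgebraicCurve HahnSeries

noncomputable section

namespace Fermat.Agent.S37.Glue52

open Fermat.Agent.S18 Fermat.Agent.S18.Spine33 Fermat.Agent.S37.Assembly52 Fermat.Agent.S37.Wire52
open Fermat.Agent.S37.RhoTM77 (Fk)
open Fermat.Agent.S37.HeckeConcrete85 (hasPrincipalDivisors_mul heckeBetaBarIntegral
  heckeAlphaBarIntegral finiteAlong_alpha)
open Fermat.Agent.S37.HeckeInputsFinal85 (normFormulaAlong_alpha fundamentalIdentityAlong_beta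
  heckeOperatorAlong_eq' heckePic0Bar_mk)

/-! ### the four open inputs -/

/-- [R]-INST -/
def RedInputs : Prop :=
  ∀ (ℓ : ℕ) [Fact ℓ.Prime] (M : ℕ) [NeZero M], ¬ ℓ ∣ M → GoodLevel ℓ M →
    ∀ A : ValuationSubring Kb, A.LiesOverPrime ℓ → ReductionInputsModL A M

/-- (G1): integral generation of principal divisors at every level prime to `ℓ` -/
def GenInputs (N : ℕ) : Prop :=
  ∀ (ℓ : ℕ) [Fact ℓ.Prime], ¬ ℓ ∣ N → ∀ A : ValuationSubring Kb, A.LiesOverPrime ℓ →
    PrincipalGeneratedByIntegral A (IsLocalRing.residue A) N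

/-- [KRON] -/
def KronInputs (N : ℕ) [NeZero N] : Prop :=
  ∀ (ℓ : ℕ) [Fact ℓ.Prime] [NeZero ℓ], ¬ ℓ ∣ N → ∀ (A : ValuationSubring Kb)
    (hA : A.LiesOverPrime ℓ),
    haveI : CharP (kA A) ℓ := ValRing25.residueField_charP A hA
    KronStmt A (IsLocalRing.residue A) N ℓ

/-- [PULL] -/
def PullInputs (N : ℕ) [NeZero N] : Prop :=
  ∀ (s : ℕ) [NeZero s],
    haveI := NormFrac20.hasPrincipalDivisors_bar (s * N)
    FundamentalIdentityAlong Kb (Transfer87.sigma N s) (RhoTM77.sigma_int N s)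

/-! ### compatibility data for inertia and Frobenius elements -/

section CompatData

variable (A : ValuationSubring Kb)

theorem compat_of_mem_decomposition (g : A.decompositionSubgroup ℚ) :
    Compat (IsLocalRing.residue A) (g : Kb ≃ₐ[ℚ] Kb) (GalRed42.actA A g) (GalRed42.resAut A g) :=
  ⟨fun _ => rfl, fun _ => rfl⟩

theorem resAut_eq_frobAut {ℓ : ℕ} [Fact ℓ.Prime] [CharP (kA A) ℓ] [PerfectRing (kA A) ℓ]
    {φ : Kb ≃ₐ[ℚ] Kb} (hφ : A.IsFrobeniusAt φ ℓ) :
    GalRed42.resAut A ⟨φ, hφ.mem_decompositionSubgroup⟩ = GalRed42.frobAut (kA A) ℓ := by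
  ext x
  rw [GalRed42.resAut_of_isFrobeniusAt A hφ x]
  simp [GalRed42.frobAut, frobeniusEquiv_apply, frobenius_def]

end CompatData

/-! ### the three clauses for `ρ = RhoTM77.rho` -/

section Clauses

variable {A : ValuationSubring Kb} (N s : ℕ) [NeZero N] [NeZero s]
variable {r : Place Kb (FK (s * N)) → Place (kA A) (Fk (kA A) (s * N))}
variable (hprin : ∀ D ∈ Divisor.principal (K := Kb) (F := FK (s * N)),
  Finsupp.mapDomain r D ∈ Divisor.principal (K := kA A) (F := Fk (kA A) (s * N)))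

omit [NeZero N] in
/-- the Galois action on a class -/
theorem galois_smul_mk (g : Kb ≃ₐ[ℚ] Kb) (D : Divisor.degZero (K := Kb) (F := FK N)) :
    (g • (Pic0.mk D : JZero N) : JZero N) = Pic0.mk (SemilinearAut.degZeroSMulHom (gM N g) D) :=
  rfl

include hprin in
/-- clause (I): inertia acts trivially after `ρ` -/
theorem rho_inertia (H : RigidInputs (IsLocalRing.residue A) N s r)
    {τ : Kb ≃ₐ[ℚ] Kb} (hτ : τ ∈ A.inertiaSubgroupIn ℚ) (x : JZero N) :
    RhoTM77.rho N s r hprin (τ • x) = RhoTM77.rho N s r hprin x := by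
  obtain ⟨D, rfl⟩ := Pic0.mk_surjective x
  obtain ⟨hD, h1⟩ := GalRed42.exists_of_mem_inertiaSubgroupIn A hτ
  have hc := compat_of_mem_decomposition A ⟨τ, hD⟩
  rw [h1] at hc
  rw [galois_smul_mk, RhoTM77.rho_mk, RhoTM77.rho_mk, SemilinearAut.coe_degZeroSMulHom,
    rhoDiv_galois H hc _ (Divisor.mem_degZero.mp D.2)]
  have : gbar (kA A) (s * N) (1 : kA A ≃+* kA A) = 1 := map_one (GalRed42.barAut (kA A) (s * N))
  rw [this, one_smul]

/-- the Hecke operator on a class -/
theorem heckeOperatorBar_mk (ℓ : ℕ) (hℓ : ℓ.Prime) (D : Divisor.degZero (K := Kb) (F := FK N)) :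
    haveI : NeZero ℓ := ⟨hℓ.ne_zero⟩
    haveI := hasPrincipalDivisors_mul N ℓ
    heckeOperatorBar N ⟨ℓ, hℓ⟩ (Pic0.mk D : JZero N) =
      Pic0.mk (Pic0.degZeroCorrespondence (heckeBetaBar Kb N ℓ) (heckeAlphaBar Kb N ℓ)
        (heckeBetaBarIntegral N ℓ) (heckeAlphaBarIntegral N ℓ) (fundamentalIdentityAlong_beta N ℓ)
        D) := by
  haveI : NeZero ℓ := ⟨hℓ.ne_zero⟩
  haveI := hasPrincipalDivisors_mul N ℓ
  change heckeOperatorAlong Kb N ℓ (Pic0.mk D) = _
  rw [heckeOperatorAlong_eq' N ℓ]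
  exact heckePic0Bar_mk N ℓ D

include hprin in
/-- clause (ES): the Eichler–Shimura relation after `ρ` -/
theorem rho_eichlerShimura (H : RigidInputs (IsLocalRing.residue A) N s r)
    (ℓ : ℕ) (hℓ : ℓ.Prime) [Fact ℓ.Prime] [NeZero ℓ] [CharP (kA A) ℓ] [PerfectRing (kA A) ℓ]
    (hK : KronStmt A (IsLocalRing.residue A) N ℓ)
    (hgenN : PrincipalGeneratedByIntegral A (IsLocalRing.residue A) N)
    {φ : Kb ≃ₐ[ℚ] Kb} (hφ : A.IsFrobeniusAt φ ℓ) (x : JZero N) :
    RhoTM77.rho N s r hprin (φ • φ • x - heckeOperatorBar N ⟨ℓ, hℓ⟩ (φ • x) + ℓ • x) = 0 := by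
  haveI := hasPrincipalDivisors_mul N ℓ
  obtain ⟨D, rfl⟩ := Pic0.mk_surjective x
  have hc := compat_of_mem_decomposition A ⟨φ, hφ.mem_decompositionSubgroup⟩
  rw [resAut_eq_frobAut A hφ] at hc
  -- the three divisors
  set D1 := SemilinearAut.degZeroSMulHom (gM N φ) D with hD1
  set D2 := SemilinearAut.degZeroSMulHom (gM N φ) D1 with hD2
  set D3 := Pic0.degZeroCorrespondence (heckeBetaBar Kb N ℓ) (heckeAlphaBar Kb N ℓ)
        (heckeBetaBarIntegral N ℓ) (heckeAlphaBarIntegral N ℓ) (fundamentalIdentityAlong_beta N ℓ)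
        D1 with hD3
  have e : (φ • φ • (Pic0.mk D : JZero N) - heckeOperatorBar N ⟨ℓ, hℓ⟩ (φ • (Pic0.mk D : JZero N))
      + ℓ • (Pic0.mk D : JZero N) : JZero N) = Pic0.mk (D2 - D3 + ℓ • D) := by
    rw [galois_smul_mk, galois_smul_mk, heckeOperatorBar_mk]
    rfl
  rw [e, RhoTM77.rho_mk]
  -- divisor-level computation
  have hdeg0 : Divisor.degree (D : Divisor Kb (FK N)) = 0 := Divisor.mem_degZero.mp D.2
  have hdeg1 : Divisor.degree (D1 : Divisor Kb (FK N)) = 0 := Divisor.mem_degZero.mp D1.2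
  have c1 : RhoTM77.rhoDiv N s r (D1 : Divisor Kb (FK N))
      = Phi (kA A) (s * N) ℓ • RhoTM77.rhoDiv N s r (D : Divisor Kb (FK N)) :=
    rhoDiv_galois H hc _ hdeg0
  have c2 : RhoTM77.rhoDiv N s r (D2 : Divisor Kb (FK N))
      = Phi (kA A) (s * N) ℓ • RhoTM77.rhoDiv N s r (D1 : Divisor Kb (FK N)) :=
    rhoDiv_galois H hc _ hdeg1
  have c3 : RhoTM77.rhoDiv N s r (D3 : Divisor Kb (FK N))
      = Phi (kA A) (s * N) ℓ • RhoTM77.rhoDiv N s r (D1 : Divisor Kb (FK N))
        + ℓ • (Phi (kA A) (s * N) ℓ)⁻¹ • RhoTM77.rhoDiv N s r (D1 : Divisor Kb (FK N)) :=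
    rhoDiv_hecke ℓ H hK hgenN _ hdeg1
  have hzero : RhoTM77.rhoDiv N s r ((D2 - D3 + ℓ • D : Divisor.degZero (K := Kb) (F := FK N)) :
      Divisor Kb (FK N)) = 0 := by
    rw [AddSubgroup.coe_add, AddSubgroup.coe_sub, AddSubgroup.coe_nsmul, map_add, map_sub,
      map_nsmul, c2, c3, c1, inv_smul_smul]
    abel
  rw [hzero]
  rfl

end Clauses

/-! ### the assembly -/

/-- **S37 ⟸ the package outputs.** -/
theorem rhoStmt_of_inputs (N p : ℕ) [NeZero N]
    (hLevel : LevelStatement) (hDesc : DescentStatement) (hCusp : CuspInftyStatement)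
    (hRed : RedInputs) (hGen : GenInputs N) (hKron : KronInputs N) (hPull : PullInputs N) :
    Reduce52.RhoStmt N p := by
  intro ℓ hℓ hℓNp A hA
  haveI : Fact ℓ.Prime := ⟨hℓ⟩
  haveI : NeZero ℓ := ⟨hℓ.ne_zero⟩
  have hℓN : ¬ ℓ ∣ N := fun h => hℓNp (h.mul_right p)
  have hℓp : ¬ ℓ ∣ p := fun h => hℓNp (h.mul_left N)
  obtain ⟨s, hs0, hpair, hgood, hℓM⟩ := exists_aux ℓ N hℓ hℓN
  haveI : NeZero s := ⟨hs0⟩
  haveI : NeZero (s * N) := ⟨Nat.mul_ne_zero hs0 (NeZero.ne N)⟩
  have hRI : ReductionInputsModL A (s * N) := hRed ℓ (s * N) hℓM hgood A hA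
  obtain ⟨r, hr, hgen⟩ := hRI
  have hprin : ∀ D ∈ Divisor.principal (K := Kb) (F := FK (s * N)),
      Finsupp.mapDomain r D ∈ Divisor.principal (K := kA A) (F := Fk (kA A) (s * N)) :=
    fun D hD => hr.mapDomain_mem_principal hgen hD
  haveI : CharP (kA A) ℓ := ValRing25.residueField_charP A hA
  haveI : IsAlgClosed (kA A) := ValRing25.residueField_isAlgClosed A
  obtain ⟨φ, hφ⟩ := Fermat.Agent.Lib.FrobeniusExists.exists_isFrobeniusAt A hℓ hA
  have HR : RigidInputs (IsLocalRing.residue A) N s r :=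
    ⟨hr, hgen, hPull s, fun Q => by
      rw [FFInstDW30.deg_eq_one_residueField A hA (s * N) hℓM Q]; exact one_pos⟩
  refine ⟨Pic (kA A) (Fk (kA A) (s * N)), inferInstance, RhoTM77.rho N s r hprin, φ, hφ,
    ?_, ?_, ?_⟩
  · intro τ hτ x
    exact rho_inertia N s hprin HR hτ x
  · intro x
    exact rho_eichlerShimura N s hprin HR ℓ hℓ (hKron ℓ hℓN A hA) (hGen ℓ hℓN A hA) hφ x
  · intro x hx hρ
    exact RhoTM77.rho_ptorsion_injective N s hLevel hDesc hCusp A hA hpair hgood hℓM r hr hprin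
      (NormFrac20.hasIntegralFractions_modL (s * N) A ⟨r, hr, hgen⟩)
      (P1Normalize20.reductionSurjective A (s * N))
      (FFInst30.constOfOrdZero_residueField A hA (s * N) hℓM) p hℓp x hx hρ

/-- **S37 in plug form**: the frozen conclusion from the package outputs.  `Fermat/Agent/S37.lean` is
`Glue52.s37_of_inputs N p hcomm level descent cuspInfty redInputs genInputs kronInputs pullInputs`. -/
theorem s37_of_inputs (N p : ℕ) [NeZero N] (hcomm : ModularCurve.HeckeOperatorsCommuteBar N)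
    (hLevel : LevelStatement) (hDesc : DescentStatement) (hCusp : CuspInftyStatement)
    (hRed : RedInputs) (hGen : GenInputs N) (hKron : KronInputs N) (hPull : PullInputs N) :
    letI := ModularCurve.heckeModuleBar N
    ∀ (_ : SMulCommClass (AlgebraicClosure ℚ ≃ₐ[ℚ] AlgebraicClosure ℚ) ModularCurve.HeckeAlg
        (ModularCurve.JZero N)),
      ModularCurve.SpecializationExists (K := ℚ) (L := AlgebraicClosure ℚ) N p
        (ModularCurve.JZero N) :=
  Reduce52.specializationExists_of_rho N p hcomm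
    (rhoStmt_of_inputs N p hLevel hDesc hCusp hRed hGen hKron hPull)

end Fermat.Agent.S37.Glue52
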