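/-
S37 package [HECKE-INPUTS] (helper16): `ModularCurve.HeckeInputsAlong (AlgebraicClosure ℚ) N ℓ`
for every level `N ≥ 1` and every `ℓ ≥ 1`, so that `heckeOperatorAlong`/`heckeOperatorBar` is the
honest correspondence `α_* β^*` and not the junk value `0`.

Generic part: `inputsAlong` for any `K`-algebra map `φ : F → F'` between function fields in one
variable over an algebraically closed field `K` of characteristic zero.
-/
import Mathlib
import Fermat.Prelude.Def_ModularCurve_HeckeModule
import Fermat.Agent.S37.FibreNorm16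
import Fermat.Agent.S24.FFPlaces
import Fermat.Agent.S24.Exports

set_option autoImplicit false
set_option linter.unusedSectionVars false
set_option linter.style.haveILetI false

namespace Fermat.Agent.S37.HeckeInputs16

open AlgebraicCurve IntermediateField
open Fermat.Agent.S24

/-! ## Generic part -/

section Generic

variable {K F F' : Type*} [Field K] [Field F] [Field F'] [Algebra K F] [Algebra K F']

/-- If `F'` is finite over an intermediate field contained in the range of `φ`, then `F'` is
finite along `φ`. -/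
theorem finiteAlong_of_le (φ : F →ₐ[K] F') (E : IntermediateField K F')
    (hE : E ≤ φ.fieldRange) [hfin : FiniteDimensional E F'] : FiniteAlong K φ := by
  letI := algebraAlong φ
  show Module.Finite F F'
  obtain ⟨S, hS⟩ := Module.finite_def.mp hfin
  refine ⟨⟨S, ?_⟩⟩
  rw [eq_top_iff]
  intro y hy0
  clear hy0
  have hy : y ∈ Submodule.span E (S : Set F') := hS ▸ Submodule.mem_top
  clear hS
  induction hy using Submodule.span_induction with
  | mem y hy => exact Submodule.subset_span hy
  | zero => exact zero_mem _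
  | add _ _ _ _ h1 h2 => exact add_mem h1 h2
  | smul a y _ h =>
    obtain ⟨b, hb⟩ := hE a.2
    have hb' : φ b = (a : F') := hb
    have e : a • y = b • y := by
      rw [Algebra.smul_def, Algebra.smul_def]
      show (a : F') * y = φ b * y
      rw [hb']
    rw [e]
    exact Submodule.smul_mem _ _ h

theorem isIntegral_of_finiteAlong (φ : F →ₐ[K] F') (h : FiniteAlong K φ) :
    φ.toRingHom.IsIntegral := by
  letI := algebraAlong φ
  haveI : Module.Finite F F' := h
  haveI : Algebra.IsIntegral F F' := Algebra.IsIntegral.of_finite F F'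
  intro y
  exact (Algebra.IsIntegral.isIntegral y : IsIntegral F y)

/-- The correspondence `ψ_* φ^*` on a single place. -/
theorem correspondence_single [HasPrincipalDivisors K F'] (φ ψ : F →ₐ[K] F')
    (hφ : φ.toRingHom.IsIntegral) (hψ : ψ.toRingHom.IsIntegral) (v : Place K F) (n : ℤ) :
    Divisor.correspondence φ ψ hφ hψ (Finsupp.single v n) =
      ∑ W ∈ Place.fiberAlong φ hφ v,
        Finsupp.single (W.restrictAlong ψ hψ)
          (n * W.ramificationIndexAlong φ * W.inertiaDegAlong ψ hψ) := by
  rw [Divisor.correspondence_apply, Divisor.pullbackAlong_single, map_sum]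
  refine Finset.sum_congr rfl fun W _ => ?_
  rw [Divisor.pushforwardAlong_single]

/-- If all places have degree one, all inertia degrees are one. -/
theorem inertiaDegAlong_eq_one (ψ : F →ₐ[K] F') (hψ : ψ.toRingHom.IsIntegral)
    (hF : ∀ v : Place K F, v.deg = 1) (hF' : ∀ w : Place K F', w.deg = 1) (W : Place K F') :
    W.inertiaDegAlong ψ hψ = 1 := by
  letI := algebraAlong ψ
  haveI := isScalarTower_along ψ
  haveI := isIntegral_along ψ hψ
  have h := W.deg_restrict_mul_inertiaDeg (F := F)
  rw [hF, hF', one_mul] at h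
  exact h

variable [CharZero K]

/-- `F'` is finite along any `K`-algebra map from a function field `F` (with separating
variable `x`) to a function field `F'` (with separating variable `x'`). -/
theorem finiteAlong (φ : F →ₐ[K] F') {x : F} (hx : Transcendental K x) {x' : F'}
    (hfin' : FiniteDimensional K⟮x'⟯ F') : FiniteAlong K φ := by
  have htr : Transcendental K (φ x) := by
    intro halg
    exact hx ((isAlgebraic_algHom_iff φ φ.toRingHom.injective).mp halg)
  haveI := FFPlaces.finiteDimensional_simple_of_transcendental hfin' htr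
  refine finiteAlong_of_le φ K⟮φ x⟯ ?_
  rw [adjoin_simple_le_iff]
  exact ⟨x, rfl⟩

variable [IsAlgClosed K]

/-- All correspondence inputs along `φ`. -/
theorem inputsAlong (φ : F →ₐ[K] F') {x : F} (hx : Transcendental K x)
    (hfin : FiniteDimensional K⟮x⟯ F) {x' : F'} (hfin' : FiniteDimensional K⟮x'⟯ F')
    [hP : HasPrincipalDivisors K F'] :
    ∃ (hint : φ.toRingHom.IsIntegral) (hf : FiniteAlong K φ),
      FundamentalIdentityAlong K φ hint ∧ NormFormulaAlong K φ hf := by
  have hf : FiniteAlong K φ := finiteAlong φ hx hfin'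
  refine ⟨isIntegral_of_finiteAlong φ hf, hf, ?_, ?_⟩
  · letI := algebraAlong φ
    haveI := isScalarTower_along φ
    haveI : Module.Finite F F' := hf
    haveI : CharZero F := charZero_of_injective_algebraMap (algebraMap K F).injective
    exact FibreNorm16.fundamentalIdentity (K := K) (F := F) (F' := F')
      (FFPlaces.deg_eq_one x hfin) (FFPlaces.deg_eq_one x' hfin')
  · letI := algebraAlong φ
    haveI := isScalarTower_along φ
    haveI : Module.Finite F F' := hf
    haveI : CharZero F := charZero_of_injective_algebraMap (algebraMap K F).injective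
    exact FibreNorm16.pushforwardNormFormula (K := K) (F := F) (F' := F')
      (FFPlaces.deg_eq_one x hfin) (FFPlaces.deg_eq_one x' hfin')

end Generic

/-! ## The modular function fields -/

section Modular

open ModularCurve

variable (N ℓ : ℕ) [NeZero N] [NeZero ℓ]

local notation "Qb" => AlgebraicClosure ℚ

theorem finiteDimensional_jF (M : ℕ) [NeZero M] :
    FiniteDimensional (↥(Qb⟮jF M⟯)) (FN M) :=
  (Exports.isFunctionFieldOver_jF M).finite

/-- `F_M` has principal divisors (of degree zero), for every level `M`. -/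
theorem hasPrincipalDivisorsBar (M : ℕ) [NeZero M] :
    HasPrincipalDivisors Qb (modularFunctionFieldBar M) :=
  FFPlaces.hasPrincipalDivisors (jF M) (finiteDimensional_jF M)

/-- every place of `F_M` has degree one -/
theorem deg_eq_one_bar (M : ℕ) [NeZero M] (w : Place Qb (modularFunctionFieldBar M)) :
    w.deg = 1 :=
  FFPlaces.deg_eq_one (jF M) (finiteDimensional_jF M) w

/-- All correspondence inputs along any `ℚ̄`-algebra map `F_N → F_M`. -/
theorem inputsAlongBar (M : ℕ) [NeZero M]
    (φ : modularFunctionFieldBar N →ₐ[Qb] modularFunctionFieldBar M)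
    [hP : HasPrincipalDivisors Qb (modularFunctionFieldBar M)] :
    ∃ (hint : φ.toRingHom.IsIntegral) (hf : FiniteAlong Qb φ),
      FundamentalIdentityAlong Qb φ hint ∧ NormFormulaAlong Qb φ hf :=
  inputsAlong φ (Exports.transcendental_jF N) (finiteDimensional_jF N) (finiteDimensional_jF M)

theorem heckeAlphaBarIntegral : HeckeAlphaBarIntegral Qb N ℓ := by
  haveI := hasPrincipalDivisorsBar (N * ℓ)
  exact (inputsAlongBar N (N * ℓ) (heckeAlphaBar Qb N ℓ)).1

theorem heckeBetaBarIntegral : HeckeBetaBarIntegral Qb N ℓ := by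
  haveI := hasPrincipalDivisorsBar (N * ℓ)
  exact (inputsAlongBar N (N * ℓ) (heckeBetaBar Qb N ℓ)).1

theorem finiteAlong_heckeAlphaBar : FiniteAlong Qb (heckeAlphaBar Qb N ℓ) := by
  haveI := hasPrincipalDivisorsBar (N * ℓ)
  exact (inputsAlongBar N (N * ℓ) (heckeAlphaBar Qb N ℓ)).2.1

theorem finiteAlong_heckeBetaBar : FiniteAlong Qb (heckeBetaBar Qb N ℓ) := by
  haveI := hasPrincipalDivisorsBar (N * ℓ)
  exact (inputsAlongBar N (N * ℓ) (heckeBetaBar Qb N ℓ)).2.1

section

variable [hP : HasPrincipalDivisors Qb (laurentBaseChange Qb (modularFunctionFieldFull (N * ℓ)))]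

theorem fundamentalIdentityAlong_heckeAlphaBar (hα : HeckeAlphaBarIntegral Qb N ℓ) :
    FundamentalIdentityAlong Qb (heckeAlphaBar Qb N ℓ) hα :=
  (inputsAlongBar N (N * ℓ) (heckeAlphaBar Qb N ℓ)).2.2.1

theorem fundamentalIdentityAlong_heckeBetaBar (hβ : HeckeBetaBarIntegral Qb N ℓ) :
    FundamentalIdentityAlong Qb (heckeBetaBar Qb N ℓ) hβ :=
  (inputsAlongBar N (N * ℓ) (heckeBetaBar Qb N ℓ)).2.2.1

end

theorem normFormulaAlong_heckeAlphaBar (hfin : FiniteAlong Qb (heckeAlphaBar Qb N ℓ)) :
    NormFormulaAlong Qb (heckeAlphaBar Qb N ℓ) hfin := by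
  haveI := hasPrincipalDivisorsBar (N * ℓ)
  exact (inputsAlongBar N (N * ℓ) (heckeAlphaBar Qb N ℓ)).2.2.2

theorem normFormulaAlong_heckeBetaBar (hfin : FiniteAlong Qb (heckeBetaBar Qb N ℓ)) :
    NormFormulaAlong Qb (heckeBetaBar Qb N ℓ) hfin := by
  haveI := hasPrincipalDivisorsBar (N * ℓ)
  exact (inputsAlongBar N (N * ℓ) (heckeBetaBar Qb N ℓ)).2.2.2

/-- `T_ℓ` on a point: `α_* β^* (n·v) = ∑_{W ∣_β v} n e_β(W) · (W ∣_α)`. -/
theorem heckeDivBar_single
    [HasPrincipalDivisors Qb (laurentBaseChange Qb (modularFunctionFieldFull (N * ℓ)))]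
    (hα : HeckeAlphaBarIntegral Qb N ℓ) (hβ : HeckeBetaBarIntegral Qb N ℓ)
    (v : Place Qb (modularFunctionFieldBar N)) (n : ℤ) :
    heckeDivBar hα hβ (Finsupp.single v n) =
      ∑ W ∈ Place.fiberAlong (heckeBetaBar Qb N ℓ) hβ v,
        Finsupp.single (W.restrictAlong (heckeAlphaBar Qb N ℓ) hα)
          (n * W.ramificationIndexAlong (heckeBetaBar Qb N ℓ)) := by
  have hα' : (heckeAlphaBar Qb N ℓ).toRingHom.IsIntegral := hα
  have hβ' : (heckeBetaBar Qb N ℓ).toRingHom.IsIntegral := hβ
  show Divisor.correspondence (heckeBetaBar Qb N ℓ) (heckeAlphaBar Qb N ℓ) hβ' hα'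
    (Finsupp.single v n) = _
  rw [correspondence_single]
  refine Finset.sum_congr rfl fun W _ => ?_
  rw [inertiaDegAlong_eq_one _ hα' (deg_eq_one_bar N) (deg_eq_one_bar (N * ℓ)), Nat.cast_one,
    mul_one]

/-- **[HECKE-INPUTS]**: the Prelude Hecke operator `heckeOperatorAlong ℚ̄ N ℓ` is never junk. -/
theorem heckeInputsAlong : HeckeInputsAlong Qb N ℓ := by
  haveI := hasPrincipalDivisorsBar (N * ℓ)
  exact heckeInputsAlong_intro (heckeAlphaBarIntegral N ℓ) (heckeBetaBarIntegral N ℓ)
    (fundamentalIdentityAlong_heckeBetaBar N ℓ _) (finiteAlong_heckeAlphaBar N ℓ)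
    (normFormulaAlong_heckeAlphaBar N ℓ _)

/-- Unfolding of the Prelude Hecke operator on `J₀(N)(ℚ̄) = Pic⁰(F_N)`. -/
theorem heckeOperatorAlong_eq_heckePic0Bar
    [HasPrincipalDivisors Qb (laurentBaseChange Qb (modularFunctionFieldFull (N * ℓ)))] :
    heckeOperatorAlong Qb N ℓ =
      heckePic0Bar (heckeAlphaBarIntegral N ℓ) (heckeBetaBarIntegral N ℓ)
        (fundamentalIdentityAlong_heckeBetaBar N ℓ _) (finiteAlong_heckeAlphaBar N ℓ)
        (normFormulaAlong_heckeAlphaBar N ℓ _) :=
  heckeOperatorAlong_eq _ _ _ _ _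

/-- On divisor classes: `T_ℓ [D] = [α_* β^* D]`. -/
theorem heckeOperatorAlong_mk
    [HasPrincipalDivisors Qb (laurentBaseChange Qb (modularFunctionFieldFull (N * ℓ)))]
    (D : Divisor.degZero (K := Qb) (F := modularFunctionFieldBar N)) :
    heckeOperatorAlong Qb N ℓ (Pic0.mk D) =
      Pic0.mk (Pic0.degZeroCorrespondence (heckeBetaBar Qb N ℓ) (heckeAlphaBar Qb N ℓ)
        (heckeBetaBarIntegral N ℓ) (heckeAlphaBarIntegral N ℓ)
        (fundamentalIdentityAlong_heckeBetaBar N ℓ _) D) := by
  rw [heckeOperatorAlong_eq_heckePic0Bar]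
  rfl

theorem heckeOperatorBar_mk (p : Nat.Primes)
    [HasPrincipalDivisors Qb (laurentBaseChange Qb (modularFunctionFieldFull (N * (p : ℕ))))]
    (D : Divisor.degZero (K := Qb) (F := modularFunctionFieldBar N)) :
    haveI : NeZero (p : ℕ) := ⟨p.2.ne_zero⟩
    heckeOperatorBar N p (Pic0.mk D) =
      Pic0.mk (Pic0.degZeroCorrespondence (heckeBetaBar Qb N p) (heckeAlphaBar Qb N p)
        (heckeBetaBarIntegral N p) (heckeAlphaBarIntegral N p)
        (fundamentalIdentityAlong_heckeBetaBar N p _) D) := by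
  haveI : NeZero (p : ℕ) := ⟨p.2.ne_zero⟩
  rw [heckeOperatorBar_apply]
  exact heckeOperatorAlong_mk N p D

end Modular

end Fermat.Agent.S37.HeckeInputs16
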