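/-
S37, package [R]-INST part 1 = [INTFRAC-M] (helper57).

In S37 the place reduction `r_M` at the good level `M` is constructed by us (Deuring reduction),
so the two facts `Normalize96.HasIntegralFractions A π M` and the Prelude predicate
`PrincipalGeneratedByIntegral A π M` are NOT hypotheses at level `M`: they must be PROVED from the
[BRIDGE] structure theorem.  This file does that, on top of the landed abstract structure kernel
`BridgeKernel15.Frame`.

Setting: `L` a field of characteristic `0`, `A : ValuationSubring L`, `k = A / 𝔪_A`,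
`π = IsLocalRing.residue A`.  An `IntFrame A M ι` is a `BridgeKernel15.Frame A ι` whose field is
`F_M = laurentBaseChange L (modularFunctionFieldFull M)` and whose base function `j` and frame
elements `x i` are (inclusions of) Laurent series with coefficients in `A`, with reductions in
`Fbar_M = modularFunctionFieldFullC k M`.

* `coeffMap_aeval` : `coeffMap f (aeval J q) = aeval (coeffMap f J) (q.map f)`.
* `IntFrame.hasIntegralFractions : Normalize96.HasIntegralFractions A π M`.
* `principalGeneratedByIntegral_of_hasIntegralFractions`,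
  `IntFrame.principalGeneratedByIntegral : PrincipalGeneratedByIntegral A π M`.
* `isPlaceReductionAlong_of_conservation` : adapter from a conservation law stated for the
  elements `u ∈ O A ∩ F_M` with `rho u ≠ 0` (the output shape of the abstract Deuring reduction
  over the frame valuation ring) to the Prelude predicate `IsPlaceReductionAlong A π M r`.
-/
import Mathlib
import Fermat.Agent.S18.BridgeKernel15
import Fermat.Agent.S18.Normalize96

set_option autoImplicit false

noncomputable section

namespace Fermat.Agent.S37.IntFrac57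

open ModularCurve HahnSeries Polynomial IntermediateField AlgebraicCurve
open Fermat.Agent.S18 Fermat.Agent.S18.Bridge28 Fermat.Agent.S18.BridgeO15
  Fermat.Agent.S18.BridgeGauss15 Fermat.Agent.S18.BridgeKernel15

/-! ### `coeffMap` and polynomial evaluation -/

section CoeffMapAeval

variable {R S : Type*} [CommRing R] [CommRing S]

theorem algebraMap_eq_single' (r : R) :
    algebraMap R (LaurentSeries R) r = HahnSeries.single 0 r := by
  have h1 : algebraMap R (PowerSeries R) r = PowerSeries.C r := by simp
  rw [HahnSeries.algebraMap_apply', h1, HahnSeries.ofPowerSeries_C]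
  rfl

theorem coeffMap_algebraMap' (f : R →+* S) (r : R) :
    coeffMap f (algebraMap R (LaurentSeries R) r) = algebraMap S (LaurentSeries S) (f r) := by
  rw [algebraMap_eq_single', algebraMap_eq_single', coeffMap_single]

/-- `coeffMap` commutes with polynomial evaluation. -/
theorem coeffMap_aeval (f : R →+* S) (J : LaurentSeries R) (q : R[X]) :
    coeffMap f (aeval J q) = aeval (coeffMap f J) (q.map f) := by
  rw [aeval_def, aeval_def, Polynomial.hom_eval₂, Polynomial.eval₂_map]
  congr 1
  exact RingHom.ext fun r => coeffMap_algebraMap' f r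

end CoeffMapAeval

variable {L : Type*} [Field L] [Algebra ℚ L] (A : ValuationSubring L)

/-- Residue field of `A`. -/
local notation "kA" => IsLocalRing.ResidueField A

omit [Algebra ℚ L] in
/-- common scaling of finitely many polynomials, not all zero, to polynomials over `A`, one of
which has nonzero reduction -/
theorem exists_common_primitive {ι : Type*} [Fintype ι] (P : ι → L[X]) (hne : ∃ i, P i ≠ 0) :
    ∃ (c : L) (q : ι → A[X]) (i₀ : ι), c ≠ 0 ∧
      (∀ i, P i = Polynomial.C c * (q i).map A.subtype) ∧
      (q i₀).map (IsLocalRing.residue A) ≠ 0 := by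
  classical
  have hex : ∀ i, ∃ (a : L) (p₀ : A[X]), P i ≠ 0 →
      (a ≠ 0 ∧ P i = Polynomial.C a * p₀.map A.subtype ∧
        p₀.map (IsLocalRing.residue A) ≠ 0) := by
    intro i
    by_cases hi : P i = 0
    · exact ⟨0, 0, fun h => absurd hi h⟩
    · obtain ⟨a, p₀, ha, hp, hp₀⟩ := exists_primitive_part A (P i) hi
      exact ⟨a, p₀, fun _ => ⟨ha, hp, hp₀⟩⟩
  choose a p₀ hap using hex
  have hT : (Finset.univ.filter fun i => P i ≠ 0).Nonempty := by
    obtain ⟨i, hi⟩ := hne
    exact ⟨i, Finset.mem_filter.2 ⟨Finset.mem_univ _, hi⟩⟩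
  obtain ⟨i₀, hi₀, hmax⟩ := Finset.exists_max_image _ (fun i => A.valuation (a i)) hT
  have hi₀' : P i₀ ≠ 0 := (Finset.mem_filter.1 hi₀).2
  obtain ⟨ha₀, hP₀, hp₀⟩ := hap i₀ hi₀'
  have hv0 : A.valuation (a i₀) ≠ 0 := (_root_.map_ne_zero _).mpr ha₀
  have hex2 : ∀ i, ∃ q : A[X], P i = Polynomial.C (a i₀) * q.map A.subtype ∧
      (i = i₀ → q = p₀ i₀) := by
    intro i
    by_cases hii : i = i₀
    · subst hii
      exact ⟨p₀ i, hP₀, fun _ => rfl⟩
    by_cases hi : P i = 0
    · exact ⟨0, by rw [hi, Polynomial.map_zero, mul_zero], fun h => absurd h hii⟩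
    · obtain ⟨hai, hPi, -⟩ := hap i hi
      have hle : A.valuation (a i) ≤ A.valuation (a i₀) :=
        hmax i (Finset.mem_filter.2 ⟨Finset.mem_univ _, hi⟩)
      have hmem : (a i₀)⁻¹ * a i ∈ A := by
        rw [← ValuationSubring.valuation_le_one_iff, map_mul, map_inv₀]
        calc (A.valuation (a i₀))⁻¹ * A.valuation (a i)
            ≤ (A.valuation (a i₀))⁻¹ * A.valuation (a i₀) := by gcongr
          _ = 1 := inv_mul_cancel₀ hv0
      refine ⟨Polynomial.C (⟨_, hmem⟩ : A) * p₀ i, ?_, fun h => absurd h hii⟩
      rw [Polynomial.map_mul, Polynomial.map_C, ← mul_assoc, ← Polynomial.C_mul]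
      have : a i₀ * A.subtype ⟨(a i₀)⁻¹ * a i, hmem⟩ = a i := by
        show a i₀ * ((a i₀)⁻¹ * a i) = a i
        rw [← mul_assoc, mul_inv_cancel₀ ha₀, one_mul]
      rw [this, hPi]
  choose q hq hq₀ using hex2
  refine ⟨a i₀, q, i₀, ha₀, hq, ?_⟩
  rw [hq₀ i₀ rfl]
  exact hp₀

/-- An integral frame at level `M`. -/
structure IntFrame (M : ℕ) (ι : Type*) [Fintype ι] where
  /-- the abstract frame -/
  S : Frame A ι
  /-- its field is `F_M` -/
  hF : S.F = laurentBaseChange L (modularFunctionFieldFull M)
  /-- the base function is an integral series -/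
  J : LaurentSeries A
  hJ : S.j = incl A J
  hJk : red A J ∈ modularFunctionFieldFullC kA M
  /-- the frame consists of integral series -/
  X : ι → LaurentSeries A
  hX : ∀ i, S.x i = incl A (X i)
  hXk : ∀ i, red A (X i) ∈ modularFunctionFieldFullC kA M

namespace IntFrame

variable {A} {M : ℕ} {ι : Type*} [Fintype ι] (T : IntFrame A M ι)

theorem j_mem : incl A T.J ∈ laurentBaseChange L (modularFunctionFieldFull M) := by
  rw [← T.hJ, ← T.hF]; exact T.S.hjF

theorem x_mem (i : ι) : incl A (T.X i) ∈ laurentBaseChange L (modularFunctionFieldFull M) := by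
  rw [← T.hX, ← T.hF]; exact T.S.hxF i

theorem t_eq : T.S.t = red A T.J := by
  unfold PreFrame.t
  rw [← rho_incl A T.J]
  exact congrArg (rho A) (Subtype.ext T.hJ)

theorem rho_x (i : ι) : rho A (T.S.xO i) = red A (T.X i) := by
  rw [← rho_incl A (T.X i)]
  exact congrArg (rho A) (Subtype.ext (T.hX i))

theorem transc : Transcendental kA (red A T.J) := by
  rw [← T.t_eq]; exact T.S.ht

theorem transcL : Transcendental L (incl A T.J) := by
  rw [← T.hJ]; exact transcendental_of_rho A T.S.j T.S.hj T.S.ht

/-- evaluation at `J` of a polynomial over `A`: inclusion -/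
theorem incl_aeval (q : A[X]) : incl A (aeval T.J q) = aeval (incl A T.J) (q.map A.subtype) :=
  coeffMap_aeval A.subtype T.J q

/-- evaluation at `J` of a polynomial over `A`: reduction -/
theorem red_aeval (q : A[X]) :
    red A (aeval T.J q) = aeval (red A T.J) (q.map (IsLocalRing.residue A)) :=
  coeffMap_aeval (IsLocalRing.residue A) T.J q

theorem aeval_mem_F (p : L[X]) :
    aeval (incl A T.J) p ∈ laurentBaseChange L (modularFunctionFieldFull M) := by
  have h : aeval (incl A T.J) p ∈ L⟮incl A T.J⟯ :=
    (IntermediateField.algebra_adjoin_le_adjoin _ _)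
      (by rw [Algebra.adjoin_singleton_eq_range_aeval]; exact ⟨_, rfl⟩)
  exact (adjoin_simple_le_iff.2 T.j_mem) h

theorem aeval_mem_k (p : kA[X]) :
    aeval (red A T.J) p ∈ modularFunctionFieldFullC kA M := by
  have h : aeval (red A T.J) p ∈ kA⟮red A T.J⟯ :=
    (IntermediateField.algebra_adjoin_le_adjoin _ _)
      (by rw [Algebra.adjoin_singleton_eq_range_aeval]; exact ⟨_, rfl⟩)
  exact (adjoin_simple_le_iff.2 T.hJk) h

theorem aeval_mem_adjoin_k (p : kA[X]) : aeval (red A T.J) p ∈ kA⟮T.S.t⟯ := by
  rw [T.t_eq]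
  exact (IntermediateField.algebra_adjoin_le_adjoin _ _)
    (by rw [Algebra.adjoin_singleton_eq_range_aeval]; exact ⟨_, rfl⟩)

/-- The integral element `q(J)` for a polynomial `q` over `A` with nonzero reduction. -/
def polyElt (q : A[X]) (hq : q.map (IsLocalRing.residue A) ≠ 0) :
    Normalize96.IntElt A (IsLocalRing.residue A) M where
  y := aeval T.J q
  mem := by
    show incl A (aeval T.J q) ∈ _
    rw [T.incl_aeval]; exact T.aeval_mem_F _
  memk := by
    show red A (aeval T.J q) ∈ _
    rw [T.red_aeval]; exact T.aeval_mem_k _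
  ne := by
    show red A (aeval T.J q) ≠ 0
    rw [T.red_aeval]
    exact fun h => hq ((transcendental_iff.1 T.transc) _ h)

/-- The integral element `∑ q_i(J) X_i` for polynomials `q i` over `A`, one of them with nonzero
reduction. -/
def sumElt (q : ι → A[X]) (i₀ : ι) (hq : (q i₀).map (IsLocalRing.residue A) ≠ 0) :
    Normalize96.IntElt A (IsLocalRing.residue A) M where
  y := ∑ i, aeval T.J (q i) * T.X i
  mem := by
    show incl A (∑ i, aeval T.J (q i) * T.X i) ∈ _
    rw [map_sum]
    refine sum_mem fun i _ => ?_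
    rw [map_mul, T.incl_aeval]
    exact mul_mem (T.aeval_mem_F _) (T.x_mem i)
  memk := by
    show red A (∑ i, aeval T.J (q i) * T.X i) ∈ _
    rw [map_sum]
    refine sum_mem fun i _ => ?_
    rw [map_mul, T.red_aeval]
    exact mul_mem (T.aeval_mem_k _) (T.hXk i)
  ne := by
    show red A (∑ i, aeval T.J (q i) * T.X i) ≠ 0
    rw [map_sum]
    intro h
    have h' : ∑ i, aeval (red A T.J) ((q i).map (IsLocalRing.residue A)) *
        rho A ⟨T.S.x i, T.S.hxO i⟩ = 0 := by
      rw [← h]
      refine Finset.sum_congr rfl fun i _ => ?_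
      rw [map_mul, T.red_aeval]
      congr 1
      exact T.rho_x i
    have h0 := T.S.hli (fun i => aeval (red A T.J) ((q i).map (IsLocalRing.residue A)))
      (fun i => T.aeval_mem_adjoin_k _) h' i₀
    exact hq ((transcendental_iff.1 T.transc) _ h0)

/-- every element of `L(j)` is a quotient of polynomials in `j` with nonzero denominator -/
theorem exists_quot {c : LaurentSeries L} (hc : c ∈ L⟮T.S.j⟯) :
    ∃ r s : L[X], s ≠ 0 ∧ c * aeval (incl A T.J) s = aeval (incl A T.J) r := by
  obtain ⟨r, s, hrs⟩ := (IntermediateField.mem_adjoin_simple_iff L c).1 hc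
  rw [T.hJ] at hrs
  by_cases hs : s = 0
  · refine ⟨0, 1, one_ne_zero, ?_⟩
    rw [hs, map_zero, div_zero] at hrs
    rw [hrs, zero_mul, map_zero]
  · refine ⟨r, s, hs, ?_⟩
    have hs' : aeval (incl A T.J) s ≠ 0 := fun h => hs ((transcendental_iff.1 T.transcL) _ h)
    rw [hrs, div_mul_cancel₀ _ hs']

include T in
/-- **[INTFRAC-M]**: every nonzero element of `F_M` is `c a / b` with `a b` integral elements
with nonzero reduction. -/
theorem hasIntegralFractions :
    Normalize96.HasIntegralFractions A (IsLocalRing.residue A) M := by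
  classical
  intro x hx
  have hxF : (x : LaurentSeries L) ∈ T.S.F := by rw [T.hF]; exact x.2
  obtain ⟨c, hcj, hyc⟩ := T.S.hspan _ hxF
  have hex : ∀ i, ∃ r s : L[X], s ≠ 0 ∧
      c i * aeval (incl A T.J) s = aeval (incl A T.J) r := fun i => T.exists_quot (hcj i)
  choose r s hs hrs using hex
  set Q : L[X] := ∏ i, s i with hQ
  have hQ0 : Q ≠ 0 := Finset.prod_ne_zero_iff.2 fun i _ => hs i
  have hQj : aeval (incl A T.J) Q ≠ 0 := fun h => hQ0 ((transcendental_iff.1 T.transcL) _ h)
  set P : ι → L[X] := fun i => r i * ∏ i' ∈ Finset.univ.erase i, s i' with hP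
  have hcP : ∀ i, c i * aeval (incl A T.J) Q = aeval (incl A T.J) (P i) := by
    intro i
    have h1 : Q = s i * ∏ i' ∈ Finset.univ.erase i, s i' :=
      (Finset.mul_prod_erase _ _ (Finset.mem_univ i)).symm
    rw [h1, hP, map_mul, map_mul, ← mul_assoc, hrs i]
  have hsum : (x : LaurentSeries L) * aeval (incl A T.J) Q =
      ∑ i, aeval (incl A T.J) (P i) * incl A (T.X i) := by
    rw [hyc, Finset.sum_mul]
    refine Finset.sum_congr rfl fun i _ => ?_
    rw [← hcP i, T.hX i]
    ring
  have hne : ∃ i, P i ≠ 0 := by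
    by_contra h
    push Not at h
    have h0 : (x : LaurentSeries L) * aeval (incl A T.J) Q = 0 := by
      rw [hsum]
      exact Finset.sum_eq_zero fun i _ => by rw [h i, map_zero, zero_mul]
    rcases mul_eq_zero.1 h0 with h1 | h1
    · exact hx (Subtype.ext h1)
    · exact hQj h1
  obtain ⟨c₁, q, i₀, hc₁, hq, hq₀⟩ := exists_common_primitive A P hne
  obtain ⟨c₂, Q₀, hc₂, hQQ, hQ₀⟩ := exists_primitive_part A Q hQ0
  refine ⟨c₁ / c₂, T.sumElt q i₀ hq₀, T.polyElt Q₀ hQ₀, div_ne_zero hc₁ hc₂, ?_⟩
  apply Subtype.ext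
  show (x : LaurentSeries L) * incl A (aeval T.J Q₀) =
    algebraMap L (LaurentSeries L) (c₁ / c₂) * incl A (∑ i, aeval T.J (q i) * T.X i)
  have hC2 : (algebraMap L (LaurentSeries L) c₂) ≠ 0 := (_root_.map_ne_zero _).mpr hc₂
  have e1 : aeval (incl A T.J) Q = algebraMap L (LaurentSeries L) c₂ * incl A (aeval T.J Q₀) := by
    rw [T.incl_aeval, hQQ, map_mul, aeval_C]
  have e2 : ∀ i, aeval (incl A T.J) (P i) =
      algebraMap L (LaurentSeries L) c₁ * incl A (aeval T.J (q i)) := by
    intro i
    rw [T.incl_aeval, hq i, map_mul, aeval_C]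
  rw [e1] at hsum
  have e3 : ∑ i, aeval (incl A T.J) (P i) * incl A (T.X i) =
      algebraMap L (LaurentSeries L) c₁ * incl A (∑ i, aeval T.J (q i) * T.X i) := by
    rw [map_sum, Finset.mul_sum]
    refine Finset.sum_congr rfl fun i _ => ?_
    rw [e2 i, map_mul, mul_assoc]
  rw [e3] at hsum
  rw [map_div₀]
  field_simp
  rw [← hsum]
  ring

end IntFrame

/-! ### From integral fractions to `PrincipalGeneratedByIntegral` -/

section Gen

variable {k : Type*} [Field k] (π : A →+* k) (N : ℕ)

/-- `HasIntegralFractions` implies the Prelude predicate `PrincipalGeneratedByIntegral`. -/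
theorem principalGeneratedByIntegral_of_hasIntegralFractions
    [HasPrincipalDivisors L (laurentBaseChange L (modularFunctionFieldFull N))]
    (h : Normalize96.HasIntegralFractions A π N) : PrincipalGeneratedByIntegral A π N := by
  intro D hD
  obtain ⟨f, hf, hDf⟩ := hD
  obtain ⟨c, a, b, hc, hx⟩ := h f hf
  obtain ⟨Da, hDa, -⟩ := HasPrincipalDivisors.exists_divisor (K := L) a.toF a.toF_ne_zero
  obtain ⟨Db, hDb, -⟩ := HasPrincipalDivisors.exists_divisor (K := L) b.toF b.toF_ne_zero
  have hc' : algebraMap L (laurentBaseChange L (modularFunctionFieldFull N)) c ≠ 0 := by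
    simpa using hc
  have hDeq : D = Da - Db := by
    ext P
    have h1 := congrArg P.ord hx
    rw [P.ord_mul hf b.toF_ne_zero, P.ord_mul hc' a.toF_ne_zero,
      Normalize96.ord_algebraMap P c hc, zero_add] at h1
    rw [Finsupp.sub_apply, hDf, hDa, hDb]
    omega
  rw [hDeq]
  exact AddSubgroup.sub_mem _
    (AddSubgroup.subset_closure ⟨a.y, a.mem, a.memk, a.ne, hDa⟩)
    (AddSubgroup.subset_closure ⟨b.y, b.mem, b.memk, b.ne, hDb⟩)

end Gen

/-- **[INTFRAC-M]**, Prelude form: principal divisors of `F_M` are generated by integral ones. -/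
theorem IntFrame.principalGeneratedByIntegral {M : ℕ} {ι : Type*} [Fintype ι]
    (T : IntFrame A M ι)
    [HasPrincipalDivisors L (laurentBaseChange L (modularFunctionFieldFull M))] :
    PrincipalGeneratedByIntegral A (IsLocalRing.residue A) M :=
  principalGeneratedByIntegral_of_hasIntegralFractions A _ M T.hasIntegralFractions

/-! ### Adapter to `IsPlaceReductionAlong` -/

/-- A degree preserving map of places satisfying the conservation law for the elements
`u ∈ O A ∩ F_M` with `rho u ≠ 0` (and `rho u ∈ Fbar_M`) is a place reduction in the sense of the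
Prelude. -/
theorem isPlaceReductionAlong_of_conservation {M : ℕ}
    (r : Place L (laurentBaseChange L (modularFunctionFieldFull M)) →
      Place kA (modularFunctionFieldFullC kA M))
    (hdeg : ∀ P, (r P).deg = P.deg)
    (hcons : ∀ (u : O A)
      (hu : (u : LaurentSeries L) ∈ laurentBaseChange L (modularFunctionFieldFull M))
      (huk : rho A u ∈ modularFunctionFieldFullC kA M), rho A u ≠ 0 →
      ∀ D : Divisor L (laurentBaseChange L (modularFunctionFieldFull M)),
        (∀ P, D P = P.ord (⟨(u : LaurentSeries L), hu⟩ :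
          laurentBaseChange L (modularFunctionFieldFull M))) →
        ∀ Q, Finsupp.mapDomain r D Q =
          Q.ord (⟨rho A u, huk⟩ : modularFunctionFieldFullC kA M)) :
    IsPlaceReductionAlong A (IsLocalRing.residue A) M r := by
  refine ⟨hdeg, fun y hy hyk hne D hD Q => ?_⟩
  have e : rho A ⟨incl A y, incl_mem_O A y⟩ = coeffMap (IsLocalRing.residue A) y := rho_incl A y
  have h := hcons ⟨incl A y, incl_mem_O A y⟩ hy (by rw [e]; exact hyk) (by rw [e]; exact hne)
    D hD Q
  rw [h]
  congr 1
  exact Subtype.ext e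

end Fermat.Agent.S37.IntFrac57

end
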