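/-
S37 helper (helper66): blueprint 18 gap (G1), CONCRETE — H1 AT EVERY LEVEL.

helper57's `IntFrac57.IntFrame` (an abstract `BridgeKernel15.Frame` of integral series) is
instantiated with helper28's concrete frame `Bridge28.frame A N hNk` at EVERY level `N` which is
nonzero in the residue field of `A` (no good-level hypothesis): `J = jqModC` over `A`, `X i` = the
`ψ(N)` integral monomials `xZ`.  Consequences, for `A : ValuationSubring ℚ̄` over `ℓ`, `ℓ ∤ N`:

* `hasIntegralFractions_level`        : `Normalize96.HasIntegralFractions A (residue A) N`
* `principalGeneratedByIntegral_level` : Prelude `PrincipalGeneratedByIntegral A (residue A) N`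

i.e. every `y ∈ F_N^×` is `c · a / b` with `a b` integral series in `F_N` with nonzero reductions
in `F̄_N`, and the principal divisors of `F_N` are generated by the integral principal divisors.
This is what (ES-fn) / Lemma B need at level `N`, and what [R]-INST needs at the good level `M`.
-/
import Mathlib
import Fermat.Agent.S37.IntFrac57
import Fermat.Agent.S18.Bridge28.Concrete
import Fermat.Agent.S18.NormFrac20

set_option autoImplicit false

open ModularCurve IntermediateField AlgebraicCurve

noncomputable section

namespace Fermat.Agent.S37.IntFrameInst66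

open Fermat.Agent.S18 Fermat.Agent.S18.Bridge28 Fermat.Agent.S37.IntFrac57

section Concrete

variable (A : ValuationSubring (AlgebraicClosure ℚ)) (N : ℕ) [NeZero N]
  (hNk : (N : IsLocalRing.ResidueField A) ≠ 0)

/-- The concrete integral frame of `F_N`. -/
def intFrame : IntFrame A N (Fin (dedekindPsi N)) where
  S := frame A N hNk
  hF := rfl
  J := liftZ A (jqModC ℤ)
  hJ := by rw [frame_j, incl_liftZ, coeffMap_int_jqModC]
  hJk := by
    rw [red_liftZ, coeffMap_int_jqModC]
    exact jqModC_mem_full _ N
  X i := liftZ A (xZ A N hNk i)
  hX i := by rw [frame_x, incl_liftZ]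
  hXk i := by
    rw [red_liftZ]
    exact coeffMap_mem_fullC_of_mem_monomialsZ _ (xZ_mem A N hNk i)

include hNk in
/-- **H1 at level `N`** (`(N : k) ≠ 0`): integral fractions. -/
theorem hasIntegralFractions_of_ne_zero :
    Normalize96.HasIntegralFractions A (IsLocalRing.residue A) N :=
  (intFrame A N hNk).hasIntegralFractions

include hNk in
/-- **H1 at level `N`** (`(N : k) ≠ 0`): Prelude form. -/
theorem principalGeneratedByIntegral_of_ne_zero :
    PrincipalGeneratedByIntegral A (IsLocalRing.residue A) N := by
  have := NormFrac20.hasPrincipalDivisors_bar N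
  exact (intFrame A N hNk).principalGeneratedByIntegral

end Concrete

section Level

variable (N : ℕ) [NeZero N] (ℓ : ℕ) [Fact ℓ.Prime] (hℓ : ¬ ℓ ∣ N)
  (A : ValuationSubring (AlgebraicClosure ℚ)) (hA : A.LiesOverPrime ℓ)

include hℓ hA in
/-- **(G1)** `H1` at every level `N` prime to `ℓ`. -/
theorem hasIntegralFractions_level :
    Normalize96.HasIntegralFractions A (IsLocalRing.residue A) N :=
  hasIntegralFractions_of_ne_zero A N (natCast_residueField_ne_zero A hA hℓ)

include hℓ hA in
/-- **(G1)** principal divisors of `F_N` are generated by integral ones, at every level `N`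
prime to `ℓ`. -/
theorem principalGeneratedByIntegral_level :
    PrincipalGeneratedByIntegral A (IsLocalRing.residue A) N :=
  principalGeneratedByIntegral_of_ne_zero A N (natCast_residueField_ne_zero A hA hℓ)

end Level

end Fermat.Agent.S37.IntFrameInst66

end
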