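/-
S37 (Eichler–Shimura in the packaged form `SpecializationExists`), the FORMAL part (helper88).

`SpecializationExists N p J` asks, for every prime `ℓ ∤ N p` and every valuation subring `A` over `ℓ`,
for a quadruple `(J', sp, F)` (a `HeckeAlg`-module `J'`, an additive `sp : J → J'`, an additive
`F : J' → J'`) with `sp` Hecke-equivariant, inertia-invariant, intertwining every Frobenius lift with
`F`, injective on `p`-power torsion, and `F² - T_ℓ F + ℓ = 0` on `J'`.

We show that all of this follows FORMALLY from the existence of a Frobenius lift and of ONE additive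
map `red : J → G` to an arbitrary abelian group (no Hecke action on `G` is needed) such that
* (R1) `red (τ • x) = red x` for `τ` in the inertia group,
* (R2) `red (s • s • x - T_ℓ • (s • x) + ℓ • x) = 0` for every Frobenius lift `s`,
* (R3) `red` is injective on `p`-power torsion.
Indeed take `J' := J ⧸ K`, `K` the `HeckeAlg`-span of the elements `τ • x - x` and
`s • s • x - T_ℓ • (s • x) + ℓ • x`.
-/
import Mathlib
import Fermat.Prelude.Def_HeckeGalois_EichlerShimura

set_option autoImplicit false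

noncomputable section

namespace Fermat.Agent.S37.KTrick88

open ModularCurve

universe u v w

section

variable {K : Type u} {L : Type v} [Field K] [Field L] [Algebra K L]
variable {J : Type} [AddCommGroup J] [Module HeckeAlg J]
  [DistribMulAction (L ≃ₐ[K] L) J] [SMulCommClass (L ≃ₐ[K] L) HeckeAlg J]

/-- the inertia generators `τ • x - x`. -/
def genI (A : ValuationSubring L) : Set J :=
  {y | ∃ τ ∈ A.inertiaSubgroupIn K, ∃ x : J, y = τ • x - x}

/-- the Eichler–Shimura generators `s • s • x - T_ℓ • (s • x) + ℓ • x`. -/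
def genF (A : ValuationSubring L) (ℓ : Nat.Primes) : Set J :=
  {y | ∃ s : L ≃ₐ[K] L, A.IsFrobeniusAt s ℓ ∧ ∃ x : J,
    y = s • s • x - heckeGen ℓ • (s • x) + ((ℓ : ℕ) • x)}

/-- the submodule `K`. -/
def KK (A : ValuationSubring L) (ℓ : Nat.Primes) : Submodule HeckeAlg J :=
  Submodule.span HeckeAlg (genI (K := K) A ∪ genF (K := K) A ℓ)

/-- Hecke translates of generators are generators. -/
lemma smul_mem_gen (A : ValuationSubring L) (ℓ : Nat.Primes) (T : HeckeAlg) {y : J}
    (hy : y ∈ genI (K := K) A ∪ genF (K := K) A ℓ) :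
    T • y ∈ genI (K := K) A ∪ genF (K := K) A ℓ := by
  rcases hy with ⟨τ, hτ, x, rfl⟩ | ⟨s, hs, x, rfl⟩
  · left
    refine ⟨τ, hτ, T • x, ?_⟩
    rw [smul_sub, smul_comm τ T x]
  · right
    refine ⟨s, hs, T • x, ?_⟩
    rw [smul_add, smul_sub, smul_comm s T x, smul_comm s T (s • x), smul_comm T (heckeGen ℓ) (s • x),
      smul_comm T ((ℓ : ℕ)) x]

/-- every element of `K` (and all its Hecke translates) is killed by a map killing the
generators. -/
lemma red_smul_eq_zero_of_mem {G : Type w} [AddCommGroup G] (red : J →+ G)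
    (A : ValuationSubring L) (ℓ : Nat.Primes)
    (hgen : ∀ y ∈ genI (K := K) A ∪ genF (K := K) A ℓ, red y = 0)
    {x : J} (hx : x ∈ KK (K := K) A ℓ) : ∀ T : HeckeAlg, red (T • x) = 0 := by
  induction hx using Submodule.span_induction with
  | mem y hy => exact fun T => hgen _ (smul_mem_gen A ℓ T hy)
  | zero => intro T; rw [smul_zero, map_zero]
  | add y z _ _ hy hz => intro T; rw [smul_add, map_add, hy T, hz T, add_zero]
  | smul T' y _ hy => intro T; rw [smul_smul]; exact hy _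

lemma red_eq_zero_of_mem {G : Type w} [AddCommGroup G] (red : J →+ G)
    (A : ValuationSubring L) (ℓ : Nat.Primes)
    (hgen : ∀ y ∈ genI (K := K) A ∪ genF (K := K) A ℓ, red y = 0)
    {x : J} (hx : x ∈ KK (K := K) A ℓ) : red x = 0 := by
  have := red_smul_eq_zero_of_mem red A ℓ hgen hx 1
  rwa [one_smul] at this

/-- conjugating an inertia element by a decomposition element gives an inertia element. -/
lemma conj_mem_inertiaSubgroupIn (A : ValuationSubring L) {σ τ : L ≃ₐ[K] L}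
    (hσ : σ ∈ A.decompositionSubgroup K) (hτ : τ ∈ A.inertiaSubgroupIn K) :
    σ * τ * σ⁻¹ ∈ A.inertiaSubgroupIn K := by
  obtain ⟨τ', hτ', rfl⟩ := hτ
  haveI : (A.inertiaSubgroup K).Normal := by
    unfold ValuationSubring.inertiaSubgroup
    infer_instance
  have h := (inferInstance : (A.inertiaSubgroup K).Normal).conj_mem τ' hτ' ⟨σ, hσ⟩
  exact ⟨_, h, rfl⟩

/-- conjugating a Frobenius lift by a decomposition element gives a Frobenius lift. -/
lemma conj_isFrobeniusAt (A : ValuationSubring L) {σ s : L ≃ₐ[K] L} {q : ℕ}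
    (hσ : σ ∈ A.decompositionSubgroup K) (hs : A.IsFrobeniusAt s q) :
    A.IsFrobeniusAt (σ * s * σ⁻¹) q := by
  obtain ⟨hs', hq⟩ := hs
  have hmem : σ * s * σ⁻¹ ∈ A.decompositionSubgroup K :=
    mul_mem (mul_mem hσ hs') (inv_mem hσ)
  refine ⟨hmem, fun x => ?_⟩
  have e : (⟨σ * s * σ⁻¹, hmem⟩ : A.decompositionSubgroup K) =
      ⟨σ, hσ⟩ * ⟨s, hs'⟩ * ⟨σ, hσ⟩⁻¹ := rfl
  rw [e, mul_smul, mul_smul, hq, smul_pow', smul_inv_smul]

/-- two Frobenius lifts differ by an inertia element. -/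
lemma inv_mul_mem_inertia (A : ValuationSubring L) {s₀ s : L ≃ₐ[K] L} {q : ℕ}
    (h₀ : A.IsFrobeniusAt s₀ q) (hs : A.IsFrobeniusAt s q) :
    s₀⁻¹ * s ∈ A.inertiaSubgroupIn K := by
  obtain ⟨h₀', hq₀⟩ := h₀
  obtain ⟨hs', hq⟩ := hs
  refine ⟨⟨s₀, h₀'⟩⁻¹ * ⟨s, hs'⟩, ?_, rfl⟩
  refine MonoidHom.mem_ker.mpr ?_
  ext x
  show (⟨s₀, h₀'⟩⁻¹ * ⟨s, hs'⟩ : A.decompositionSubgroup K) • x = x
  rw [mul_smul, hq, ← hq₀ x, inv_smul_smul]

/-- `K` is stable under a Frobenius lift (indeed under the decomposition group). -/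
lemma smul_mem_KK (A : ValuationSubring L) (ℓ : Nat.Primes) {σ : L ≃ₐ[K] L}
    (hσ : σ ∈ A.decompositionSubgroup K) {x : J} (hx : x ∈ KK (K := K) A ℓ) :
    σ • x ∈ KK (K := K) A ℓ := by
  induction hx using Submodule.span_induction with
  | mem y hy =>
    apply Submodule.subset_span
    rcases hy with ⟨τ, hτ, x, rfl⟩ | ⟨s, hs, x, rfl⟩
    · left
      refine ⟨σ * τ * σ⁻¹, conj_mem_inertiaSubgroupIn A hσ hτ, σ • x, ?_⟩
      rw [smul_sub, mul_smul, mul_smul, inv_smul_smul]
    · right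
      refine ⟨σ * s * σ⁻¹, conj_isFrobeniusAt A hσ hs, σ • x, ?_⟩
      have e1 : (σ * s * σ⁻¹) • (σ • x) = σ • s • x := by
        rw [mul_smul, mul_smul, inv_smul_smul]
      have e2 : (σ * s * σ⁻¹) • (σ • s • x) = σ • s • s • x := by
        rw [mul_smul, mul_smul, inv_smul_smul]
      rw [e1, e2, smul_add, smul_sub, smul_comm σ (heckeGen ℓ) (s • x), smul_comm σ ((ℓ : ℕ)) x]
  | zero => rw [smul_zero]; exact Submodule.zero_mem _
  | add y z _ _ hy hz => rw [smul_add]; exact Submodule.add_mem _ hy hz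
  | smul T y _ hy => rw [smul_comm σ T y]; exact Submodule.smul_mem _ T hy

end

section main

variable {K : Type u} {L : Type v} [Field K] [Field L] [Algebra K L]
variable (N p : ℕ) (J : Type) [AddCommGroup J] [Module HeckeAlg J]
  [DistribMulAction (L ≃ₐ[K] L) J] [SMulCommClass (L ≃ₐ[K] L) HeckeAlg J]

/-- The reduction datum at `(ℓ, A)` from which the specialization is built formally. -/
def HasRed (ℓ : ℕ) (hℓ : ℓ.Prime) (A : ValuationSubring L) : Prop :=
  (∃ s : L ≃ₐ[K] L, A.IsFrobeniusAt s ℓ) ∧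
    ∃ (G : Type w) (_ : AddCommGroup G) (red : J →+ G),
      (∀ τ ∈ A.inertiaSubgroupIn K, ∀ x : J, red (τ • x) = red x) ∧
      (∀ s : L ≃ₐ[K] L, A.IsFrobeniusAt s ℓ → ∀ x : J,
        red (s • s • x - heckeGen ⟨ℓ, hℓ⟩ • (s • x) + ℓ • x) = 0) ∧
      (∀ x : J, (∃ n : ℕ, p ^ n • x = 0) → red x = 0 → x = 0)

/-- **Formal core of S37**: a Frobenius lift together with an additive "reduction" map with
(R1) inertia invariance, (R2) the Eichler–Shimura relation, (R3) injectivity on `p`-power torsion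
gives the packaged `SpecializationExists`. -/
theorem specializationExists_of_hasRed
    (H : ∀ ℓ : ℕ, (hℓ : ℓ.Prime) → ¬ ℓ ∣ N * p → ∀ A : ValuationSubring L, A.LiesOverPrime ℓ →
      HasRed.{u, v, w} (K := K) p J ℓ hℓ A) :
    SpecializationExists (K := K) (L := L) N p J := by
  intro ℓ hℓ hℓNp A hA
  obtain ⟨⟨s₀, hs₀⟩, G, _, red, hR1, hR2, hR3⟩ := H ℓ hℓ hℓNp A hA
  set ℓ' : Nat.Primes := ⟨ℓ, hℓ⟩ with hℓ'
  have hs₀D : s₀ ∈ A.decompositionSubgroup K := hs₀.mem_decompositionSubgroup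
  -- the generators are killed by `red`
  have hgen : ∀ y ∈ genI (K := K) (J := J) A ∪ genF (K := K) A ℓ', red y = 0 := by
    rintro y (⟨τ, hτ, x, rfl⟩ | ⟨s, hs, x, rfl⟩)
    · rw [map_sub, hR1 τ hτ x, sub_self]
    · exact hR2 s hs x
  let KS : Submodule HeckeAlg J := KK (K := K) A ℓ'
  -- the Frobenius endomorphism of the quotient
  let φ : J →ₗ[HeckeAlg] J := DistribSMul.toLinearMap HeckeAlg J s₀
  have hφ : KS ≤ KS.comap φ := fun x hx => smul_mem_KK A ℓ' hs₀D hx
  let Fq : (J ⧸ KS) →ₗ[HeckeAlg] (J ⧸ KS) := KS.mapQ KS φ hφ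
  refine ⟨J ⧸ KS, inferInstance, inferInstance, KS.mkQ.toAddMonoidHom, Fq.toAddMonoidHom, ?_, ?_⟩
  · refine ⟨?_, ?_, ?_, ?_⟩
    · intro T x
      rfl
    · intro τ hτ x
      show KS.mkQ (τ • x) = KS.mkQ x
      rw [← sub_eq_zero, ← map_sub, Submodule.mkQ_apply, Submodule.Quotient.mk_eq_zero]
      exact Submodule.subset_span (Or.inl ⟨τ, hτ, x, rfl⟩)
    · intro s hs x
      show KS.mkQ (s • x) = Fq (KS.mkQ x)
      have hFq : Fq (KS.mkQ x) = KS.mkQ (s₀ • x) := rfl
      rw [hFq, ← sub_eq_zero, ← map_sub, Submodule.mkQ_apply, Submodule.Quotient.mk_eq_zero]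
      have hτ := inv_mul_mem_inertia A hs₀ hs
      have e : s • x - s₀ • x = s₀ • ((s₀⁻¹ * s) • x - x) := by
        rw [smul_sub, ← mul_smul, mul_inv_cancel_left]
      rw [e]
      exact smul_mem_KK A ℓ' hs₀D (Submodule.subset_span (Or.inl ⟨_, hτ, x, rfl⟩))
    · intro x hx hsp
      have hxK : x ∈ KS := by
        have : KS.mkQ x = 0 := hsp
        rwa [Submodule.mkQ_apply, Submodule.Quotient.mk_eq_zero] at this
      exact hR3 x hx (red_eq_zero_of_mem red A ℓ' hgen hxK)
  · intro y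
    obtain ⟨x, rfl⟩ := KS.mkQ_surjective y
    show Fq (Fq (KS.mkQ x)) - heckeGen ℓ' • Fq (KS.mkQ x) + ℓ • KS.mkQ x = 0
    have h1 : Fq (KS.mkQ x) = KS.mkQ (s₀ • x) := rfl
    have h2 : Fq (KS.mkQ (s₀ • x)) = KS.mkQ (s₀ • s₀ • x) := rfl
    rw [h1, h2, ← map_smul, ← map_nsmul, ← map_sub, ← map_add, Submodule.mkQ_apply,
      Submodule.Quotient.mk_eq_zero]
    exact Submodule.subset_span (Or.inr ⟨s₀, hs₀, x, rfl⟩)

end main

end Fermat.Agent.S37.KTrick88

end
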