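/-
S37: the frozen statement follows from the reduction datum `KTrick88.HasRed` at every `(ℓ, A)`
(helper88).  `HasRed p (JZero N) ℓ hℓ A` = a Frobenius lift at `A` exists, and there is an additive map
`red : JZero N →+ G` (any abelian group `G`) which is inertia-invariant, satisfies
`red (s • s • x - T_ℓ • (s • x) + ℓ • x) = 0` for every Frobenius lift `s`, and is injective on
`p`-power torsion.
-/
import Fermat.Agent.S37.KTrick88
import Fermat.Prelude.Def_ModularCurve_HeckeModule

set_option autoImplicit false

namespace Fermat.Agent.S37.Plug88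

open ModularCurve

/-- The frozen S37 statement, from `HasRed` at every prime `ℓ ∤ N p` and every valuation subring
over `ℓ`. -/
theorem s37_of_hasRed (N p : ℕ) [NeZero N] :
    letI := ModularCurve.heckeModuleBar N
    ∀ (_ : SMulCommClass (AlgebraicClosure ℚ ≃ₐ[ℚ] AlgebraicClosure ℚ) ModularCurve.HeckeAlg
        (ModularCurve.JZero N)),
      (∀ ℓ : ℕ, (hℓ : ℓ.Prime) → ¬ ℓ ∣ N * p →
        ∀ A : ValuationSubring (AlgebraicClosure ℚ), A.LiesOverPrime ℓ →
          Fermat.Agent.S37.KTrick88.HasRed.{0,0,0} (K := ℚ) p (ModularCurve.JZero N) ℓ hℓ A) →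
      ModularCurve.SpecializationExists (K := ℚ) (L := AlgebraicClosure ℚ) N p
        (ModularCurve.JZero N) := by
  letI := ModularCurve.heckeModuleBar N
  intro _ H
  exact Fermat.Agent.S37.KTrick88.specializationExists_of_hasRed N p _ H

end Fermat.Agent.S37.Plug88
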