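/-
S37, formal part, variant (helper88): in `KTrick88.HasRed` the Eichler–Shimura clause (R2) is only
needed for ONE Frobenius lift `s₀`; it then holds for every Frobenius lift, because two lifts differ
by an inertia element and `red` is inertia-invariant (R1).

Also: the Frobenius lift itself exists for every valuation subring of `ℚ̄` over `ℓ`
(`Lib.FrobeniusExists.exists_isFrobeniusAt`), so over `ℚ` the datum is just `(G, red, s₀)`.
-/
import Fermat.Agent.S37.KTrick88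
import Fermat.Agent.S37.Plug88
import Fermat.Agent.Lib.FrobeniusExists

set_option autoImplicit false

noncomputable section

namespace Fermat.Agent.S37.KTrickOne88

open ModularCurve Fermat.Agent.S37.KTrick88

universe u v w

section

variable {K : Type u} {L : Type v} [Field K] [Field L] [Algebra K L]
variable {J : Type} [AddCommGroup J] [Module HeckeAlg J]
  [DistribMulAction (L ≃ₐ[K] L) J] [SMulCommClass (L ≃ₐ[K] L) HeckeAlg J]

/-- an inertia-invariant additive map is also invariant under `σ τ σ⁻¹`-twisting: for `σ` in the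
decomposition group, `red (σ • τ • y) = red (σ • y)`. -/
lemma red_decomp_inertia {G : Type w} [AddCommGroup G] (red : J →+ G) (A : ValuationSubring L)
    (hR1 : ∀ τ ∈ A.inertiaSubgroupIn K, ∀ x : J, red (τ • x) = red x)
    {σ τ : L ≃ₐ[K] L} (hσ : σ ∈ A.decompositionSubgroup K) (hτ : τ ∈ A.inertiaSubgroupIn K)
    (y : J) : red (σ • τ • y) = red (σ • y) := by
  have h := hR1 (σ * τ * σ⁻¹) (conj_mem_inertiaSubgroupIn A hσ hτ) (σ • y)
  rwa [mul_smul, mul_smul, inv_smul_smul] at h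

/-- (R2) for one Frobenius lift and (R1) give (R2) for every Frobenius lift. -/
theorem r2_of_one {G : Type w} [AddCommGroup G] (red : J →+ G) (A : ValuationSubring L)
    (ℓ : ℕ) (hℓ : ℓ.Prime)
    (hR1 : ∀ τ ∈ A.inertiaSubgroupIn K, ∀ x : J, red (τ • x) = red x)
    {s₀ : L ≃ₐ[K] L} (hs₀ : A.IsFrobeniusAt s₀ ℓ)
    (hR2 : ∀ x : J, red (s₀ • s₀ • x - heckeGen ⟨ℓ, hℓ⟩ • (s₀ • x) + ℓ • x) = 0)
    {s : L ≃ₐ[K] L} (hs : A.IsFrobeniusAt s ℓ) (x : J) :
    red (s • s • x - heckeGen ⟨ℓ, hℓ⟩ • (s • x) + ℓ • x) = 0 := by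
  have hs₀D : s₀ ∈ A.decompositionSubgroup K := hs₀.mem_decompositionSubgroup
  have hτ : s₀⁻¹ * s ∈ A.inertiaSubgroupIn K := inv_mul_mem_inertia A hs₀ hs
  set τ : L ≃ₐ[K] L := s₀⁻¹ * s with hτdef
  have hs_eq : s = s₀ * τ := by rw [hτdef, mul_inv_cancel_left]
  have e1 : ∀ y : J, s • y = s₀ • τ • y := fun y => by rw [hs_eq, mul_smul]
  -- `red (s • y) = red (s₀ • y)`
  have hA : ∀ y : J, red (s • y) = red (s₀ • y) := fun y => by
    rw [e1]; exact red_decomp_inertia red A hR1 hs₀D hτ y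
  -- `red (T • s • y) = red (T • s₀ • y)`
  have hB : ∀ y : J, red (heckeGen ⟨ℓ, hℓ⟩ • (s • y)) = red (heckeGen ⟨ℓ, hℓ⟩ • (s₀ • y)) := by
    intro y
    have h := hR1 (s₀ * τ * s₀⁻¹) (conj_mem_inertiaSubgroupIn A hs₀D hτ)
      (heckeGen ⟨ℓ, hℓ⟩ • (s₀ • y))
    rw [smul_comm (s₀ * τ * s₀⁻¹) (heckeGen ⟨ℓ, hℓ⟩) (s₀ • y), mul_smul, mul_smul,
      inv_smul_smul] at h
    rw [e1]; exact h
  -- `red (s • s • y) = red (s₀ • s₀ • y)`
  have hC : red (s • s • x) = red (s₀ • s₀ • x) := by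
    rw [hA (s • x), e1 x]
    have hs₀s₀ : s₀ * s₀ ∈ A.decompositionSubgroup K := mul_mem hs₀D hs₀D
    have h := red_decomp_inertia red A hR1 hs₀s₀ hτ x
    simpa only [mul_smul] using h
  have h0 := hR2 x
  rw [map_add, map_sub] at h0 ⊢
  rw [hC, hB x]
  exact h0

variable (p : ℕ) (J)

/-- `HasRed` from a datum with (R2) for a single Frobenius lift. -/
theorem hasRed_of_one (ℓ : ℕ) (hℓ : ℓ.Prime) (A : ValuationSubring L)
    (s₀ : L ≃ₐ[K] L) (hs₀ : A.IsFrobeniusAt s₀ ℓ)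
    (G : Type w) [AddCommGroup G] (red : J →+ G)
    (hR1 : ∀ τ ∈ A.inertiaSubgroupIn K, ∀ x : J, red (τ • x) = red x)
    (hR2 : ∀ x : J, red (s₀ • s₀ • x - heckeGen ⟨ℓ, hℓ⟩ • (s₀ • x) + ℓ • x) = 0)
    (hR3 : ∀ x : J, (∃ n : ℕ, p ^ n • x = 0) → red x = 0 → x = 0) :
    HasRed.{u, v, w} (K := K) p J ℓ hℓ A :=
  ⟨⟨s₀, hs₀⟩, G, inferInstance, red, hR1,
    fun _ hs x => r2_of_one red A ℓ hℓ hR1 hs₀ hR2 hs x, hR3⟩

end

section Q

/-- Over `ℚ`: S37 (frozen statement verbatim) from, for every `(ℓ, A)`, an additive map `red` with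
(R1), (R3) and (R2) for SOME Frobenius lift. The Frobenius lift is supplied by
`Lib.FrobeniusExists.exists_isFrobeniusAt`, so the hypothesis may also quantify over all of them. -/
theorem s37_of_red (N p : ℕ) [NeZero N] :
    letI := ModularCurve.heckeModuleBar N
    ∀ (_ : SMulCommClass (AlgebraicClosure ℚ ≃ₐ[ℚ] AlgebraicClosure ℚ) ModularCurve.HeckeAlg
        (ModularCurve.JZero N)),
      (∀ ℓ : ℕ, (hℓ : ℓ.Prime) → ¬ ℓ ∣ N * p →
        ∀ A : ValuationSubring (AlgebraicClosure ℚ), A.LiesOverPrime ℓ →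
          ∃ (G : Type) (_ : AddCommGroup G) (red : ModularCurve.JZero N →+ G),
            (∀ τ ∈ A.inertiaSubgroupIn ℚ, ∀ x, red (τ • x) = red x) ∧
            (∃ s₀ : AlgebraicClosure ℚ ≃ₐ[ℚ] AlgebraicClosure ℚ, A.IsFrobeniusAt s₀ ℓ ∧
              ∀ x, red (s₀ • s₀ • x - heckeGen ⟨ℓ, hℓ⟩ • (s₀ • x) + ℓ • x) = 0) ∧
            (∀ x, (∃ n : ℕ, p ^ n • x = 0) → red x = 0 → x = 0)) →
      ModularCurve.SpecializationExists (K := ℚ) (L := AlgebraicClosure ℚ) N p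
        (ModularCurve.JZero N) := by
  letI := ModularCurve.heckeModuleBar N
  intro inst H
  refine Fermat.Agent.S37.Plug88.s37_of_hasRed N p inst ?_
  intro ℓ hℓ hNp A hA
  obtain ⟨G, _, red, hR1, ⟨s₀, hs₀, hR2⟩, hR3⟩ := H ℓ hℓ hNp A hA
  exact hasRed_of_one (K := ℚ) (ModularCurve.JZero N) p ℓ hℓ A s₀ hs₀ G red hR1 hR2 hR3

end Q

end Fermat.Agent.S37.KTrickOne88

end
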