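/-
S37 glue (helper51): helper17's `KronRedStmt17.KronRedStatement` (12-KRON-RED, landed) in the exact
shape `Wire52.KronStmt` consumed by helper52's assembly (input (a) of Glue52).
-/
import Fermat.Agent.S37.Wire52
import Fermat.Agent.S37.KronRedStmt17

set_option autoImplicit false
set_option linter.style.haveILetI false

noncomputable section

namespace Fermat.Agent.S37.KronAdapter51

open ModularCurve AlgebraicCurve HahnSeries
open Fermat.Agent.S18 Fermat.Agent.S18.Spine33 Fermat.Agent.S37

/-- `KronRedStatement ⟹ Wire52.KronStmt` (same statement, other spelling). -/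
theorem kronStmt_of_kronRedStatement (N ℓ : ℕ) [NeZero N] [NeZero ℓ] [Fact ℓ.Prime]
    (A : ValuationSubring Kb) [CharP (kA A) ℓ]
    (h : KronRedStmt17.KronRedStatement N ℓ A) :
    Wire52.KronStmt A (IsLocalRing.residue A) N ℓ := by
  intro U hU
  obtain ⟨V, hV, hred⟩ := h U hU
  have hmem : coeffMap A.subtype V ∈ modularFunctionFieldBar N := by
    have h1 : coeffMap A.subtype V = incl A V := rfl
    rw [h1, hV]
    exact Subtype.property _
  refine ⟨V, hmem, Subtype.ext ?_, hred⟩
  exact hV

/-- **Input (a) of `Glue52`**: Kronecker's congruence on norms for every prime `ℓ ∤ N` and every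
valuation subring `A` of `ℚ̄` over `ℓ`. -/
theorem kronStmt (N ℓ : ℕ) [NeZero N] [NeZero ℓ] [Fact ℓ.Prime] (hℓN : ¬ ℓ ∣ N)
    (A : ValuationSubring Kb) [CharP (kA A) ℓ] :
    Wire52.KronStmt A (IsLocalRing.residue A) N ℓ :=
  kronStmt_of_kronRedStatement N ℓ A (KronRedStmt17.kronRedStatement N ℓ hℓN A)

/-- the same with `A.LiesOverPrime ℓ` instead of the `CharP` instance. -/
theorem kronStmt_of_liesOver (N ℓ : ℕ) [NeZero N] [NeZero ℓ] [Fact ℓ.Prime] (hℓN : ¬ ℓ ∣ N)
    (A : ValuationSubring Kb) (hA : A.LiesOverPrime ℓ) :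
    haveI : CharP (kA A) ℓ := ValRing25.residueField_charP A hA
    Wire52.KronStmt A (IsLocalRing.residue A) N ℓ := by
  haveI : CharP (kA A) ℓ := ValRing25.residueField_charP A hA
  exact kronStmt N ℓ hℓN A

end Fermat.Agent.S37.KronAdapter51
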