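/-
S37 leaf 12-KRON-RED, adapter (helper17): Kronecker's congruence on norms in the exact shape
`Wire52.KronStmt A π N ℓ` consumed by helper52's concrete assembly (`Wire52.rhoDiv_hecke`), for
every valuation subring `A` of `ℚ̄`, every ring hom `π : A →+* k` into a field of characteristic `ℓ`
and every prime `ℓ ∤ N`.
-/
import Mathlib
import Fermat.Agent.S37.KronRed17
import Fermat.Agent.S37.Wire52
import Fermat.Agent.S18.ValRing25

set_option autoImplicit false
set_option linter.style.haveILetI false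

noncomputable section

namespace Fermat.Agent.S37.KronWire17

open ModularCurve AlgebraicCurve HahnSeries
open Fermat.Agent.S18.Spine33 Fermat.Agent.S37

/-- **[KRON] in the `Wire52` shape**: for `U ∈ A((q))` with `incl U ∈ F_N` there is `V ∈ A((q))`
with `incl V = N_α(β(incl U)) ∈ F_N` and `π V = (π U)(q^ℓ) · (π U)^{Frob}(q)`. -/
theorem kronStmt (N ℓ : ℕ) [NeZero N] [NeZero ℓ] [Fact ℓ.Prime] (hℓN : ¬ ℓ ∣ N)
    (A : ValuationSubring Kb) {k : Type*} [Field k] [CharP k ℓ] (π : A →+* k) :
    Wire52.KronStmt A π N ℓ := by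
  intro U hU
  obtain ⟨V, hV1, hV2⟩ := KronRed17.exists_integral_normAlpha Kb N ℓ hℓN A π U hU
  have hV : coeffMap A.subtype V ∈ modularFunctionFieldBar N := by
    rw [hV1]
    exact KronRed17.normAlpha_mem Kb N ℓ _
  refine ⟨V, hV, ?_, hV2⟩
  apply Subtype.ext
  exact hV1

/-- the instance used by S37: `π` the residue map of a valuation subring over `ℓ`. -/
theorem kronStmt_residue (N ℓ : ℕ) [NeZero N] [NeZero ℓ] [Fact ℓ.Prime] (hℓN : ¬ ℓ ∣ N)
    (A : ValuationSubring Kb) (hA : A.LiesOverPrime ℓ) :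
    haveI : CharP (kA A) ℓ := Fermat.Agent.S18.ValRing25.residueField_charP A hA
    Wire52.KronStmt A (IsLocalRing.residue A) N ℓ := by
  haveI : CharP (kA A) ℓ := Fermat.Agent.S18.ValRing25.residueField_charP A hA
  exact kronStmt N ℓ hℓN A (IsLocalRing.residue A)

end Fermat.Agent.S37.KronWire17

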