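/-
helper61 — bp18 gap (G2): the inputs of LEMMA B (`Bounded65`) for the characteristic-zero
modular function field `F_N = modularFunctionFieldBar N` at an ARBITRARY level `N ≥ 1`
(no good-level hypothesis), as a thin wrapper over the landed `S18.LevelFF12`
(whose `hasPD`, `deg_eq_one`, `riemann` only need `[NeZero N]`).

Exports (all for `N : ℕ`, `[NeZero N]`, `Kb = AlgebraicClosure ℚ`, `FK N = ↥(modularFunctionFieldBar N)`):
* `g N : ℕ`                                      -- the genus bound
* `hasPD N : HasPrincipalDivisors Kb (FK N)`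
* `deg_eq_one N v : v.deg = 1`
* `hasSections N : Bounded65.HasSections Kb (FK N) (g N)`
* instantiated forms of Lemma B: `eq_zero_of_degree_eq_zero`, `map_eq_zero_of_degree_eq_zero`,
  `eq_of_eqOn_principal`, and the bound `apply_le_degree` for effective divisors.
-/
import Fermat.Agent.S18.LevelFF12
import Fermat.Agent.S37.Bounded65

open AlgebraicCurve ModularCurve

namespace Fermat.Agent.S37.LemmaBInputs61

open Fermat.Agent.S18
open Fermat.Agent.S18.Spine33 (Kb FK)

variable (N : ℕ) [NeZero N]

/-- the genus bound for Lemma B at level `N` (Dedekind–Weber genus of `F_N / ℚ̄(j)`). -/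
noncomputable def g : ℕ := LevelFF12.γnat N

/-- principal divisors on `F_N` (characteristic `0`, any level). -/
theorem hasPD : HasPrincipalDivisors Kb (FK N) := LevelFF12.hasPD N

/-- all places of `F_N` have degree one. -/
theorem deg_eq_one (v : Place Kb (FK N)) : v.deg = 1 := LevelFF12.deg_eq_one N v

/-- Riemann's inequality on `F_N` with the natural-number genus `g N`. -/
theorem riemann (G : Divisor Kb (FK N)) :
    Divisor.degree G + 1 - (g N : ℤ)
      ≤ (Module.finrank Kb (riemannRochSpace G) : ℤ) :=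
  LevelFF12.riemann N G

/-- every divisor of degree `≥ g N` on `F_N` has a nonzero section. -/
theorem hasSections : Bounded65.HasSections Kb (FK N) (g N) :=
  Bounded65.hasSections_of_riemann (g N) (riemann N)

/-- **Lemma B at level `N`**: a bounded additive functional on `Div(F_N)` killing principal
divisors vanishes in degree `0`. -/
theorem eq_zero_of_degree_eq_zero
    (μ : Divisor Kb (FK N) →+ ℤ)
    (hμ : ∀ D ∈ Divisor.principal (K := Kb) (F := FK N), μ D = 0)
    (C : ℤ) (hC : ∀ v : Place Kb (FK N), |μ (Finsupp.single v 1)| ≤ C)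
    (D : Divisor Kb (FK N)) (hD : Divisor.degree D = 0) : μ D = 0 :=
  haveI := hasPD N
  Bounded65.eq_zero_of_degree_eq_zero (g N) (hasSections N) (deg_eq_one N) μ hμ C hC D hD

/-- **Corollary B' at level `N`**. -/
theorem map_eq_zero_of_degree_eq_zero {ι : Type*}
    (δ : Divisor Kb (FK N) →+ (ι →₀ ℤ))
    (hδ : ∀ D ∈ Divisor.principal (K := Kb) (F := FK N), δ D = 0)
    (C : ℤ) (hC : ∀ (v : Place Kb (FK N)) (i : ι), |δ (Finsupp.single v 1) i| ≤ C)
    (D : Divisor Kb (FK N)) (hD : Divisor.degree D = 0) : δ D = 0 :=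
  haveI := hasPD N
  Bounded65.map_eq_zero_of_degree_eq_zero (g N) (hasSections N) (deg_eq_one N) δ hδ C hC D hD

/-- two additive maps on `Div(F_N)` with bounded coefficients on places which agree on
principal divisors agree on all divisors of degree `0`. -/
theorem eq_of_eqOn_principal {ι : Type*}
    (δ₁ δ₂ : Divisor Kb (FK N) →+ (ι →₀ ℤ))
    (h : ∀ D ∈ Divisor.principal (K := Kb) (F := FK N), δ₁ D = δ₂ D)
    (C₁ C₂ : ℤ) (hC₁ : ∀ (v : Place Kb (FK N)) (i : ι), |δ₁ (Finsupp.single v 1) i| ≤ C₁)
    (hC₂ : ∀ (v : Place Kb (FK N)) (i : ι), |δ₂ (Finsupp.single v 1) i| ≤ C₂)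
    (D : Divisor Kb (FK N)) (hD : Divisor.degree D = 0) : δ₁ D = δ₂ D :=
  haveI := hasPD N
  Bounded65.eq_of_eqOn_principal (g N) (hasSections N) (deg_eq_one N) δ₁ δ₂ h C₁ C₂ hC₁ hC₂ D hD

/-- on `F_N` the degree of a divisor is the sum of its coefficients. -/
theorem degree_eq_sum (D : Divisor Kb (FK N)) : Divisor.degree D = D.sum fun _ n => n :=
  Bounded65.degree_eq_sum_of_deg_one (deg_eq_one N) D

/-- a coefficient of an effective divisor on `F_N` is bounded by its degree. -/
theorem apply_le_degree (E : Divisor Kb (FK N)) (hE : ∀ v, 0 ≤ E v) (v : Place Kb (FK N)) :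
    E v ≤ Divisor.degree E := by
  rw [degree_eq_sum, Finsupp.sum]
  by_cases hv : v ∈ E.support
  · exact Finset.single_le_sum (f := fun w => E w) (fun w _ => hE w) hv
  · rw [Finsupp.notMem_support_iff.mp hv]
    exact Finset.sum_nonneg fun w _ => hE w

end Fermat.Agent.S37.LemmaBInputs61
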