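/-
S37 (G2) of blueprint 18 (helper86): the inputs of helper65's Lemma B (`Bounded65`) for a function
field with one transcendental `x` such that `[F : K(x)] < ∞`, `K` algebraically closed, ANY
characteristic (wiring of helper5's `FFInst5`), and their instance at `(ℚ̄, F_N, j)` for EVERY level
`N ≥ 1` (S24 exports), so that `Bounded65.map_eq_zero_of_degree_eq_zero` / `eq_of_eqOn_principal`
can be applied at level `N`.
-/
import Mathlib
import Fermat.Agent.S18.FFInst5
import Fermat.Agent.S37.Bounded65
import Fermat.Agent.S24.Exports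

set_option autoImplicit false

open AlgebraicCurve ModularCurve IntermediateField Module

namespace Fermat.Agent.S37.LemmaBInputs86

open Fermat.Agent.S18 Fermat.Agent.S37

/-! ### generic form -/

section Generic

variable {K F : Type*} [Field K] [Field F] [Algebra K F] [IsAlgClosed K]
  (x : F) (hx : Transcendental K x) [FiniteDimensional K⟮x⟯ F]

include hx

/-- Riemann's inequality in `finrank`/`riemannRochSpace` form, with a genus `g : ℕ`. -/
theorem exists_riemann :
    ∃ g : ℕ, ∀ G : Divisor K F,
      Divisor.degree G + 1 - (g : ℤ) ≤ (finrank K (riemannRochSpace G) : ℤ) := by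
  obtain ⟨g, hg0, hg⟩ := FFInst5.exists_isRiemannGenus x hx
  refine ⟨g.toNat, fun G => ?_⟩
  have h1 := hg.1 G
  have h2 : (Riemann12.ell G : ℤ) = (finrank K (riemannRochSpace G) : ℤ) := by
    unfold Riemann12.ell
    rw [Riemann12.LSpace_eq_riemannRochSpace]
  rw [Int.toNat_of_nonneg hg0, ← h2]
  exact h1

/-- the hypothesis `HasSections` of `Bounded65`. -/
theorem exists_hasSections : ∃ g : ℕ, Bounded65.HasSections K F g := by
  obtain ⟨g, hg⟩ := exists_riemann x hx
  exact ⟨g, Bounded65.hasSections_of_riemann g hg⟩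

/-- **All inputs of Lemma B at once.** -/
theorem lemmaB_inputs :
    HasPrincipalDivisors K F ∧ (∀ v : Place K F, v.deg = 1) ∧ Nonempty (Place K F) ∧
      ∃ g : ℕ, Bounded65.HasSections K F g ∧
        ∀ G : Divisor K F,
          Divisor.degree G + 1 - (g : ℤ) ≤ (finrank K (riemannRochSpace G) : ℤ) := by
  obtain ⟨g, hg⟩ := exists_riemann x hx
  exact ⟨FFInst5.hasPrincipalDivisors x hx, fun v => FFInst5.deg_eq_one x v,
    FFInst5.nonempty_place x hx, g, Bounded65.hasSections_of_riemann g hg, hg⟩

end Generic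

/-! ### the instance `(ℚ̄, F_N, j)`, every level `N ≥ 1` -/

section Level

/-- the constant field `ℚ̄` -/
abbrev Kb : Type := AlgebraicClosure ℚ

/-- `F_N` as a type -/
abbrev FK (N : ℕ) : Type := ↥(modularFunctionFieldBar N)

variable (N : ℕ) [NeZero N]

theorem transcendental_j : Transcendental Kb (S24.jF N) := S24.Exports.transcendental_jF N

theorem finiteDimensional_j : FiniteDimensional (↥Kb⟮S24.jF N⟯) (FK N) :=
  (S24.Exports.isFunctionFieldOver_jF N).finite

theorem hasPrincipalDivisors : HasPrincipalDivisors Kb (FK N) :=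
  have := finiteDimensional_j N
  FFInst5.hasPrincipalDivisors (S24.jF N) (transcendental_j N)

theorem deg_eq_one (v : Place Kb (FK N)) : v.deg = 1 :=
  have := finiteDimensional_j N
  FFInst5.deg_eq_one (S24.jF N) v

theorem nonempty_place : Nonempty (Place Kb (FK N)) :=
  have := finiteDimensional_j N
  FFInst5.nonempty_place (S24.jF N) (transcendental_j N)

theorem exists_riemann_level :
    ∃ g : ℕ, ∀ G : Divisor Kb (FK N),
      Divisor.degree G + 1 - (g : ℤ) ≤ (finrank Kb (riemannRochSpace G) : ℤ) :=
  have := finiteDimensional_j N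
  exists_riemann (S24.jF N) (transcendental_j N)

theorem exists_hasSections_level : ∃ g : ℕ, Bounded65.HasSections Kb (FK N) g :=
  have := finiteDimensional_j N
  exists_hasSections (S24.jF N) (transcendental_j N)

/-- **Lemma B at level `N`**: an additive map from the divisors of `F_N` to a free abelian group
`ι →₀ ℤ` which kills principal divisors and has uniformly bounded coefficients on places vanishes
on divisors of degree `0`. -/
theorem map_eq_zero_of_degree_eq_zero {ι : Type*} (δ : Divisor Kb (FK N) →+ (ι →₀ ℤ))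
    (hprin : ∀ D ∈ Divisor.principal (K := Kb) (F := FK N), δ D = 0) (C : ℤ)
    (hC : ∀ (v : Place Kb (FK N)) (i : ι), |δ (Finsupp.single v 1) i| ≤ C)
    (D : Divisor Kb (FK N)) (hD : Divisor.degree D = 0) : δ D = 0 := by
  have := hasPrincipalDivisors N
  obtain ⟨g, hg⟩ := exists_hasSections_level N
  exact Bounded65.map_eq_zero_of_degree_eq_zero g hg (deg_eq_one N) δ hprin C hC D hD

/-- two-map form of Lemma B at level `N`. -/
theorem eq_of_eqOn_principal {ι : Type*} (δ₁ δ₂ : Divisor Kb (FK N) →+ (ι →₀ ℤ))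
    (h : ∀ D ∈ Divisor.principal (K := Kb) (F := FK N), δ₁ D = δ₂ D) (C₁ C₂ : ℤ)
    (hC₁ : ∀ (v : Place Kb (FK N)) (i : ι), |δ₁ (Finsupp.single v 1) i| ≤ C₁)
    (hC₂ : ∀ (v : Place Kb (FK N)) (i : ι), |δ₂ (Finsupp.single v 1) i| ≤ C₂)
    (D : Divisor Kb (FK N)) (hD : Divisor.degree D = 0) : δ₁ D = δ₂ D := by
  have := hasPrincipalDivisors N
  obtain ⟨g, hg⟩ := exists_hasSections_level N
  exact Bounded65.eq_of_eqOn_principal g hg (deg_eq_one N) δ₁ δ₂ h C₁ C₂ hC₁ hC₂ D hD

end Level

end Fermat.Agent.S37.LemmaBInputs86
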