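/-
S37 project, [R]-ABS utility layer (helper78): the POLE-SUP divisor of a finite-dimensional space
of functions, in the Prelude `AlgebraicCurve.Place` / `Divisor` API.  `K` any field,
`[HasPrincipalDivisors K F]` (only used for: every nonzero function has finitely many zeros and
poles).

For `U : Submodule K F` finite-dimensional, `ps U : Divisor K F` is the smallest divisor `H` with
`U ≤ L(H)`:  `ps U Q = - min_{u ∈ U \ 0} ord_Q u`  (and `ps ⊥ = 0`).

* `neg_ps_le_ord`        : `u ∈ U → u ≠ 0 → -(ps U Q) ≤ Q.ord u`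
* `exists_ord_eq`        : `U ≠ ⊥ → ∃ u ∈ U, u ≠ 0 ∧ Q.ord u = -(ps U Q)`   (attained PER PLACE)
* `le_riemannRochSpace`  : `U ≤ riemannRochSpace (ps U)`
* `ps_le_iff`            : `U ≠ ⊥ → (ps U ≤ H ↔ U ≤ riemannRochSpace H)`
* `ps_mono`              : `U ≠ ⊥ → U ≤ U' → ps U ≤ ps U'`
* `ps_add_le_of_mul_mem` : `(∀ u ∈ U, ∀ u' ∈ U', u * u' ∈ W) → ps U + ps U' ≤ ps W`
* `ps_mulMap_apply`      : `ps (f • U) Q = ps U Q - Q.ord f`  (`f • U := U.map (LinearMap.mulLeft K f)`)
* `ps_riemannRochSpace_le` : `L(H) ≠ ⊥ → ps (L(H)) ≤ H`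
* `degree_le_degree`     : `D ≤ D' → degree D ≤ degree D'`
No sorry.
-/
import Mathlib
import Fermat.Agent.S24.Pkg_FF0
import Fermat.Prelude.Def_AlgebraicCurve_Repartitions

set_option autoImplicit false

open AlgebraicCurve Module

noncomputable section

namespace Fermat.Agent.S37.PoleSup78

open Fermat.Agent.S24

variable {K F : Type*} [Field K] [Field F] [Algebra K F]

/-! ### The submodule `{x | x = 0 ∨ m ≤ ord_Q x}` -/

/-- Functions of order at least `m` at the place `Q` (together with `0`). -/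
def ordGe (Q : Place K F) (m : ℤ) : Submodule K F where
  carrier := {x | x = 0 ∨ m ≤ Q.ord x}
  zero_mem' := Or.inl rfl
  add_mem' := by
    rintro x y hx hy
    rcases eq_or_ne x 0 with rfl | hx0
    · simpa using hy
    rcases eq_or_ne y 0 with rfl | hy0
    · simpa using hx
    rcases eq_or_ne (x + y) 0 with hxy | hxy
    · exact Or.inl hxy
    · right
      have hx' := hx.resolve_left hx0
      have hy' := hy.resolve_left hy0
      exact (le_min hx' hy').trans (ord_add_ge Q hx0 hy0 hxy)
  smul_mem' := by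
    rintro c x hx
    rcases eq_or_ne c 0 with rfl | hc
    · left; simp
    rcases eq_or_ne x 0 with rfl | hx0
    · left; simp
    right
    have hx' := hx.resolve_left hx0
    have hc' : algebraMap K F c ≠ 0 := (map_ne_zero _).2 hc
    rw [Algebra.smul_def, Q.ord_mul hc' hx0, ord_algebraMap Q hc, zero_add]
    exact hx'

theorem mem_ordGe {Q : Place K F} {m : ℤ} {x : F} : x ∈ ordGe Q m ↔ x = 0 ∨ m ≤ Q.ord x := Iff.rfl

/-! ### The minimal order on a finite-dimensional space -/

section MinOrd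

variable (U : Submodule K F) [FiniteDimensional K U]

theorem finrank_pos_of_ne_bot (hU : U ≠ ⊥) : 0 < finrank K U := by
  rw [Module.finrank_pos_iff]
  exact Submodule.nontrivial_iff_ne_bot.2 hU

/-- `min_{i} ord_Q (b i)` over the standard finite basis of `U` (`0` if `U = ⊥`). -/
def minOrd (Q : Place K F) : ℤ :=
  if h : U = ⊥ then 0
  else
    haveI : Nonempty (Fin (finrank K U)) := ⟨⟨0, finrank_pos_of_ne_bot U h⟩⟩
    Finset.univ.inf' Finset.univ_nonempty (fun i => Q.ord ((Module.finBasis K U i : U) : F))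

theorem minOrd_le_ord (Q : Place K F) {u : F} (hu : u ∈ U) (hu0 : u ≠ 0) :
    minOrd U Q ≤ Q.ord u := by
  have hU : U ≠ ⊥ := by
    rintro rfl
    exact hu0 ((Submodule.mem_bot K).1 hu)
  haveI : Nonempty (Fin (finrank K U)) := ⟨⟨0, finrank_pos_of_ne_bot U hU⟩⟩
  have hm : minOrd U Q =
      Finset.univ.inf' Finset.univ_nonempty
        (fun i => Q.ord ((Module.finBasis K U i : U) : F)) := by
    rw [minOrd, dif_neg hU]
  have hmem : u ∈ ordGe Q (minOrd U Q) := by
    have hsum := (Module.finBasis K U).sum_repr ⟨u, hu⟩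
    have hsum' : u = ∑ i, ((Module.finBasis K U).repr ⟨u, hu⟩ i) •
        ((Module.finBasis K U i : U) : F) := by
      have h1 := congrArg (Subtype.val : U → F) hsum
      rw [Submodule.coe_sum] at h1
      simp only [Submodule.coe_smul] at h1
      exact h1.symm
    rw [hsum']
    refine Submodule.sum_mem _ fun i _ => Submodule.smul_mem _ _ ?_
    right
    rw [hm]
    exact Finset.inf'_le _ (Finset.mem_univ i)
  exact hmem.resolve_left hu0

theorem exists_ord_eq_minOrd (hU : U ≠ ⊥) (Q : Place K F) :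
    ∃ u ∈ U, u ≠ 0 ∧ Q.ord u = minOrd U Q := by
  haveI : Nonempty (Fin (finrank K U)) := ⟨⟨0, finrank_pos_of_ne_bot U hU⟩⟩
  have hm : minOrd U Q =
      Finset.univ.inf' Finset.univ_nonempty
        (fun i => Q.ord ((Module.finBasis K U i : U) : F)) := by
    rw [minOrd, dif_neg hU]
  obtain ⟨i, _, hi⟩ := Finset.exists_mem_eq_inf' Finset.univ_nonempty
    (fun i => Q.ord ((Module.finBasis K U i : U) : F))
  refine ⟨(Module.finBasis K U i : U), (Module.finBasis K U i).2, ?_, ?_⟩
  · intro h0
    exact (Module.finBasis K U).ne_zero i (Subtype.ext h0)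
  · rw [hm, hi]

variable [HasPrincipalDivisors K F]

theorem finite_ord_ne_zero {f : F} (hf : f ≠ 0) : {Q : Place K F | Q.ord f ≠ 0}.Finite := by
  obtain ⟨D, hD, -⟩ := HasPrincipalDivisors.exists_divisor (K := K) f hf
  refine D.support.finite_toSet.subset ?_
  intro Q hQ
  rw [Set.mem_ofPred_eq] at hQ
  rw [Finset.mem_coe, Finsupp.mem_support_iff, hD]
  exact hQ

theorem finite_minOrd_ne_zero : {Q : Place K F | minOrd U Q ≠ 0}.Finite := by
  by_cases hU : U = ⊥
  · have : {Q : Place K F | minOrd U Q ≠ 0} = ∅ := by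
      ext Q
      simp [minOrd, hU]
    rw [this]
    exact Set.finite_empty
  · haveI : Nonempty (Fin (finrank K U)) := ⟨⟨0, finrank_pos_of_ne_bot U hU⟩⟩
    have hfin : (⋃ i : Fin (finrank K U),
        {Q : Place K F | Q.ord ((Module.finBasis K U i : U) : F) ≠ 0}).Finite := by
      refine Set.finite_iUnion fun i => finite_ord_ne_zero ?_
      intro h0
      exact (Module.finBasis K U).ne_zero i (Subtype.ext h0)
    refine hfin.subset ?_
    intro Q hQ
    rw [Set.mem_ofPred_eq] at hQ
    by_contra hcon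
    rw [Set.mem_iUnion] at hcon
    push Not at hcon
    apply hQ
    rw [minOrd, dif_neg hU]
    have : (fun i => Q.ord ((Module.finBasis K U i : U) : F)) = fun _ => (0 : ℤ) := by
      funext i
      have := hcon i
      rw [Set.mem_ofPred_eq, not_not] at this
      exact this
    rw [this]
    exact Finset.inf'_const _ _

/-- **The pole-sup divisor** of a finite-dimensional space of functions. -/
def ps : Divisor K F :=
  Finsupp.ofSupportFinite (fun Q => -(minOrd U Q)) (by
    refine (finite_minOrd_ne_zero U).subset ?_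
    intro Q hQ
    rw [Function.mem_support] at hQ
    rw [Set.mem_ofPred_eq]
    intro h0
    apply hQ
    rw [h0, neg_zero])

theorem ps_apply (Q : Place K F) : ps U Q = -(minOrd U Q) := rfl

theorem ps_bot_apply (Q : Place K F) [FiniteDimensional K (⊥ : Submodule K F)] :
    ps (⊥ : Submodule K F) Q = 0 := by
  rw [ps_apply, minOrd, dif_pos rfl, neg_zero]

theorem neg_ps_le_ord (Q : Place K F) {u : F} (hu : u ∈ U) (hu0 : u ≠ 0) :
    -(ps U Q) ≤ Q.ord u := by
  rw [ps_apply, neg_neg]
  exact minOrd_le_ord U Q hu hu0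

theorem exists_ord_eq (hU : U ≠ ⊥) (Q : Place K F) :
    ∃ u ∈ U, u ≠ 0 ∧ Q.ord u = -(ps U Q) := by
  obtain ⟨u, hu, hu0, h⟩ := exists_ord_eq_minOrd U hU Q
  exact ⟨u, hu, hu0, by rw [ps_apply, neg_neg, h]⟩

theorem le_riemannRochSpace : U ≤ riemannRochSpace (ps U) := by
  intro u hu
  rw [mem_riemannRochSpace_iff]
  intro Q
  rcases eq_or_ne u 0 with rfl | hu0
  · exact Or.inl rfl
  · exact Or.inr (neg_ps_le_ord U Q hu hu0)

theorem ps_le_of_le_riemannRochSpace (hU : U ≠ ⊥) {H : Divisor K F}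
    (h : U ≤ riemannRochSpace H) : ps U ≤ H := by
  rw [Finsupp.le_def]
  intro Q
  obtain ⟨u, hu, hu0, hQ⟩ := exists_ord_eq U hU Q
  have := (mem_riemannRochSpace_iff.1 (h hu) Q).resolve_left hu0
  omega

theorem le_riemannRochSpace_of_ps_le {H : Divisor K F} (h : ps U ≤ H) :
    U ≤ riemannRochSpace H := by
  intro u hu
  rw [mem_riemannRochSpace_iff]
  intro Q
  rcases eq_or_ne u 0 with rfl | hu0
  · exact Or.inl rfl
  · right
    have h1 := neg_ps_le_ord U Q hu hu0
    have h2 := Finsupp.le_def.1 h Q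
    omega

theorem ps_le_iff (hU : U ≠ ⊥) {H : Divisor K F} : ps U ≤ H ↔ U ≤ riemannRochSpace H :=
  ⟨le_riemannRochSpace_of_ps_le U, ps_le_of_le_riemannRochSpace U hU⟩

end MinOrd

section Functoriality

variable [HasPrincipalDivisors K F]

theorem ps_mono {U U' : Submodule K F} [FiniteDimensional K U] [FiniteDimensional K U']
    (hU : U ≠ ⊥) (h : U ≤ U') : ps U ≤ ps U' :=
  ps_le_of_le_riemannRochSpace U hU (h.trans (le_riemannRochSpace U'))

/-- Per-place product argument: `U * U' ⊆ W` implies `ps U + ps U' ≤ ps W`. -/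
theorem ps_add_le_of_mul_mem {U U' W : Submodule K F} [FiniteDimensional K U]
    [FiniteDimensional K U'] [FiniteDimensional K W] (hU : U ≠ ⊥) (hU' : U' ≠ ⊥)
    (h : ∀ u ∈ U, ∀ u' ∈ U', u * u' ∈ W) : ps U + ps U' ≤ ps W := by
  rw [Finsupp.le_def]
  intro Q
  obtain ⟨u, hu, hu0, hQ⟩ := exists_ord_eq U hU Q
  obtain ⟨u', hu', hu0', hQ'⟩ := exists_ord_eq U' hU' Q
  have h1 := neg_ps_le_ord W Q (h u hu u' hu') (mul_ne_zero hu0 hu0')
  rw [Q.ord_mul hu0 hu0'] at h1
  rw [Finsupp.add_apply]
  omega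

/-- The translate `f • U`. -/
abbrev mulMap (f : F) (U : Submodule K F) : Submodule K F := U.map (LinearMap.mulLeft K f)

theorem mem_mulMap {f : F} {U : Submodule K F} {x : F} :
    x ∈ mulMap f U ↔ ∃ u ∈ U, f * u = x := by
  simp [mulMap, Submodule.mem_map]

theorem mulMap_ne_bot {f : F} (hf : f ≠ 0) {U : Submodule K F} (hU : U ≠ ⊥) :
    mulMap f U ≠ ⊥ := by
  obtain ⟨u, hu, hu0⟩ := (Submodule.ne_bot_iff U).1 hU
  rw [Submodule.ne_bot_iff]
  exact ⟨f * u, mem_mulMap.2 ⟨u, hu, rfl⟩, mul_ne_zero hf hu0⟩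

instance finiteDimensional_mulMap (f : F) (U : Submodule K F) [FiniteDimensional K U] :
    FiniteDimensional K (mulMap f U) := by
  unfold mulMap
  infer_instance

theorem ps_mulMap_apply {f : F} (hf : f ≠ 0) {U : Submodule K F} [FiniteDimensional K U]
    (hU : U ≠ ⊥) (Q : Place K F) : ps (mulMap f U) Q = ps U Q - Q.ord f := by
  apply le_antisymm
  · obtain ⟨x, hx, hx0, hxQ⟩ := exists_ord_eq (mulMap f U) (mulMap_ne_bot hf hU) Q
    obtain ⟨u, hu, rfl⟩ := mem_mulMap.1 hx
    have hu0 : u ≠ 0 := right_ne_zero_of_mul hx0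
    rw [Q.ord_mul hf hu0] at hxQ
    have := neg_ps_le_ord U Q hu hu0
    omega
  · obtain ⟨u, hu, hu0, huQ⟩ := exists_ord_eq U hU Q
    have h1 := neg_ps_le_ord (mulMap f U) Q (mem_mulMap.2 ⟨u, hu, rfl⟩) (mul_ne_zero hf hu0)
    rw [Q.ord_mul hf hu0] at h1
    omega

theorem ps_riemannRochSpace_le {H : Divisor K F} [FiniteDimensional K (riemannRochSpace H)]
    (hne : riemannRochSpace H ≠ ⊥) : ps (riemannRochSpace H) ≤ H :=
  ps_le_of_le_riemannRochSpace _ hne le_rfl

end Functoriality

/-! ### Degree is monotone -/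

theorem degree_nonneg_of_nonneg {D : Divisor K F} (hD : 0 ≤ D) : 0 ≤ Divisor.degree D := by
  induction D using Finsupp.induction with
  | zero => simp
  | single_add v n D hv hn ih =>
    have hle := Finsupp.le_def.1 hD
    have hnv : 0 ≤ n := by
      have := hle v
      rw [Finsupp.add_apply, Finsupp.single_eq_same, Finsupp.notMem_support_iff.1 hv,
        add_zero] at this
      simpa using this
    have hD' : 0 ≤ D := by
      rw [Finsupp.le_def]
      intro w
      by_cases hw : w = v
      · subst hw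
        rw [Finsupp.notMem_support_iff.1 hv]
        simp
      · have := hle w
        rw [Finsupp.add_apply, Finsupp.single_eq_of_ne hw, zero_add] at this
        exact this
    rw [map_add, Divisor.degree_single]
    have := ih hD'
    positivity

theorem degree_le_degree {D D' : Divisor K F} (h : D ≤ D') :
    Divisor.degree D ≤ Divisor.degree D' := by
  have h0 : 0 ≤ D' - D := sub_nonneg.2 h
  have := degree_nonneg_of_nonneg h0
  rw [map_sub] at this
  omega

end Fermat.Agent.S37.PoleSup78
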