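/-
S37 project, package [PULL] (helper75), generic half.

`φ : F →ₐ[K] F'` an integral homomorphism of function fields, `g : SemilinearAut K F`,
`g' : SemilinearAut K F'` with `IntertwinesAlong φ g g'` (i.e. `g' • φ x = φ (g • x)`).  Then
restriction of places, ramification indices, pull-back of divisors and the induced map on `Pic0`
are equivariant:

* `restrictAlong_smul`        : `(g' • w).restrictAlong φ = g • w.restrictAlong φ`
* `ramificationIndexAlong_smul` : `e(g' • w) = e(w)`
* `pullbackAlong_smul`        : `pullbackAlong φ (g • D) = g' • pullbackAlong φ D`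
* `pullPic0Along`             : the pull-back `Pic0 K F →+ Pic0 K F'` (needs the fundamental identity)
* `pullPic0Along_smul`        : `pullPic0Along φ (g • x) = g' • pullPic0Along φ x`
* `pullPic0Along_mk_principal`-type facts: pull-back of `div f` is `div (φ f)` (Prelude).

Prelude + Mathlib only.
-/
import Mathlib
import Fermat.Prelude.Def_AlgebraicCurve_Correspondence

set_option autoImplicit false
set_option linter.unusedSectionVars false
set_option linter.style.haveILetI false

open AlgebraicCurve

noncomputable section

namespace Fermat.Agent.S37.Pull75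

open scoped Pointwise

/-! ### instance-style statements -/

section Inst

variable {K F F' : Type*} [Field K] [Field F] [Field F']
  [Algebra K F] [Algebra K F'] [Algebra F F'] [IsScalarTower K F F']
  [Algebra.IsIntegral F F']

variable (g : SemilinearAut K F) (g' : SemilinearAut K F')

/-- the intertwining relation for the inverses -/
theorem intertwines_inv (h : ∀ x : F, g' • algebraMap F F' x = algebraMap F F' (g • x)) (x : F) :
    g'⁻¹ • algebraMap F F' x = algebraMap F F' (g⁻¹ • x) := by
  have hx := h (g⁻¹ • x)
  rw [smul_inv_smul] at hx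
  rw [← hx, inv_smul_smul]

theorem restrict_smul (h : ∀ x : F, g' • algebraMap F F' x = algebraMap F F' (g • x))
    (w : Place K F') : (g' • w).restrict F = g • (w.restrict F) := by
  ext f
  rw [SemilinearAut.smul_toValuationSubring, Place.restrict_toValuationSubring,
    ValuationSubring.mem_comap, SemilinearAut.smul_toValuationSubring,
    ValuationSubring.mem_pointwise_smul_iff_inv_smul_mem,
    ValuationSubring.mem_pointwise_smul_iff_inv_smul_mem, Place.restrict_toValuationSubring,
    ValuationSubring.mem_comap, intertwines_inv g g' h]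

theorem ord_smul_algebraMap (h : ∀ x : F, g' • algebraMap F F' x = algebraMap F F' (g • x))
    (w : Place K F') (f : F) :
    (g' • w).ord (algebraMap F F' (g • f)) = w.ord (algebraMap F F' f) := by
  rw [← h f, SemilinearAut.ord_smul]

theorem ramificationIndex_smul (h : ∀ x : F, g' • algebraMap F F' x = algebraMap F F' (g • x))
    (w : Place K F') : (g' • w).ramificationIndex F = w.ramificationIndex F := by
  unfold Place.ramificationIndex
  congr 1
  ext n
  constructor
  · rintro ⟨hn, f, hf, hfn⟩
    refine ⟨hn, g⁻¹ • f, by simpa using hf, ?_⟩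
    rw [← hfn, ← ord_smul_algebraMap g g' h w (g⁻¹ • f), smul_inv_smul]
  · rintro ⟨hn, f, hf, hfn⟩
    refine ⟨hn, g • f, by simpa using hf, ?_⟩
    rw [← hfn, ord_smul_algebraMap g g' h w f]

theorem pullback_smul [HasPrincipalDivisors K F']
    (h : ∀ x : F, g' • algebraMap F F' x = algebraMap F F' (g • x)) (D : Divisor K F) :
    Divisor.pullback F' (g • D) = g' • Divisor.pullback F' D := by
  ext w
  have hinv : ∀ x : F, g'⁻¹ • algebraMap F F' x = algebraMap F F' (g⁻¹ • x) :=
    intertwines_inv g g' h
  rw [Divisor.pullback_apply, SemilinearAut.divisor_smul_apply, SemilinearAut.divisor_smul_apply,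
    Divisor.pullback_apply, restrict_smul g⁻¹ g'⁻¹ hinv, ramificationIndex_smul g⁻¹ g'⁻¹ hinv]

end Inst

/-! ### `Along` statements -/

section Along

variable {K F F' : Type*} [Field K] [Field F] [Field F'] [Algebra K F] [Algebra K F']

variable (φ : F →ₐ[K] F') (hφ : φ.toRingHom.IsIntegral)
variable {g : SemilinearAut K F} {g' : SemilinearAut K F'}

theorem restrictAlong_smul (h : SemilinearAut.IntertwinesAlong (φ : F →+* F') g g')
    (w : Place K F') : (g' • w).restrictAlong φ hφ = g • (w.restrictAlong φ hφ) := by
  letI := algebraAlong φ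
  haveI := isScalarTower_along φ
  haveI := isIntegral_along φ hφ
  exact restrict_smul g g' h w

include hφ in
theorem ramificationIndexAlong_smul (h : SemilinearAut.IntertwinesAlong (φ : F →+* F') g g')
    (w : Place K F') :
    (g' • w).ramificationIndexAlong φ = w.ramificationIndexAlong φ := by
  letI := algebraAlong φ
  haveI := isScalarTower_along φ
  haveI := isIntegral_along φ hφ
  exact ramificationIndex_smul g g' h w

theorem pullbackAlong_smul [HasPrincipalDivisors K F']
    (h : SemilinearAut.IntertwinesAlong (φ : F →+* F') g g') (D : Divisor K F) :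
    Divisor.pullbackAlong φ hφ (g • D) = g' • Divisor.pullbackAlong φ hφ D := by
  letI := algebraAlong φ
  haveI := isScalarTower_along φ
  haveI := isIntegral_along φ hφ
  exact pullback_smul g g' h D

end Along

/-! ### the pull-back on `Pic0` -/

section Pic

variable {K F F' : Type*} [Field K] [Field F] [Field F'] [Algebra K F] [Algebra K F']
variable [HasPrincipalDivisors K F']
variable (φ : F →ₐ[K] F') (hφ : φ.toRingHom.IsIntegral)
variable (hFI : FundamentalIdentityAlong K φ hφ)

/-- pull-back of degree-zero divisors along `φ` -/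
def pullDegZeroAlong :
    Divisor.degZero (K := K) (F := F) →+ Divisor.degZero (K := K) (F := F') :=
  ((Divisor.pullbackAlong φ hφ).domRestrict (Divisor.degZero (K := K) (F := F))).codRestrict _
    (fun D => Divisor.pullbackAlong_mem_degZero φ hφ hFI D.2)

@[simp]
theorem coe_pullDegZeroAlong (D : Divisor.degZero (K := K) (F := F)) :
    (pullDegZeroAlong φ hφ hFI D : Divisor K F') = Divisor.pullbackAlong φ hφ (D : Divisor K F) :=
  rfl

/-- pull-back of divisor classes of degree zero along `φ` -/
def pullPic0Along : Pic0 K F →+ Pic0 K F' :=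
  QuotientAddGroup.map _ _ (pullDegZeroAlong φ hφ hFI) (by
    rintro ⟨D, hD0⟩ hD
    simp only [AddSubgroup.mem_addSubgroupOf] at hD ⊢
    exact Divisor.isPrincipal_pullbackAlong φ hφ hD)

theorem pullPic0Along_mk (D : Divisor.degZero (K := K) (F := F)) :
    pullPic0Along φ hφ hFI (Pic0.mk D) = Pic0.mk (pullDegZeroAlong φ hφ hFI D) :=
  rfl

/-- the pull-back of `div f` is `div (φ f)` -/
theorem pullbackAlong_eq_ord {f : F} {D : Divisor K F} (hD : ∀ v : Place K F, D v = v.ord f)
    (w : Place K F') : Divisor.pullbackAlong φ hφ D w = w.ord (φ f) := by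
  rw [Divisor.pullbackAlong_apply, hD, ← Place.ord_restrictAlong]

/-- Galois-equivariance of the pull-back on `Pic0`. -/
theorem pullPic0Along_smul {g : SemilinearAut K F} {g' : SemilinearAut K F'}
    (h : SemilinearAut.IntertwinesAlong (φ : F →+* F') g g') (x : Pic0 K F) :
    pullPic0Along φ hφ hFI (g • x) = g' • pullPic0Along φ hφ hFI x := by
  obtain ⟨D, rfl⟩ := Pic0.mk_surjective x
  rw [SemilinearAut.pic0_smul_mk, pullPic0Along_mk, pullPic0Along_mk, SemilinearAut.pic0_smul_mk]
  refine congrArg Pic0.mk (Subtype.ext ?_)
  rw [coe_pullDegZeroAlong, SemilinearAut.coe_degZeroSMulHom, SemilinearAut.coe_degZeroSMulHom,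
    coe_pullDegZeroAlong, pullbackAlong_smul φ hφ h]

/-- a class is killed by the pull-back iff its pull-back is principal -/
theorem pullPic0Along_mk_eq_zero_iff (D : Divisor.degZero (K := K) (F := F)) :
    pullPic0Along φ hφ hFI (Pic0.mk D) = 0 ↔
      Divisor.pullbackAlong φ hφ (D : Divisor K F) ∈ Divisor.principal (K := K) (F := F') := by
  rw [pullPic0Along_mk]
  exact (QuotientAddGroup.eq_zero_iff _)

end Pic

end Fermat.Agent.S37.Pull75
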