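/-
S37, input (b) of helper52's `Glue52` (helper75): the fundamental identity for
`σ_s : F_N → F_{sN}` in the exact shape
`FundamentalIdentityAlong Kb (Transfer87.sigma N s) (RhoTM77.sigma_int N s)`
with the instance `NormFrac20.hasPrincipalDivisors_bar (s * N)` — an adapter around
`Pull91.fundamentalIdentityAlong_sigma` (helper91, via helper16's generic theorem).
-/
import Mathlib
import Fermat.Agent.S37.Pull91
import Fermat.Agent.S37.RhoTM77

set_option autoImplicit false

open AlgebraicCurve ModularCurve

noncomputable section

namespace Fermat.Agent.S37.PullFI75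

open Fermat.Agent.S18.Spine33 Fermat.Agent.S18

variable (N s : ℕ) [NeZero N] [NeZero s]

/-- input (b) of `Glue52`, literal shape -/
theorem fundamentalIdentityAlong_sigma :
    haveI := NormFrac20.hasPrincipalDivisors_bar (s * N)
    FundamentalIdentityAlong Kb (Transfer87.sigma N s) (RhoTM77.sigma_int N s) :=
  Pull91.fundamentalIdentityAlong_sigma N s

/-- the same with an arbitrary instance and an arbitrary integrality proof -/
theorem fundamentalIdentityAlong_sigma' [HasPrincipalDivisors Kb (FK (s * N))]
    (hσ : (Transfer87.sigma N s).toRingHom.IsIntegral) :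
    FundamentalIdentityAlong Kb (Transfer87.sigma N s) hσ :=
  Pull91.fundamentalIdentityAlong_sigma N s

/-- finiteness of `σ_s` -/
theorem finiteAlong_sigma : FiniteAlong Kb (Transfer87.sigma N s) :=
  Pull91.finiteAlong_sigma N s

end Fermat.Agent.S37.PullFI75
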