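/-
S37 project, package [PULL] (helper75), concrete half: the embedding
`σ_s : F_N → F_{sN}`, `f(q) ↦ f(q^s)` (the `σ_s` of `S18/Spine33`), over `ℚ̄`:

* `sigma L N s : laurentBaseChange L (modularFunctionFieldFull N) →ₐ[L]
      laurentBaseChange L (modularFunctionFieldFull (s * N))`, `coe_sigma`;
* `intertwines_sigma` : the arithmetic Galois action (coefficientwise) commutes with `σ_s`;
* `isIntegral_sigma`, `finiteAlong_sigma` (over `ℚ̄`, via S24: both fields are finite over
  `ℚ̄(j(q^s))`);
* `pullSigma` : `JZero N →+ JZero (s * N)` and `pullSigma_smul` (Galois-equivariance),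
  given `FundamentalIdentityAlong` for `σ_s`.
-/
import Mathlib
import Fermat.Agent.S37.Pull75
import Fermat.Agent.S24.Exports
import Fermat.Agent.S24.FFPlaces
import Fermat.Prelude.Def_ModularCurve_HeckeOperator

set_option autoImplicit false
set_option linter.unusedSectionVars false
set_option linter.style.haveILetI false

open AlgebraicCurve ModularCurve HahnSeries IntermediateField

noncomputable section

namespace Fermat.Agent.S37.PullSigma75

open Fermat.Agent.S37.Pull75

/-! ### a finiteness criterion -/

section Generic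

variable {K F F' : Type*} [Field K] [Field F] [Field F'] [Algebra K F] [Algebra K F']

/-- If `F'` is finite over `K(φ x)` then `φ : F → F'` is a finite ring homomorphism. -/
theorem finite_of_finite_simple (φ : F →ₐ[K] F') (x : F)
    (hfin : FiniteDimensional K⟮φ x⟯ F') : φ.toRingHom.Finite := by
  have hmap : (K⟮x⟯).map φ = K⟮φ x⟯ := by
    rw [IntermediateField.adjoin_map, Set.image_singleton]
  -- the surjection `K(x) → K(φ x)`
  let θ : K⟮x⟯ →+* K⟮φ x⟯ :=
    { toFun := fun e => ⟨φ e, by rw [← hmap]; exact ⟨e, e.2, rfl⟩⟩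
      map_one' := Subtype.ext (map_one φ)
      map_mul' := fun a b => Subtype.ext (map_mul φ (a : F) (b : F))
      map_zero' := Subtype.ext (map_zero φ)
      map_add' := fun a b => Subtype.ext (map_add φ (a : F) (b : F)) }
  have hθ : Function.Surjective θ := by
    rintro ⟨y, hy⟩
    rw [← hmap] at hy
    obtain ⟨e, he, rfl⟩ := hy
    exact ⟨⟨e, he⟩, rfl⟩
  have h1 : ((algebraMap K⟮φ x⟯ F').comp θ).Finite :=
    RingHom.Finite.comp (RingHom.finite_algebraMap.mpr hfin) (RingHom.Finite.of_surjective θ hθ)
  have h2 : (algebraMap K⟮φ x⟯ F').comp θ = φ.toRingHom.comp (algebraMap K⟮x⟯ F) :=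
    RingHom.ext fun e => rfl
  rw [h2] at h1
  exact RingHom.Finite.of_comp_finite h1

theorem isIntegral_of_finite_simple (φ : F →ₐ[K] F') (x : F)
    (hfin : FiniteDimensional K⟮φ x⟯ F') : φ.toRingHom.IsIntegral :=
  (finite_of_finite_simple φ x hfin).to_isIntegral

theorem finiteAlong_of_finite_simple (φ : F →ₐ[K] F') (x : F)
    (hfin : FiniteDimensional K⟮φ x⟯ F') : FiniteAlong K φ :=
  finite_of_finite_simple φ x hfin

end Generic

/-! ### `σ_s` -/

section Sigma

variable (L : Type*) [Field L] [Algebra ℚ L] (N s : ℕ) [NeZero N] [NeZero s]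

theorem level_le :
    laurentBaseChange L (modularFunctionFieldFull (N * s)) ≤
      laurentBaseChange L (modularFunctionFieldFull (s * N)) := by
  rw [Nat.mul_comm]

/-- `σ_s : F_N → F_{sN}`, `f(q) ↦ f(q^s)`. -/
def sigma :
    laurentBaseChange L (modularFunctionFieldFull N) →ₐ[L]
      laurentBaseChange L (modularFunctionFieldFull (s * N)) :=
  (IntermediateField.inclusion (level_le L N s)).comp (heckeBetaBar L N s)

@[simp]
theorem coe_sigma (x : laurentBaseChange L (modularFunctionFieldFull N)) :
    (sigma L N s x : LaurentSeries L) = qExpand L s (x : LaurentSeries L) :=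
  rfl

theorem coeffMap_qExpand {R S : Type*} [CommRing R] [CommRing S] (f : R →+* S) (n : ℕ)
    [NeZero n] (x : LaurentSeries R) : coeffMap f (qExpand R n x) = qExpand S n (coeffMap f x) := by
  ext k
  by_cases hk : (n : ℤ) ∣ k
  · obtain ⟨m, rfl⟩ := hk
    rw [coeffMap_coeff, qExpand_coeff_mul, qExpand_coeff_mul, coeffMap_coeff]
  · rw [coeffMap_coeff, qExpand_coeff_of_not_dvd n _ hk, qExpand_coeff_of_not_dvd n _ hk,
      map_zero]

/-- the coefficientwise Galois action commutes with `σ_s` -/
theorem intertwines_sigma (τ : L ≃ₐ[ℚ] L) :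
    SemilinearAut.IntertwinesAlong (sigma L N s : _ →+* _)
      (arithmeticGalois (modularFunctionFieldFull N) τ)
      (arithmeticGalois (modularFunctionFieldFull (s * N)) τ) := by
  intro x
  apply Subtype.ext
  rw [coe_arithmeticGalois_smul]
  show coeffMap (τ : L →+* L) (qExpand L s (x : LaurentSeries L)) =
    qExpand L s (coeffMap (τ : L →+* L) (x : LaurentSeries L))
  exact coeffMap_qExpand _ s _

end Sigma

/-! ### integrality and finiteness over `ℚ̄` -/

section Kb

open Fermat.Agent.S24

variable (N s : ℕ) [NeZero N] [NeZero s]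

theorem sigma_injective : Function.Injective (sigma Kbar N s) :=
  (sigma Kbar N s).toRingHom.injective

theorem transcendental_sigma_jF : Transcendental Kbar (sigma Kbar N s (jF N)) := by
  intro h
  exact Exports.transcendental_jF N
    ((isAlgebraic_algHom_iff (sigma Kbar N s) (sigma_injective N s)).mp h)

theorem finite_sigma : (sigma Kbar N s).toRingHom.Finite := by
  haveI : NeZero (s * N) := ⟨Nat.mul_ne_zero (NeZero.ne s) (NeZero.ne N)⟩
  have hF' := Exports.isFunctionFieldOver_jF (s * N)
  have hfin := FFPlaces.finiteDimensional_simple_of_transcendental hF'.finite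
    (transcendental_sigma_jF N s)
  exact finite_of_finite_simple (sigma Kbar N s) (jF N) hfin

theorem isIntegral_sigma : (sigma Kbar N s).toRingHom.IsIntegral :=
  (finite_sigma N s).to_isIntegral

theorem finiteAlong_sigma : FiniteAlong Kbar (sigma Kbar N s) :=
  finite_sigma N s

/-- `σ_s^* : J_0(N) → J_0(sN)`, given the fundamental identity for `σ_s`. -/
def pullSigma [HasPrincipalDivisors Kbar (laurentBaseChange Kbar (modularFunctionFieldFull (s * N)))]
    (hFI : FundamentalIdentityAlong Kbar (sigma Kbar N s) (isIntegral_sigma N s)) :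
    JZero N →+ Pic0 Kbar (laurentBaseChange Kbar (modularFunctionFieldFull (s * N))) :=
  pullPic0Along (sigma Kbar N s) (isIntegral_sigma N s) hFI

/-- Galois-equivariance of `σ_s^*`. -/
theorem pullSigma_smul
    [HasPrincipalDivisors Kbar (laurentBaseChange Kbar (modularFunctionFieldFull (s * N)))]
    (hFI : FundamentalIdentityAlong Kbar (sigma Kbar N s) (isIntegral_sigma N s))
    (τ : Kbar ≃ₐ[ℚ] Kbar) (x : JZero N) :
    pullSigma N s hFI (τ • x) = τ • pullSigma N s hFI x := by
  rw [galois_smul_pic0_def, galois_smul_pic0_def]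
  exact pullPic0Along_smul (sigma Kbar N s) (isIntegral_sigma N s) hFI
    (intertwines_sigma Kbar N s τ) x

end Kb

end Fermat.Agent.S37.PullSigma75
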