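/-
S37 moonshot, package [R]-ADAPTER (helper43): from the [BRIDGE]-shaped Gauss data of level `M`
(exactly the fields `O, ρ, ker_ρ, ρ_incl, const_mem, ρ_const, lattice` of `Level33.LevelData`, plus
`ρ (O) ⊂ F̄_M`) and the place-level function-field package on BOTH fibres, to the literal Prelude
statement `∃ r, IsPlaceReductionModL A M r` (first half of `ReductionInputsModL A M`), through the
abstract Deuring reduction `Deuring43.ReductionSetup.exists_reduction`.
-/
import Mathlib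
import Fermat.Agent.S37.Deuring43
import Fermat.Agent.S18.Spine33

set_option autoImplicit false
set_option linter.style.haveILetI false
set_option linter.unusedSectionVars false
set_option synthInstance.maxHeartbeats 400000

open ModularCurve AlgebraicCurve HahnSeries

noncomputable section

namespace Fermat.Agent.S37.RAdapter43

open Fermat.Agent.S18.Spine33 Fermat.Agent.S18.KGauss73 Fermat.Agent.S18.Riemann12
  Fermat.Agent.S37.Deuring43

/-- coercion of a finite sum of products in a valuation subring -/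
theorem coe_sum_mul {F : Type*} [Field F] (O : ValuationSubring F) {n : ℕ} (a b : Fin n → O) :
    ((∑ i, a i * b i : O) : F) = ∑ i, (a i : F) * (b i : F) := by
  push_cast
  rfl

/-- the function field of the special fibre, as a type -/
abbrev Fk (A : ValuationSubring Kb) (M : ℕ) : Type :=
  ↥(modularFunctionFieldFullC (kA A) M)

/-- The Gauss-side inputs at level `M`: the [BRIDGE] fields of `Level33.LevelData` (same names and
shapes, so `⟨Dat.O, Dat.ρ, Dat.ker_ρ, Dat.ρ_incl, Dat.const_mem, Dat.ρ_const, h, Dat.lattice⟩`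
builds it) plus `ρ_mem`. -/
structure GaussInputs (A : ValuationSubring Kb) (M : ℕ) where
  /-- the Gauss valuation ring of `F_M` -/
  O : ValuationSubring (FK M)
  /-- its residue map, with values in `k((q))` -/
  ρ : O →+* LaurentSeries (kA A)
  ker_ρ : ∀ x : O, ρ x = 0 ↔ x ∈ IsLocalRing.maximalIdeal O
  ρ_incl : ∀ (U : LaurentSeries A) (h : incl A U ∈ modularFunctionFieldBar M),
    ∃ hO : (⟨incl A U, h⟩ : FK M) ∈ O, ρ ⟨_, hO⟩ = red A U
  const_mem : ∀ c : Kb, algebraMap Kb (FK M) c ∈ O ↔ c ∈ A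
  ρ_const : ∀ (c : A) (h : algebraMap Kb (FK M) (c : Kb) ∈ O),
    ρ ⟨_, h⟩ = HahnSeries.C (IsLocalRing.residue A c)
  /-- the residue map takes values in `F̄_M` -/
  ρ_mem : ∀ x : O, ρ x ∈ modularFunctionFieldFullC (kA A) M
  lattice : ∀ V : Submodule Kb (FK M), Module.Finite Kb V →
    ∃ (r : ℕ) (e : Fin r → FK M) (he : ∀ i, e i ∈ O), r = Module.finrank Kb V ∧ (∀ i, e i ∈ V) ∧
      LinearIndependent (kA A) (fun i => ρ ⟨e i, he i⟩) ∧
      ∀ z ∈ V, z ∈ O → ∃ α : Fin r → Kb, (∀ i, α i ∈ A) ∧ z = ∑ i, α i • e i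

namespace GaussInputs

variable {A : ValuationSubring Kb} {M : ℕ} (I : GaussInputs A M)

/-- the Gauss valuation -/
abbrev w : Valuation (FK M) (ValuationSubring.ValueGroup I.O) := I.O.valuation

theorem w_le_one_iff (y : FK M) : I.w y ≤ 1 ↔ y ∈ I.O :=
  ValuationSubring.valuation_le_one_iff _ _

theorem w_lt_one_iff (y : FK M) (hy : y ∈ I.O) : I.w y < 1 ↔ I.ρ ⟨y, hy⟩ = 0 := by
  rw [I.ker_ρ]
  exact (ValuationSubring.valuation_lt_one_iff I.O ⟨y, hy⟩).symm

theorem w_const_le_one_iff (c : Kb) : I.w (algebraMap Kb (FK M) c) ≤ 1 ↔ c ∈ A := by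
  rw [I.w_le_one_iff, I.const_mem]

/-- the integers of `w` as elements of `O` -/
def toO : I.w.integer →+* I.O where
  toFun x := ⟨x.1, (I.w_le_one_iff _).1 x.2⟩
  map_one' := rfl
  map_mul' _ _ := rfl
  map_zero' := rfl
  map_add' _ _ := rfl

/-- the reduction map with values in `F̄_M` -/
def redHom : I.w.integer →+* Fk A M :=
  (I.ρ.comp I.toO).codRestrict (modularFunctionFieldFullC (kA A) M) fun _ => I.ρ_mem _

theorem coe_redHom (x : I.w.integer) :
    ((I.redHom x : Fk A M) : LaurentSeries (kA A)) = I.ρ ⟨x.1, (I.w_le_one_iff _).1 x.2⟩ := rfl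

/-- the integers of `w|_{ℚ̄}` as elements of `A` -/
def toA : (I.w.comap (algebraMap Kb (FK M))).integer →+* A where
  toFun c := ⟨c.1, (I.w_const_le_one_iff _).1 c.2⟩
  map_one' := rfl
  map_mul' _ _ := rfl
  map_zero' := rfl
  map_add' _ _ := rfl

/-- the residue map on constants -/
def resHom : (I.w.comap (algebraMap Kb (FK M))).integer →+* kA A :=
  (IsLocalRing.residue A).comp I.toA

theorem resHom_surjective : Function.Surjective I.resHom := by
  intro a
  obtain ⟨c, rfl⟩ := IsLocalRing.residue_surjective a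
  exact ⟨⟨(c : Kb), (I.w_const_le_one_iff _).2 c.2⟩, rfl⟩

/-- `ρ` of an `A`-linear combination of integral elements -/
theorem ρ_sum {n : ℕ} {u : Fin n → FK M} (hu : ∀ j, u j ∈ I.O) {d : Fin n → Kb}
    (hd : ∀ j, d j ∈ A) (hmem : ∑ i, d i • u i ∈ I.O) :
    I.ρ ⟨∑ i, d i • u i, hmem⟩ =
      ∑ i, IsLocalRing.residue A ⟨d i, hd i⟩ • I.ρ ⟨u i, hu i⟩ := by
  have hdO : ∀ i, algebraMap Kb (FK M) (d i) ∈ I.O := fun i => (I.const_mem _).2 (hd i)
  have h1 : (⟨∑ i, d i • u i, hmem⟩ : I.O) =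
      ∑ i, (⟨algebraMap Kb (FK M) (d i), hdO i⟩ : I.O) * ⟨u i, hu i⟩ := by
    have h2 : ((∑ i, (⟨algebraMap Kb (FK M) (d i), hdO i⟩ : I.O) * ⟨u i, hu i⟩ : I.O) : FK M) =
        ∑ i, algebraMap Kb (FK M) (d i) * u i :=
      coe_sum_mul I.O (fun i => (⟨algebraMap Kb (FK M) (d i), hdO i⟩ : I.O))
        (fun i => ⟨u i, hu i⟩)
    apply Subtype.ext
    rw [h2]
    show ∑ i, d i • u i = _
    exact Finset.sum_congr rfl fun i _ => Algebra.smul_def _ _
  rw [h1, map_sum]
  refine Finset.sum_congr rfl fun i _ => ?_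
  rw [map_mul, I.ρ_const ⟨d i, hd i⟩ (hdO i), HahnSeries.C_mul_eq_smul]

/-- integral elements with `k`-independent reductions are orthonormal -/
theorem ortho {n : ℕ} {u : Fin n → FK M} (hu : ∀ j, u j ∈ I.O)
    (hli : LinearIndependent (kA A) fun j => I.ρ ⟨u j, hu j⟩) (c : Fin n → Kb) (j : Fin n) :
    I.w (algebraMap Kb (FK M) (c j)) ≤ I.w (∑ i, c i • u i) := by
  classical
  by_contra hcon
  rw [not_le] at hcon
  obtain ⟨j₀, -, hj₀⟩ := Finset.exists_max_image Finset.univ
    (fun i => I.w (algebraMap Kb (FK M) (c i))) ⟨j, Finset.mem_univ _⟩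
  have hbig : I.w (∑ i, c i • u i) < I.w (algebraMap Kb (FK M) (c j₀)) :=
    lt_of_lt_of_le hcon (hj₀ j (Finset.mem_univ _))
  have hc0 : c j₀ ≠ 0 := by
    intro h
    rw [h, map_zero, map_zero] at hbig
    exact not_lt.mpr zero_le hbig
  have hcF : algebraMap Kb (FK M) (c j₀) ≠ 0 := (map_ne_zero _).mpr hc0
  have hwc : I.w (algebraMap Kb (FK M) (c j₀)) ≠ 0 := (map_ne_zero I.w).mpr hcF
  set d : Fin n → Kb := fun i => (c j₀)⁻¹ * c i with hd
  have hd1 : ∀ i, I.w (algebraMap Kb (FK M) (d i)) ≤ 1 := by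
    intro i
    rw [hd]
    simp only [map_mul, map_inv₀]
    have := hj₀ i (Finset.mem_univ _)
    calc (I.w (algebraMap Kb (FK M) (c j₀)))⁻¹ * I.w (algebraMap Kb (FK M) (c i))
        ≤ (I.w (algebraMap Kb (FK M) (c j₀)))⁻¹ * I.w (algebraMap Kb (FK M) (c j₀)) := by gcongr
      _ = 1 := inv_mul_cancel₀ hwc
  have hdA : ∀ i, d i ∈ A := fun i => (I.w_const_le_one_iff _).1 (hd1 i)
  have hsum : ∑ i, d i • u i = (c j₀)⁻¹ • ∑ i, c i • u i := by
    rw [Finset.smul_sum]
    refine Finset.sum_congr rfl fun i _ => ?_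
    rw [hd, mul_smul]
  have hlt : I.w (∑ i, d i • u i) < 1 := by
    rw [hsum, Algebra.smul_def, map_mul, map_inv₀, map_inv₀]
    calc (I.w (algebraMap Kb (FK M) (c j₀)))⁻¹ * I.w (∑ i, c i • u i)
        < (I.w (algebraMap Kb (FK M) (c j₀)))⁻¹ * I.w (algebraMap Kb (FK M) (c j₀)) := by
          exact mul_lt_mul_of_pos_left hbig (zero_lt_iff.mpr (inv_ne_zero hwc))
      _ = 1 := inv_mul_cancel₀ hwc
  have hmem : ∑ i, d i • u i ∈ I.O := (I.w_le_one_iff _).1 hlt.le
  have hred : ∑ i, IsLocalRing.residue A ⟨d i, hdA i⟩ • I.ρ ⟨u i, hu i⟩ = 0 := by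
    rw [← I.ρ_sum hu hdA hmem]
    exact (I.w_lt_one_iff _ hmem).1 hlt
  have := Fintype.linearIndependent_iff.mp hli (fun i => IsLocalRing.residue A ⟨d i, hdA i⟩)
    hred j₀
  have hdj : (⟨d j₀, hdA j₀⟩ : A) = 1 := by
    apply Subtype.ext
    show (c j₀)⁻¹ * c j₀ = 1
    exact inv_mul_cancel₀ hc0
  rw [hdj, map_one] at this
  exact one_ne_zero this

/-- the abstract reduction data of `KGauss73` -/
def gaussData : GaussData (L := Kb) I.w (kA A) (Fk A M) where
  red := I.redHom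
  red_eq_zero x := by
    have hx : (x : FK M) ∈ I.O := (I.w_le_one_iff _).1 x.2
    rw [I.w_lt_one_iff _ hx, ← I.coe_redHom x]
    constructor
    · intro h; rw [h]; rfl
    · intro h; exact Subtype.ext h
  res := I.resHom
  res_surj := I.resHom_surjective
  red_algebraMap c := by
    apply Subtype.ext
    have hcA : (c : Kb) ∈ A := (I.w_const_le_one_iff _).1 c.2
    have hcO : algebraMap Kb (FK M) (c : Kb) ∈ I.O := (I.const_mem _).2 hcA
    show I.ρ ⟨algebraMap Kb (FK M) (c : Kb), _⟩ = _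
    rw [I.ρ_const ⟨(c : Kb), hcA⟩ hcO, IntermediateField.coe_algebraMap_apply,
      algebraMap_laurentSeries_eq_single, HahnSeries.C_apply]
    rfl
  lattice V hV := by
    obtain ⟨r, e, he, hr, heV, hli, -⟩ := I.lattice V hV
    have hortho := I.ortho he hli
    have hliL : LinearIndependent Kb e := linearIndependent_of_ortho hortho
    refine ⟨r, e, heV, fun j => (I.w_le_one_iff _).2 (he j), ?_, hortho⟩
    intro y hy
    let eV : Fin r → V := fun j => ⟨e j, heV j⟩
    have hliV : LinearIndependent Kb eV := by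
      apply LinearIndependent.of_comp V.subtype
      exact hliL
    have hcard : Fintype.card (Fin r) = Module.finrank Kb V := by rw [Fintype.card_fin, hr]
    have hspan : Submodule.span Kb (Set.range eV) = ⊤ :=
      hliV.span_eq_top_of_card_eq_finrank' hcard
    have hymem : (⟨y, hy⟩ : V) ∈ Submodule.span Kb (Set.range eV) := by rw [hspan]; trivial
    obtain ⟨c, hc⟩ := (Submodule.mem_span_range_iff_exists_fun Kb).mp hymem
    refine ⟨c, ?_⟩
    have := congrArg (fun x : V => (x : FK M)) hc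
    simpa [eV] using this.symm

theorem redF_coe {y : FK M} (hy : y ∈ I.O) :
    ((I.gaussData.redF y : Fk A M) : LaurentSeries (kA A)) = I.ρ ⟨y, hy⟩ := by
  rw [I.gaussData.redF_of_le ((I.w_le_one_iff _).2 hy)]
  rfl

end GaussInputs

/-! ### The literal Prelude statement -/

section Final

variable {A : ValuationSubring Kb} {M : ℕ} [NeZero M] (I : GaussInputs A M)
variable [HasPrincipalDivisors Kb (FK M)] [HasPrincipalDivisors (kA A) (Fk A M)]

/-- **[R]-ADAPTER** (strong form): the Gauss inputs, the function-field packages on both fibres,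
the genus inequality and the anchor give a place reduction in the literal Prelude sense, together
with its characterisation `red (L(D) ∩ O) = L̄(r_* D)` in large degrees (which determines `r`,
see `Deuring43.reduction_unique` / `reduction_equivariant`). -/
theorem exists_isPlaceReductionModL_strong {g gb : ℤ} {E : Divisor Kb (FK M)}
    {Eb : Divisor (kA A) (Fk A M)}
    (ffL : FFFacts Kb (FK M)) (ffk : FFFacts (kA A) (Fk A M))
    (genusL : IsRiemannGenus Kb (FK M) g) (genusk : IsRiemannGenus (kA A) (Fk A M) gb)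
    (hle : g ≤ gb)
    (deg_pos : 0 < Divisor.degree E) (deg_eq : Divisor.degree Eb = Divisor.degree E)
    (hint : ∀ (n : ℕ) (y : FK M), y ∈ LSpace ((n : ℤ) • E) → ∀ hy : y ∈ I.O,
      (⟨I.ρ ⟨y, hy⟩, I.ρ_mem _⟩ : Fk A M) ∈ LSpace ((n : ℤ) • Eb))
    (hdeg1 : ∀ P : Place Kb (FK M), P.deg = 1) :
    ∃ (r : Place Kb (FK M) → Place (kA A) (Fk A M)) (c : ℤ), IsPlaceReductionModL A M r ∧
      ∀ D : Divisor Kb (FK M), c ≤ Divisor.degree D →
        IsPoleSup (redSpace I.gaussData D) (Finsupp.mapDomain r D) ∧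
        redSpace I.gaussData D = LSpace (Finsupp.mapDomain r D) := by
  have hint' : ∀ (n : ℕ) (y : FK M), y ∈ LSpace ((n : ℤ) • E) → I.w y ≤ 1 →
      I.gaussData.redF y ∈ LSpace ((n : ℤ) • Eb) := by
    intro n y hy hy1
    have hyO : y ∈ I.O := (I.w_le_one_iff _).1 hy1
    have := hint n y hy hyO
    have e : I.gaussData.redF y = (⟨I.ρ ⟨y, hyO⟩, I.ρ_mem _⟩ : Fk A M) :=
      Subtype.ext (I.redF_coe hyO)
    rwa [e]
  have S : ReductionSetup I.gaussData g E Eb :=
    ReductionSetup.of_genus_le ffL ffk genusL genusk hle deg_pos deg_eq hint'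
  obtain ⟨r, c, hrdeg, hps, hcons⟩ := S.exists_reduction hdeg1
  refine ⟨r, c, ⟨hrdeg, ?_⟩, hps⟩
  intro y hy hyk hne D hD Q
  obtain ⟨hO, hρ⟩ := I.ρ_incl y hy
  set f : FK M := ⟨incl A y, hy⟩ with hf
  have hw1 : I.w f = 1 := by
    refine le_antisymm ((I.w_le_one_iff _).2 hO) (not_lt.1 fun hlt => ?_)
    have := (I.w_lt_one_iff f hO).1 hlt
    rw [hρ] at this
    exact hne this
  have hred : I.gaussData.redF f = (⟨red A y, hyk⟩ : Fk A M) := by
    apply Subtype.ext
    rw [I.redF_coe hO, hρ]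
  have := conservation_apply hcons hw1 D hD Q
  rwa [hred] at this

/-- **[R]-ADAPTER**: first half of `ReductionInputsModL A M`. -/
theorem exists_isPlaceReductionModL {g gb : ℤ} {E : Divisor Kb (FK M)}
    {Eb : Divisor (kA A) (Fk A M)}
    (ffL : FFFacts Kb (FK M)) (ffk : FFFacts (kA A) (Fk A M))
    (genusL : IsRiemannGenus Kb (FK M) g) (genusk : IsRiemannGenus (kA A) (Fk A M) gb)
    (hle : g ≤ gb)
    (deg_pos : 0 < Divisor.degree E) (deg_eq : Divisor.degree Eb = Divisor.degree E)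
    (hint : ∀ (n : ℕ) (y : FK M), y ∈ LSpace ((n : ℤ) • E) → ∀ hy : y ∈ I.O,
      (⟨I.ρ ⟨y, hy⟩, I.ρ_mem _⟩ : Fk A M) ∈ LSpace ((n : ℤ) • Eb))
    (hdeg1 : ∀ P : Place Kb (FK M), P.deg = 1) :
    ∃ r : Place Kb (FK M) → Place (kA A) (Fk A M), IsPlaceReductionModL A M r := by
  obtain ⟨r, -, hr, -⟩ := exists_isPlaceReductionModL_strong I ffL ffk genusL genusk hle deg_pos
    deg_eq hint hdeg1
  exact ⟨r, hr⟩

/-- **[R]-ADAPTER**, final form: with `PrincipalGeneratedByIntegral` one gets the Prelude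
proposition `ReductionInputsModL A M`. -/
theorem reductionInputsModL {g gb : ℤ} {E : Divisor Kb (FK M)}
    {Eb : Divisor (kA A) (Fk A M)}
    (ffL : FFFacts Kb (FK M)) (ffk : FFFacts (kA A) (Fk A M))
    (genusL : IsRiemannGenus Kb (FK M) g) (genusk : IsRiemannGenus (kA A) (Fk A M) gb)
    (hle : g ≤ gb)
    (deg_pos : 0 < Divisor.degree E) (deg_eq : Divisor.degree Eb = Divisor.degree E)
    (hint : ∀ (n : ℕ) (y : FK M), y ∈ LSpace ((n : ℤ) • E) → ∀ hy : y ∈ I.O,
      (⟨I.ρ ⟨y, hy⟩, I.ρ_mem _⟩ : Fk A M) ∈ LSpace ((n : ℤ) • Eb))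
    (hdeg1 : ∀ P : Place Kb (FK M), P.deg = 1)
    (hgen : PrincipalGeneratedByIntegral A (IsLocalRing.residue A) M) :
    ReductionInputsModL A M := by
  obtain ⟨r, hr⟩ := exists_isPlaceReductionModL I ffL ffk genusL genusk hle deg_pos deg_eq hint
    hdeg1
  exact ⟨r, hr, hgen⟩

end Final

end Fermat.Agent.S37.RAdapter43
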