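/-
S37 moonshot, package [R]-INST, FINAL WIRING (helper43, second seat):
`ReductionInputsModL A M` (the Prelude proposition: existence of a place reduction with degree
preservation and conservation + `PrincipalGeneratedByIntegral`) at every level `M` with
`(M : k) ≠ 0`, from EXACTLY the two hypotheses that S18's `LevelFinal29.nonempty_levelData_of`
still needs: the genus inequality `GenusProp` and the lattice lemma `LatticeM` for helper28's
concrete frame.

Wiring: `RAdapter43.reductionInputsModL` (abstract Deuring reduction `Deuring43`) with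
* Gauss inputs = `LevelInst29.OF'/rhoF'` of `Bridge28.frame` + `hrange_frame` + the lattice lemma;
* generic fibre = `LevelFF12` (HasPrincipalDivisors, degree one, `E = (j)_∞`, Riemann genus `γ M`);
* special fibre = `DW63` in the `LevelAsm29.algRatC` chain (FFFacts, Riemann genus `dwGenus`,
  `poleDiv = (j̄)_∞` of degree `ψ(M)` by `LevelFinal29.degProp`) + `FFInstFullC5` (principal divisors);
* anchor = `Anchor51.anchor'`;  `PrincipalGeneratedByIntegral` = `IntFracInst57`.
-/
import Mathlib
import Fermat.Agent.S37.RAdapter43
import Fermat.Agent.S37.Anchor51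
import Fermat.Agent.S37.IntFracInst57
import Fermat.Agent.S18.LevelFinal29
import Fermat.Agent.S18.FFInstFullC5

set_option autoImplicit false
set_option linter.unusedSectionVars false
set_option linter.unusedVariables false
set_option linter.style.haveILetI false
set_option synthInstance.maxHeartbeats 400000
set_option maxHeartbeats 1600000

open ModularCurve AlgebraicCurve HahnSeries IntermediateField Polynomial Module

noncomputable section

namespace Fermat.Agent.S37.RInst43

open Fermat.Agent.S18.Spine33 Fermat.Agent.S18.Bridge28 Fermat.Agent.S18.BridgeKernel15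
open Fermat.Agent.S18.LevelInst29 Fermat.Agent.S18.LevelAsm29 Fermat.Agent.S18.LevelFinal29
open Fermat.Agent.S18 Fermat.Agent.S20 Fermat.Agent.S20.T1 Fermat.Agent.S24
open Fermat.Agent.S37.RAdapter43

variable (A : ValuationSubring Kb) (M : ℕ) [NeZero M] (hMk : (M : kA A) ≠ 0)

/-- the Gauss inputs of `RAdapter43` from the concrete frame and the lattice lemma -/
def gaussInputs (hlattice : LatticeM A M hMk) : GaussInputs A M where
  O := OF' (frame A M hMk) (modularFunctionFieldBar M) (frame_F A M hMk)
  ρ := rhoF' (frame A M hMk) (modularFunctionFieldBar M) (frame_F A M hMk)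
  ker_ρ := ker_rhoF' (frame A M hMk) (modularFunctionFieldBar M) (frame_F A M hMk)
  ρ_incl := rhoF'_incl (frame A M hMk) (modularFunctionFieldBar M) (frame_F A M hMk)
  const_mem := const_mem_OF' (frame A M hMk) (modularFunctionFieldBar M) (frame_F A M hMk)
  ρ_const := rhoF'_const (frame A M hMk) (modularFunctionFieldBar M) (frame_F A M hMk)
  ρ_mem := hrange_frame A M hMk
  lattice := hlattice


/-- the `j`-function of the frame is the `S24` generator `jF M` -/
theorem jF'_eq_jF :
    Anchor51.jF' (frame A M hMk) (modularFunctionFieldBar M) (frame_F A M hMk) = jF M :=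
  Subtype.ext (hj_frame A M hMk)

/-- the reduction map of the frame, with values in `F̄_M` -/
def redM :
    OF' (frame A M hMk) (modularFunctionFieldBar M) (frame_F A M hMk) →+* FC (kA A) M :=
  (rhoF' (frame A M hMk) (modularFunctionFieldBar M) (frame_F A M hMk)).codRestrict
    (modularFunctionFieldFullC (kA A) M) (hrange_frame A M hMk)

theorem coe_redM
    (y : OF' (frame A M hMk) (modularFunctionFieldBar M) (frame_F A M hMk)) :
    ((redM A M hMk y : FC (kA A) M) : LaurentSeries (kA A)) =
      rhoF' (frame A M hMk) (modularFunctionFieldBar M) (frame_F A M hMk) y := rfl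

/-- the reduction of `j` is the generator `X ↦ j̄` of the RatFunc chain of the special fibre -/
theorem redM_j :
    letI := algRatC (kA A) M
    redM A M hMk ⟨Anchor51.jF' (frame A M hMk) (modularFunctionFieldBar M) (frame_F A M hMk),
      Anchor51.jF'_mem (frame A M hMk) (modularFunctionFieldBar M) (frame_F A M hMk)⟩ =
      xF (kA A) (FC (kA A) M) := by
  letI := algRatC (kA A) M
  apply Subtype.ext
  rw [coe_redM]
  have h1 : ((xF (kA A) (FC (kA A) M) : FC (kA A) M) : LaurentSeries (kA A)) = jqModC (kA A) :=
    xMapsToJ (kA A) M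
  rw [h1, ← ht_frame A M hMk]
  rfl


/-- **[R]-INST**: `ReductionInputsModL A M` from the genus inequality and the lattice lemma. -/
theorem reductionInputs_of [IsAlgClosed (kA A)] (hgenus : GenusProp M A hMk)
    (hlattice : LatticeM A M hMk) : ReductionInputsModL A M := by
  classical
  -- generic fibre
  haveI := LevelFF12.hasPD M
  -- special fibre instances
  letI := algRatC (kA A) M
  letI := algPolyC (kA A) M
  haveI := towerKC (kA A) M
  haveI := towerPolyC (kA A) M
  haveI := finiteRatC (kA A) M hMk
  haveI := sepRatC (kA A) M hMk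
  haveI : HasPrincipalDivisors (kA A) (FC (kA A) M) :=
    FFInstFullC5.hasPrincipalDivisors_fullC (kA A) M hMk
  -- the function-field facts
  have ffL : Riemann12.FFFacts Kb (FK M) := by
    letI := LevelFF12.algRatFM M
    letI := LevelFF12.algPolyFM M
    haveI := LevelFF12.towerK M
    haveI := LevelFF12.towerPoly M
    haveI := LevelFF12.finiteRat M
    haveI := LevelFF12.sepRat M
    exact DW63.ffFacts
  have ffk : Riemann12.FFFacts (kA A) (FC (kA A) M) := DW63.ffFacts
  have genusL : Riemann12.IsRiemannGenus Kb (FK M) (LevelFF12.γ M) := LevelFF12.isRiemannGenus M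
  have genusk : Riemann12.IsRiemannGenus (kA A) (FC (kA A) M)
      (DW63.dwGenus (kA A) (FC (kA A) M) : ℤ) := DW63.isRiemannGenus_dwGenus
  have hle : LevelFF12.γ M ≤ (DW63.dwGenus (kA A) (FC (kA A) M) : ℤ) := by
    have h : LevelFF12.γnat M ≤ DW63.dwGenus (kA A) (FC (kA A) M) := hgenus
    show ((LevelFF12.γnat M : ℕ) : ℤ) ≤ _
    exact_mod_cast h
  have deg_pos : 0 < Divisor.degree (LevelFF12.E M) := LevelFF12.deg_E_pos M
  have deg_eq : Divisor.degree (DW63.poleDiv (kA A) (FC (kA A) M)) =
      Divisor.degree (LevelFF12.E M) := by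
    rw [DW63.degree_poleDiv, LevelFF12.deg_E]
    have h : finrank (RatFunc (kA A)) (FC (kA A) M) = dedekindPsi M := degProp A M hMk
    rw [h]
    rfl
  have hdeg1 : ∀ P : Place Kb (FK M), P.deg = 1 := LevelFF12.deg_eq_one M
  have hgen : PrincipalGeneratedByIntegral A (IsLocalRing.residue A) M :=
    IntFracInst57.principalGeneratedByIntegral A M hMk
  -- the anchor
  have hint : ∀ (n : ℕ) (y : FK M), y ∈ Riemann12.LSpace ((n : ℤ) • LevelFF12.E M) →
      ∀ hy : y ∈ (gaussInputs A M hMk hlattice).O,
        (⟨(gaussInputs A M hMk hlattice).ρ ⟨y, hy⟩, (gaussInputs A M hMk hlattice).ρ_mem _⟩ :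
          Fk A M) ∈ Riemann12.LSpace ((n : ℤ) • DW63.poleDiv (kA A) (FC (kA A) M)) := by
    intro n y hy hyO
    rw [Riemann12.LSpace_eq_riemannRochSpace] at hy ⊢
    haveI hfin : FiniteDimensional
        Kb⟮Anchor51.jF' (frame A M hMk) (modularFunctionFieldBar M) (frame_F A M hMk)⟯
        (modularFunctionFieldBar M) := by
      rw [jF'_eq_jF A M hMk]
      exact LevelFF12.hfin M
    have hE : ∀ P : Place Kb (modularFunctionFieldBar M), LevelFF12.E M P =
        max 0 (-(P.ord (Anchor51.jF' (frame A M hMk) (modularFunctionFieldBar M)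
          (frame_F A M hMk)))) := by
      intro P
      rw [jF'_eq_jF A M hMk]
      exact LevelFF12.E_apply M P
    have hEb : ∀ Q : Place (kA A) (FC (kA A) M), DW63.poleDiv (kA A) (FC (kA A) M) Q =
        max 0 (-(Q.ord (redM A M hMk
          ⟨Anchor51.jF' (frame A M hMk) (modularFunctionFieldBar M) (frame_F A M hMk),
            Anchor51.jF'_mem (frame A M hMk) (modularFunctionFieldBar M)
              (frame_F A M hMk)⟩))) := by
      intro Q
      rw [redM_j A M hMk]
      exact DW63.poleDiv_apply (kA A) (FC (kA A) M) Q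
    exact Anchor51.anchor' (frame A M hMk) (modularFunctionFieldBar M) (frame_F A M hMk)
      (modularFunctionFieldFullC (kA A) M).val (redM A M hMk) (fun _ => rfl) n
      (LevelFF12.E M) (DW63.poleDiv (kA A) (FC (kA A) M)) hE hEb hyO hy
  exact RAdapter43.reductionInputsModL (gaussInputs A M hMk hlattice) ffL ffk genusL genusk hle
    deg_pos deg_eq hint hdeg1 hgen


/-- the same for `A` over `ℓ`, `ℓ ∤ M` (hypotheses verbatim those of
`LevelFinal29.nonempty_levelData_of_liesOver`) -/
theorem reductionInputs_of_liesOver {ℓ : ℕ} [Fact ℓ.Prime] (hA : A.LiesOverPrime ℓ)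
    (hM : ¬ ℓ ∣ M)
    (hgenus : haveI := ValRing25.residueField_isAlgClosed A
      GenusProp M A (natCast_residueField_ne_zero A hA hM))
    (hlattice : LatticeM A M (natCast_residueField_ne_zero A hA hM)) :
    ReductionInputsModL A M := by
  haveI := ValRing25.residueField_isAlgClosed A
  exact reductionInputs_of A M (natCast_residueField_ne_zero A hA hM) hgenus hlattice

end Fermat.Agent.S37.RInst43
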