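/-
S37, package (A) = top-level REDUCTION (helper41).

`SpecializationExists N p J` (Prelude `Def_HeckeGalois_EichlerShimura`) for ANY abelian group `J`
with commuting `HeckeAlg`- and `Gal(ℚ̄/ℚ)`-actions follows from the existence, for every prime
`ℓ ∤ N p` and every valuation subring `A` of `ℚ̄` over `ℓ`, of ONE additive map
`Red : J →+ B` into an abelian group `B` with an additive automorphism `Φ` such that

* (i)   `Red (τ • x) = Red x` for `τ` in the inertia group of `A`,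
* (ii)  `Red (σ • x) = Φ (Red x)` for every Frobenius lift `σ` at `A`,
* (iii) `Red (T_ℓ • x) = Φ (Red x) + ℓ • Φ⁻¹ (Red x)`   (Eichler–Shimura congruence),
* (iv)  `Red` is injective on `p`-power torsion.

No Hecke-module structure on `B` and no Hecke-equivariance of `Red` (except (iii) for the single
operator `T_ℓ`) is needed: the witness is the universal quotient `J' = J ⧸ M`.
-/
import Mathlib
import Fermat.Prelude.Def_HeckeGalois_EichlerShimura
import Fermat.Prelude.Def_ModularCurve_HeckeModule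
import Fermat.Agent.Lib.FrobeniusExists

set_option autoImplicit false

namespace Fermat.Agent.S37.Reduce41

open ModularCurve

local notation "Qb" => AlgebraicClosure ℚ
local notation "GQ" => (AlgebraicClosure ℚ ≃ₐ[ℚ] AlgebraicClosure ℚ)

/-- Two Frobenius lifts at `A` differ by an element of the inertia group. -/
theorem inv_mul_mem_inertia {A : ValuationSubring Qb} {ℓ : ℕ} {σ₀ σ : GQ}
    (h₀ : A.IsFrobeniusAt σ₀ ℓ) (h : A.IsFrobeniusAt σ ℓ) :
    σ₀⁻¹ * σ ∈ A.inertiaSubgroupIn ℚ := by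
  have hmem₀ := h₀.mem_decompositionSubgroup
  have hmem := h.mem_decompositionSubgroup
  refine ⟨⟨σ₀, hmem₀⟩⁻¹ * ⟨σ, hmem⟩, ?_, rfl⟩
  change _ ∈ MonoidHom.ker _
  rw [MonoidHom.mem_ker]
  ext x
  change ((⟨σ₀, hmem₀⟩ : A.decompositionSubgroup ℚ)⁻¹ * ⟨σ, hmem⟩) • x = x
  rw [mul_smul, h.smul_residue_eq x, inv_smul_eq_iff]
  exact (h₀.smul_residue_eq x).symm

section Kernel

variable {J : Type} [AddCommGroup J] [Module HeckeAlg J] [DistribMulAction GQ J]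
  [SMulCommClass GQ HeckeAlg J]

/-- The forced relations: `σ₀ᵏ (τ y - y)` (`τ` inertia) and
`σ₀ᵏ (σ² z - T_ℓ σ z + ℓ z)` (`σ` a Frobenius lift). -/
def gens (A : ValuationSubring Qb) (ℓ : Nat.Primes) (σ₀ : GQ) : Set J :=
  {m | ∃ (k : ℕ) (τ : GQ) (y : J), τ ∈ A.inertiaSubgroupIn ℚ ∧ m = σ₀ ^ k • (τ • y - y)} ∪
  {m | ∃ (k : ℕ) (σ : GQ) (z : J), A.IsFrobeniusAt σ (ℓ : ℕ) ∧
      m = σ₀ ^ k • (σ • σ • z - heckeGen ℓ • (σ • z) + (ℓ : ℕ) • z)}

theorem smul_mem_gens (A : ValuationSubring Qb) (ℓ : Nat.Primes) (σ₀ : GQ) (T : HeckeAlg) {m : J}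
    (hm : m ∈ gens (J := J) A ℓ σ₀) : T • m ∈ gens (J := J) A ℓ σ₀ := by
  have : SMulCommClass HeckeAlg GQ J := SMulCommClass.symm _ _ _
  rcases hm with ⟨k, τ, y, hτ, rfl⟩ | ⟨k, σ, z, hσ, rfl⟩
  · left
    refine ⟨k, τ, T • y, hτ, ?_⟩
    rw [smul_comm T (σ₀ ^ k), smul_sub, smul_comm T τ y]
  · right
    refine ⟨k, σ, T • z, hσ, ?_⟩
    rw [smul_comm T (σ₀ ^ k), smul_add, smul_sub, smul_comm T σ (σ • z), smul_comm T σ z,
      smul_smul T (heckeGen ℓ), mul_comm T (heckeGen ℓ), ← smul_smul (heckeGen ℓ) T,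
      smul_comm T ((ℓ : ℕ)) z, smul_comm T σ z]

omit [SMulCommClass GQ HeckeAlg J] in
theorem frob_smul_mem_gens (A : ValuationSubring Qb) (ℓ : Nat.Primes) (σ₀ : GQ) {m : J}
    (hm : m ∈ gens (J := J) A ℓ σ₀) : σ₀ • m ∈ gens (J := J) A ℓ σ₀ := by
  rcases hm with ⟨k, τ, y, hτ, rfl⟩ | ⟨k, σ, z, hσ, rfl⟩
  · left
    exact ⟨k + 1, τ, y, hτ, by rw [pow_succ', mul_smul]⟩
  · right
    exact ⟨k + 1, σ, z, hσ, by rw [pow_succ', mul_smul]⟩

/-- The kernel `M` as a `HeckeAlg`-submodule. -/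
def kerM (A : ValuationSubring Qb) (ℓ : Nat.Primes) (σ₀ : GQ) : Submodule HeckeAlg J where
  carrier := AddSubgroup.closure (gens (J := J) A ℓ σ₀)
  add_mem' := fun ha hb => AddSubgroup.add_mem _ ha hb
  zero_mem' := AddSubgroup.zero_mem _
  smul_mem' := by
    intro T m hm
    change m ∈ AddSubgroup.closure (gens (J := J) A ℓ σ₀) at hm
    change T • m ∈ AddSubgroup.closure (gens (J := J) A ℓ σ₀)
    induction hm using AddSubgroup.closure_induction with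
    | mem x hx => exact AddSubgroup.subset_closure (smul_mem_gens A ℓ σ₀ T hx)
    | zero => rw [smul_zero]; exact AddSubgroup.zero_mem _
    | add x y _ _ hx hy => rw [smul_add]; exact AddSubgroup.add_mem _ hx hy
    | neg x _ hx => rw [smul_neg]; exact AddSubgroup.neg_mem _ hx

theorem mem_kerM_of_mem_gens {A : ValuationSubring Qb} {ℓ : Nat.Primes} {σ₀ : GQ} {m : J}
    (hm : m ∈ gens (J := J) A ℓ σ₀) : m ∈ kerM (J := J) A ℓ σ₀ :=
  AddSubgroup.subset_closure hm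

theorem frob_smul_mem_kerM {A : ValuationSubring Qb} {ℓ : Nat.Primes} {σ₀ : GQ} {m : J}
    (hm : m ∈ kerM (J := J) A ℓ σ₀) : σ₀ • m ∈ kerM (J := J) A ℓ σ₀ := by
  change m ∈ AddSubgroup.closure (gens (J := J) A ℓ σ₀) at hm
  change σ₀ • m ∈ AddSubgroup.closure (gens (J := J) A ℓ σ₀)
  induction hm using AddSubgroup.closure_induction with
  | mem x hx => exact AddSubgroup.subset_closure (frob_smul_mem_gens A ℓ σ₀ hx)
  | zero => rw [smul_zero]; exact AddSubgroup.zero_mem _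
  | add x y _ _ hx hy => rw [smul_add]; exact AddSubgroup.add_mem _ hx hy
  | neg x _ hx => rw [smul_neg]; exact AddSubgroup.neg_mem _ hx

/-- Any `Red` with (i), (ii), (iii) kills `M`. -/
theorem red_eq_zero_of_mem_kerM {A : ValuationSubring Qb} {ℓ : Nat.Primes} {σ₀ : GQ}
    (hσ₀ : A.IsFrobeniusAt σ₀ (ℓ : ℕ))
    {B : Type*} [AddCommGroup B] (Φ : B ≃+ B) (Red : J →+ B)
    (hI : ∀ τ ∈ A.inertiaSubgroupIn ℚ, ∀ x : J, Red (τ • x) = Red x)
    (hF : ∀ σ : GQ, A.IsFrobeniusAt σ (ℓ : ℕ) → ∀ x : J, Red (σ • x) = Φ (Red x))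
    (hES : ∀ x : J, Red (heckeGen ℓ • x) = Φ (Red x) + (ℓ : ℕ) • Φ.symm (Red x))
    {m : J} (hm : m ∈ kerM (J := J) A ℓ σ₀) : Red m = 0 := by
  have hpow : ∀ (k : ℕ) (w : J), Red w = 0 → Red (σ₀ ^ k • w) = 0 := by
    intro k
    induction k with
    | zero => intro w hw; simpa using hw
    | succ k ih =>
      intro w hw
      rw [pow_succ', mul_smul, hF σ₀ hσ₀, ih w hw, map_zero]
  change m ∈ AddSubgroup.closure (gens (J := J) A ℓ σ₀) at hm
  induction hm using AddSubgroup.closure_induction with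
  | mem x hx =>
    rcases hx with ⟨k, τ, y, hτ, rfl⟩ | ⟨k, σ, z, hσ, rfl⟩
    · apply hpow
      rw [map_sub, hI τ hτ, sub_self]
    · apply hpow
      rw [map_add, map_sub, hF σ hσ, hF σ hσ, hES, hF σ hσ, AddEquiv.symm_apply_apply, map_nsmul]
      abel
  | zero => exact map_zero Red
  | add x y _ _ hx hy => rw [map_add, hx, hy, add_zero]
  | neg x _ hx => rw [map_neg, hx, neg_zero]

end Kernel

/-- **Top-level reduction of S37.** -/
theorem specializationExists_of_red (N p : ℕ) (J : Type) [AddCommGroup J] [Module HeckeAlg J]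
    [DistribMulAction GQ J] [SMulCommClass GQ HeckeAlg J]
    (H : ∀ (ℓ : ℕ) (hℓ : ℓ.Prime), ¬ ℓ ∣ N * p → ∀ A : ValuationSubring Qb, A.LiesOverPrime ℓ →
      ∃ (B : Type) (_ : AddCommGroup B) (Φ : B ≃+ B) (Red : J →+ B),
        (∀ τ ∈ A.inertiaSubgroupIn ℚ, ∀ x : J, Red (τ • x) = Red x) ∧
        (∀ σ : GQ, A.IsFrobeniusAt σ ℓ → ∀ x : J, Red (σ • x) = Φ (Red x)) ∧
        (∀ x : J, Red (heckeGen ⟨ℓ, hℓ⟩ • x) = Φ (Red x) + ℓ • Φ.symm (Red x)) ∧
        (∀ x : J, (∃ n : ℕ, p ^ n • x = 0) → Red x = 0 → x = 0)) :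
    SpecializationExists (K := ℚ) (L := Qb) N p J := by
  intro ℓ hℓ hℓNp A hA
  obtain ⟨B, _, Φ, Red, hI, hF, hES, hinj⟩ := H ℓ hℓ hℓNp A hA
  obtain ⟨σ₀, hσ₀⟩ := Fermat.Agent.Lib.FrobeniusExists.exists_isFrobeniusAt A hℓ hA
  let ℓ' : Nat.Primes := ⟨ℓ, hℓ⟩
  let M : Submodule HeckeAlg J := kerM (J := J) A ℓ' σ₀
  let φ₀ : J →ₗ[HeckeAlg] J := DistribSMul.toLinearMap HeckeAlg J σ₀
  have hφ₀ : M ≤ M.comap φ₀ := fun m hm => frob_smul_mem_kerM (A := A) (ℓ := ℓ') hm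
  refine ⟨J ⧸ M, inferInstance, inferInstance, M.mkQ.toAddMonoidHom,
    (M.mapQ M φ₀ hφ₀).toAddMonoidHom, ⟨?_, ?_, ?_, ?_⟩, ?_⟩
  · -- hecke_comm
    intro T x
    exact map_smul M.mkQ T x
  · -- inertia_comm
    intro τ hτ x
    change M.mkQ (τ • x) = M.mkQ x
    rw [← sub_eq_zero, ← map_sub, Submodule.mkQ_apply, Submodule.Quotient.mk_eq_zero]
    exact mem_kerM_of_mem_gens (Or.inl ⟨0, τ, x, hτ, by rw [pow_zero, one_smul]⟩)
  · -- frobenius_comm
    intro σ hσ x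
    change M.mkQ (σ • x) = M.mapQ M φ₀ hφ₀ (M.mkQ x)
    rw [Submodule.mkQ_apply, Submodule.mkQ_apply, Submodule.mapQ_apply, ← sub_eq_zero,
      ← Submodule.Quotient.mk_sub, Submodule.Quotient.mk_eq_zero]
    refine mem_kerM_of_mem_gens (Or.inl ⟨1, σ₀⁻¹ * σ, x, inv_mul_mem_inertia hσ₀ hσ, ?_⟩)
    change σ • x - σ₀ • x = _
    rw [pow_one, smul_sub, smul_smul, mul_inv_cancel_left]
  · -- injective_torsion
    intro x hx hsp
    apply hinj x hx
    have hxM : x ∈ M := by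
      have : M.mkQ x = 0 := hsp
      rwa [Submodule.mkQ_apply, Submodule.Quotient.mk_eq_zero] at this
    exact red_eq_zero_of_mem_kerM (A := A) (ℓ := ℓ') hσ₀ Φ Red hI hF hES hxM
  · -- SpecialFibreRelation
    intro y
    obtain ⟨z, rfl⟩ := M.mkQ_surjective y
    change M.mapQ M φ₀ hφ₀ (M.mapQ M φ₀ hφ₀ (M.mkQ z)) -
      heckeGen ⟨ℓ, hℓ⟩ • M.mapQ M φ₀ hφ₀ (M.mkQ z) + ℓ • M.mkQ z = 0
    rw [Submodule.mkQ_apply, Submodule.mapQ_apply, Submodule.mapQ_apply,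
      ← Submodule.Quotient.mk_smul, ← Submodule.Quotient.mk_sub, ← Submodule.Quotient.mk_smul,
      ← Submodule.Quotient.mk_add, Submodule.Quotient.mk_eq_zero]
    refine mem_kerM_of_mem_gens (Or.inr ⟨0, σ₀, z, hσ₀, ?_⟩)
    rw [pow_zero, one_smul]
    rfl

/-- **S37 in plug form.**  The conclusion is literally the frozen S37 statement; the only hypothesis
left is `H` (for every `ℓ ∤ N p` and every `A` over `ℓ`: a reduction map out of `J₀(N)(ℚ̄)` with the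
four properties, the Eichler–Shimura congruence being stated for the concrete operator
`heckeOperatorBar N ℓ`). -/
theorem S37_of_red (N p : ℕ) [NeZero N] (hcomm : HeckeOperatorsCommuteBar N)
    (H : ∀ (ℓ : ℕ) (hℓ : ℓ.Prime), ¬ ℓ ∣ N * p → ∀ A : ValuationSubring Qb, A.LiesOverPrime ℓ →
      ∃ (B : Type) (_ : AddCommGroup B) (Φ : B ≃+ B) (Red : JZero N →+ B),
        (∀ τ ∈ A.inertiaSubgroupIn ℚ, ∀ x : JZero N, Red (τ • x) = Red x) ∧
        (∀ σ : GQ, A.IsFrobeniusAt σ ℓ → ∀ x : JZero N, Red (σ • x) = Φ (Red x)) ∧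
        (∀ x : JZero N,
          Red (heckeOperatorBar N ⟨ℓ, hℓ⟩ x) = Φ (Red x) + ℓ • Φ.symm (Red x)) ∧
        (∀ x : JZero N, (∃ n : ℕ, p ^ n • x = 0) → Red x = 0 → x = 0)) :
    letI := heckeModuleBar N
    ∀ (_ : SMulCommClass GQ HeckeAlg (JZero N)),
      SpecializationExists (K := ℚ) (L := Qb) N p (JZero N) := by
  let _ := heckeModuleBar N
  intro _
  apply specializationExists_of_red
  intro ℓ hℓ hℓNp A hA
  obtain ⟨B, iB, Φ, Red, hI, hF, hES, hinj⟩ := H ℓ hℓ hℓNp A hA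
  refine ⟨B, iB, Φ, Red, hI, hF, ?_, hinj⟩
  intro x
  have h := heckeModuleBar_heckeGen_smul hcomm (⟨ℓ, hℓ⟩ : Nat.Primes) x
  exact (congrArg Red h).trans (hES x)

end Fermat.Agent.S37.Reduce41
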