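/-
S37 leaf [RIGIDITY] (helper49): BOUNDED RIGIDITY.

Let `F/K` be a function field with Riemann's inequality `ℓ(G) ≥ deg G + 1 - g`.  Let
`δ : Div(F) →+ G` be a homomorphism into an abelian group carrying an `ℕ`-valued "norm"
(`nrm (x+y) ≤ nrm x + nrm y`, `nrm (-x) = nrm x`, `nrm (n • x) = n * nrm x`, `nrm x = 0 → x = 0`;
e.g. the `ℓ¹`-norm on a free abelian group such as `Div(F̄)`), which
  * vanishes on principal divisors, and
  * is bounded on places: `nrm (δ P) ≤ C` for all places `P`.
Then `δ` vanishes on ALL divisors of degree `0`.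

Proof (Jacobi inversion): for `D` of degree `0` and `n : ℕ`, Riemann gives `z ≠ 0` with
`E := n D + m P₀ + div z ≥ 0` (`m ≥ g`), `deg E = m deg P₀`, so `nrm (δ E) ≤ C m deg P₀`, and
`n • δ D = δ E - m • δ P₀` is bounded independently of `n`; hence `nrm (δ D) = 0`.

This replaces the divisibility of `Pic⁰(F)` in the passage "a congruence that holds on principal
divisors (function level: Kronecker) holds on all divisor classes of degree `0`".
-/
import Mathlib
import Fermat.Agent.S18.Riemann12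

set_option autoImplicit false

open AlgebraicCurve

namespace Fermat.Agent.S37.Rigidity49

open Fermat.Agent.S18.Riemann12

/-! ### The `ℓ¹`-norm on a free abelian group `ι →₀ ℤ` -/

section L1

variable {ι : Type*}

/-- The `ℓ¹`-norm of a finitely supported integer function. -/
def l1 (x : ι →₀ ℤ) : ℕ := x.sum fun _ c => c.natAbs

theorem l1_eq_sum_of_subset (x : ι →₀ ℤ) {s : Finset ι} (hs : x.support ⊆ s) :
    l1 x = ∑ i ∈ s, (x i).natAbs := by
  unfold l1
  rw [Finsupp.sum]
  refine Finset.sum_subset hs fun i _ hi => ?_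
  rw [Finsupp.notMem_support_iff.1 hi]
  rfl

theorem l1_add_le (x y : ι →₀ ℤ) : l1 (x + y) ≤ l1 x + l1 y := by
  classical
  have hx : x.support ⊆ x.support ∪ y.support := Finset.subset_union_left
  have hy : y.support ⊆ x.support ∪ y.support := Finset.subset_union_right
  have hxy : (x + y).support ⊆ x.support ∪ y.support := Finsupp.support_add
  rw [l1_eq_sum_of_subset _ hx, l1_eq_sum_of_subset _ hy, l1_eq_sum_of_subset _ hxy,
    ← Finset.sum_add_distrib]
  refine Finset.sum_le_sum fun i _ => ?_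
  rw [Finsupp.add_apply]
  exact Int.natAbs_add_le _ _

theorem l1_neg (x : ι →₀ ℤ) : l1 (-x) = l1 x := by
  have h : (-x).support ⊆ x.support := by rw [Finsupp.support_neg]
  rw [l1_eq_sum_of_subset _ h, l1_eq_sum_of_subset _ (Finset.Subset.refl _)]
  refine Finset.sum_congr rfl fun i _ => ?_
  rw [Finsupp.neg_apply, Int.natAbs_neg]

theorem l1_nsmul (n : ℕ) (x : ι →₀ ℤ) : l1 (n • x) = n * l1 x := by
  have h : (n • x).support ⊆ x.support := Finsupp.support_smul
  rw [l1_eq_sum_of_subset _ h, l1_eq_sum_of_subset _ (Finset.Subset.refl _), Finset.mul_sum]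
  refine Finset.sum_congr rfl fun i _ => ?_
  rw [Finsupp.smul_apply, nsmul_eq_mul, Int.natAbs_mul, Int.natAbs_natCast]

theorem eq_zero_of_l1_eq_zero (x : ι →₀ ℤ) (h : l1 x = 0) : x = 0 := by
  rw [l1_eq_sum_of_subset _ (Finset.Subset.refl _), Finset.sum_eq_zero_iff] at h
  ext i
  by_cases hi : i ∈ x.support
  · simpa using h i hi
  · simpa using Finsupp.notMem_support_iff.1 hi

theorem l1_single (i : ι) (c : ℤ) : l1 (Finsupp.single i c) = c.natAbs := by
  unfold l1
  rw [Finsupp.sum_single_index]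
  rfl

/-- An effective element has `ℓ¹`-norm equal to the sum of its coefficients. -/
theorem l1_of_nonneg (x : ι →₀ ℤ) (hx : 0 ≤ x) : (l1 x : ℤ) = x.sum fun _ c => c := by
  unfold l1
  rw [Finsupp.sum, Finsupp.sum, Nat.cast_sum]
  refine Finset.sum_congr rfl fun i _ => ?_
  exact Int.natAbs_of_nonneg (hx i)

end L1

/-! ### The abstract rigidity lemma -/

section Rigidity

variable {K F : Type*} [Field K] [Field F] [Algebra K F]

/-- Sum of the coefficients of a divisor. -/
noncomputable def coeffSum (E : Divisor K F) : ℤ := E.sum fun _ c => c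

theorem coeffSum_le_degree (hdeg : ∀ v : Place K F, 1 ≤ v.deg) (E : Divisor K F) (hE : 0 ≤ E) :
    coeffSum E ≤ Divisor.degree E := by
  unfold coeffSum
  have hdegree : Divisor.degree E = E.sum fun v c => c * (v.deg : ℤ) := by
    simp [Divisor.degree, Finsupp.liftAddHom_apply]
  rw [hdegree, Finsupp.sum, Finsupp.sum]
  refine Finset.sum_le_sum fun v _ => ?_
  have h1 : (1 : ℤ) ≤ (v.deg : ℤ) := by exact_mod_cast hdeg v
  have h2 : (0 : ℤ) ≤ E v := hE v
  nlinarith

variable {G : Type*} [AddCommGroup G] (nrm : G → ℕ)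

/-- The norm of `δ E` for an effective divisor `E` is at most `C` times the sum of the
coefficients of `E`. -/
theorem nrm_le_of_effective
    (nrm_zero : nrm 0 = 0)
    (nrm_add : ∀ x y, nrm (x + y) ≤ nrm x + nrm y)
    (nrm_nsmul : ∀ (n : ℕ) x, nrm (n • x) = n * nrm x)
    (δ : Divisor K F →+ G) (C : ℕ)
    (hC : ∀ v : Place K F, nrm (δ (Finsupp.single v 1)) ≤ C)
    (E : Divisor K F) (hE : 0 ≤ E) : (nrm (δ E) : ℤ) ≤ C * coeffSum E := by
  classical
  unfold coeffSum
  induction E using Finsupp.induction with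
  | zero => simp [nrm_zero]
  | single_add v c E hv hc ih =>
    have hcv : 0 ≤ c := by
      have := hE v
      simpa [Finsupp.add_apply, Finsupp.notMem_support_iff.1 hv] using this
    have hE' : 0 ≤ E := by
      intro w
      by_cases hw : w = v
      · subst hw; simp [Finsupp.notMem_support_iff.1 hv]
      · have := hE w
        simpa [Finsupp.add_apply, Finsupp.single_apply, Ne.symm hw] using this
    have ih' := ih hE'
    rw [map_add, Finsupp.sum_add_index' (fun _ => rfl) (fun _ _ _ => rfl),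
      Finsupp.sum_single_index rfl]
    have h1 : (nrm (δ (Finsupp.single v c)) : ℤ) ≤ C * c := by
      lift c to ℕ using hcv
      have hs : (Finsupp.single v (c : ℤ) : Divisor K F) = c • Finsupp.single v 1 := by
        rw [Finsupp.smul_single, nsmul_eq_mul, mul_one]
      rw [hs, map_nsmul, nrm_nsmul]
      have := hC v
      push_cast
      have hc0 : (0 : ℤ) ≤ (c : ℤ) := by positivity
      have : (nrm (δ (Finsupp.single v 1)) : ℤ) ≤ C := by exact_mod_cast this
      nlinarith
    have h2 := nrm_add (δ (Finsupp.single v c)) (δ E)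
    have h2' : (nrm (δ (Finsupp.single v c) + δ E) : ℤ)
        ≤ nrm (δ (Finsupp.single v c)) + nrm (δ E) := by exact_mod_cast h2
    linarith

variable [HasPrincipalDivisors K F]

/-- **Bounded rigidity.**  A homomorphism from divisors to a normed abelian group which kills
principal divisors and is bounded on places kills all divisors of degree `0`.  Only Riemann's
INEQUALITY is used. -/
theorem rigidity {g : ℤ}
    (hR : ∀ D : Divisor K F, Divisor.degree D + 1 - g ≤ (ell D : ℤ))
    (hdeg : ∀ v : Place K F, 1 ≤ v.deg) (P₀ : Place K F)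
    (nrm_add : ∀ x y, nrm (x + y) ≤ nrm x + nrm y)
    (nrm_neg : ∀ x, nrm (-x) = nrm x)
    (nrm_nsmul : ∀ (n : ℕ) x, nrm (n • x) = n * nrm x)
    (nrm_eq_zero : ∀ x, nrm x = 0 → x = 0)
    (δ : Divisor K F →+ G)
    (hprin : ∀ z : F, z ≠ 0 → δ (divOf z) = 0)
    (C : ℕ) (hC : ∀ v : Place K F, nrm (δ (Finsupp.single v 1)) ≤ C)
    (D : Divisor K F) (hD : Divisor.degree D = 0) : δ D = 0 := by
  have nrm_zero : nrm 0 = 0 := by simpa using nrm_nsmul 0 0
  apply nrm_eq_zero
  -- `m ≥ g`
  set m : ℕ := g.toNat with hm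
  have hmg : g ≤ (m : ℤ) := by rw [hm]; exact Int.self_le_toNat g
  set d₀ : ℤ := (P₀.deg : ℤ) with hd₀
  have hd₀1 : (1 : ℤ) ≤ d₀ := by rw [hd₀]; exact_mod_cast hdeg P₀
  -- the bound
  have key : ∀ n : ℕ, (n : ℤ) * nrm (δ D) ≤ C * (m * d₀) + m * C := by
    intro n
    set Gn : Divisor K F := n • D + m • Finsupp.single P₀ 1 with hGn
    have hdegGn : Divisor.degree Gn = m * d₀ := by
      rw [hGn, map_add, map_nsmul, map_nsmul, hD, Divisor.degree_single]
      simp [hd₀]
    have hell : 0 < ell Gn := by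
      have h1 := hR Gn
      rw [hdegGn] at h1
      have : (0 : ℤ) < (ell Gn : ℤ) := by nlinarith
      exact_mod_cast this
    -- a nonzero element of `L(Gn)`
    obtain ⟨z, hz0, hz⟩ : ∃ z : F, z ≠ 0 ∧ z ∈ LSpace Gn := by
      have : Module.Finite K (LSpace Gn) := Module.finite_of_finrank_pos hell
      obtain ⟨z, hz⟩ := Module.finrank_pos_iff_exists_ne_zero.1 hell
      exact ⟨z, fun h0 => hz (Subtype.ext h0), z.2⟩
    rw [mem_LSpace_iff_divOf hz0] at hz
    set E : Divisor K F := Gn + divOf z with hE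
    have hdegE : Divisor.degree E = m * d₀ := by
      rw [hE, map_add, degree_divOf, add_zero, hdegGn]
    have hδE : δ E = n • δ D + m • δ (Finsupp.single P₀ 1) := by
      rw [hE, map_add, hprin z hz0, add_zero, hGn, map_add, map_nsmul, map_nsmul]
    have hbound := nrm_le_of_effective nrm nrm_zero nrm_add nrm_nsmul δ C hC E hz
    have hcs := coeffSum_le_degree hdeg E hz
    rw [hdegE] at hcs
    -- `n • δ D = δ E - m • δ P₀`
    have hnD : n • δ D = δ E + -(m • δ (Finsupp.single P₀ 1)) := by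
      rw [hδE]; abel
    have h3 : nrm (n • δ D) ≤ nrm (δ E) + nrm (m • δ (Finsupp.single P₀ 1)) := by
      rw [hnD]
      refine (nrm_add _ _).trans ?_
      rw [nrm_neg]
    rw [nrm_nsmul, nrm_nsmul] at h3
    have h3' : (n : ℤ) * nrm (δ D) ≤ nrm (δ E) + m * nrm (δ (Finsupp.single P₀ 1)) := by
      exact_mod_cast h3
    have h4 : (nrm (δ (Finsupp.single P₀ 1)) : ℤ) ≤ C := by exact_mod_cast hC P₀
    have hC0 : (0 : ℤ) ≤ (C : ℤ) := by positivity
    have hm0 : (0 : ℤ) ≤ (m : ℤ) := by positivity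
    nlinarith
  -- conclude
  by_contra hne
  have hpos : (1 : ℤ) ≤ nrm (δ D) := by
    have : 0 < nrm (δ D) := Nat.pos_of_ne_zero hne
    exact_mod_cast this
  set B : ℤ := C * (m * d₀) + m * C with hB
  have hB0 : 0 ≤ B := by
    rw [hB]
    have hC0 : (0 : ℤ) ≤ (C : ℤ) := by positivity
    have hm0 : (0 : ℤ) ≤ (m : ℤ) := by positivity
    have hd0 : (0 : ℤ) ≤ d₀ := by linarith
    have h1 := mul_nonneg hC0 (mul_nonneg hm0 hd0)
    have h2 := mul_nonneg hm0 hC0
    linarith
  have := key (B.toNat + 1)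
  have hBt : ((B.toNat + 1 : ℕ) : ℤ) = B + 1 := by
    push_cast
    rw [Int.toNat_of_nonneg hB0]
  rw [hBt] at this
  nlinarith

/-- **Bounded rigidity, divisor-valued form.**  `δ : Div(F) →+ Div(F')` (any free abelian group
`ι →₀ ℤ` as target) killing principal divisors, with `ℓ¹`-bounded values on places, vanishes on
`Div⁰(F)`. -/
theorem rigidity_finsupp {ι : Type*} {g : ℤ}
    (hR : ∀ D : Divisor K F, Divisor.degree D + 1 - g ≤ (ell D : ℤ))
    (hdeg : ∀ v : Place K F, 1 ≤ v.deg) (P₀ : Place K F)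
    (δ : Divisor K F →+ (ι →₀ ℤ))
    (hprin : ∀ z : F, z ≠ 0 → δ (divOf z) = 0)
    (C : ℕ) (hC : ∀ v : Place K F, l1 (δ (Finsupp.single v 1)) ≤ C)
    (D : Divisor K F) (hD : Divisor.degree D = 0) : δ D = 0 :=
  rigidity l1 hR hdeg P₀ l1_add_le l1_neg l1_nsmul eq_zero_of_l1_eq_zero δ hprin C hC D hD

/-- Variant with the hypothesis on principal divisors stated via `Divisor.principal`. -/
theorem rigidity_finsupp' {ι : Type*} {g : ℤ}
    (hR : ∀ D : Divisor K F, Divisor.degree D + 1 - g ≤ (ell D : ℤ))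
    (hdeg : ∀ v : Place K F, 1 ≤ v.deg) (P₀ : Place K F)
    (δ : Divisor K F →+ (ι →₀ ℤ))
    (hprin : ∀ D ∈ Divisor.principal (K := K) (F := F), δ D = 0)
    (C : ℕ) (hC : ∀ v : Place K F, l1 (δ (Finsupp.single v 1)) ≤ C)
    (D : Divisor K F) (hD : Divisor.degree D = 0) : δ D = 0 := by
  refine rigidity_finsupp hR hdeg P₀ δ (fun z hz => hprin _ ?_) C hC D hD
  exact ⟨z, hz, fun v => divOf_apply hz v⟩

/-- The typical application: `δ = A - B` where `A`, `B` send every place to an EFFECTIVE element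
with coefficient sum at most `c` (e.g. `A = r_* ∘ T_ℓ`, `B = (Φ + ℓ Φ⁻¹) ∘ r_*`, `c = ℓ + 1`). -/
theorem eq_of_agree_on_principal {ι : Type*} {g : ℤ}
    (hR : ∀ D : Divisor K F, Divisor.degree D + 1 - g ≤ (ell D : ℤ))
    (hdeg : ∀ v : Place K F, 1 ≤ v.deg) (P₀ : Place K F)
    (A B : Divisor K F →+ (ι →₀ ℤ))
    (hprin : ∀ z : F, z ≠ 0 → A (divOf z) = B (divOf z))
    (c : ℕ)
    (hA : ∀ v : Place K F, l1 (A (Finsupp.single v 1)) ≤ c)
    (hB : ∀ v : Place K F, l1 (B (Finsupp.single v 1)) ≤ c)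
    (D : Divisor K F) (hD : Divisor.degree D = 0) : A D = B D := by
  have h := rigidity_finsupp hR hdeg P₀ (A - B)
    (fun z hz => by rw [AddMonoidHom.sub_apply, hprin z hz, sub_self]) (c + c)
    (fun v => by
      rw [AddMonoidHom.sub_apply, sub_eq_add_neg]
      refine (l1_add_le _ _).trans ?_
      rw [l1_neg]
      exact Nat.add_le_add (hA v) (hB v)) D hD
  rwa [AddMonoidHom.sub_apply, sub_eq_zero] at h

end Rigidity

/-! ### Consumer forms on top of `Riemann12` -/

section Consumer

variable {K F : Type*} [Field K] [Field F] [Algebra K F] [HasPrincipalDivisors K F]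

omit [HasPrincipalDivisors K F] in
theorem one_le_deg_of_finite (v : Place K F) (h : Module.Finite K v.ResidueField) :
    1 ≤ v.deg := by
  have := h
  exact Module.finrank_pos

/-- Rigidity from `FFFacts` + `IsRiemannGenus` (the `Riemann12` interface). -/
theorem eq_of_agree_on_principal_of_isRiemannGenus {ι : Type*} {g : ℤ}
    (hF : FFFacts K F) (hg : IsRiemannGenus K F g) (P₀ : Place K F)
    (A B : Divisor K F →+ (ι →₀ ℤ))
    (hprin : ∀ z : F, z ≠ 0 → A (divOf z) = B (divOf z))
    (c : ℕ)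
    (hA : ∀ v : Place K F, l1 (A (Finsupp.single v 1)) ≤ c)
    (hB : ∀ v : Place K F, l1 (B (Finsupp.single v 1)) ≤ c)
    (D : Divisor K F) (hD : Divisor.degree D = 0) : A D = B D :=
  eq_of_agree_on_principal hg.1 (fun v => one_le_deg_of_finite v (hF.finite_residue v)) P₀
    A B hprin c hA hB D hD

end Consumer

end Fermat.Agent.S37.Rigidity49
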