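/-
S37, package [UNIV] (helper50): the universal specialization.

`SpecializationExists` lets us choose the target `J'`.  We take the universal quotient
`J ⧸ K`, `K` the Hecke-submodule spanned by `τ x - x` (`τ` in inertia) and
`σ² x - T_ℓ σ x + ℓ x` (`σ` a Frobenius lift).  Every clause of `IsSpecialization` and the
`SpecialFibreRelation` then hold by construction, except `injective_torsion`, which follows from
ANY additive map `red : J →+ X` that is inertia-invariant, kills the Eichler–Shimura elements and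
is injective on `p`-power torsion.  No Hecke action on the special fibre is needed.
-/
import Fermat.Prelude.Def_HeckeGalois_EichlerShimura

set_option autoImplicit false

noncomputable section

namespace Fermat.Agent.S37.Univ50

open ModularCurve

variable {K L : Type*} [Field K] [Field L] [Algebra K L]
variable (J : Type) [AddCommGroup J] [Module HeckeAlg J]
  [DistribMulAction (L ≃ₐ[K] L) J] [SMulCommClass (L ≃ₐ[K] L) HeckeAlg J]

/-- The Eichler–Shimura element attached to `σ` and `x`. -/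
def esElt (ℓ : ℕ) (hℓ : ℓ.Prime) (σ : L ≃ₐ[K] L) (x : J) : J :=
  σ • σ • x - heckeGen ⟨ℓ, hℓ⟩ • (σ • x) + ℓ • x

/-- generators of the universal kernel -/
def gens (A : ValuationSubring L) (ℓ : ℕ) (hℓ : ℓ.Prime) : Set J :=
  {y | ∃ τ ∈ A.inertiaSubgroupIn K, ∃ x : J, y = τ • x - x} ∪
    {y | ∃ σ : L ≃ₐ[K] L, A.IsFrobeniusAt σ ℓ ∧ ∃ x : J, y = esElt J ℓ hℓ σ x}

/-- the universal kernel -/
def kerU (A : ValuationSubring L) (ℓ : ℕ) (hℓ : ℓ.Prime) : Submodule HeckeAlg J :=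
  Submodule.span HeckeAlg (gens (K := K) J A ℓ hℓ)

variable {J}

omit [SMulCommClass (L ≃ₐ[K] L) HeckeAlg J] in
theorem inertia_mem_kerU (A : ValuationSubring L) (ℓ : ℕ) (hℓ : ℓ.Prime)
    {τ : L ≃ₐ[K] L} (hτ : τ ∈ A.inertiaSubgroupIn K) (x : J) :
    τ • x - x ∈ kerU (K := K) J A ℓ hℓ :=
  Submodule.subset_span (Or.inl ⟨τ, hτ, x, rfl⟩)

omit [SMulCommClass (L ≃ₐ[K] L) HeckeAlg J] in
theorem es_mem_kerU (A : ValuationSubring L) (ℓ : ℕ) (hℓ : ℓ.Prime)
    {σ : L ≃ₐ[K] L} (hσ : A.IsFrobeniusAt σ ℓ) (x : J) :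
    esElt J ℓ hℓ σ x ∈ kerU (K := K) J A ℓ hℓ :=
  Submodule.subset_span (Or.inr ⟨σ, hσ, x, rfl⟩)

/-- Any additive map killing the generators kills the universal kernel
(the generator set is stable under the Hecke action). -/
theorem kerU_le_ker {X : Type*} [AddCommGroup X] (red : J →+ X)
    (A : ValuationSubring L) (ℓ : ℕ) (hℓ : ℓ.Prime)
    (hI : ∀ τ ∈ A.inertiaSubgroupIn K, ∀ x : J, red (τ • x) = red x)
    (hES : ∀ σ : L ≃ₐ[K] L, A.IsFrobeniusAt σ ℓ → ∀ x : J, red (esElt J ℓ hℓ σ x) = 0)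
    {y : J} (hy : y ∈ kerU (K := K) J A ℓ hℓ) : red y = 0 := by
  unfold kerU at hy
  induction hy using Submodule.span_induction with
  | mem y hy =>
    rcases hy with ⟨τ, hτ, x, rfl⟩ | ⟨σ, hσ, x, rfl⟩
    · rw [map_sub, hI τ hτ x, sub_self]
    · exact hES σ hσ x
  | zero => exact map_zero red
  | add y z _ _ hy hz => rw [map_add, hy, hz, add_zero]
  | smul t y hy ih =>
    -- `t • y` is again in the additive span of generators
    have key : ∀ z ∈ Submodule.span HeckeAlg (gens (K := K) J A ℓ hℓ), ∀ t : HeckeAlg,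
        red (t • z) = 0 := by
      intro z hz
      induction hz using Submodule.span_induction with
      | mem z hz =>
        intro t
        rcases hz with ⟨τ, hτ, x, rfl⟩ | ⟨σ, hσ, x, rfl⟩
        · have : t • (τ • x - x) = τ • (t • x) - t • x := by
            rw [smul_sub, ← smul_comm τ t x]
          rw [this, map_sub, hI τ hτ, sub_self]
        · have : t • esElt J ℓ hℓ σ x = esElt J ℓ hℓ σ (t • x) := by
            unfold esElt
            rw [smul_add, smul_sub, ← smul_comm σ t (σ • x), ← smul_comm σ t x,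
              smul_comm t (heckeGen ⟨ℓ, hℓ⟩) (σ • x), smul_comm t ℓ x, ← smul_comm σ t x]
          rw [this]
          exact hES σ hσ _
      | zero => intro t; rw [smul_zero, map_zero]
      | add z w _ _ hz hw => intro t; rw [smul_add, map_add, hz t, hw t, add_zero]
      | smul s z _ ih' => intro t; rw [smul_smul]; exact ih' (t * s)
    exact key y hy t


/-! ### Group theory of Frobenius lifts and inertia -/

section GroupTheory

omit [AddCommGroup J] [Module HeckeAlg J] [DistribMulAction (L ≃ₐ[K] L) J]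
  [SMulCommClass (L ≃ₐ[K] L) HeckeAlg J]

theorem mem_inertiaSubgroupIn_iff (A : ValuationSubring L) {τ : L ≃ₐ[K] L} :
    τ ∈ A.inertiaSubgroupIn K ↔
      ∃ h : τ ∈ A.decompositionSubgroup K,
        ∀ x : IsLocalRing.ResidueField A, (⟨τ, h⟩ : A.decompositionSubgroup K) • x = x := by
  unfold ValuationSubring.inertiaSubgroupIn ValuationSubring.inertiaSubgroup
  constructor
  · rintro ⟨d, hd, rfl⟩
    refine ⟨d.2, fun x => ?_⟩
    have h1 : MulSemiringAction.toRingAut (A.decompositionSubgroup K)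
        (IsLocalRing.ResidueField A) d = 1 := MonoidHom.mem_ker.mp hd
    have := congrArg (fun f : RingAut (IsLocalRing.ResidueField A) => f x) h1
    simpa using this
  · rintro ⟨h, hx⟩
    refine ⟨⟨τ, h⟩, ?_, rfl⟩
    rw [SetLike.mem_coe, MonoidHom.mem_ker]
    ext x
    exact hx x

theorem conj_mem_inertiaSubgroupIn (A : ValuationSubring L) {s τ : L ≃ₐ[K] L}
    (hs : s ∈ A.decompositionSubgroup K) (hτ : τ ∈ A.inertiaSubgroupIn K) :
    s * τ * s⁻¹ ∈ A.inertiaSubgroupIn K := by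
  rw [mem_inertiaSubgroupIn_iff] at hτ ⊢
  obtain ⟨h, hx⟩ := hτ
  refine ⟨mul_mem (mul_mem hs h) (inv_mem hs), fun x => ?_⟩
  have e : (⟨s * τ * s⁻¹, mul_mem (mul_mem hs h) (inv_mem hs)⟩ : A.decompositionSubgroup K)
      = ⟨s, hs⟩ * ⟨τ, h⟩ * ⟨s, hs⟩⁻¹ := rfl
  rw [e, mul_smul, mul_smul, hx, smul_inv_smul]

theorem isFrobeniusAt_conj (A : ValuationSubring L) {ℓ : ℕ} {s σ : L ≃ₐ[K] L}
    (hs : A.IsFrobeniusAt s ℓ) (hσ : A.IsFrobeniusAt σ ℓ) :
    A.IsFrobeniusAt (s * σ * s⁻¹) ℓ := by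
  obtain ⟨hsD, hsx⟩ := hs
  obtain ⟨hσD, hσx⟩ := hσ
  refine ⟨mul_mem (mul_mem hsD hσD) (inv_mem hsD), fun x => ?_⟩
  have e : (⟨s * σ * s⁻¹, mul_mem (mul_mem hsD hσD) (inv_mem hsD)⟩ : A.decompositionSubgroup K)
      = ⟨s, hsD⟩ * ⟨σ, hσD⟩ * ⟨s, hsD⟩⁻¹ := rfl
  rw [e, mul_smul, mul_smul, hσx, hsx]
  have : ((⟨s, hsD⟩ : A.decompositionSubgroup K)⁻¹ • x) ^ ℓ = x := by
    rw [← hsx, smul_inv_smul]
  rw [this]

theorem mul_inv_mem_inertiaSubgroupIn (A : ValuationSubring L) {ℓ : ℕ} {s σ : L ≃ₐ[K] L}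
    (hs : A.IsFrobeniusAt s ℓ) (hσ : A.IsFrobeniusAt σ ℓ) :
    σ * s⁻¹ ∈ A.inertiaSubgroupIn K := by
  obtain ⟨hsD, hsx⟩ := hs
  obtain ⟨hσD, hσx⟩ := hσ
  rw [mem_inertiaSubgroupIn_iff]
  refine ⟨mul_mem hσD (inv_mem hsD), fun x => ?_⟩
  have e : (⟨σ * s⁻¹, mul_mem hσD (inv_mem hsD)⟩ : A.decompositionSubgroup K)
      = ⟨σ, hσD⟩ * ⟨s, hsD⟩⁻¹ := rfl
  rw [e, mul_smul, hσx, ← hsx, smul_inv_smul]

end GroupTheory


/-! ### The universal specialization -/

theorem smul_esElt (ℓ : ℕ) (hℓ : ℓ.Prime) (s σ : L ≃ₐ[K] L) (x : J) :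
    s • esElt J ℓ hℓ σ x = esElt J ℓ hℓ (s * σ * s⁻¹) (s • x) := by
  unfold esElt
  have h1 : ∀ y : J, (s * σ * s⁻¹) • (s • y) = s • (σ • y) := fun y => by
    rw [mul_smul, mul_smul, inv_smul_smul]
  rw [h1 x, h1 (σ • x), smul_add, smul_sub, smul_comm s (heckeGen ⟨ℓ, hℓ⟩) (σ • x),
    smul_comm s ℓ x]

/-- the universal kernel is stable under every Frobenius lift -/
theorem kerU_le_comap (A : ValuationSubring L) (ℓ : ℕ) (hℓ : ℓ.Prime) {s : L ≃ₐ[K] L}
    (hs : A.IsFrobeniusAt s ℓ) :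
    kerU (K := K) J A ℓ hℓ ≤
      (kerU (K := K) J A ℓ hℓ).comap (DistribSMul.toLinearMap HeckeAlg J s) := by
  show Submodule.span HeckeAlg (gens (K := K) J A ℓ hℓ) ≤ _
  rw [Submodule.span_le]
  intro y hy
  rw [SetLike.mem_coe, Submodule.mem_comap]
  rcases hy with ⟨τ, hτ, x, rfl⟩ | ⟨σ, hσ, x, rfl⟩
  · show s • (τ • x - x) ∈ kerU (K := K) J A ℓ hℓ
    have : s • (τ • x - x) = (s * τ * s⁻¹) • (s • x) - s • x := by
      rw [smul_sub, mul_smul, mul_smul, inv_smul_smul]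
    rw [this]
    exact inertia_mem_kerU A ℓ hℓ (conj_mem_inertiaSubgroupIn A hs.mem_decompositionSubgroup hτ) _
  · show s • esElt J ℓ hℓ σ x ∈ kerU (K := K) J A ℓ hℓ
    rw [smul_esElt]
    exact es_mem_kerU A ℓ hℓ (isFrobeniusAt_conj A hs hσ) _

/-- **[UNIV]** at one `(ℓ, A)`: if the universal kernel meets the `p`-power torsion trivially,
a specialization exists. -/
theorem exists_specialization_of_kerU (p : ℕ) (A : ValuationSubring L) (ℓ : ℕ) (hℓ : ℓ.Prime)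
    (hinj : ∀ x : J, (∃ n : ℕ, p ^ n • x = 0) → x ∈ kerU (K := K) J A ℓ hℓ → x = 0) :
    ∃ (J' : Type) (_ : AddCommGroup J') (_ : Module HeckeAlg J') (sp : J →+ J')
      (F : J' →+ J'),
      IsSpecialization (K := K) p J J' A ℓ sp F ∧ SpecialFibreRelation J' ℓ hℓ F := by
  classical
  set Q : Submodule HeckeAlg J := kerU (K := K) J A ℓ hℓ with hQ
  by_cases hex : ∃ s : L ≃ₐ[K] L, A.IsFrobeniusAt s ℓ
  · obtain ⟨s, hs⟩ := hex
    let Fl : (J ⧸ Q) →ₗ[HeckeAlg] (J ⧸ Q) :=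
      Q.mapQ Q (DistribSMul.toLinearMap HeckeAlg J s) (kerU_le_comap A ℓ hℓ hs)
    refine ⟨J ⧸ Q, inferInstance, inferInstance, Q.mkQ.toAddMonoidHom, Fl.toAddMonoidHom, ?_, ?_⟩
    · refine ⟨fun T x => rfl, fun σ hσ x => ?_, fun σ hσ x => ?_, fun x hx h0 => ?_⟩
      · show Q.mkQ (σ • x) = Q.mkQ x
        rw [← sub_eq_zero, ← map_sub, Submodule.mkQ_apply, Submodule.Quotient.mk_eq_zero]
        exact inertia_mem_kerU A ℓ hℓ hσ x
      · show Q.mkQ (σ • x) = Fl (Q.mkQ x)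
        have : Fl (Q.mkQ x) = Q.mkQ (s • x) := rfl
        rw [this, ← sub_eq_zero, ← map_sub, Submodule.mkQ_apply, Submodule.Quotient.mk_eq_zero]
        have e : σ • x - s • x = (σ * s⁻¹) • (s • x) - s • x := by
          rw [mul_smul, inv_smul_smul]
        rw [e]
        exact inertia_mem_kerU A ℓ hℓ (mul_inv_mem_inertiaSubgroupIn A hs hσ) _
      · apply hinj x hx
        have : Q.mkQ x = 0 := h0
        rwa [Submodule.mkQ_apply, Submodule.Quotient.mk_eq_zero] at this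
    · intro y
      obtain ⟨x, rfl⟩ := Q.mkQ_surjective y
      show Fl (Fl (Q.mkQ x)) - heckeGen ⟨ℓ, hℓ⟩ • Fl (Q.mkQ x) + ℓ • Q.mkQ x = 0
      have h1 : Fl (Q.mkQ x) = Q.mkQ (s • x) := rfl
      have h2 : Fl (Q.mkQ (s • x)) = Q.mkQ (s • s • x) := rfl
      rw [h1, h2, ← map_smul, ← map_nsmul, ← map_sub, ← map_add, Submodule.mkQ_apply,
        Submodule.Quotient.mk_eq_zero]
      exact es_mem_kerU A ℓ hℓ hs x
  · -- no Frobenius lift: adjoin a formal Frobenius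
    let T : (J ⧸ Q) →+ (J ⧸ Q) := DistribSMul.toAddMonoidHom (J ⧸ Q) (heckeGen ⟨ℓ, hℓ⟩)
    let F : ((J ⧸ Q) × (J ⧸ Q)) →+ ((J ⧸ Q) × (J ⧸ Q)) :=
      (-(ℓ • AddMonoidHom.snd (J ⧸ Q) (J ⧸ Q))).prod
        (AddMonoidHom.fst (J ⧸ Q) (J ⧸ Q) + T.comp (AddMonoidHom.snd (J ⧸ Q) (J ⧸ Q)))
    have hF : ∀ a b : J ⧸ Q, F (a, b) = (-(ℓ • b), a + heckeGen ⟨ℓ, hℓ⟩ • b) := fun a b => rfl
    refine ⟨(J ⧸ Q) × (J ⧸ Q), inferInstance, inferInstance,
      (AddMonoidHom.inl (J ⧸ Q) (J ⧸ Q)).comp Q.mkQ.toAddMonoidHom, F, ?_, ?_⟩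
    · refine ⟨fun t x => ?_, fun σ hσ x => ?_, fun σ hσ x => ?_, fun x hx h0 => ?_⟩
      · show ((Q.mkQ (t • x), 0) : (J ⧸ Q) × (J ⧸ Q)) = t • ((Q.mkQ x, 0) : (J ⧸ Q) × (J ⧸ Q))
        rw [Prod.smul_mk, smul_zero, map_smul]
      · show ((Q.mkQ (σ • x), 0) : (J ⧸ Q) × (J ⧸ Q)) = (Q.mkQ x, 0)
        congr 1
        rw [← sub_eq_zero, ← map_sub, Submodule.mkQ_apply, Submodule.Quotient.mk_eq_zero]
        exact inertia_mem_kerU A ℓ hℓ hσ x
      · exact absurd ⟨σ, hσ⟩ hex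
      · apply hinj x hx
        have : Q.mkQ x = 0 := congrArg Prod.fst h0
        rwa [Submodule.mkQ_apply, Submodule.Quotient.mk_eq_zero] at this
    · rintro ⟨a, b⟩
      show F (F (a, b)) - heckeGen ⟨ℓ, hℓ⟩ • F (a, b) + ℓ • ((a, b) : (J ⧸ Q) × (J ⧸ Q)) = 0
      rw [hF, hF, Prod.smul_mk, Prod.smul_mk, Prod.mk_sub_mk, Prod.mk_add_mk, Prod.mk_eq_zero]
      constructor
      · rw [smul_neg, smul_comm (heckeGen ⟨ℓ, hℓ⟩) ℓ b, smul_add]
        abel
      · rw [smul_add, add_sub_cancel_right, neg_add_cancel]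

/-- **[UNIV]**, `red` form: one inertia-invariant additive map killing the Eichler–Shimura
elements and injective on `p`-power torsion gives the specialization. -/
theorem exists_specialization_of_red (p : ℕ) (A : ValuationSubring L) (ℓ : ℕ) (hℓ : ℓ.Prime)
    {X : Type*} [AddCommGroup X] (red : J →+ X)
    (hI : ∀ τ ∈ A.inertiaSubgroupIn K, ∀ x : J, red (τ • x) = red x)
    (hES : ∀ σ : L ≃ₐ[K] L, A.IsFrobeniusAt σ ℓ → ∀ x : J,
      red (σ • σ • x - heckeGen ⟨ℓ, hℓ⟩ • (σ • x) + ℓ • x) = 0)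
    (hinj : ∀ x : J, (∃ n : ℕ, p ^ n • x = 0) → red x = 0 → x = 0) :
    ∃ (J' : Type) (_ : AddCommGroup J') (_ : Module HeckeAlg J') (sp : J →+ J')
      (F : J' →+ J'),
      IsSpecialization (K := K) p J J' A ℓ sp F ∧ SpecialFibreRelation J' ℓ hℓ F :=
  exists_specialization_of_kerU p A ℓ hℓ fun x hx hxK =>
    hinj x hx (kerU_le_ker red A ℓ hℓ hI hES hxK)

/-- **[UNIV]**, global form: `SpecializationExists` from a family of maps `red`. -/
theorem specializationExists_of_red (N p : ℕ)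
    (h : ∀ ℓ : ℕ, (hℓ : ℓ.Prime) → ¬ ℓ ∣ N * p → ∀ A : ValuationSubring L, A.LiesOverPrime ℓ →
      ∃ (X : Type) (_ : AddCommGroup X) (red : J →+ X),
        (∀ τ ∈ A.inertiaSubgroupIn K, ∀ x : J, red (τ • x) = red x) ∧
        (∀ σ : L ≃ₐ[K] L, A.IsFrobeniusAt σ ℓ → ∀ x : J,
          red (σ • σ • x - heckeGen ⟨ℓ, hℓ⟩ • (σ • x) + ℓ • x) = 0) ∧
        ∀ x : J, (∃ n : ℕ, p ^ n • x = 0) → red x = 0 → x = 0) :
    SpecializationExists (K := K) (L := L) N p J := by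
  intro ℓ hℓ hℓN A hA
  obtain ⟨X, _, red, hI, hES, hinj⟩ := h ℓ hℓ hℓN A hA
  exact exists_specialization_of_red p A ℓ hℓ red hI hES hinj

end Fermat.Agent.S37.Univ50
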