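/-
S37, package [UNIV] (helper50), wiring to the exact frozen shape of S37:
the statement follows from a family of additive maps `red` out of `JZero N`
(inertia-invariant, killing the Eichler–Shimura elements, injective on `p`-power torsion).
-/
import Fermat.Prelude.Def_ModularCurve_HeckeModule
import Fermat.Agent.S37.Univ50

set_option autoImplicit false

noncomputable section

namespace Fermat.Agent.S37.Univ50

open ModularCurve

/-- The hypothesis on `JZero N` that remains after [UNIV]: for every `ℓ ∤ N p` and every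
valuation subring `A` of `ℚ̄` over `ℓ` there is an additive map `red` out of `JZero N` which is
invariant under inertia, kills `σ² x - T_ℓ σ x + ℓ x` for Frobenius lifts `σ`, and is injective
on `p`-power torsion. -/
def RedStmt (N p : ℕ) [NeZero N] [Module HeckeAlg (JZero N)] : Prop :=
  ∀ ℓ : ℕ, (hℓ : ℓ.Prime) → ¬ ℓ ∣ N * p →
    ∀ A : ValuationSubring (AlgebraicClosure ℚ), A.LiesOverPrime ℓ →
      ∃ (X : Type) (_ : AddCommGroup X) (red : JZero N →+ X),
        (∀ τ ∈ A.inertiaSubgroupIn ℚ, ∀ x : JZero N, red (τ • x) = red x) ∧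
        (∀ σ : AlgebraicClosure ℚ ≃ₐ[ℚ] AlgebraicClosure ℚ, A.IsFrobeniusAt σ ℓ →
          ∀ x : JZero N, red (σ • σ • x - heckeGen ⟨ℓ, hℓ⟩ • (σ • x) + ℓ • x) = 0) ∧
        ∀ x : JZero N, (∃ n : ℕ, p ^ n • x = 0) → red x = 0 → x = 0

/-- S37 in its frozen shape, from `RedStmt`. -/
theorem s37_of_redStmt (N p : ℕ) [NeZero N] (_hcomm : ModularCurve.HeckeOperatorsCommuteBar N) :
    letI := ModularCurve.heckeModuleBar N
    ∀ (_ : SMulCommClass (AlgebraicClosure ℚ ≃ₐ[ℚ] AlgebraicClosure ℚ) ModularCurve.HeckeAlg
        (ModularCurve.JZero N)),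
      RedStmt N p →
      ModularCurve.SpecializationExists (K := ℚ) (L := AlgebraicClosure ℚ) N p
        (ModularCurve.JZero N) := by
  letI := ModularCurve.heckeModuleBar N
  intro _ h
  exact specializationExists_of_red N p h

end Fermat.Agent.S37.Univ50
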